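import Mathlib
import Fermat.Agent.Lib.ModC.HolEmb

/-!
# S37, piece W (1): the Atkin–Lehner swap on the generators of the function field of `X₀(Nℓ)`

For a prime `ℓ ∤ N` the map `d ↦ d / ℓ` (`ℓ ∣ d`), `d ↦ d ℓ` (`ℓ ∤ d`) is an involution of the
divisors of `N ℓ`, and there is a map `w : ℍ → ℍ` with `j(d · w z) = j(swap d · z)`.
Hence the polynomial relations between the `jq(q^d)` are invariant under the swap.
-/

set_option autoImplicit false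
set_option linter.unusedSectionVars false
set_option linter.unusedVariables false

open UpperHalfPlane CongruenceSubgroup
open scoped MatrixGroups

namespace Fermat.Agent.S37.AL

open Fermat.Agent.Lib.ModC Fermat.Agent.Lib.ModJ ModularCurve

local notation "Kbar" => AlgebraicClosure ℚ

/-! ### the swap on divisors -/

/-- `ℓ` as a positive natural number -/
abbrev lP (ℓ : ℕ) [NeZero ℓ] : ℕ+ := ⟨ℓ, Nat.pos_of_ne_zero (NeZero.ne ℓ)⟩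

/-- the swap `d ↦ d / ℓ` or `d ℓ` on positive integers -/
def swapPNat (ℓ : ℕ) [NeZero ℓ] (d : ℕ+) : ℕ+ :=
  if ℓ ∣ (d : ℕ) then ((d : ℕ) / ℓ).toPNat' else d * lP ℓ

variable {N ℓ : ℕ} [NeZero ℓ]

theorem swapPNat_of_dvd {d : ℕ+} (h : ℓ ∣ (d : ℕ)) :
    ((swapPNat ℓ d : ℕ+) : ℕ) = (d : ℕ) / ℓ := by
  unfold swapPNat
  rw [if_pos h]
  exact PNat.toPNat'_coe (Nat.div_pos (Nat.le_of_dvd d.pos h) (Nat.pos_of_ne_zero (NeZero.ne ℓ)))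

theorem swapPNat_of_not_dvd {d : ℕ+} (h : ¬ ℓ ∣ (d : ℕ)) :
    swapPNat ℓ d = d * lP ℓ := by
  unfold swapPNat
  rw [if_neg h]

theorem swapPNat_mul_of_dvd {d : ℕ+} (h : ℓ ∣ (d : ℕ)) :
    swapPNat ℓ d * lP ℓ = d := by
  apply PNat.eq
  rw [PNat.mul_coe, swapPNat_of_dvd h]
  exact Nat.div_mul_cancel h

theorem swapPNat_dvd (hℓ : ℓ.Prime) (hN : ¬ ℓ ∣ N) {d : ℕ+}
    (hd : (d : ℕ) ∣ N * ℓ) : ((swapPNat ℓ d : ℕ+) : ℕ) ∣ N * ℓ := by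
  by_cases h : ℓ ∣ (d : ℕ)
  · rw [swapPNat_of_dvd h]
    exact (Nat.div_dvd_of_dvd h).trans hd
  · rw [swapPNat_of_not_dvd h, PNat.mul_coe]
    have hcop : Nat.Coprime (d : ℕ) ℓ := ((Nat.Prime.coprime_iff_not_dvd hℓ).2 h).symm
    exact Nat.mul_dvd_mul (hcop.dvd_of_dvd_mul_right hd) dvd_rfl

theorem swapPNat_dvd_of_dvd (hℓ : ℓ.Prime) {d : ℕ+}
    (hd : (d : ℕ) ∣ N * ℓ) (h : ℓ ∣ (d : ℕ)) : ((swapPNat ℓ d : ℕ+) : ℕ) ∣ N := by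
  rw [swapPNat_of_dvd h]
  obtain ⟨c, hc⟩ := h
  rw [hc, Nat.mul_div_cancel_left _ hℓ.pos]
  rw [hc, mul_comm] at hd
  exact Nat.dvd_of_mul_dvd_mul_right hℓ.pos hd

theorem dvd_of_not_dvd (hℓ : ℓ.Prime) {d : ℕ+}
    (hd : (d : ℕ) ∣ N * ℓ) (h : ¬ ℓ ∣ (d : ℕ)) : (d : ℕ) ∣ N := by
  have hcop : Nat.Coprime (d : ℕ) ℓ := ((Nat.Prime.coprime_iff_not_dvd hℓ).2 h).symm
  exact hcop.dvd_of_dvd_mul_right hd

theorem swapPNat_swapPNat (hℓ : ℓ.Prime) (hN : ¬ ℓ ∣ N) {d : ℕ+}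
    (hd : (d : ℕ) ∣ N * ℓ) : swapPNat ℓ (swapPNat ℓ d) = d := by
  by_cases h : ℓ ∣ (d : ℕ)
  · have h1 : ¬ ℓ ∣ ((swapPNat ℓ d : ℕ+) : ℕ) := fun h2 =>
      hN (h2.trans (swapPNat_dvd_of_dvd hℓ hd h))
    rw [swapPNat_of_not_dvd h1, swapPNat_mul_of_dvd h]
  · rw [swapPNat_of_not_dvd h]
    have h1 : ℓ ∣ ((d * lP ℓ : ℕ+) : ℕ) := by
      rw [PNat.mul_coe]; exact dvd_mul_left _ _
    apply PNat.eq
    rw [swapPNat_of_dvd h1, PNat.mul_coe]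
    exact Nat.mul_div_cancel _ hℓ.pos

/-- the swap on the index type of the generators -/
def swapIdx (hℓ : ℓ.Prime) (hN : ¬ ℓ ∣ N) (d : DivIdx (N * ℓ)) : DivIdx (N * ℓ) :=
  ⟨swapPNat ℓ d.1, swapPNat_dvd hℓ hN d.2⟩

@[simp] theorem swapIdx_val (hℓ : ℓ.Prime) (hN : ¬ ℓ ∣ N) (d : DivIdx (N * ℓ)) :
    (swapIdx hℓ hN d).1 = swapPNat ℓ d.1 := rfl

theorem swapIdx_swapIdx (hℓ : ℓ.Prime) (hN : ¬ ℓ ∣ N) (d : DivIdx (N * ℓ)) :
    swapIdx hℓ hN (swapIdx hℓ hN d) = d :=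
  Subtype.ext (swapPNat_swapPNat hℓ hN d.2)

/-! ### the analytic Atkin–Lehner map -/

theorem pnatSMul_pnatSMul (d e : ℕ+) (z : ℍ) : pnatSMul d (pnatSMul e z) = pnatSMul (d * e) z := by
  apply UpperHalfPlane.ext
  rw [coe_pnatSMul, coe_pnatSMul, coe_pnatSMul, PNat.mul_coe]
  push_cast
  ring

theorem affH_pnatSMul (ℓ : ℕ+) (z : ℍ) :
    affH 1 0 ℓ Nat.one_pos ℓ.pos (pnatSMul ℓ z) = z := by
  apply UpperHalfPlane.ext
  rw [coe_affH, coe_pnatSMul]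
  have : ((ℓ : ℕ) : ℂ) ≠ 0 := by exact_mod_cast ℓ.pos.ne'
  push_cast
  field_simp
  ring

/-- **The analytic Atkin–Lehner map.** -/
theorem exists_wmap (hℓ : ℓ.Prime) (hN : ¬ ℓ ∣ N) :
    ∃ w : ℍ → ℍ, ∀ (d : ℕ+), (d : ℕ) ∣ N * ℓ → ∀ z : ℍ,
      jFunD d (w z) = jFunD (swapPNat ℓ d) z := by
  have hcop : IsCoprime (ℓ : ℤ) (N : ℤ) := by
    rw [Int.isCoprime_iff_gcd_eq_one, Int.gcd_natCast_natCast]
    exact (Nat.Prime.coprime_iff_not_dvd hℓ).2 hN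
  obtain ⟨x, m, hxm⟩ := hcop
  -- the two matrices
  let g₀ : SL(2, ℤ) := ⟨!![x, -m; (N : ℤ), (ℓ : ℤ)], by
    rw [Matrix.det_fin_two_of]; linarith⟩
  let g₁ : SL(2, ℤ) := ⟨!![(ℓ : ℤ) * x, -m; (N : ℤ), 1], by
    rw [Matrix.det_fin_two_of]; linarith⟩
  have hg₀ : g₀ ∈ Gamma0 N := by
    rw [Gamma0_mem]
    show (((N : ℤ) : ℤ) : ZMod N) = 0
    simp
  have hg₁ : g₁ ∈ Gamma0 N := by
    rw [Gamma0_mem]
    show (((N : ℤ) : ℤ) : ZMod N) = 0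
    simp
  have key : ∀ z : ℍ, pnatSMul (lP ℓ) (g₀ • pnatSMul (lP ℓ) z) = g₁ • z := by
    intro z
    have := pnatSMul_smul_eq (lP ℓ) g₀ g₁ 1 0 ℓ Nat.one_pos hℓ.pos
      (by show (ℓ : ℤ) * x = (ℓ : ℤ) * x * ((1 : ℕ) : ℤ); push_cast; ring)
      (by show (ℓ : ℤ) * (-m) = (ℓ : ℤ) * x * ((0 : ℕ) : ℤ) + (-m) * (ℓ : ℤ)
          push_cast; ring)
      (by show (N : ℤ) = (N : ℤ) * ((1 : ℕ) : ℤ); push_cast; ring)
      (by show (ℓ : ℤ) = (N : ℤ) * ((0 : ℕ) : ℤ) + 1 * (ℓ : ℤ); push_cast; ring)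
      (pnatSMul (lP ℓ) z)
    rw [this]
    exact congrArg _ (affH_pnatSMul (lP ℓ) z)
  refine ⟨fun z => g₀ • pnatSMul (lP ℓ) z, fun d hd z => ?_⟩
  by_cases h : ℓ ∣ (d : ℕ)
  · -- `d = d' ℓ`
    have hd' := swapPNat_dvd_of_dvd hℓ hd h
    have e : d = swapPNat ℓ d * lP ℓ := (swapPNat_mul_of_dvd h).symm
    show jFunD d (g₀ • pnatSMul (lP ℓ) z) = jFunD (swapPNat ℓ d) z
    conv_lhs => rw [e]
    rw [jFunD, ← pnatSMul_pnatSMul, key z]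
    exact jFunD_smul_of_mem_Gamma0_dvd _ hd' g₁ hg₁ z
  · have hd' := dvd_of_not_dvd hℓ hd h
    show jFunD d (g₀ • pnatSMul (lP ℓ) z) = jFunD (swapPNat ℓ d) z
    rw [jFunD_smul_of_mem_Gamma0_dvd d hd' g₀ hg₀, swapPNat_of_not_dvd h, jFunD, jFunD,
      pnatSMul_pnatSMul]

/-! ### invariance of the relations -/

/-- the polynomial relations between the generators are invariant under the swap -/
theorem aeval_swap_eq_zero_iff (hℓ : ℓ.Prime) (hN : ¬ ℓ ∣ N)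
    (P : MvPolynomial (DivIdx (N * ℓ)) Kbar) :
    MvPolynomial.aeval (fun d => gensK Kbar (N * ℓ) (swapIdx hℓ hN d)) P = 0 ↔
      MvPolynomial.aeval (gensK Kbar (N * ℓ)) P = 0 := by
  obtain ⟨w, hw⟩ := exists_wmap hℓ hN
  have h1 := aeval_jqK_eq_zero_iff iotaQbar (fun d : DivIdx (N * ℓ) => (swapIdx hℓ hN d).1) P
  have h2 := aeval_jqK_eq_zero_iff iotaQbar (fun d : DivIdx (N * ℓ) => d.1) P
  rw [show (MvPolynomial.aeval (fun d => gensK Kbar (N * ℓ) (swapIdx hℓ hN d)) P = 0) ↔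
    (MvPolynomial.aeval (fun d : DivIdx (N * ℓ) => jqK Kbar (swapIdx hℓ hN d).1) P = 0) from Iff.rfl,
    show (MvPolynomial.aeval (gensK Kbar (N * ℓ)) P = 0) ↔
    (MvPolynomial.aeval (fun d : DivIdx (N * ℓ) => jqK Kbar d.1) P = 0) from Iff.rfl, h1, h2]
  constructor
  · intro h z
    have := h (w z)
    have e : (fun d : DivIdx (N * ℓ) => jFunD (swapIdx hℓ hN d).1 (w z)) =
        fun d : DivIdx (N * ℓ) => jFunD d.1 z := by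
      funext d
      rw [hw _ (swapIdx hℓ hN d).2 z, swapIdx_val, swapPNat_swapPNat hℓ hN d.2]
    rwa [e] at this
  · intro h z
    have := h (w z)
    have e : (fun d : DivIdx (N * ℓ) => jFunD d.1 (w z)) =
        fun d : DivIdx (N * ℓ) => jFunD (swapIdx hℓ hN d).1 z := by
      funext d
      rw [hw _ d.2 z, swapIdx_val]
    rwa [e] at this

end Fermat.Agent.S37.AL
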