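import Mathlib
import Fermat.Agent.S37.ALSwap
import Fermat.Prelude.Def_ModularCurve_HeckeOperator

/-!
# S37, piece W (2): the Atkin–Lehner involution of the function field of `X₀(Nℓ)`

`wAL : F(Nℓ) →+* F(Nℓ)` with `jq(q^d) ↦ jq(q^{swap d})`; it exchanges the two degeneracy maps
`α` (inclusion) and `β` (`q ↦ q^ℓ`).
-/

set_option autoImplicit false
set_option linter.unusedSectionVars false
set_option linter.unusedVariables false

noncomputable section

open UpperHalfPlane CongruenceSubgroup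
open scoped MatrixGroups

namespace Fermat.Agent.S37.AL

open Fermat.Agent.Lib.ModC Fermat.Agent.Lib.ModJ ModularCurve

local notation "Kbar" => AlgebraicClosure ℚ
local notation "Ω" => LaurentSeries (AlgebraicClosure ℚ)

variable {N ℓ : ℕ} [NeZero ℓ] (hℓ : ℓ.Prime) (hN : ¬ ℓ ∣ N)

/-- the polynomial expressions in the swapped generators -/
def swapEval : MvPolynomial (DivIdx (N * ℓ)) Kbar →+* Ω :=
  (MvPolynomial.aeval (fun d => gensK Kbar (N * ℓ) (swapIdx hℓ hN d))).toRingHom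

theorem swapEval_apply (P : MvPolynomial (DivIdx (N * ℓ)) Kbar) :
    swapEval hℓ hN P = MvPolynomial.aeval (fun d => gensK Kbar (N * ℓ) (swapIdx hℓ hN d)) P := rfl

theorem swapEval_eq_zero_iff (P : MvPolynomial (DivIdx (N * ℓ)) Kbar) :
    swapEval hℓ hN P = 0 ↔ MvPolynomial.aeval (gensK Kbar (N * ℓ)) P = 0 :=
  aeval_swap_eq_zero_iff hℓ hN P

/-- the Atkin–Lehner map with values in Laurent series -/
def wRaw : ↥(modularFunctionFieldBar (N * ℓ)) →+* Ω :=
  (exists_lift (N * ℓ) (swapEval hℓ hN) (swapEval_eq_zero_iff hℓ hN)).choose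

theorem wRaw_aevalF (P : MvPolynomial (DivIdx (N * ℓ)) Kbar) :
    wRaw hℓ hN (aevalF (N * ℓ) P) =
      MvPolynomial.aeval (fun d => gensK Kbar (N * ℓ) (swapIdx hℓ hN d)) P :=
  (exists_lift (N * ℓ) (swapEval hℓ hN) (swapEval_eq_zero_iff hℓ hN)).choose_spec P

/-- renaming the variables by the swap -/
def swapRename : MvPolynomial (DivIdx (N * ℓ)) Kbar →ₐ[Kbar] MvPolynomial (DivIdx (N * ℓ)) Kbar :=
  MvPolynomial.rename (swapIdx hℓ hN)

theorem aeval_swap_eq (P : MvPolynomial (DivIdx (N * ℓ)) Kbar) :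
    MvPolynomial.aeval (fun d => gensK Kbar (N * ℓ) (swapIdx hℓ hN d)) P =
      MvPolynomial.aeval (gensK Kbar (N * ℓ)) (swapRename hℓ hN P) := by
  unfold swapRename
  rw [MvPolynomial.aeval_rename]
  rfl

theorem wRaw_aevalF' (P : MvPolynomial (DivIdx (N * ℓ)) Kbar) :
    wRaw hℓ hN (aevalF (N * ℓ) P) = ((aevalF (N * ℓ) (swapRename hℓ hN P) :
      ↥(modularFunctionFieldBar (N * ℓ))) : Ω) := by
  rw [wRaw_aevalF, aeval_swap_eq, coe_aevalF]

theorem wRaw_mem (f : ↥(modularFunctionFieldBar (N * ℓ))) :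
    wRaw hℓ hN f ∈ modularFunctionFieldBar (N * ℓ) := by
  obtain ⟨P, Q, hQ, hf⟩ := exists_aevalF_div (N * ℓ) f
  have h1 : wRaw hℓ hN f * wRaw hℓ hN (aevalF (N * ℓ) Q) = wRaw hℓ hN (aevalF (N * ℓ) P) := by
    rw [← map_mul, hf]
  have hQ' : wRaw hℓ hN (aevalF (N * ℓ) Q) ≠ 0 := (map_ne_zero (wRaw hℓ hN)).2 hQ
  have h2 : wRaw hℓ hN f = wRaw hℓ hN (aevalF (N * ℓ) P) / wRaw hℓ hN (aevalF (N * ℓ) Q) := by
    rw [eq_div_iff hQ', h1]
  rw [h2, wRaw_aevalF', wRaw_aevalF']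
  exact div_mem (aevalF (N * ℓ) _).2 (aevalF (N * ℓ) _).2

/-- **The Atkin–Lehner involution** of the function field of `X₀(Nℓ)`. -/
def wAL : ↥(modularFunctionFieldBar (N * ℓ)) →+* ↥(modularFunctionFieldBar (N * ℓ)) :=
  (wRaw hℓ hN).codRestrict (modularFunctionFieldBar (N * ℓ)).toSubfield.toSubring
    (fun f => wRaw_mem hℓ hN f)

@[simp] theorem coe_wAL (f : ↥(modularFunctionFieldBar (N * ℓ))) :
    ((wAL hℓ hN f : ↥(modularFunctionFieldBar (N * ℓ))) : Ω) = wRaw hℓ hN f := rfl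

theorem wAL_aevalF (P : MvPolynomial (DivIdx (N * ℓ)) Kbar) :
    wAL hℓ hN (aevalF (N * ℓ) P) = aevalF (N * ℓ) (swapRename hℓ hN P) :=
  Subtype.ext (wRaw_aevalF' hℓ hN P)

theorem swapRename_swapRename (P : MvPolynomial (DivIdx (N * ℓ)) Kbar) :
    swapRename hℓ hN (swapRename hℓ hN P) = P := by
  unfold swapRename
  rw [MvPolynomial.rename_rename]
  have : (swapIdx hℓ hN ∘ swapIdx hℓ hN : DivIdx (N * ℓ) → DivIdx (N * ℓ)) = id :=
    funext (swapIdx_swapIdx hℓ hN)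
  rw [this, MvPolynomial.rename_id_apply]

theorem wAL_wAL (f : ↥(modularFunctionFieldBar (N * ℓ))) : wAL hℓ hN (wAL hℓ hN f) = f := by
  have : (wAL hℓ hN).comp (wAL hℓ hN) = RingHom.id _ := by
    apply ringHom_ext (N * ℓ)
    intro P
    rw [RingHom.comp_apply, wAL_aevalF, wAL_aevalF, swapRename_swapRename]
    rfl
  exact congrArg (fun φ : ↥(modularFunctionFieldBar (N * ℓ)) →+*
    ↥(modularFunctionFieldBar (N * ℓ)) => φ f) this

theorem wAL_algebraMap (c : Kbar) :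
    wAL hℓ hN (algebraMap Kbar ↥(modularFunctionFieldBar (N * ℓ)) c) =
      algebraMap Kbar ↥(modularFunctionFieldBar (N * ℓ)) c := by
  rw [← aevalF_C, wAL_aevalF]
  unfold swapRename
  rw [MvPolynomial.rename_C]

/-- the Atkin–Lehner involution as an algebra automorphism -/
def wALEquiv : ↥(modularFunctionFieldBar (N * ℓ)) ≃ₐ[Kbar] ↥(modularFunctionFieldBar (N * ℓ)) :=
  AlgEquiv.ofAlgHom
    { wAL hℓ hN with commutes' := wAL_algebraMap hℓ hN }
    { wAL hℓ hN with commutes' := wAL_algebraMap hℓ hN }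
    (AlgHom.ext fun f => wAL_wAL hℓ hN f)
    (AlgHom.ext fun f => wAL_wAL hℓ hN f)

@[simp] theorem wALEquiv_apply (f : ↥(modularFunctionFieldBar (N * ℓ))) :
    wALEquiv hℓ hN f = wAL hℓ hN f := rfl

end Fermat.Agent.S37.AL
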