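import Mathlib
import Fermat.Agent.S37.ALMap
import Fermat.Agent.S18.DescDegree

/-!
# S37, piece W (3): the Atkin–Lehner involution exchanges the two degeneracy maps
-/

set_option autoImplicit false
set_option linter.unusedSectionVars false
set_option linter.unusedVariables false

noncomputable section

open UpperHalfPlane CongruenceSubgroup
open scoped MatrixGroups

namespace Fermat.Agent.S37.AL

open Fermat.Agent.Lib.ModC Fermat.Agent.Lib.ModJ ModularCurve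

local notation "Kbar" => AlgebraicClosure ℚ
local notation "Ω" => LaurentSeries (AlgebraicClosure ℚ)

variable {N ℓ : ℕ} [NeZero N] [NeZero ℓ]

/-- the index map of the inclusion `F(N) ⊆ F(Nℓ)` -/
def idxA (N ℓ : ℕ) (d : DivIdx N) : DivIdx (N * ℓ) := ⟨d.1, d.2.trans (dvd_mul_right N ℓ)⟩

/-- the index map of `q ↦ q^ℓ` -/
def idxB (N ℓ : ℕ) [NeZero ℓ] (d : DivIdx N) : DivIdx (N * ℓ) :=
  ⟨d.1 * lP ℓ, by rw [PNat.mul_coe]; exact Nat.mul_dvd_mul d.2 dvd_rfl⟩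

theorem alpha_aevalF (P : MvPolynomial (DivIdx N) Kbar) :
    heckeAlphaBar Kbar N ℓ (aevalF N P) = aevalF (N * ℓ) (MvPolynomial.rename (idxA N ℓ) P) := by
  apply Subtype.ext
  rw [coe_heckeAlphaBar, coe_aevalF, coe_aevalF, MvPolynomial.aeval_rename]
  rfl

theorem qExpand_jqK (d : ℕ+) : qExpand Kbar ℓ (jqK Kbar d) = jqK Kbar (d * lP ℓ) := by
  rw [Fermat.Agent.S18.Desc.jqK_eq_qExpand Kbar d,
    Fermat.Agent.S18.Desc.jqK_eq_qExpand Kbar (d * lP ℓ), qExpand_qExpand]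
  apply qExpand_congr
  rw [PNat.mul_coe]
  exact mul_comm _ _

theorem beta_aevalF (P : MvPolynomial (DivIdx N) Kbar) :
    heckeBetaBar Kbar N ℓ (aevalF N P) = aevalF (N * ℓ) (MvPolynomial.rename (idxB N ℓ) P) := by
  apply Subtype.ext
  rw [coe_heckeBetaBar, coe_aevalF, coe_aevalF, MvPolynomial.aeval_rename]
  have h1 : qExpand Kbar ℓ (MvPolynomial.aeval (gensK Kbar N) P) =
      MvPolynomial.aeval (fun d => qExpandAlgHomC Kbar ℓ (gensK Kbar N d)) P := by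
    rw [← qExpandAlgHomC_apply]
    exact MvPolynomial.comp_aeval_apply (gensK Kbar N) (qExpandAlgHomC Kbar ℓ) P
  rw [h1]
  have h2 : (fun d => qExpandAlgHomC Kbar ℓ (gensK Kbar N d)) =
      (gensK Kbar (N * ℓ) ∘ idxB N ℓ) := by
    funext d
    rw [qExpandAlgHomC_apply]
    exact qExpand_jqK d.1
  rw [h2]

theorem not_dvd_idx (hN : ¬ ℓ ∣ N) (d : DivIdx N) : ¬ ℓ ∣ ((d.1 : ℕ+) : ℕ) := fun h => hN (h.trans d.2)

theorem swapIdx_idxA (hℓ : ℓ.Prime) (hN : ¬ ℓ ∣ N) (d : DivIdx N) : swapIdx hℓ hN (idxA N ℓ d) = idxB N ℓ d := by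
  apply Subtype.ext
  show swapPNat ℓ d.1 = d.1 * lP ℓ
  exact swapPNat_of_not_dvd (not_dvd_idx hN d)

theorem swapIdx_idxB (hℓ : ℓ.Prime) (hN : ¬ ℓ ∣ N) (d : DivIdx N) : swapIdx hℓ hN (idxB N ℓ d) = idxA N ℓ d := by
  rw [← swapIdx_idxA hℓ hN, swapIdx_swapIdx]

theorem wAL_alpha (hℓ : ℓ.Prime) (hN : ¬ ℓ ∣ N) (x : ↥(modularFunctionFieldBar N)) :
    wAL hℓ hN (heckeAlphaBar Kbar N ℓ x) = heckeBetaBar Kbar N ℓ x := by
  have : (wAL hℓ hN).comp (heckeAlphaBar Kbar N ℓ).toRingHom = (heckeBetaBar Kbar N ℓ).toRingHom := by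
    apply ringHom_ext N
    intro P
    show wAL hℓ hN (heckeAlphaBar Kbar N ℓ (aevalF N P)) = heckeBetaBar Kbar N ℓ (aevalF N P)
    rw [alpha_aevalF, beta_aevalF, wAL_aevalF]
    congr 1
    unfold swapRename
    rw [MvPolynomial.rename_rename]
    have h2 : (swapIdx hℓ hN ∘ idxA N ℓ : DivIdx N → DivIdx (N * ℓ)) = idxB N ℓ :=
      funext (swapIdx_idxA hℓ hN)
    rw [h2]
  exact congrArg (fun φ : ↥(modularFunctionFieldBar N) →+*
    ↥(modularFunctionFieldBar (N * ℓ)) => φ x) this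

theorem wAL_beta (hℓ : ℓ.Prime) (hN : ¬ ℓ ∣ N) (x : ↥(modularFunctionFieldBar N)) :
    wAL hℓ hN (heckeBetaBar Kbar N ℓ x) = heckeAlphaBar Kbar N ℓ x := by
  rw [← wAL_alpha hℓ hN, wAL_wAL]

/-- **The Atkin–Lehner involution** exchanges `α` and `β`. -/
theorem exists_atkinLehner (hℓ : ℓ.Prime) (hN : ¬ ℓ ∣ N) :
    ∃ w : ↥(modularFunctionFieldBar (N * ℓ)) ≃ₐ[Kbar] ↥(modularFunctionFieldBar (N * ℓ)),
      (∀ x, w (heckeAlphaBar Kbar N ℓ x) = heckeBetaBar Kbar N ℓ x) ∧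
      (∀ x, w (heckeBetaBar Kbar N ℓ x) = heckeAlphaBar Kbar N ℓ x) ∧ ∀ y, w (w y) = y :=
  ⟨wALEquiv hℓ hN, wAL_alpha hℓ hN, wAL_beta hℓ hN, wAL_wAL hℓ hN⟩

end Fermat.Agent.S37.AL
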