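import Mathlib

/-!
# S37, piece W (4): norm and characteristic polynomial from an explicit list of embeddings

For a finite extension `L / K` of fields of characteristic zero and `[L : K]` pairwise distinct
ring homomorphisms `σ i : L → Ω` into a field which agree on `K`, the norm of `g ∈ L` is
`∏ σ i g` and the characteristic polynomial of `g` is `∏ (X - σ i g)`.
-/

set_option autoImplicit false
set_option linter.unusedSectionVars false
set_option linter.unusedVariables false

noncomputable section

namespace Fermat.Agent.S37.AL

open Polynomial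

section Abstract

variable {K L Ω : Type*} [Field K] [Field L] [Field Ω] [Algebra K L] [FiniteDimensional K L]
  [CharZero K] (ι : K →+* Ω) {I : Type*} [Fintype I] (σ : I → (L →+* Ω))

/-- the embeddings into an algebraic closure of `Ω` -/
def embBar (hι : ∀ i x, σ i (algebraMap K L x) = ι x) (i : I) :
    letI : Algebra K (AlgebraicClosure Ω) := ((algebraMap Ω (AlgebraicClosure Ω)).comp ι).toAlgebra
    L →ₐ[K] AlgebraicClosure Ω :=
  letI : Algebra K (AlgebraicClosure Ω) := ((algebraMap Ω (AlgebraicClosure Ω)).comp ι).toAlgebra
  { (algebraMap Ω (AlgebraicClosure Ω)).comp (σ i) with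
    commutes' := fun x => by
      show algebraMap Ω (AlgebraicClosure Ω) (σ i (algebraMap K L x)) =
        algebraMap Ω (AlgebraicClosure Ω) (ι x)
      rw [hι i x] }

theorem embBar_apply (hι : ∀ i x, σ i (algebraMap K L x) = ι x) (i : I) (g : L) :
    embBar ι σ hι i g = algebraMap Ω (AlgebraicClosure Ω) (σ i g) := rfl

theorem embBar_injective (hι : ∀ i x, σ i (algebraMap K L x) = ι x)
    (hσ : Function.Injective σ) : Function.Injective (embBar ι σ hι) := by
  intro i j hij
  apply hσ
  ext g
  have := congrArg (fun φ => φ g) hij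
  simp only [embBar_apply] at this
  exact (algebraMap Ω (AlgebraicClosure Ω)).injective this

theorem embBar_bijective (hι : ∀ i x, σ i (algebraMap K L x) = ι x)
    (hσ : Function.Injective σ) (hcard : Module.finrank K L ≤ Fintype.card I) :
    Function.Bijective (embBar ι σ hι) := by
  letI : Algebra K (AlgebraicClosure Ω) := ((algebraMap Ω (AlgebraicClosure Ω)).comp ι).toAlgebra
  rw [Fintype.bijective_iff_injective_and_card]
  refine ⟨embBar_injective ι σ hι hσ, le_antisymm ?_ ?_⟩
  · exact Fintype.card_le_of_injective _ (embBar_injective ι σ hι hσ)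
  · rw [AlgHom.card K L (AlgebraicClosure Ω)]
    exact hcard

theorem finrank_eq_card (hι : ∀ i x, σ i (algebraMap K L x) = ι x)
    (hσ : Function.Injective σ) (hcard : Module.finrank K L ≤ Fintype.card I) :
    Module.finrank K L = Fintype.card I := by
  letI : Algebra K (AlgebraicClosure Ω) := ((algebraMap Ω (AlgebraicClosure Ω)).comp ι).toAlgebra
  rw [← AlgHom.card K L (AlgebraicClosure Ω)]
  exact (Fintype.card_of_bijective (embBar_bijective ι σ hι hσ hcard)).symm

/-- the norm is the product of the conjugates -/
theorem norm_eq_prod (hι : ∀ i x, σ i (algebraMap K L x) = ι x)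
    (hσ : Function.Injective σ) (hcard : Module.finrank K L ≤ Fintype.card I) (g : L) :
    ι (Algebra.norm K g) = ∏ i, σ i g := by
  letI : Algebra K (AlgebraicClosure Ω) := ((algebraMap Ω (AlgebraicClosure Ω)).comp ι).toAlgebra
  have h := Algebra.norm_eq_prod_embeddings K (AlgebraicClosure Ω) g
  have e := Equiv.ofBijective _ (embBar_bijective ι σ hι hσ hcard)
  have h2 : ∏ τ : L →ₐ[K] AlgebraicClosure Ω, τ g = ∏ i, embBar ι σ hι i g :=
    (Fintype.prod_bijective _ (embBar_bijective ι σ hι hσ hcard) _ _ (fun i => rfl)).symm
  rw [h2] at h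
  simp only [embBar_apply] at h
  rw [← map_prod] at h
  exact (algebraMap Ω (AlgebraicClosure Ω)).injective h

/-- the characteristic polynomial is the product of the `X - σ i g` -/
theorem charpoly_eq_prod (hι : ∀ i x, σ i (algebraMap K L x) = ι x)
    (hσ : Function.Injective σ) (hcard : Module.finrank K L ≤ Fintype.card I) (g : L) :
    ((LinearMap.mulLeft K g).charpoly).map ι = ∏ i, (X - C (σ i g)) := by
  apply Polynomial.eq_of_infinite_eval_eq
  have hinj : Function.Injective fun n : ℕ => ι (n : K) := by
    intro m n hmn
    exact Nat.cast_injective (ι.injective hmn)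
  refine Set.Infinite.mono ?_ (Set.infinite_range_of_injective hinj)
  rintro _ ⟨n, rfl⟩
  show eval (ι (n : K)) (((LinearMap.mulLeft K g).charpoly).map ι) =
    eval (ι (n : K)) (∏ i, (X - C (σ i g)))
  rw [eval_map, eval₂_at_apply, LinearMap.eval_charpoly, eval_prod]
  have h1 : (algebraMap K (L →ₗ[K] L) (n : K) - LinearMap.mulLeft K g) =
      Algebra.lmul K L (algebraMap K L (n : K) - g) := by
    ext x
    simp [Algebra.smul_def, sub_mul]
  rw [h1, ← Algebra.norm_apply, norm_eq_prod ι σ hι hσ hcard]
  refine Finset.prod_congr rfl fun i _ => ?_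
  rw [map_sub, hι, eval_sub, eval_X, eval_C]

end Abstract

end Fermat.Agent.S37.AL
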