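import Fermat.Agent.S37.GalAbs
import Fermat.Agent.S18.DeuringTors
import Fermat.Agent.S18.DeuringNS

/-!
# S37, piece R': the Deuring reduction is injective on torsion prime to the residue characteristic

Abstract form of S18 for the reduction `G.redPic0 S` attached to C76's `Deuring.Setup`:
if `m • z = 0`, `(m : k) ≠ 0` and `redPic0 S z = 0` then `z = 0`.
-/

set_option autoImplicit false
set_option linter.unusedSectionVars false
set_option linter.unusedVariables false
set_option linter.style.haveILetI false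

open AlgebraicCurve Fermat.Agent.Lib.FF Fermat.Agent.S18.Deuring

namespace Fermat.Agent.S37.R

variable {L k F Fk : Type*} [Field L] [Field k] [Field F] [Field Fk] [Algebra L F] [Algebra k Fk]
variable {A : ValuationSubring L} {res : A →+* k} {Red : F → Fk → Prop}
  {D : Divisor L F} {Dk : Divisor k Fk} {g : ℕ} {c : ℤ}

/-- a function without zeros and poles is constant -/
theorem exists_const_of_ord_eq_zero (hpf : PlaceFacts k Fk) (P₀ : Place k Fk) {φ : Fk}
    (hφ : ∀ Q : Place k Fk, Q.ord φ = 0) : ∃ a : k, φ = algebraMap k Fk a := by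
  by_cases h0 : φ = 0
  · exact ⟨0, by rw [h0, map_zero]⟩
  refine exists_const_of_finrank_eq_one hpf P₀ (E := 0) (le_refl _)
    (finrank_rrSpace_zero' hpf P₀) ?_
  rw [mem_rrSpace_iff_of_ne_zero h0]
  intro v
  rw [hφ v]
  simp

/-- **abstract S18**: the reduction on `Pic0` attached to a Deuring setup is injective on
torsion prime to the residue characteristic -/
theorem redPic0_eq_zero_imp (S : Setup A res Red D Dk g c) [Infinite k]
    (hsurj : ∀ a : Fk, ∃ x : F, Red x a) (m : ℕ) (hm : (m : k) ≠ 0)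
    (z : Pic0 L F) (hmz : m • z = 0) (hz : Fermat.Agent.S37.G.redPic0 S z = 0) : z = 0 := by
  classical
  have ax := S.ax
  obtain ⟨Q₀⟩ := S.exists_placek
  obtain ⟨E, rfl⟩ := Pic0.mk_surjective z
  have hmN : m ≠ 0 := by
    rintro rfl
    simp at hm
  have hm0 : (m : ℤ) ≠ 0 := by exact_mod_cast hmN
  -- `m • E` is principal
  have h1 : (m • E : Divisor.degZero (K := L) (F := F)) ∈
      (Divisor.principal (K := L) (F := F)).addSubgroupOf (Divisor.degZero (K := L) (F := F)) := by
    have : Pic0.mk (m • E) = (0 : Pic0 L F) := hmz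
    exact (QuotientAddGroup.eq_zero_iff _).1 this
  rw [AddSubgroup.mem_addSubgroupOf] at h1
  obtain ⟨f, hf0, hf⟩ := h1
  -- the reduction of `E` is principal
  have h2 : (Fermat.Agent.S37.G.redDegZero S E : Divisor.degZero (K := k) (F := Fk)) ∈
      (Divisor.principal (K := k) (F := Fk)).addSubgroupOf (Divisor.degZero (K := k) (F := Fk)) := by
    have : Pic0.mk (Fermat.Agent.S37.G.redDegZero S E) = (0 : Pic0 k Fk) := hz
    exact (QuotientAddGroup.eq_zero_iff _).1 this
  rw [AddSubgroup.mem_addSubgroupOf, Fermat.Agent.S37.G.coe_redDegZero] at h2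
  obtain ⟨a, ha0, ha⟩ := h2
  -- scale `f`
  obtain ⟨c₀, hc₀, a', ha'0, hRed⟩ := ax.scale f hf0
  have hdivf : S.hpf.divOf (c₀ • f) = m • (E : Divisor L F) := by
    ext P
    rw [S.hpf.divOf_apply, ord_smul_of_ne_zero P hc₀]
    have := hf P
    rw [AddSubgroupClass.coe_nsmul] at this
    exact this.symm
  -- `div a' = m div a`
  have hdiva' : ∀ Q : Place k Fk, Q.ord a' = m * Q.ord a := by
    intro Q
    rw [← rmap_ord S hRed ha'0 Q, hdivf, Finsupp.mapDomain_smul, Finsupp.smul_apply, ha Q,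
      nsmul_eq_mul]
  -- `a' = u a ^ m`
  have hquot : ∀ Q : Place k Fk, Q.ord (a' / a ^ m) = 0 := by
    intro Q
    rw [div_eq_mul_inv, Q.ord_mul ha'0 (inv_ne_zero (pow_ne_zero _ ha0)), Q.ord_inv, hdiva' Q,
      ord_pow']
    ring
  obtain ⟨u, hu⟩ := exists_const_of_ord_eq_zero S.hpfk Q₀ hquot
  have hu0 : u ≠ 0 := by
    rintro rfl
    rw [map_zero, div_eq_zero_iff] at hu
    rcases hu with h | h
    · exact ha'0 h
    · exact pow_ne_zero _ ha0 h
  have ha'eq : a' = algebraMap k Fk u * a ^ m := by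
    rw [← hu, div_mul_cancel₀ _ (pow_ne_zero _ ha0)]
  -- lifts
  obtain ⟨x, hx⟩ := hsurj a
  obtain ⟨u', rfl⟩ := ax.res_surj u
  have hx0 : x ≠ 0 := ax.ne_zero hx ha0
  have hden : Red ((u' : L) • x ^ m) a' := by
    rw [ha'eq]
    exact ax.smul u' (ax.pow hx m)
  have hu'0 : (u' : L) ≠ 0 := by
    intro h
    have : u' = 0 := Subtype.ext h
    rw [this, map_zero] at hu0
    exact hu0 rfl
  have hden0 : (u' : L) • x ^ m ≠ 0 := ax.ne_zero hden ha'0
  set f' : F := (c₀ • f) * ((u' : L) • x ^ m)⁻¹ with hf'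
  have hRed' : Red f' 1 := by
    have := ax.mul hRed (ax.inv hden ha'0)
    rwa [mul_inv_cancel₀ ha'0] at this
  have hcf0 : c₀ • f ≠ 0 := ax.ne_zero hRed ha'0
  -- the divisor of `f'`
  set E' : Divisor L F := (E : Divisor L F) - S.hpf.divOf x with hE'
  have hdiv : ∀ P : Place L F, (m : ℤ) * E' P = P.ord f' := by
    intro P
    rw [hf', P.ord_mul hcf0 (inv_ne_zero hden0), P.ord_inv, ord_smul_of_ne_zero P hu'0,
      ord_pow', hE', Finsupp.sub_apply, S.hpf.divOf_apply, ← S.hpf.divOf_apply (c₀ • f) P, hdivf,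
      Finsupp.smul_apply, nsmul_eq_mul]
    ring
  obtain ⟨s, hs0, hs⟩ := star_of_setup S hRed' E' m hm hdiv
  -- conclusion
  show Pic0.mk E = 0
  rw [Pic0.mk, QuotientAddGroup.eq_zero_iff, AddSubgroup.mem_addSubgroupOf]
  refine ⟨s * x, mul_ne_zero hs0 hx0, fun P => ?_⟩
  rw [P.ord_mul hs0 hx0, ← hs P, hE', Finsupp.sub_apply, S.hpf.divOf_apply]
  ring

end Fermat.Agent.S37.R
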