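import Mathlib
import Fermat.Prelude.Def_ModularCurve_HeckeModule
import Fermat.Agent.Lib.Frobenius

/-!
# S37, piece Q: the quotient trick

`SpecializationExists N p (JZero N)` follows from an abstract *reduction package* at every prime
`ℓ ∤ N p` and every valuation subring `A` of `ℚ̄` over `ℓ`:
an additive map `red : JZero N →+ Jt` into some abelian group, with endomorphisms `Φ` (Frobenius) and
`Ψ` (Verschiebung) of `Jt` such that

* `Ψ (Φ y) = ℓ • y`,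
* `red (τ • x) = red x` for `τ` in the inertia group of `A`,
* `red (σ • x) = Φ (red x)` for every Frobenius element `σ` at `A`,
* `red (T_ℓ x) = Φ (red x) + Ψ (red x)` (Eichler–Shimura congruence),
* `red` is injective on `p`-power torsion.

The specialization is `J' = JZero N ⧸ K` with `K = {x | ∀ T, red (T • x) = 0}`.
-/

set_option autoImplicit false

noncomputable section

namespace Fermat.Agent.S37

open ModularCurve

local notation "Qbar" => AlgebraicClosure ℚ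
local notation "Gal" => (AlgebraicClosure ℚ ≃ₐ[ℚ] AlgebraicClosure ℚ)

/-- The reduction package at `(ℓ, A)` (a proposition: existence of the data). -/
def HasRedPkg (N p : ℕ) [NeZero N] (ℓ : ℕ) (hℓ : ℓ.Prime) (A : ValuationSubring Qbar) : Prop :=
  ∃ (Jt : Type) (_ : AddCommGroup Jt) (red : JZero N →+ Jt) (Φ Ψ : Jt →+ Jt),
    (∀ y : Jt, Ψ (Φ y) = (ℓ : ℤ) • y) ∧
    (∀ τ ∈ A.inertiaSubgroupIn ℚ, ∀ x : JZero N, red (τ • x) = red x) ∧
    (∀ σ : Gal, A.IsFrobeniusAt σ ℓ → ∀ x : JZero N, red (σ • x) = Φ (red x)) ∧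
    (∀ x : JZero N, red (heckeOperatorBar N ⟨ℓ, hℓ⟩ x) = Φ (red x) + Ψ (red x)) ∧
    (∀ x : JZero N, (∃ n : ℕ, p ^ n • x = 0) → red x = 0 → x = 0)

section General

variable {J : Type} [AddCommGroup J] [Module HeckeAlg J] [DistribMulAction Gal J]
  [SMulCommClass Gal HeckeAlg J]

/-- The kernel submodule `K = {x | ∀ T, red (T • x) = 0}`. -/
def kerSub {Jt : Type} [AddCommGroup Jt] (red : J →+ Jt) : Submodule HeckeAlg J where
  carrier := {x | ∀ T : HeckeAlg, red (T • x) = 0}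
  zero_mem' := fun T => by simp
  add_mem' := fun {x y} hx hy T => by
    have hx' : red (T • x) = 0 := hx T
    have hy' : red (T • y) = 0 := hy T
    rw [smul_add, map_add, hx', hy', add_zero]
  smul_mem' := fun c x hx T => by
    rw [smul_smul]
    exact hx (T * c)

omit [DistribMulAction Gal J] [SMulCommClass Gal HeckeAlg J] in
theorem mem_kerSub {Jt : Type} [AddCommGroup Jt] (red : J →+ Jt) (x : J) :
    x ∈ kerSub red ↔ ∀ T : HeckeAlg, red (T • x) = 0 := Iff.rfl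

omit [DistribMulAction Gal J] [SMulCommClass Gal HeckeAlg J] in
theorem red_eq_zero_of_mem_kerSub {Jt : Type} [AddCommGroup Jt] (red : J →+ Jt) {x : J}
    (hx : x ∈ kerSub red) : red x = 0 := by
  have := hx 1
  rwa [one_smul] at this

/-- The Galois action of `σ` as a Hecke-linear endomorphism. -/
def galLin (σ : Gal) : J →ₗ[HeckeAlg] J where
  toFun x := σ • x
  map_add' x y := smul_add σ x y
  map_smul' T x := by
    simp only [RingHom.id_apply]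
    exact smul_comm σ T x

/-- The quotient trick for an arbitrary Hecke–Galois module `J`. -/
theorem exists_specialization (p ℓ : ℕ) (hℓ : ℓ.Prime) (A : ValuationSubring Qbar)
    (Tℓ : J →+ J) (hTℓ : ∀ x : J, heckeGen ⟨ℓ, hℓ⟩ • x = Tℓ x)
    {Jt : Type} [AddCommGroup Jt] (red : J →+ Jt) (Φ Ψ : Jt →+ Jt)
    (hΨΦ : ∀ y : Jt, Ψ (Φ y) = (ℓ : ℤ) • y)
    (hin : ∀ τ ∈ A.inertiaSubgroupIn ℚ, ∀ x : J, red (τ • x) = red x)
    (hfr : ∀ σ : Gal, A.IsFrobeniusAt σ ℓ → ∀ x : J, red (σ • x) = Φ (red x))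
    (hhe : ∀ x : J, red (Tℓ x) = Φ (red x) + Ψ (red x))
    (hinj : ∀ x : J, (∃ n : ℕ, p ^ n • x = 0) → red x = 0 → x = 0)
    (σ₀ : Gal) (hσ₀ : A.IsFrobeniusAt σ₀ ℓ) :
    ∃ (J' : Type) (_ : AddCommGroup J') (_ : Module HeckeAlg J') (sp : J →+ J')
      (F : J' →+ J'),
      IsSpecialization (K := ℚ) p J J' A ℓ sp F ∧ SpecialFibreRelation J' ℓ hℓ F := by
  -- the kernel
  let K : Submodule HeckeAlg J := kerSub red
  have hKσ : K ≤ K.comap (galLin σ₀) := by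
    intro x hx
    rw [Submodule.mem_comap]
    intro T
    show red (T • (σ₀ • x)) = 0
    rw [← smul_comm σ₀ T x, hfr σ₀ hσ₀, hx T, map_zero]
  let F : (J ⧸ K) →ₗ[HeckeAlg] (J ⧸ K) := K.mapQ K (galLin σ₀) hKσ
  have hF : ∀ z : J, F (K.mkQ z) = K.mkQ (σ₀ • z) := fun z => rfl
  have hmk0 : ∀ z : J, (∀ T : HeckeAlg, red (T • z) = 0) → K.mkQ z = 0 := by
    intro z hz
    rw [Submodule.mkQ_apply, Submodule.Quotient.mk_eq_zero]
    exact hz
  -- the key vanishing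
  have key : ∀ y : J, red (σ₀ • σ₀ • y - Tℓ (σ₀ • y) + (ℓ : ℤ) • y) = 0 := by
    intro y
    rw [map_add, map_sub, hfr σ₀ hσ₀, hfr σ₀ hσ₀, hhe, hfr σ₀ hσ₀, hΨΦ, map_zsmul]
    abel
  refine ⟨J ⧸ K, inferInstance, inferInstance, K.mkQ.toAddMonoidHom, F.toAddMonoidHom,
    ⟨?_, ?_, ?_, ?_⟩, ?_⟩
  · -- hecke_comm
    intro T x
    rfl
  · -- inertia_comm
    intro τ hτ x
    show K.mkQ (τ • x) = K.mkQ x
    rw [← sub_eq_zero, ← map_sub]
    apply hmk0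
    intro T
    rw [smul_sub, ← smul_comm τ T x, map_sub, hin τ hτ, sub_self]
  · -- frobenius_comm
    intro σ hσ x
    show K.mkQ (σ • x) = F (K.mkQ x)
    rw [hF, ← sub_eq_zero, ← map_sub]
    apply hmk0
    intro T
    rw [smul_sub, ← smul_comm σ T x, ← smul_comm σ₀ T x, map_sub, hfr σ hσ, hfr σ₀ hσ₀, sub_self]
  · -- injective_torsion
    intro x hx hsp
    have hxK : x ∈ K := by
      have : K.mkQ x = 0 := hsp
      rwa [Submodule.mkQ_apply, Submodule.Quotient.mk_eq_zero] at this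
    exact hinj x hx (red_eq_zero_of_mem_kerSub red hxK)
  · -- the special fibre relation
    intro y
    obtain ⟨x, rfl⟩ := K.mkQ_surjective y
    show F (F (K.mkQ x)) - heckeGen ⟨ℓ, hℓ⟩ • F (K.mkQ x) + ℓ • K.mkQ x = 0
    have h1 : F (F (K.mkQ x)) = K.mkQ (σ₀ • σ₀ • x) := by rw [hF, hF]
    have h2 : heckeGen ⟨ℓ, hℓ⟩ • F (K.mkQ x) = K.mkQ (Tℓ (σ₀ • x)) := by
      rw [hF, ← hTℓ]; rfl
    have h3 : ℓ • K.mkQ x = K.mkQ ((ℓ : ℤ) • x) := by
      rw [map_zsmul, natCast_zsmul]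
    rw [h1, h2, h3, ← map_sub, ← map_add]
    apply hmk0
    intro T
    let g : J →+ J := DistribSMul.toAddMonoidHom J T
    have hg : ∀ z : J, T • z = g z := fun z => rfl
    have a1 : g (σ₀ • σ₀ • x) = σ₀ • σ₀ • g x := by
      show T • (σ₀ • σ₀ • x) = σ₀ • σ₀ • (T • x)
      rw [smul_comm σ₀ T x, smul_comm σ₀ T (σ₀ • x)]
    have a2 : g (Tℓ (σ₀ • x)) = Tℓ (σ₀ • g x) := by
      have b1 : Tℓ (σ₀ • x) = heckeGen ⟨ℓ, hℓ⟩ • (σ₀ • x) := (hTℓ _).symm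
      have b2 : Tℓ (σ₀ • g x) = heckeGen ⟨ℓ, hℓ⟩ • (σ₀ • g x) := (hTℓ _).symm
      have b3 : T • (heckeGen ⟨ℓ, hℓ⟩ • (σ₀ • x)) = heckeGen ⟨ℓ, hℓ⟩ • (σ₀ • (T • x)) := by
        rw [smul_comm σ₀ T x, smul_smul, smul_smul, mul_comm]
      calc g (Tℓ (σ₀ • x)) = g (heckeGen ⟨ℓ, hℓ⟩ • (σ₀ • x)) := congrArg g b1
        _ = heckeGen ⟨ℓ, hℓ⟩ • (σ₀ • g x) := b3
        _ = Tℓ (σ₀ • g x) := b2.symm
    have a3 : g ((ℓ : ℤ) • x) = (ℓ : ℤ) • g x := map_zsmul g (ℓ : ℤ) x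
    have e1 : T • (σ₀ • σ₀ • x - Tℓ (σ₀ • x) + (ℓ : ℤ) • x)
        = σ₀ • σ₀ • (T • x) - Tℓ (σ₀ • (T • x)) + (ℓ : ℤ) • (T • x) := by
      rw [hg, hg, map_add, map_sub, a1, a2, a3]
    rw [e1]
    exact key (T • x)

end General

/-- **Piece Q.** S37 from reduction packages. -/
theorem specializationExists_of_hasRedPkg (N p : ℕ) [NeZero N]
    (hcomm : HeckeOperatorsCommuteBar N)
    (hpkg : ∀ (ℓ : ℕ) (hℓ : ℓ.Prime), ¬ ℓ ∣ N * p →
      ∀ A : ValuationSubring Qbar, A.LiesOverPrime ℓ → HasRedPkg N p ℓ hℓ A) :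
    letI := heckeModuleBar N
    ∀ (_ : SMulCommClass Gal HeckeAlg (JZero N)),
      SpecializationExists (K := ℚ) (L := Qbar) N p (JZero N) := by
  letI := heckeModuleBar N
  intro hsm ℓ hℓ hℓNp A hA
  obtain ⟨Jt, iJt, red, Φ, Ψ, hΨΦ, hin, hfr, hhe, hinj⟩ := hpkg ℓ hℓ hℓNp A hA
  obtain ⟨σ₀, hσ₀⟩ := Fermat.Agent.Lib.Frobenius.exists_isFrobeniusAt_of_liesOverPrime A hℓ hA
  exact exists_specialization p ℓ hℓ A (heckeOperatorBar N ⟨ℓ, hℓ⟩).toAddMonoidHom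
    (fun x => heckeModuleBar_heckeGen_smul hcomm ⟨ℓ, hℓ⟩ x) red Φ Ψ hΨΦ hin hfr hhe hinj σ₀ hσ₀

end Fermat.Agent.S37
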