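import Fermat.Agent.S37.HInpAlong
import Fermat.Agent.S24.Glue
import Fermat.Prelude.Def_ModularCurve_HeckeModule

/-!
# S37, piece H, part 5: the Hecke inputs for the modular function fields

`HeckeInputsAlong ℚ̄ N ℓ` holds for all `N, ℓ ≥ 1`, so that the prelude's Hecke operator
`heckeOperatorAlong ℚ̄ N ℓ` is the correspondence `α_* ∘ β^*`; explicit formula on divisors.
-/

set_option autoImplicit false
set_option linter.unusedSectionVars false
set_option linter.style.haveILetI false

open AlgebraicCurve ModularCurve Fermat.Agent.Lib.FF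

noncomputable section

namespace Fermat.Agent.S37.H

local notation "Qb" => AlgebraicClosure ℚ

/-- principal divisors on the modular function fields -/
instance hasPrincipalDivisorsBar (M : ℕ) [NeZero M] :
    HasPrincipalDivisors Qb (modularFunctionFieldBar M) :=
  hasPrincipalDivisors (Fermat.Agent.S24.isFF1_jBar M)

variable (N ℓ : ℕ) [NeZero N] [NeZero ℓ]


theorem finiteAlong_alpha : FiniteAlong Qb (heckeAlphaBar Qb N ℓ) :=
  finiteAlong (Fermat.Agent.S24.isFF1_jBar N).transcendental
    (Fermat.Agent.S24.isFF1_jBar (N * ℓ)) _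

theorem finiteAlong_beta : FiniteAlong Qb (heckeBetaBar Qb N ℓ) :=
  finiteAlong (Fermat.Agent.S24.isFF1_jBar N).transcendental
    (Fermat.Agent.S24.isFF1_jBar (N * ℓ)) _

theorem alphaInt : (heckeAlphaBar Qb N ℓ).toRingHom.IsIntegral :=
  isIntegral_of_finiteAlong (finiteAlong_alpha N ℓ)

theorem betaInt : (heckeBetaBar Qb N ℓ).toRingHom.IsIntegral :=
  isIntegral_of_finiteAlong (finiteAlong_beta N ℓ)

theorem alphaIntegral : HeckeAlphaBarIntegral Qb N ℓ := alphaInt N ℓ

theorem betaIntegral : HeckeBetaBarIntegral Qb N ℓ := betaInt N ℓ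

theorem fundamentalIdentity_beta :
    FundamentalIdentityAlong Qb (heckeBetaBar Qb N ℓ) (betaInt N ℓ) :=
  fundamentalIdentityAlong (Fermat.Agent.S24.isFF1_jBar N)
    (Fermat.Agent.S24.isFF1_jBar (N * ℓ)) _ _

theorem fundamentalIdentity_alpha :
    FundamentalIdentityAlong Qb (heckeAlphaBar Qb N ℓ) (alphaInt N ℓ) :=
  fundamentalIdentityAlong (Fermat.Agent.S24.isFF1_jBar N)
    (Fermat.Agent.S24.isFF1_jBar (N * ℓ)) _ _

theorem normFormula_alpha :
    NormFormulaAlong Qb (heckeAlphaBar Qb N ℓ) (finiteAlong_alpha N ℓ) :=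
  normFormulaAlong (Fermat.Agent.S24.isFF1_jBar N)
    (Fermat.Agent.S24.isFF1_jBar (N * ℓ)) _ _

theorem normFormula_beta :
    NormFormulaAlong Qb (heckeBetaBar Qb N ℓ) (finiteAlong_beta N ℓ) :=
  normFormulaAlong (Fermat.Agent.S24.isFF1_jBar N)
    (Fermat.Agent.S24.isFF1_jBar (N * ℓ)) _ _

/-- **Piece H**: the inputs of the Hecke correspondence hold. -/
theorem heckeInputsAlong : HeckeInputsAlong Qb N ℓ :=
  heckeInputsAlong_intro (alphaIntegral N ℓ) (betaIntegral N ℓ) (fundamentalIdentity_beta N ℓ)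
    (finiteAlong_alpha N ℓ) (normFormula_alpha N ℓ)

/-- the Hecke operator is the correspondence `α_* ∘ β^*` -/
theorem heckeOperatorAlong_eq' :
    heckeOperatorAlong Qb N ℓ =
      heckePic0Bar (alphaIntegral N ℓ) (betaIntegral N ℓ) (fundamentalIdentity_beta N ℓ)
        (finiteAlong_alpha N ℓ) (normFormula_alpha N ℓ) :=
  heckeOperatorAlong_eq _ _ _ _ _

/-- the Hecke correspondence on divisors -/
abbrev heckeDiv : Divisor Qb (modularFunctionFieldBar N) →+ Divisor Qb (modularFunctionFieldBar N) :=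
  heckeDivBar (alphaIntegral N ℓ) (betaIntegral N ℓ)

/-- **Explicit formula** for the Hecke correspondence on a place. -/
theorem heckeDiv_single (P : Place Qb (modularFunctionFieldBar N)) (n : ℤ) :
    heckeDiv N ℓ (Finsupp.single P n) =
      ∑ Q ∈ Place.fiberAlong (heckeBetaBar Qb N ℓ) (betaInt N ℓ) P,
        Finsupp.single (Q.restrictAlong (heckeAlphaBar Qb N ℓ) (alphaInt N ℓ))
          (n * (Q.ramificationIndexAlong (heckeBetaBar Qb N ℓ) : ℤ)) := by
  show Divisor.pushforwardAlong (heckeAlphaBar Qb N ℓ) (alphaInt N ℓ)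
    (Divisor.pullbackAlong (heckeBetaBar Qb N ℓ) (betaInt N ℓ) (Finsupp.single P n)) = _
  rw [Divisor.pullbackAlong_single, map_sum]
  refine Finset.sum_congr rfl fun Q _ => ?_
  rw [Divisor.pushforwardAlong_single, inertiaDegAlong_eq_one (Fermat.Agent.S24.isFF1_jBar N)
    (Fermat.Agent.S24.isFF1_jBar (N * ℓ))]
  simp

/-- the Hecke operator on the class of a divisor of degree zero -/
theorem heckeOperatorAlong_mk (D : Divisor.degZero (K := Qb) (F := modularFunctionFieldBar N)) :
    heckeOperatorAlong Qb N ℓ (Pic0.mk D) =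
      Pic0.mk ⟨heckeDiv N ℓ D, Divisor.correspondence_mem_degZero _ _ _ _
        (fundamentalIdentity_beta N ℓ) D.2⟩ := by
  rw [heckeOperatorAlong_eq']
  rfl

/-- the degree of the Hecke correspondence: the ramification indices of `β` over a place add up
to `[F(Nℓ) : β F(N)]` -/
theorem sum_ramificationIndex_beta (P : Place Qb (modularFunctionFieldBar N)) :
    ∑ Q ∈ Place.fiberAlong (heckeBetaBar Qb N ℓ) (betaInt N ℓ) P,
      (Q.ramificationIndexAlong (heckeBetaBar Qb N ℓ) : ℤ) =
      (finrankAlong Qb (heckeBetaBar Qb N ℓ) : ℤ) :=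
  sum_ramificationIndexAlong (Fermat.Agent.S24.isFF1_jBar N)
    (Fermat.Agent.S24.isFF1_jBar (N * ℓ)) _ _ P

end Fermat.Agent.S37.H
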