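import Mathlib
import Fermat.Prelude.Def_ModularCurve_X0
import Fermat.Prelude.Def_ModularCurve_LaurentCoeff

/-!
# S37 (shared definitions for pieces K and W): the rotation `q ↦ u q` on Laurent series over a
commutative ring, and the polynomial `P_f`

* `tw u : LaurentSeries R →+* LaurentSeries R` for a unit `u`, coefficient `n ↦ a_n u^n`;
* series in `q^ℓ` are fixed by `tw ζ` when `ζ^ℓ = 1`; conversely, over a domain, a series fixed by
  `tw ζ` for a primitive `ℓ`-th root of unity `ζ` is a series in `q^ℓ`.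
-/

set_option autoImplicit false

noncomputable section

open ModularCurve

namespace Fermat.Agent.S37.Kron

variable {R S : Type*} [CommRing R] [CommRing S]

/-- `x(u q)` -/
def twFun (u : Rˣ) (x : LaurentSeries R) : LaurentSeries R where
  coeff n := x.coeff n * ((u ^ n : Rˣ) : R)
  isPWO_support' := x.isPWO_support.mono (fun n hn => by
    simp only [Function.mem_support, ne_eq] at hn
    simp only [HahnSeries.mem_support, ne_eq]
    intro h
    exact hn (by rw [h, zero_mul]))

@[simp] theorem coeff_twFun (u : Rˣ) (x : LaurentSeries R) (n : ℤ) :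
    (twFun u x).coeff n = x.coeff n * ((u ^ n : Rˣ) : R) := rfl

theorem support_twFun_subset (u : Rˣ) (x : LaurentSeries R) :
    (twFun u x).support ⊆ x.support := by
  intro n hn
  simp only [HahnSeries.mem_support, ne_eq, coeff_twFun] at hn ⊢
  intro h
  exact hn (by rw [h, zero_mul])

theorem twFun_add (u : Rˣ) (x y : LaurentSeries R) :
    twFun u (x + y) = twFun u x + twFun u y := by
  ext n
  simp only [coeff_twFun, HahnSeries.coeff_add]
  ring

theorem coeff_mul_of_support {x y : LaurentSeries R} {a : ℤ} {s t : Set ℤ} (hs : s.IsPWO)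
    (ht : t.IsPWO) (hxs : x.support ⊆ s) (hyt : y.support ⊆ t) :
    (x * y).coeff a = ∑ ij ∈ Finset.antidiagonal hs ht a, x.coeff ij.1 * y.coeff ij.2 := by
  rw [HahnSeries.coeff_mul_left' hs hxs]
  refine Finset.sum_subset (Finset.antidiagonal_mono_right hyt) (fun ij hmem hij => ?_)
  have : ij.2 ∉ y.support := by
    intro h2
    apply hij
    rw [Finset.mem_antidiagonal] at hmem ⊢
    exact ⟨hmem.1, h2, hmem.2.2⟩
  have h0 : y.coeff ij.2 = 0 := by
    simpa [HahnSeries.mem_support] using this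
  rw [h0, mul_zero]

theorem twFun_mul (u : Rˣ) (x y : LaurentSeries R) :
    twFun u (x * y) = twFun u x * twFun u y := by
  ext a
  rw [coeff_twFun, HahnSeries.coeff_mul,
    coeff_mul_of_support x.isPWO_support y.isPWO_support (support_twFun_subset u x)
      (support_twFun_subset u y), Finset.sum_mul]
  refine Finset.sum_congr rfl (fun ij hij => ?_)
  rw [Finset.mem_antidiagonal] at hij
  rw [coeff_twFun, coeff_twFun, ← hij.2.2, zpow_add]
  push_cast
  ring

theorem twFun_single (u : Rˣ) (k : ℤ) (a : R) :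
    twFun u (HahnSeries.single k a) = HahnSeries.single k (a * ((u ^ k : Rˣ) : R)) := by
  ext n
  rw [coeff_twFun]
  by_cases h : n = k
  · subst h
    rw [HahnSeries.coeff_single_same, HahnSeries.coeff_single_same]
  · rw [HahnSeries.coeff_single_of_ne h, HahnSeries.coeff_single_of_ne h, zero_mul]

/-- The rotation `q ↦ u q` as a ring endomorphism of `R((q))`. -/
def tw (u : Rˣ) : LaurentSeries R →+* LaurentSeries R where
  toFun := twFun u
  map_one' := by
    show twFun u (HahnSeries.single 0 1) = HahnSeries.single 0 1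
    rw [twFun_single, zpow_zero, Units.val_one, mul_one]
  map_mul' x y := twFun_mul u x y
  map_zero' := by
    ext n
    simp
  map_add' x y := twFun_add u x y

@[simp] theorem coeff_tw (u : Rˣ) (x : LaurentSeries R) (n : ℤ) :
    (tw u x).coeff n = x.coeff n * ((u ^ n : Rˣ) : R) := rfl

@[simp] theorem tw_one (x : LaurentSeries R) : tw (1 : Rˣ) x = x := by
  ext n
  simp

theorem tw_tw (u v : Rˣ) (x : LaurentSeries R) : tw u (tw v x) = tw (u * v) x := by
  ext n
  simp only [coeff_tw, mul_zpow, Units.val_mul]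
  ring

theorem tw_C (u : Rˣ) (a : R) : tw u (HahnSeries.C a) = HahnSeries.C a := by
  show twFun u (HahnSeries.single 0 a) = HahnSeries.single 0 a
  rw [twFun_single, zpow_zero, Units.val_one, mul_one]

/-- series in `q^ℓ` are fixed by the rotation by an `ℓ`-th root of unity -/
theorem tw_qExpand (ℓ : ℕ) [NeZero ℓ] {ζ : Rˣ} (hζ : ζ ^ ℓ = 1) (x : LaurentSeries R) :
    tw ζ (qExpand R ℓ x) = qExpand R ℓ x := by
  ext k
  rw [coeff_tw]
  by_cases hk : (ℓ : ℤ) ∣ k
  · obtain ⟨m, rfl⟩ := hk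
    rw [zpow_mul, zpow_natCast, hζ, one_zpow, Units.val_one, mul_one]
  · rw [qExpand_coeff_of_not_dvd ℓ x hk, zero_mul]

/-- compatibility with a change of coefficients -/
theorem coeffMap_tw (π : R →+* S) (u : Rˣ) (x : LaurentSeries R) :
    coeffMap π (tw u x) = tw (Units.map (π : R →* S) u) (coeffMap π x) := by
  ext n
  simp only [coeffMap_coeff, coeff_tw, map_mul]
  congr 1
  rw [← map_zpow]
  rfl

theorem bddBelow_support_contract (ℓ : ℕ) [NeZero ℓ] (x : LaurentSeries R) :
    BddBelow (Function.support (fun m : ℤ => x.coeff ((ℓ : ℤ) * m))) := by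
  have hℓ : (1 : ℤ) ≤ ℓ := by exact_mod_cast Nat.one_le_iff_ne_zero.2 (NeZero.ne ℓ)
  refine ⟨-|x.order|, fun m hm => ?_⟩
  simp only [Function.mem_support, ne_eq] at hm
  have h1 : x.order ≤ (ℓ : ℤ) * m := HahnSeries.order_le_of_coeff_ne_zero hm
  by_contra hlt
  have hlt' : m < -|x.order| := lt_of_not_ge hlt
  have h2 : -|x.order| ≤ x.order := neg_abs_le _
  have h3 : m < 0 := lt_of_lt_of_le hlt' (neg_nonpos.2 (abs_nonneg _))
  nlinarith

/-- the series `y` with `y(q^ℓ) = x`, when `x` is a series in `q^ℓ` -/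
def contract (ℓ : ℕ) [NeZero ℓ] (x : LaurentSeries R) : LaurentSeries R :=
  HahnSeries.ofSuppBddBelow (fun m : ℤ => x.coeff ((ℓ : ℤ) * m)) (bddBelow_support_contract ℓ x)

@[simp] theorem coeff_contract (ℓ : ℕ) [NeZero ℓ] (x : LaurentSeries R) (m : ℤ) :
    (contract ℓ x).coeff m = x.coeff ((ℓ : ℤ) * m) := rfl

theorem qExpand_contract (ℓ : ℕ) [NeZero ℓ] (x : LaurentSeries R)
    (hx : ∀ n : ℤ, ¬ (ℓ : ℤ) ∣ n → x.coeff n = 0) : qExpand R ℓ (contract ℓ x) = x := by
  ext n
  by_cases hn : (ℓ : ℤ) ∣ n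
  · obtain ⟨m, rfl⟩ := hn
    rw [qExpand_coeff_mul, coeff_contract]
  · rw [qExpand_coeff_of_not_dvd ℓ _ hn, hx n hn]

/-- over a domain, a series fixed by the rotation by a primitive `ℓ`-th root of unity is a
series in `q^ℓ` -/
theorem exists_qExpand_eq_of_tw_eq [IsDomain R] (ℓ : ℕ) [NeZero ℓ] {ζ : Rˣ}
    (hζ : IsPrimitiveRoot ζ ℓ) (x : LaurentSeries R) (hx : tw ζ x = x) :
    ∃ y : LaurentSeries R, qExpand R ℓ y = x := by
  refine ⟨contract ℓ x, qExpand_contract ℓ x (fun n hn => ?_)⟩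
  have h1 := congrArg (fun z : LaurentSeries R => z.coeff n) hx
  simp only [coeff_tw] at h1
  have h2 : x.coeff n * (((ζ ^ n : Rˣ) : R) - 1) = 0 := by
    rw [mul_sub, mul_one, h1, sub_self]
  rcases mul_eq_zero.1 h2 with h | h
  · exact h
  · exfalso
    have h3 : ζ ^ n = 1 := by
      apply Units.ext
      rw [Units.val_one]
      exact sub_eq_zero.1 h
    exact hn ((hζ.zpow_eq_one_iff_dvd n).1 h3)

/-- the rotation by a nonzero element of a field -/
abbrev tw₀ {L : Type*} [Field L] (ζ : L) (hζ : ζ ≠ 0) : LaurentSeries L →+* LaurentSeries L :=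
  tw (Units.mk0 ζ hζ)

theorem coeff_tw₀ {L : Type*} [Field L] (ζ : L) (hζ : ζ ≠ 0) (x : LaurentSeries L) (n : ℤ) :
    (tw₀ ζ hζ x).coeff n = x.coeff n * ζ ^ n := by
  rw [coeff_tw]
  congr 1
  rw [Units.val_zpow_eq_zpow_val, Units.val_mk0]

open Polynomial in
/-- the product `∏_{i<ℓ} (X - f(ζ^i q))` -/
def twProd (ℓ : ℕ) (ζ : Rˣ) (f : LaurentSeries R) : Polynomial (LaurentSeries R) :=
  ∏ i ∈ Finset.range ℓ, (X - C (tw (ζ ^ i) f))

open Polynomial in
/-- `P_f(X) = (X - f(q^{ℓ²})) ∏_{i<ℓ} (X - f(ζ^i q))`: the characteristic polynomial of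
`α(f) = f` over `β(F(N))` (series in `q^ℓ`), see piece W -/
def kronPoly (ℓ : ℕ) [NeZero ℓ] (ζ : Rˣ) (f : LaurentSeries R) : Polynomial (LaurentSeries R) :=
  (X - C (qExpand R ℓ (qExpand R ℓ f))) * twProd ℓ ζ f

end Fermat.Agent.S37.Kron
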