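import Mathlib
import Fermat.Agent.S37.ALDeg
import Fermat.Agent.S37.ALAlg
import Fermat.Agent.S37.Defs

/-!
# S37, piece W (5): the `ℓ + 1` embeddings of `F(Nℓ)` over `β(F(N))`, the degree of `β` and the
characteristic polynomial of `α f` along `β`
-/

set_option autoImplicit false
set_option linter.unusedSectionVars false
set_option linter.unusedVariables false
set_option linter.style.haveILetI false

noncomputable section

open UpperHalfPlane CongruenceSubgroup IntermediateField
open scoped MatrixGroups

namespace Fermat.Agent.S37.AL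

open Fermat.Agent.Lib.ModC Fermat.Agent.Lib.ModJ ModularCurve Fermat.Agent.S37.Kron
open Fermat.Agent.S18.Desc AlgebraicCurve Polynomial

local notation "Kbar" => AlgebraicClosure ℚ
local notation "Ω" => LaurentSeries (AlgebraicClosure ℚ)

variable {N ℓ : ℕ} [NeZero N] [NeZero ℓ]

/-! ### the degree along `β` -/

/-- `β` as a bijection onto its image field -/
def betaToImage (N ℓ : ℕ) [NeZero N] [NeZero ℓ] (x : ↥(modularFunctionFieldBar N)) :
    ↥(imageField N ℓ) :=
  ⟨qExpand Kbar ℓ (x : Ω), ⟨(x : Ω), x.2, rfl⟩⟩

theorem betaToImage_bijective : Function.Bijective (betaToImage N ℓ) := by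
  constructor
  · intro x y h
    have := congrArg Subtype.val h
    exact Subtype.ext (qExpand_injective (R := Kbar) ℓ this)
  · rintro ⟨_, ⟨x, hx, rfl⟩⟩
    exact ⟨⟨x, hx⟩, rfl⟩

/-- the degree of `β` is the relative degree of `F(Nℓ)` over the image field -/
theorem finrank_along_beta :
    letI := algebraAlong (heckeBetaBar Kbar N ℓ)
    Module.finrank ↥(modularFunctionFieldBar N) ↥(modularFunctionFieldBar (N * ℓ)) =
      relfinrank (imageField N ℓ) (modularFunctionFieldBar (N * ℓ)) := by
  letI := algebraAlong (heckeBetaBar Kbar N ℓ)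
  rw [relfinrank_eq_finrank_of_le (imageField_le N ℓ)]
  unfold Module.finrank
  congr 1
  let j : ↥(modularFunctionFieldBar (N * ℓ)) ≃+ ↥(extendScalars (imageField_le N ℓ)) :=
    { toFun := fun y => ⟨y.1, y.2⟩
      invFun := fun y => ⟨y.1, y.2⟩
      left_inv := fun y => rfl
      right_inv := fun y => rfl
      map_add' := fun x y => rfl }
  refine rank_eq_of_equiv_equiv (betaToImage N ℓ) j betaToImage_bijective ?_
  intro r m
  rfl

theorem finrank_along_beta_le (hℓ : ℓ.Prime) :
    letI := algebraAlong (heckeBetaBar Kbar N ℓ)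
    0 < Module.finrank ↥(modularFunctionFieldBar N) ↥(modularFunctionFieldBar (N * ℓ)) ∧
    Module.finrank ↥(modularFunctionFieldBar N) ↥(modularFunctionFieldBar (N * ℓ)) ≤ ℓ + 1 := by
  rw [finrank_along_beta]
  exact relfinrank_imageField_le N ℓ hℓ

theorem finite_along_beta (hℓ : ℓ.Prime) :
    letI := algebraAlong (heckeBetaBar Kbar N ℓ)
    FiniteDimensional ↥(modularFunctionFieldBar N) ↥(modularFunctionFieldBar (N * ℓ)) := by
  letI := algebraAlong (heckeBetaBar Kbar N ℓ)
  exact Module.finite_of_finrank_pos (finrank_along_beta_le hℓ).1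

end Fermat.Agent.S37.AL
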