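import Mathlib
import Fermat.Agent.S37.ALEmb

/-!
# S37, piece W (6): the characteristic polynomial of `α f` along `β` is `kronPoly`
-/

set_option autoImplicit false
set_option linter.unusedSectionVars false
set_option linter.unusedVariables false
set_option linter.style.haveILetI false

noncomputable section

open UpperHalfPlane CongruenceSubgroup IntermediateField
open scoped MatrixGroups

namespace Fermat.Agent.S37.AL

open Fermat.Agent.Lib.ModC Fermat.Agent.Lib.ModJ ModularCurve Fermat.Agent.S37.Kron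
open Fermat.Agent.S18.Desc AlgebraicCurve Polynomial

local notation "Kbar" => AlgebraicClosure ℚ
local notation "Ω" => LaurentSeries (AlgebraicClosure ℚ)

variable {N ℓ : ℕ} [NeZero N] [NeZero ℓ]

/-- `x ↦ x(q^ℓ)` from `F(N)` to Laurent series -/
def iotaB (N ℓ : ℕ) [NeZero N] [NeZero ℓ] : ↥(modularFunctionFieldBar N) →+* Ω :=
  (qExpand Kbar ℓ).comp (modularFunctionFieldBar N).val.toRingHom

@[simp] theorem iotaB_apply (x : ↥(modularFunctionFieldBar N)) :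
    iotaB N ℓ x = qExpand Kbar ℓ (x : Ω) := rfl

/-- the rotation embeddings `g ↦ g(u q)` of `F(Nℓ)` -/
def embTw (N ℓ : ℕ) (u : Kbarˣ) : ↥(modularFunctionFieldBar (N * ℓ)) →+* Ω :=
  (tw u).comp (modularFunctionFieldBar (N * ℓ)).val.toRingHom

@[simp] theorem embTw_apply (u : Kbarˣ) (g : ↥(modularFunctionFieldBar (N * ℓ))) :
    embTw N ℓ u g = tw u (g : Ω) := rfl

/-- the Atkin–Lehner embedding `g ↦ (w g)(q^ℓ)` of `F(Nℓ)` -/
def embInf (hℓ : ℓ.Prime) (hN : ¬ ℓ ∣ N) : ↥(modularFunctionFieldBar (N * ℓ)) →+* Ω :=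
  (qExpand Kbar ℓ).comp ((modularFunctionFieldBar (N * ℓ)).val.toRingHom.comp (wAL hℓ hN))

@[simp] theorem embInf_apply (hℓ : ℓ.Prime) (hN : ¬ ℓ ∣ N)
    (g : ↥(modularFunctionFieldBar (N * ℓ))) :
    embInf hℓ hN g = qExpand Kbar ℓ ((wAL hℓ hN g : ↥(modularFunctionFieldBar (N * ℓ))) : Ω) := rfl

theorem embInf_alpha (hℓ : ℓ.Prime) (hN : ¬ ℓ ∣ N) (f : ↥(modularFunctionFieldBar N)) :
    embInf hℓ hN (heckeAlphaBar Kbar N ℓ f) = qExpand Kbar ℓ (qExpand Kbar ℓ (f : Ω)) := by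
  rw [embInf_apply, wAL_alpha, coe_heckeBetaBar]

theorem embInf_beta (hℓ : ℓ.Prime) (hN : ¬ ℓ ∣ N) (f : ↥(modularFunctionFieldBar N)) :
    embInf hℓ hN (heckeBetaBar Kbar N ℓ f) = qExpand Kbar ℓ (f : Ω) := by
  rw [embInf_apply, wAL_beta, coe_heckeAlphaBar]

theorem embTw_beta {u : Kbarˣ} (hu : u ^ ℓ = 1) (f : ↥(modularFunctionFieldBar N)) :
    embTw N ℓ u (heckeBetaBar Kbar N ℓ f) = qExpand Kbar ℓ (f : Ω) := by
  rw [embTw_apply, coe_heckeBetaBar, tw_qExpand ℓ hu]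

/-- the family of `ℓ + 1` embeddings -/
def embAll (hℓ : ℓ.Prime) (hN : ¬ ℓ ∣ N) (ζ : Kbarˣ) :
    Option (Fin ℓ) → (↥(modularFunctionFieldBar (N * ℓ)) →+* Ω)
  | none => embInf hℓ hN
  | some i => embTw N ℓ (ζ ^ (i : ℕ))

theorem embAll_beta (hℓ : ℓ.Prime) (hN : ¬ ℓ ∣ N) {ζ : Kbarˣ} (hζ : ζ ^ ℓ = 1)
    (i : Option (Fin ℓ)) (f : ↥(modularFunctionFieldBar N)) :
    embAll hℓ hN ζ i (heckeBetaBar Kbar N ℓ f) = iotaB N ℓ f := by
  cases i with
  | none => exact embInf_beta hℓ hN f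
  | some i =>
    refine embTw_beta ?_ f
    rw [← pow_mul, mul_comm, pow_mul, hζ, one_pow]

/-- the function `j` in `F(N)` -/
def jN (N : ℕ) [NeZero N] : ↥(modularFunctionFieldBar N) := ⟨jqK Kbar 1, jqK_one_mem N⟩

theorem coeff_embTw_j (u : Kbarˣ) :
    (embTw N ℓ u (heckeAlphaBar Kbar N ℓ (jN N))).coeff (-1) = ((u⁻¹ : Kbarˣ) : Kbar) := by
  rw [embTw_apply, coe_heckeAlphaBar, coeff_tw]
  show (jqK Kbar 1).coeff (-1) * _ = _
  rw [coeff_jqK_one_neg_one, one_mul, zpow_neg_one]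

theorem coeff_embInf_j (hℓ : ℓ.Prime) (hN : ¬ ℓ ∣ N) :
    (embInf hℓ hN (heckeAlphaBar Kbar N ℓ (jN N))).coeff (-1) = 0 := by
  rw [embInf_alpha]
  apply qExpand_coeff_of_not_dvd
  intro h
  have h1 : (ℓ : ℤ) ∣ 1 := (dvd_neg).1 h
  have h2 : ℓ ∣ 1 := by exact_mod_cast h1
  exact hℓ.one_lt.ne' (Nat.dvd_one.1 h2)

theorem embAll_injective (hℓ : ℓ.Prime) (hN : ¬ ℓ ∣ N) {ζ : Kbarˣ} (hζ : IsPrimitiveRoot ζ ℓ) :
    Function.Injective (embAll (N := N) hℓ hN ζ) := by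
  have key : ∀ i : Fin ℓ, embAll (N := N) hℓ hN ζ none ≠ embAll hℓ hN ζ (some i) := by
    intro i h
    have h1 := congrArg (fun φ : ↥(modularFunctionFieldBar (N * ℓ)) →+* Ω =>
      (φ (heckeAlphaBar Kbar N ℓ (jN N))).coeff (-1)) h
    simp only [embAll] at h1
    rw [coeff_embInf_j, coeff_embTw_j] at h1
    exact (Units.ne_zero _) h1.symm
  intro a b hab
  cases a with
  | none =>
    cases b with
    | none => rfl
    | some j => exact absurd hab (key j)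
  | some i =>
    cases b with
    | none => exact absurd hab.symm (key i)
    | some j =>
      have h1 := congrArg (fun φ : ↥(modularFunctionFieldBar (N * ℓ)) →+* Ω =>
        (φ (heckeAlphaBar Kbar N ℓ (jN N))).coeff (-1)) hab
      simp only [embAll] at h1
      rw [coeff_embTw_j, coeff_embTw_j] at h1
      have h2 : ζ ^ (i : ℕ) = ζ ^ (j : ℕ) := by
        have := Units.ext h1
        exact inv_injective this
      have h3 : (i : ℕ) = (j : ℕ) := hζ.pow_inj i.2 j.2 h2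
      exact congrArg some (Fin.ext h3)

section Main

theorem free_along_beta (N ℓ : ℕ) [NeZero N] [NeZero ℓ] :
    letI := algebraAlong (heckeBetaBar Kbar N ℓ)
    Module.Free ↥(modularFunctionFieldBar N) ↥(modularFunctionFieldBar (N * ℓ)) :=
  letI := algebraAlong (heckeBetaBar Kbar N ℓ)
  Module.Free.of_divisionRing _ _

theorem card_option_fin : Fintype.card (Option (Fin ℓ)) = ℓ + 1 := by
  rw [Fintype.card_option, Fintype.card_fin]

/-- **The degree of `β` is `ℓ + 1`.** -/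
theorem finrank_beta (hℓ : ℓ.Prime) (hN : ¬ ℓ ∣ N) :
    letI := algebraAlong (heckeBetaBar Kbar N ℓ)
    Module.finrank ↥(modularFunctionFieldBar N) ↥(modularFunctionFieldBar (N * ℓ)) = ℓ + 1 := by
  letI := algebraAlong (heckeBetaBar Kbar N ℓ)
  haveI := finite_along_beta (N := N) hℓ
  haveI : NeZero ℓ := ⟨hℓ.ne_zero⟩
  obtain ⟨ζ₀, hζ₀⟩ := HasEnoughRootsOfUnity.exists_primitiveRoot Kbar ℓ
  have hζu : IsPrimitiveRoot (hζ₀.isUnit (NeZero.ne ℓ)).unit ℓ := by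
    rw [← IsPrimitiveRoot.coe_units_iff]
    exact hζ₀
  have h := finrank_eq_card (iotaB N ℓ) (embAll hℓ hN (hζ₀.isUnit (NeZero.ne ℓ)).unit)
    (fun i x => embAll_beta hℓ hN hζu.pow_eq_one i x) (embAll_injective hℓ hN hζu)
    (by rw [card_option_fin]; exact (finrank_along_beta_le hℓ).2)
  rw [h, card_option_fin]

theorem prod_embAll (hℓ : ℓ.Prime) (hN : ¬ ℓ ∣ N) (ζ : Kbarˣ)
    (g : ↥(modularFunctionFieldBar (N * ℓ))) :
    ∏ i, (X - C (embAll hℓ hN ζ i g)) =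
      (X - C (qExpand Kbar ℓ ((wAL hℓ hN g : ↥(modularFunctionFieldBar (N * ℓ))) : Ω))) *
        twProd ℓ ζ (g : Ω) := by
  rw [Fintype.prod_option, twProd, ← Fin.prod_univ_eq_prod_range]
  rfl

/-- **The norm along `β`.** -/
theorem norm_beta (hℓ : ℓ.Prime) (hN : ¬ ℓ ∣ N) {ζ : Kbarˣ} (hζ : IsPrimitiveRoot ζ ℓ)
    (g : ↥(modularFunctionFieldBar (N * ℓ))) :
    letI := algebraAlong (heckeBetaBar Kbar N ℓ)
    qExpand Kbar ℓ ((Algebra.norm ↥(modularFunctionFieldBar N) g :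
        ↥(modularFunctionFieldBar N)) : Ω) =
      qExpand Kbar ℓ ((wAL hℓ hN g : ↥(modularFunctionFieldBar (N * ℓ))) : Ω) *
        ∏ i ∈ Finset.range ℓ, tw (ζ ^ i) (g : Ω) := by
  letI := algebraAlong (heckeBetaBar Kbar N ℓ)
  haveI := finite_along_beta (N := N) hℓ
  have h := norm_eq_prod (iotaB N ℓ) (embAll hℓ hN ζ)
    (fun i x => embAll_beta hℓ hN hζ.pow_eq_one i x) (embAll_injective hℓ hN hζ)
    (by rw [card_option_fin]; exact (finrank_along_beta_le hℓ).2) g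
  rw [Fintype.prod_option] at h
  rw [← Fin.prod_univ_eq_prod_range (fun i => tw (ζ ^ i) (g : Ω)) ℓ]
  exact h

/-- **The characteristic polynomial along `β`.** -/
theorem charpoly_beta (hℓ : ℓ.Prime) (hN : ¬ ℓ ∣ N) {ζ : Kbarˣ} (hζ : IsPrimitiveRoot ζ ℓ)
    (g : ↥(modularFunctionFieldBar (N * ℓ))) :
    letI := algebraAlong (heckeBetaBar Kbar N ℓ)
    haveI := finite_along_beta (N := N) hℓ
    haveI := free_along_beta N ℓ
    ((LinearMap.mulLeft ↥(modularFunctionFieldBar N) g).charpoly).map (iotaB N ℓ) =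
      (X - C (qExpand Kbar ℓ ((wAL hℓ hN g : ↥(modularFunctionFieldBar (N * ℓ))) : Ω))) *
        twProd ℓ ζ (g : Ω) := by
  letI := algebraAlong (heckeBetaBar Kbar N ℓ)
  haveI := finite_along_beta (N := N) hℓ
  haveI := free_along_beta N ℓ
  rw [← prod_embAll hℓ hN]
  exact charpoly_eq_prod (iotaB N ℓ) (embAll hℓ hN ζ)
    (fun i x => embAll_beta hℓ hN hζ.pow_eq_one i x) (embAll_injective hℓ hN hζ)
    (by rw [card_option_fin]; exact (finrank_along_beta_le hℓ).2) g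

/-- **(W)** the characteristic polynomial of `α f` along `β` is `P_f = kronPoly`. -/
theorem charpoly_alpha (hℓ : ℓ.Prime) (hN : ¬ ℓ ∣ N) {ζ : Kbarˣ} (hζ : IsPrimitiveRoot ζ ℓ)
    (f : ↥(modularFunctionFieldBar N)) :
    letI := algebraAlong (heckeBetaBar Kbar N ℓ)
    haveI := finite_along_beta (N := N) hℓ
    haveI := free_along_beta N ℓ
    ((LinearMap.mulLeft ↥(modularFunctionFieldBar N) (heckeAlphaBar Kbar N ℓ f)).charpoly).map
        (iotaB N ℓ) = kronPoly ℓ ζ (f : Ω) := by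
  letI := algebraAlong (heckeBetaBar Kbar N ℓ)
  haveI := finite_along_beta (N := N) hℓ
  haveI := free_along_beta N ℓ
  have h := charpoly_beta hℓ hN hζ (heckeAlphaBar Kbar N ℓ f)
  rw [wAL_alpha, coe_heckeBetaBar, coe_heckeAlphaBar] at h
  exact h

end Main

end Fermat.Agent.S37.AL
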