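import Mathlib
import Fermat.Agent.S37.ALFinal

/-!
# S37, pieces L1 and L3: the degree of `α` and the map `V'`
-/

set_option autoImplicit false
set_option linter.unusedSectionVars false
set_option linter.unusedVariables false
set_option linter.style.haveILetI false

noncomputable section

open IntermediateField

namespace Fermat.Agent.S37.AL

open Fermat.Agent.Lib.ModC Fermat.Agent.Lib.ModJ ModularCurve Fermat.Agent.S37.Kron
open Fermat.Agent.S18.Desc AlgebraicCurve Polynomial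

local notation "Kbar" => AlgebraicClosure ℚ
local notation "Ω" => LaurentSeries (AlgebraicClosure ℚ)

variable {N ℓ : ℕ} [NeZero N] [NeZero ℓ]

/-! ### L3: the degree of `α` -/

/-- the Atkin–Lehner involution as an additive equivalence -/
def wALAdd (hℓ : ℓ.Prime) (hN : ¬ ℓ ∣ N) :
    ↥(modularFunctionFieldBar (N * ℓ)) ≃+ ↥(modularFunctionFieldBar (N * ℓ)) :=
  { toFun := wAL hℓ hN
    invFun := wAL hℓ hN
    left_inv := wAL_wAL hℓ hN
    right_inv := wAL_wAL hℓ hN
    map_add' := map_add (wAL hℓ hN) }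

theorem rank_alpha_eq_rank_beta (hℓ : ℓ.Prime) (hN : ¬ ℓ ∣ N) :
    @Module.rank ↥(modularFunctionFieldBar N) ↥(modularFunctionFieldBar (N * ℓ)) _ _
        (algebraAlong (heckeAlphaBar Kbar N ℓ)).toModule =
      @Module.rank ↥(modularFunctionFieldBar N) ↥(modularFunctionFieldBar (N * ℓ)) _ _
        (algebraAlong (heckeBetaBar Kbar N ℓ)).toModule := by
  refine @rank_eq_of_equiv_equiv ↥(modularFunctionFieldBar N) ↥(modularFunctionFieldBar N)
    ↥(modularFunctionFieldBar (N * ℓ)) ↥(modularFunctionFieldBar (N * ℓ)) _ _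
    (algebraAlong (heckeAlphaBar Kbar N ℓ)).toModule _ _
    (algebraAlong (heckeBetaBar Kbar N ℓ)).toModule id (wALAdd hℓ hN) Function.bijective_id ?_
  intro r m
  show wAL hℓ hN (heckeAlphaBar Kbar N ℓ r * m) = heckeBetaBar Kbar N ℓ r * wAL hℓ hN m
  rw [map_mul, wAL_alpha]

/-- **L3.** The degree of `α` is `ℓ + 1`. -/
theorem finrank_alpha (hℓ : ℓ.Prime) (hN : ¬ ℓ ∣ N) :
    letI := algebraAlong (heckeAlphaBar Kbar N ℓ)
    Module.finrank ↥(modularFunctionFieldBar N) ↥(modularFunctionFieldBar (N * ℓ)) = ℓ + 1 := by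
  have h := finrank_beta (N := N) hℓ hN
  unfold Module.finrank at h ⊢
  rw [rank_alpha_eq_rank_beta hℓ hN]
  exact h

theorem finite_along_alpha (hℓ : ℓ.Prime) (hN : ¬ ℓ ∣ N) :
    letI := algebraAlong (heckeAlphaBar Kbar N ℓ)
    FiniteDimensional ↥(modularFunctionFieldBar N) ↥(modularFunctionFieldBar (N * ℓ)) := by
  letI := algebraAlong (heckeAlphaBar Kbar N ℓ)
  refine Module.finite_of_finrank_pos ?_
  rw [finrank_alpha hℓ hN]
  exact Nat.succ_pos _

/-! ### L1: the map `V'` -/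

theorem level_comm (N b ℓ : ℕ) : N * ℓ * b = N * b * ℓ := by ring

theorem mem_level_comm (N b ℓ : ℕ) [NeZero N] [NeZero b] [NeZero ℓ]
    (x : ↥(modularFunctionFieldBar (N * ℓ))) :
    qExpand Kbar b (x : Ω) ∈ modularFunctionFieldBar (N * b * ℓ) := by
  have h : qExpand Kbar b (x : Ω) ∈ modularFunctionFieldBar (N * ℓ * b) :=
    (heckeBetaBar Kbar (N * ℓ) b x).2
  rwa [level_comm] at h

/-- **L1.** `V' : F(Nℓ) → F(N b ℓ)`, `q ↦ q^b`. -/
def VprimeBar (N b ℓ : ℕ) [NeZero N] [NeZero b] [NeZero ℓ] :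
    ↥(modularFunctionFieldBar (N * ℓ)) →ₐ[Kbar] ↥(modularFunctionFieldBar (N * b * ℓ)) where
  toFun x := ⟨qExpand Kbar b (x : Ω), mem_level_comm N b ℓ x⟩
  map_one' := Subtype.ext (map_one (qExpand Kbar b))
  map_mul' _ _ := Subtype.ext (map_mul (qExpand Kbar b) _ _)
  map_zero' := Subtype.ext (map_zero (qExpand Kbar b))
  map_add' _ _ := Subtype.ext (map_add (qExpand Kbar b) _ _)
  commutes' a := Subtype.ext <| by
    show qExpand Kbar b (algebraMap Kbar Ω a) = algebraMap Kbar Ω a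
    rw [algebraMap_laurentSeries_eq_single, qExpand_single, mul_zero]

@[simp] theorem coe_VprimeBar (N b ℓ : ℕ) [NeZero N] [NeZero b] [NeZero ℓ]
    (x : ↥(modularFunctionFieldBar (N * ℓ))) :
    ((VprimeBar N b ℓ x : ↥(modularFunctionFieldBar (N * b * ℓ))) : Ω) = qExpand Kbar b (x : Ω) :=
  rfl

theorem alpha_comp_beta (N b ℓ : ℕ) [NeZero N] [NeZero b] [NeZero ℓ] :
    (heckeAlphaBar Kbar (N * b) ℓ).comp (heckeBetaBar Kbar N b) =
      (VprimeBar N b ℓ).comp (heckeAlphaBar Kbar N ℓ) := by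
  apply AlgHom.ext
  intro x
  apply Subtype.ext
  rw [AlgHom.comp_apply, AlgHom.comp_apply, coe_heckeAlphaBar, coe_heckeBetaBar, coe_VprimeBar,
    coe_heckeAlphaBar]

theorem beta_comp_beta (N b ℓ : ℕ) [NeZero N] [NeZero b] [NeZero ℓ] :
    (heckeBetaBar Kbar (N * b) ℓ).comp (heckeBetaBar Kbar N b) =
      (VprimeBar N b ℓ).comp (heckeBetaBar Kbar N ℓ) := by
  apply AlgHom.ext
  intro x
  apply Subtype.ext
  rw [AlgHom.comp_apply, AlgHom.comp_apply, coe_heckeBetaBar, coe_heckeBetaBar, coe_VprimeBar,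
    coe_heckeBetaBar, qExpand_qExpand, qExpand_qExpand]
  exact qExpand_congr (mul_comm _ _) _

end Fermat.Agent.S37.AL
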