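import Mathlib
import Fermat.Agent.S18.Descend
import Fermat.Prelude.Def_AlgebraicCurve_Correspondence
import Fermat.Prelude.Def_ModularCurve_HeckeOperator

/-!
# S37, piece VI: the pull-back along `V_b : q ↦ q^b` is injective on torsion

For a prime `b` let `V_b = heckeBetaBar ℚ̄ N b : F(N) → F(N b)`.

* `descend_core`: if `g ∈ F(N b)`, `g ^ m = c · V_b f` with `div f = m • D`, then `g = V_b g₀` and
  `D = div g₀` (total ramification of `V_b` at the cusp `∞` + rotation `q ↦ ζ q`);
* `pullbackAlong_principal_imp`: if `m • D` is principal (`m ≠ 0`) and the pull-back of `D` along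
  `V_b` is principal, then `D` is principal.
-/

set_option autoImplicit false
set_option synthInstance.maxHeartbeats 400000
set_option maxHeartbeats 1600000
set_option linter.unusedSectionVars false
set_option linter.unusedVariables false

noncomputable section

open ModularCurve IntermediateField AlgebraicCurve Fermat.Agent.Lib.ModJ Fermat.Agent.Lib.FF
open Fermat.Agent.S18.Desc

namespace Fermat.Agent.S37.VI

local notation "Lb" => AlgebraicClosure ℚ
local notation "E" => LaurentSeries (AlgebraicClosure ℚ)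

variable (N b : ℕ) [NeZero N] [NeZero b]

/-- **core of the descent along `V_b`** -/
theorem descend_core (hb : b.Prime) {f : modularFunctionFieldBar N} (hf0 : f ≠ 0) {m : ℕ}
    (hm0 : m ≠ 0) {D : Divisor Lb (modularFunctionFieldBar N)}
    (hD : ∀ P : Place Lb (modularFunctionFieldBar N), (m : ℤ) * D P = P.ord f)
    {g : modularFunctionFieldBar (N * b)} (hg0 : g ≠ 0) {c : Lb} (hc0 : c ≠ 0)
    (hgm : g ^ m = algebraMap Lb _ c * heckeBetaBar Lb N b f) :
    ∃ g₀ : modularFunctionFieldBar N, g₀ ≠ 0 ∧ heckeBetaBar Lb N b g₀ = g ∧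
      ∀ Q : Place Lb (modularFunctionFieldBar N), D Q = Q.ord g₀ := by
  have hmZ : (m : ℤ) ≠ 0 := by exact_mod_cast hm0
  have hfE : (f : E) ≠ 0 := fun h0 => hf0 (Subtype.ext h0)
  set V : modularFunctionFieldBar N →ₐ[Lb] modularFunctionFieldBar (N * b) :=
    heckeBetaBar Lb N b with hV
  have hVcoe : ∀ x : modularFunctionFieldBar N, ((V x : modularFunctionFieldBar (N * b)) : E)
      = qExpand Lb b (x : E) := fun x => rfl
  have hgE : (g : E) ≠ 0 := fun h0 => hg0 (Subtype.ext h0)
  -- in `E`: `g ^ m = V_b (c * f)`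
  have hgmE : (g : E) ^ m = qExpand Lb b (algebraMap Lb E c * (f : E)) := by
    have := congrArg (fun y : modularFunctionFieldBar (N * b) => (y : E)) hgm
    simp only [IntermediateField.coe_pow, IntermediateField.coe_mul] at this
    rw [this, map_mul, hVcoe f]
    congr 1
    show algebraMap Lb E c = qExpandAlgHomC Lb b (algebraMap Lb E c)
    rw [AlgHom.commutes]
  obtain ⟨ζ, hζ⟩ : ∃ ζ : Lb, IsPrimitiveRoot ζ b := by
    have : NeZero ((b : ℕ) : Lb) := ⟨by exact_mod_cast NeZero.ne b⟩
    obtain ⟨ζ, hζ⟩ := IsAlgClosed.exists_root (Polynomial.cyclotomic b Lb)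
      (by
        rw [Polynomial.degree_cyclotomic]
        exact_mod_cast (Nat.totient_pos.2 (Nat.pos_of_ne_zero (NeZero.ne b))).ne')
    exact ⟨ζ, Polynomial.isRoot_cyclotomic_iff.1 hζ⟩
  have hζ0 : ζ ≠ 0 := hζ.ne_zero (NeZero.ne b)
  have hrotm : rot ζ hζ0 ((g : E) ^ m) = (g : E) ^ m := by
    rw [hgmE]
    exact rot_qExpand b hζ0 hζ.pow_eq_one _
  -- the order of `g` at infinity is divisible by `b`
  obtain ⟨v, hv⟩ := exists_place_inf N
  have hcf : algebraMap Lb E c * (f : E) ≠ 0 :=
    mul_ne_zero ((map_ne_zero _).2 hc0) hfE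
  have hord : (g : E).order = (b : ℤ) * D v := by
    have h1 : ((g : E) ^ m).order = (m : ℤ) * (g : E).order := by
      rw [HahnSeries.order_pow, nsmul_eq_mul]
    have h2 : (qExpand Lb b (algebraMap Lb E c * (f : E))).order
        = (b : ℤ) * (f : E).order := by
      rw [order_qExpand_mul b hcf, HahnSeries.order_mul ((map_ne_zero _).2 hc0) hfE,
        algebraMap_laurentSeries_eq_single, HahnSeries.order_single hc0, zero_add]
    have h3 : (f : E).order = (m : ℤ) * D v := by
      rw [← hv f hf0, hD v]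
    rw [hgmE, h2, h3] at h1
    have h4 : (m : ℤ) * ((b : ℤ) * D v) = (m : ℤ) * (g : E).order := by
      rw [← h1]
      ring
    exact (mul_left_cancel₀ hmZ h4).symm
  have hζord : ζ ^ (g : E).order = 1 := by
    rw [hord, zpow_mul, zpow_natCast, hζ.pow_eq_one, one_zpow]
  have hrot : rot ζ hζ0 (g : E) = (g : E) := rot_eq_self_of_pow hζ0 hgE hm0 hrotm hζord
  obtain ⟨g₀, hg₀mem, hg₀⟩ := fixed_inf_le N b hb hζ g.2 hrot
  -- conclude
  have hg₀0 : (⟨g₀, hg₀mem⟩ : modularFunctionFieldBar N) ≠ 0 := by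
    intro h0
    have : g₀ = 0 := congrArg Subtype.val h0
    rw [this, map_zero] at hg₀
    exact hgE hg₀.symm
  have hpow : (⟨g₀, hg₀mem⟩ : modularFunctionFieldBar N) ^ m = algebraMap Lb _ c * f := by
    apply Subtype.ext
    apply qExpand_injective (R := Lb) b
    show qExpand Lb b (g₀ ^ m) = qExpand Lb b (algebraMap Lb E c * (f : E))
    rw [map_pow, hg₀, hgmE]
  refine ⟨⟨g₀, hg₀mem⟩, hg₀0, Subtype.ext ?_, fun Q => ?_⟩
  · rw [hVcoe]
    exact hg₀
  have h1 : Q.ord ((⟨g₀, hg₀mem⟩ : modularFunctionFieldBar N) ^ m)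
      = (m : ℤ) * Q.ord (⟨g₀, hg₀mem⟩ : modularFunctionFieldBar N) := by
    rw [← zpow_natCast, Q.ord_zpow]
  rw [hpow, Q.ord_mul ((map_ne_zero _).2 hc0) hf0, Fermat.Agent.Lib.FF.ord_algebraMap Q c,
    zero_add, ← hD Q] at h1
  exact mul_left_cancel₀ hmZ h1

/-- **the pull-back along `V_b` is injective on torsion** (divisor form): if `m • D` is
principal, `m ≠ 0`, and the pull-back of `D` is principal, then `D` is principal -/
theorem pullbackAlong_principal_imp (hb : b.Prime)
    (hφ : (heckeBetaBar Lb N b).toRingHom.IsIntegral)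
    [HasPrincipalDivisors Lb (modularFunctionFieldBar (N * b))]
    (D : Divisor Lb (modularFunctionFieldBar N)) (m : ℕ) (hm0 : m ≠ 0)
    (hmD : m • D ∈ Divisor.principal (K := Lb) (F := modularFunctionFieldBar N))
    (hpull : Divisor.pullbackAlong (heckeBetaBar Lb N b) hφ D
      ∈ Divisor.principal (K := Lb) (F := modularFunctionFieldBar (N * b))) :
    D ∈ Divisor.principal (K := Lb) (F := modularFunctionFieldBar N) := by
  obtain ⟨f, hf0, hf⟩ := hmD
  obtain ⟨g, hg0, hg⟩ := hpull
  have hD : ∀ P : Place Lb (modularFunctionFieldBar N), (m : ℤ) * D P = P.ord f := by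
    intro P
    rw [← hf P, Finsupp.smul_apply, nsmul_eq_mul]
  have hVne : heckeBetaBar Lb N b f ≠ 0 := (map_ne_zero (heckeBetaBar Lb N b).toRingHom).2 hf0
  -- `g ^ m = c * V f`
  obtain ⟨c, hc⟩ := exists_const_of_ord_nonneg (Fermat.Agent.S24.isFF1_jBar (N * b))
    (g ^ m / heckeBetaBar Lb N b f) (fun w => by
      rw [div_eq_mul_inv, w.ord_mul (pow_ne_zero m hg0) (inv_ne_zero hVne), w.ord_inv,
        ← zpow_natCast, w.ord_zpow, ← hg w, Divisor.pullbackAlong_apply,
        Place.ord_restrictAlong (heckeBetaBar Lb N b) hφ w f, ← hD]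
      apply le_of_eq
      ring)
  have hgm : g ^ m = algebraMap Lb _ c * heckeBetaBar Lb N b f := by
    rw [← hc, div_mul_cancel₀ _ hVne]
  have hc0 : c ≠ 0 := by
    rintro rfl
    rw [map_zero, zero_mul] at hgm
    exact pow_ne_zero m hg0 hgm
  obtain ⟨g₀, hg₀0, -, hg₀⟩ := descend_core N b hb hf0 hm0 hD hg0 hc0 hgm
  exact ⟨g₀, hg₀0, hg₀⟩

/-! ### the `Pic0` form -/

section Abstract

variable {K F F' : Type*} [Field K] [Field F] [Field F'] [Algebra K F] [Algebra K F']
variable [HasPrincipalDivisors K F'] (φ : F →ₐ[K] F') (hφ : φ.toRingHom.IsIntegral)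
variable (hFI : FundamentalIdentityAlong K φ hφ)

/-- pull-back of degree zero divisors along `φ` -/
def pullDegZero : Divisor.degZero (K := K) (F := F) →+ Divisor.degZero (K := K) (F := F') :=
  ((Divisor.pullbackAlong φ hφ).domRestrict _).codRestrict _ fun D =>
    Divisor.pullbackAlong_mem_degZero φ hφ hFI D.2

@[simp]
theorem coe_pullDegZero (D : Divisor.degZero (K := K) (F := F)) :
    (pullDegZero φ hφ hFI D : Divisor K F') = Divisor.pullbackAlong φ hφ (D : Divisor K F) := rfl

/-- **pull-back on `Pic0` along `φ`** -/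
def pullPic0 : Pic0 K F →+ Pic0 K F' :=
  QuotientAddGroup.map _ _ (pullDegZero φ hφ hFI) (by
    rintro ⟨D, hD0⟩ hD
    simp only [AddSubgroup.mem_addSubgroupOf] at hD ⊢
    exact Divisor.isPrincipal_pullbackAlong φ hφ hD)

theorem pullPic0_mk (D : Divisor.degZero (K := K) (F := F)) :
    pullPic0 φ hφ hFI (Pic0.mk D) = Pic0.mk (pullDegZero φ hφ hFI D) := rfl

end Abstract

/-- **the pull-back `V_b^* : J₀(N) → J₀(N b)` is injective on torsion** -/
theorem pullPic0_eq_zero_imp (N b : ℕ) [NeZero N] [NeZero b] (hb : b.Prime)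
    (hφ : (heckeBetaBar Lb N b).toRingHom.IsIntegral)
    [HasPrincipalDivisors Lb (modularFunctionFieldBar (N * b))]
    (hFI : FundamentalIdentityAlong Lb (heckeBetaBar Lb N b) hφ)
    (x : JZero N) (m : ℕ) (hm0 : m ≠ 0) (hmx : m • x = 0)
    (hx : pullPic0 (heckeBetaBar Lb N b) hφ hFI x = 0) : x = 0 := by
  obtain ⟨D, rfl⟩ := Pic0.mk_surjective x
  have h1 : (m • D : Divisor.degZero (K := Lb) (F := modularFunctionFieldBar N)) ∈
      (Divisor.principal (K := Lb) (F := modularFunctionFieldBar N)).addSubgroupOf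
        (Divisor.degZero (K := Lb) (F := modularFunctionFieldBar N)) := by
    have : Pic0.mk (m • D) = (0 : JZero N) := hmx
    exact (QuotientAddGroup.eq_zero_iff _).1 this
  rw [AddSubgroup.mem_addSubgroupOf, AddSubgroupClass.coe_nsmul] at h1
  have h2 : (pullDegZero (heckeBetaBar Lb N b) hφ hFI D :
      Divisor.degZero (K := Lb) (F := modularFunctionFieldBar (N * b))) ∈
      (Divisor.principal (K := Lb) (F := modularFunctionFieldBar (N * b))).addSubgroupOf
        (Divisor.degZero (K := Lb) (F := modularFunctionFieldBar (N * b))) := by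
    have : Pic0.mk (pullDegZero (heckeBetaBar Lb N b) hφ hFI D) = (0 : JZero (N * b)) := hx
    exact (QuotientAddGroup.eq_zero_iff _).1 this
  rw [AddSubgroup.mem_addSubgroupOf, coe_pullDegZero] at h2
  have := pullbackAlong_principal_imp N b hb hφ (D : Divisor Lb (modularFunctionFieldBar N)) m hm0
    h1 h2
  show Pic0.mk D = 0
  rw [Pic0.mk, QuotientAddGroup.eq_zero_iff, AddSubgroup.mem_addSubgroupOf]
  exact this

end Fermat.Agent.S37.VI
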