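import Fermat.Agent.S37.BaseAlong
import Fermat.Agent.S37.HInpMain
import Fermat.Agent.S37.PullInj

/-!
# S37, piece L: the Hecke correspondence commutes with the pull-back along `V_b : q ↦ q^b`

`V_b^* ∘ T_ℓ^{(N)} = T_ℓ^{(N b)} ∘ V_b^*` on divisors and on `Pic⁰`, given the square data
(`V'`, the two commutation relations, equality of degrees and generation).
-/

set_option autoImplicit false
set_option linter.unusedSectionVars false
set_option linter.style.haveILetI false

noncomputable section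

namespace Fermat.Agent.S37.L

open AlgebraicCurve ModularCurve Fermat.Agent.Lib.FF

local notation "Qb" => AlgebraicClosure ℚ

variable (N b ℓ : ℕ) [NeZero N] [NeZero b] [NeZero ℓ]

/-- The data of the base change square for `V_b` and the Hecke correspondence `T_ℓ`. -/
structure SquareData : Type where
  /-- `q ↦ q^b` from level `N ℓ` to level `N b ℓ` -/
  V' : modularFunctionFieldBar (N * ℓ) →ₐ[Qb] modularFunctionFieldBar (N * b * ℓ)
  comm_alpha : (heckeAlphaBar Qb (N * b) ℓ).comp (heckeBetaBar Qb N b)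
    = V'.comp (heckeAlphaBar Qb N ℓ)
  comm_beta : (heckeBetaBar Qb (N * b) ℓ).comp (heckeBetaBar Qb N b)
    = V'.comp (heckeBetaBar Qb N ℓ)
  rank_eq : finrankAlong Qb (heckeAlphaBar Qb (N * b) ℓ) = finrankAlong Qb (heckeAlphaBar Qb N ℓ)
  span_eq : letI := algebraAlong (heckeAlphaBar Qb (N * b) ℓ)
    Submodule.span (modularFunctionFieldBar (N * b)) (Set.range V') = ⊤

variable {N b ℓ}

theorem SquareData.isIntegral_V' (S : SquareData N b ℓ) : S.V'.toRingHom.IsIntegral :=
  H.isIntegral_of_finiteAlong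
    (H.finiteAlong (Fermat.Agent.S24.isFF1_jBar (N * ℓ)).transcendental
      (Fermat.Agent.S24.isFF1_jBar (N * b * ℓ)) S.V')

/-- **Base change for the Hecke correspondence on divisors.** -/
theorem pull_heckeDiv (S : SquareData N b ℓ) (D : Divisor Qb (modularFunctionFieldBar N)) :
    Divisor.pullbackAlong (heckeBetaBar Qb N b) (H.betaInt N b) (H.heckeDiv N ℓ D)
      = H.heckeDiv (N * b) ℓ (Divisor.pullbackAlong (heckeBetaBar Qb N b) (H.betaInt N b) D) := by
  have hint1 : ((heckeBetaBar Qb (N * b) ℓ).comp (heckeBetaBar Qb N b)).toRingHom.IsIntegral :=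
    H.isIntegral_of_finiteAlong
      (H.finiteAlong (Fermat.Agent.S24.isFF1_jBar N).transcendental
        (Fermat.Agent.S24.isFF1_jBar (N * b * ℓ)) _)
  have hint2 : (S.V'.comp (heckeBetaBar Qb N ℓ)).toRingHom.IsIntegral :=
    H.isIntegral_of_finiteAlong
      (H.finiteAlong (Fermat.Agent.S24.isFF1_jBar N).transcendental
        (Fermat.Agent.S24.isFF1_jBar (N * b * ℓ)) _)
  show Divisor.pullbackAlong (heckeBetaBar Qb N b) (H.betaInt N b)
      (Divisor.pushforwardAlong (heckeAlphaBar Qb N ℓ) (H.alphaInt N ℓ)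
        (Divisor.pullbackAlong (heckeBetaBar Qb N ℓ) (H.betaInt N ℓ) D))
    = Divisor.pushforwardAlong (heckeAlphaBar Qb (N * b) ℓ) (H.alphaInt (N * b) ℓ)
        (Divisor.pullbackAlong (heckeBetaBar Qb (N * b) ℓ) (H.betaInt (N * b) ℓ)
          (Divisor.pullbackAlong (heckeBetaBar Qb N b) (H.betaInt N b) D))
  rw [pullbackAlong_pushforwardAlong (heckeAlphaBar Qb N ℓ) (heckeBetaBar Qb N b)
      (heckeAlphaBar Qb (N * b) ℓ) S.V' S.comm_alpha (H.alphaInt N ℓ) (H.betaInt N b)
      (H.alphaInt (N * b) ℓ) S.isIntegral_V'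
      (Fermat.Agent.S24.isFF1_jBar N) (Fermat.Agent.S24.isFF1_jBar (N * ℓ))
      (Fermat.Agent.S24.isFF1_jBar (N * b)) (Fermat.Agent.S24.isFF1_jBar (N * b * ℓ))
      S.rank_eq S.span_eq,
    pullbackAlong_comp _ _ (H.betaInt N ℓ) S.isIntegral_V' hint2,
    pullbackAlong_comp _ _ (H.betaInt N b) (H.betaInt (N * b) ℓ) hint1,
    pullbackAlong_congr S.comm_beta hint1 hint2]

/-- **Base change for the Hecke operator on `Pic⁰`**:
`V_b^* (T_ℓ x) = T_ℓ (V_b^* x)`. -/
theorem pull_hecke (S : SquareData N b ℓ) (hℓ : ℓ.Prime) (x : JZero N) :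
    VI.pullPic0 (heckeBetaBar Qb N b) (H.betaInt N b) (H.fundamentalIdentity_beta N b)
        (heckeOperatorBar N ⟨ℓ, hℓ⟩ x)
      = heckeOperatorBar (N * b) ⟨ℓ, hℓ⟩
        (VI.pullPic0 (heckeBetaBar Qb N b) (H.betaInt N b) (H.fundamentalIdentity_beta N b) x) := by
  obtain ⟨D, rfl⟩ := Pic0.mk_surjective x
  have h1 : heckeOperatorBar N ⟨ℓ, hℓ⟩ (Pic0.mk D) = heckeOperatorAlong Qb N ℓ (Pic0.mk D) := rfl
  have h2 : ∀ y : JZero (N * b),
      heckeOperatorBar (N * b) ⟨ℓ, hℓ⟩ y = heckeOperatorAlong Qb (N * b) ℓ y := fun _ => rfl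
  rw [h1, h2, H.heckeOperatorAlong_mk, VI.pullPic0_mk, VI.pullPic0_mk, H.heckeOperatorAlong_mk]
  congr 1
  apply Subtype.ext
  exact pull_heckeDiv S (D : Divisor Qb (modularFunctionFieldBar N))

end Fermat.Agent.S37.L
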