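import Mathlib
import Fermat.Agent.S24.Glue
import Fermat.Agent.S37.ALLevel
import Fermat.Agent.S37.BaseHecke

/-!
# S37, piece L2: generation of the modular function field

* `adjoin_jBar_jTop`: `F(M) = ℚ̄(j, j_M)` where `j_M = jq(q^M)`.
* `span_range_Vprime`: `F(N b ℓ)` is spanned over `F(N b)` by the image of `V' : F(N ℓ) → F(N b ℓ)`.
-/

set_option autoImplicit false
set_option linter.unusedSectionVars false
set_option linter.unusedVariables false
set_option linter.style.haveILetI false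
set_option synthInstance.maxHeartbeats 400000
set_option maxHeartbeats 1000000

noncomputable section

open IntermediateField AlgebraicCurve ModularCurve
open scoped MatrixGroups

namespace Fermat.Agent.S37.L2

open Fermat.Agent.Lib.FF Fermat.Agent.Lib.ModC Fermat.Agent.Lib.ModJ CongruenceSubgroup
open Fermat.Agent.S24

local notation "Lb" => AlgebraicClosure ℚ

/-! ### a generic lower bound -/

section Generic

variable {K F : Type*} [Field K] [Field F] [Algebra K F]

/-- A family of embeddings of `F` that agree on `K` and at `y` and are pairwise distinct at `z`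
has at most `[K(y)(z) : K(y)]` members. -/
theorem card_le_finrank_adjoin (y z : F) [FiniteDimensional K⟮y⟯ F]
    {Ω : Type*} [Field Ω] {Γ : Type*} [Fintype Γ] (τ : Γ → F →+* Ω)
    (hτ_inj : ∀ g g' : Γ, τ g z = τ g' z → g = g')
    (hτ_K : ∀ (g g' : Γ) (c : K), τ g (algebraMap K F c) = τ g' (algebraMap K F c))
    (hτ_y : ∀ g g' : Γ, τ g y = τ g' y) :
    Fintype.card Γ ≤ Module.finrank K⟮y⟯ (K⟮y⟯⟮z⟯) := by
  classical
  rcases isEmpty_or_nonempty Γ with hΓ | ⟨⟨g₀⟩⟩
  · rw [Fintype.card_eq_zero]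
    exact Nat.zero_le _
  let algE : Algebra K⟮y⟯ Ω := ((τ g₀).comp (algebraMap K⟮y⟯ F)).toAlgebra
  let σ : Γ → (K⟮y⟯⟮z⟯ →ₐ[K⟮y⟯] Ω) := fun g =>
    { toRingHom := (τ g).comp (algebraMap K⟮y⟯⟮z⟯ F)
      commutes' := fun u => by
        change τ g (u : F) = τ g₀ (u : F)
        rw [eq_on_adjoin_simple (τ g) (τ g₀) (hτ_K g g₀) (hτ_y g g₀) u u.2] }
  have hσ_inj : Function.Injective σ := by
    intro g g' h
    apply hτ_inj
    have hz : z ∈ K⟮y⟯⟮z⟯ := mem_adjoin_simple_self _ z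
    exact congrArg (fun s : K⟮y⟯⟮z⟯ →ₐ[K⟮y⟯] Ω => s ⟨z, hz⟩) h
  haveI : FiniteDimensional K⟮y⟯ K⟮y⟯⟮z⟯ := inferInstance
  have : Finite (K⟮y⟯⟮z⟯ →ₐ[K⟮y⟯] Ω) := inferInstance
  calc Fintype.card Γ = Nat.card Γ := (Nat.card_eq_fintype_card).symm
    _ ≤ Nat.card (K⟮y⟯⟮z⟯ →ₐ[K⟮y⟯] Ω) := Nat.card_le_card_of_injective σ hσ_inj
    _ ≤ Module.finrank K⟮y⟯ (K⟮y⟯⟮z⟯) := card_algHom_le_finrank K⟮y⟯ (K⟮y⟯⟮z⟯) Ω

/-- If moreover the family has `[F : K(y)]` members, then `F = K(y, z)`. -/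
theorem adjoin_pair_eq_top (y z : F) [FiniteDimensional K⟮y⟯ F]
    {Ω : Type*} [Field Ω] {Γ : Type*} [Fintype Γ] (τ : Γ → F →+* Ω)
    (hτ_inj : ∀ g g' : Γ, τ g z = τ g' z → g = g')
    (hτ_K : ∀ (g g' : Γ) (c : K), τ g (algebraMap K F c) = τ g' (algebraMap K F c))
    (hτ_y : ∀ g g' : Γ, τ g y = τ g' y)
    (hcard : Module.finrank K⟮y⟯ F ≤ Fintype.card Γ) :
    IntermediateField.adjoin K ({y, z} : Set F) = ⊤ := by
  have h1 := card_le_finrank_adjoin y z τ hτ_inj hτ_K hτ_y
  have h2 : Module.finrank K⟮y⟯ (K⟮y⟯⟮z⟯) = Module.finrank K⟮y⟯ F :=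
    le_antisymm (K⟮y⟯⟮z⟯).toSubmodule.finrank_le (hcard.trans h1)
  have h3 : K⟮y⟯⟮z⟯ = ⊤ := by
    apply IntermediateField.toSubalgebra_injective
    apply Subalgebra.toSubmodule_injective
    rw [IntermediateField.top_toSubalgebra, Algebra.top_toSubmodule]
    exact Submodule.eq_top_of_finrank_eq h2
  have h4 := IntermediateField.adjoin_adjoin_left K ({y} : Set F) ({z} : Set F)
  rw [h3, IntermediateField.restrictScalars_top] at h4
  rw [h4]
  rfl

end Generic

/-! ### L2a: `F(M) = ℚ̄(j, j_M)` -/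

section Top

variable (M : ℕ) [NeZero M]

/-- the generator `j_M = jq(q^M)` of the function field of level `M` -/
def jTop : ↥(modularFunctionFieldBar M) :=
  aevalF M (MvPolynomial.X (idxN M))

theorem coe_jTop :
    ((jTop M : ↥(modularFunctionFieldBar M)) : LaurentSeries Lb)
      = qExpand Lb M (coeffEmb Lb jq) := by
  rw [jTop, coe_aevalF, MvPolynomial.aeval_X, gensK]
  have h := Fermat.Agent.S18.Desc.jqK_eq_qExpand Lb (idxN M).1
  rw [Fermat.Agent.S18.Desc.jqK_one] at h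
  exact h

/-- the embeddings at `∞` are already separated by `j_M` -/
theorem mem_Gamma0_of_tauInf_jTop_eq {K : Type*} [Field K] [Algebra ℚ K] (σ : K →+* ℂ)
    (γ γ' : SL(2, ℤ))
    (h : tauInf σ M γ (aevalF M (MvPolynomial.X (idxN M)))
      = tauInf σ M γ' (aevalF M (MvPolynomial.X (idxN M)))) :
    γ⁻¹ * γ' ∈ Gamma0 M := by
  have h1 : genInf M γ (idxN M) = genInf M γ' (idxN M) := by
    simpa only [tauInf_aevalF, phiInf_X] using h
  have h2 : ∀ z : UpperHalfPlane,
      jFunD (idxN M).1 (γ⁻¹ • z) = jFunD (idxN M).1 (γ'⁻¹ • z) := by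
    intro z
    have hg := hasQL_genInf M γ' (idxN M)
    rw [← h1] at hg
    exact HasQL.unique_fun (natCast_pos_real M) (hasQL_genInf M γ (idxN M)) hg z
  exact mem_Gamma0_of_jFunD_smul_eq (idxN M).1 (γ⁻¹ * γ') (fun z => by
    have := h2 (γ' • z)
    rw [inv_smul_smul, ← mul_smul] at this
    exact this)

/-- **L2a.** The function field of `X₀(M)` over `ℚ̄` is generated by `j` and `j_M`. -/
theorem adjoin_jBar_jTop :
    IntermediateField.adjoin Lb ({jBar M, jTop M} : Set ↥(modularFunctionFieldBar M)) = ⊤ := by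
  classical
  haveI := finite_quotient_Gamma0 M
  letI : Fintype (SL(2, ℤ) ⧸ Gamma0 M) := Fintype.ofFinite _
  have hx := isFF1_jBar M
  haveI : FiniteDimensional Lb⟮jBar M⟯ (modularFunctionFieldBar M) := hx.finite
  let τX : (SL(2, ℤ) ⧸ Gamma0 M) → (modularFunctionFieldBar M →+* LaurentSeries ℂ) :=
    Quotient.lift (tauInf iotaQbar M) (fun γ γ' h => by
      rw [tauInf_eq_iff]
      exact QuotientGroup.leftRel_apply.mp h)
  have hτX : ∀ γ : SL(2, ℤ), τX (γ : SL(2, ℤ) ⧸ Gamma0 M) = tauInf iotaQbar M γ := fun γ => rfl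
  have hinj : ∀ g g' : SL(2, ℤ) ⧸ Gamma0 M, τX g (jTop M) = τX g' (jTop M) → g = g' := by
    intro x x' h
    induction x using QuotientGroup.induction_on with
    | H γ =>
      induction x' using QuotientGroup.induction_on with
      | H γ' =>
        rw [hτX, hτX] at h
        exact QuotientGroup.eq.mpr (mem_Gamma0_of_tauInf_jTop_eq M iotaQbar γ γ' h)
  have hK : ∀ (g g' : SL(2, ℤ) ⧸ Gamma0 M) (c : Lb),
      τX g (algebraMap _ _ c) = τX g' (algebraMap _ _ c) := by
    intro x x' c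
    induction x using QuotientGroup.induction_on with
    | H γ =>
      induction x' using QuotientGroup.induction_on with
      | H γ' =>
        rw [hτX, hτX, tauInf_algebraMap, tauInf_algebraMap]
  have hY : ∀ (g g' : SL(2, ℤ) ⧸ Gamma0 M), τX g (jBar M) = τX g' (jBar M) := by
    intro x x'
    induction x using QuotientGroup.induction_on with
    | H γ =>
      induction x' using QuotientGroup.induction_on with
      | H γ' =>
        rw [hτX, hτX, tauInf_jBar, tauInf_jBar]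
  apply adjoin_pair_eq_top (jBar M) (jTop M) τX hinj hK hY
  rw [finrank_jBar, ← Fermat.Agent.Lib.Gamma0Count.card_quotient M, Nat.card_eq_fintype_card]

end Top

/-! ### L2b: generation of the compositum -/

section SpanGeneric

variable {K F₁ F₂ E : Type*} [Field K] [Field F₁] [Field F₂] [Field E]
  [Algebra K F₁] [Algebra K F₂] [Algebra K E] [Algebra F₂ E] [IsScalarTower K F₂ E]
  [Algebra.IsAlgebraic F₂ E]

/-- If `E = K(y, z)` with `y` coming from `F₂` and `z` from `F₁`, then `E` is spanned over `F₂`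
by the image of `F₁`. -/
theorem span_range_eq_top_of_adjoin (V' : F₁ →ₐ[K] E) (y z : E)
    (hy : y ∈ Set.range (algebraMap F₂ E)) (hz : z ∈ Set.range V')
    (htop : IntermediateField.adjoin K ({y, z} : Set E) = ⊤) :
    Submodule.span F₂ (Set.range V') = ⊤ := by
  have h1 : Subalgebra.toSubmodule (Algebra.adjoin F₂ (Set.range V'))
      = Submodule.span F₂ (Set.range V') := by
    rw [Algebra.adjoin_eq_span]
    congr 1
    have : (Set.range V' : Set E) = ((V' : F₁ →+* E).rangeS.toSubmonoid : Set E) := by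
      ext x
      simp
    rw [this, Submonoid.closure_eq]
  have h2 : (IntermediateField.adjoin F₂ (Set.range V')).toSubalgebra
      = Algebra.adjoin F₂ (Set.range V') :=
    IntermediateField.adjoin_toSubalgebra (F := F₂) (E := E) (Set.range V')
  have h3 : IntermediateField.adjoin F₂ (Set.range V') = ⊤ := by
    rw [← IntermediateField.restrictScalars_eq_top_iff (K := K), eq_top_iff, ← htop,
      IntermediateField.adjoin_le_iff]
    rintro x (rfl | rfl)
    · obtain ⟨u, rfl⟩ := hy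
      exact (IntermediateField.adjoin F₂ (Set.range V')).algebraMap_mem u
    · exact IntermediateField.subset_adjoin F₂ _ hz
  rw [← h1, ← h2, h3, IntermediateField.top_toSubalgebra, Algebra.top_toSubmodule]

end SpanGeneric

section Square

variable (N b ℓ : ℕ) [NeZero N] [NeZero b] [NeZero ℓ]

theorem alpha_jBar :
    heckeAlphaBar Lb (N * b) ℓ (jBar (N * b)) = jBar (N * b * ℓ) := by
  apply Subtype.ext
  rw [coe_heckeAlphaBar]
  rfl

theorem Vprime_jTop :
    Fermat.Agent.S37.AL.VprimeBar N b ℓ (jTop (N * ℓ)) = jTop (N * b * ℓ) := by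
  apply Subtype.ext
  rw [Fermat.Agent.S37.AL.coe_VprimeBar, coe_jTop, coe_jTop, qExpand_qExpand]
  exact qExpand_congr (by ring) _

/-- **L2b.** `F(N b ℓ)` is spanned over `F(N b)` by the image of `V' : F(N ℓ) → F(N b ℓ)`. -/
theorem span_range_Vprime :
    letI := algebraAlong (heckeAlphaBar Lb (N * b) ℓ)
    Submodule.span (modularFunctionFieldBar (N * b))
      (Set.range (Fermat.Agent.S37.AL.VprimeBar N b ℓ)) = ⊤ := by
  letI := algebraAlong (heckeAlphaBar Lb (N * b) ℓ)
  haveI := isScalarTower_along (heckeAlphaBar Lb (N * b) ℓ)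
  haveI : Module.Finite (modularFunctionFieldBar (N * b)) (modularFunctionFieldBar (N * b * ℓ)) :=
    Fermat.Agent.S37.H.finiteAlong_alpha (N * b) ℓ
  haveI : Algebra.IsAlgebraic (modularFunctionFieldBar (N * b))
      (modularFunctionFieldBar (N * b * ℓ)) := Algebra.IsAlgebraic.of_finite _ _
  exact span_range_eq_top_of_adjoin (K := Lb) (Fermat.Agent.S37.AL.VprimeBar N b ℓ)
    (jBar (N * b * ℓ)) (jTop (N * b * ℓ)) ⟨jBar (N * b), alpha_jBar N b ℓ⟩
    ⟨jTop (N * ℓ), Vprime_jTop N b ℓ⟩ (adjoin_jBar_jTop (N * b * ℓ))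

/-- **The square data** for `V_b` and `T_ℓ` (`ℓ` prime, `ℓ ∤ N b`). -/
def squareData (hℓ : ℓ.Prime) (hNb : ¬ ℓ ∣ N * b) : Fermat.Agent.S37.L.SquareData N b ℓ where
  V' := Fermat.Agent.S37.AL.VprimeBar N b ℓ
  comm_alpha := Fermat.Agent.S37.AL.alpha_comp_beta N b ℓ
  comm_beta := Fermat.Agent.S37.AL.beta_comp_beta N b ℓ
  rank_eq := by
    have hN : ¬ ℓ ∣ N := fun h => hNb (Dvd.dvd.mul_right h b)
    have h1 := Fermat.Agent.S37.AL.finrank_alpha (N := N * b) hℓ hNb
    have h2 := Fermat.Agent.S37.AL.finrank_alpha (N := N) hℓ hN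
    show finrankAlong Lb (heckeAlphaBar Lb (N * b) ℓ) = finrankAlong Lb (heckeAlphaBar Lb N ℓ)
    unfold finrankAlong
    rw [h1, h2]
  span_eq := span_range_Vprime N b ℓ

/-- **`V_b^* T_ℓ = T_ℓ V_b^*` on `Pic⁰`**, unconditionally (`ℓ` prime, `ℓ ∤ N b`). -/
theorem pull_hecke_uncond (hℓ : ℓ.Prime) (hNb : ¬ ℓ ∣ N * b) (x : JZero N) :
    Fermat.Agent.S37.VI.pullPic0 (heckeBetaBar Lb N b) (Fermat.Agent.S37.H.betaInt N b)
        (Fermat.Agent.S37.H.fundamentalIdentity_beta N b) (heckeOperatorBar N ⟨ℓ, hℓ⟩ x)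
      = heckeOperatorBar (N * b) ⟨ℓ, hℓ⟩
        (Fermat.Agent.S37.VI.pullPic0 (heckeBetaBar Lb N b) (Fermat.Agent.S37.H.betaInt N b)
          (Fermat.Agent.S37.H.fundamentalIdentity_beta N b) x) :=
  Fermat.Agent.S37.L.pull_hecke (squareData N b ℓ hℓ hNb) hℓ x

end Square

end Fermat.Agent.S37.L2
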