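import Mathlib
import Fermat.Agent.S18.DeuringLoc

/-!
# S37 (C78), lemma (EV): evaluation is compatible with Deuring's reduction

For a Deuring setup `S` with place map `r = rmap S`: if `Red x a`, `P` is a place of `F` and `x` is
regular at every place of the fibre `r⁻¹(r P)` ("no pole of `x` reduces to `r P`"), then the value
`x(P) ∈ L` lies in `A`, `a` is regular at `r P`, and `res (x(P)) = a(r P)`.

"`x(P) = c`" is written `x = algebraMap L F c ∨ 0 < P.ord (x - algebraMap L F c)` (the first
alternative only because `ord 0 = 0` in this library).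
-/

set_option autoImplicit false
set_option linter.unusedSectionVars false
set_option linter.unusedVariables false

open AlgebraicCurve Fermat.Agent.Lib.FF Fermat.Agent.S18.Deuring
open scoped Classical

namespace Fermat.Agent.S37.EV

variable {L k F Fk : Type*} [Field L] [Field k] [Field F] [Field Fk] [Algebra L F] [Algebra k Fk]
variable {A : ValuationSubring L} {res : A →+* k} {Red : F → Fk → Prop}
  {D : Divisor L F} {Dk : Divisor k Fk} {g : ℕ} {c : ℤ}

/-- "`x(P) = v`" -/
@[reducible] def IsVal {K F' : Type*} [Field K] [Field F'] [Algebra K F'] (P : Place K F') (x : F') (v : K) :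
    Prop :=
  x = algebraMap K F' v ∨ 0 < P.ord (x - algebraMap K F' v)

section Val

variable {K F' : Type*} [Field K] [Field F'] [Algebra K F']

theorem isVal_of_pos {P : Place K F'} {x : F'} {v : K}
    (h : 0 < P.ord (x - algebraMap K F' v)) : IsVal P x v := Or.inr h

theorem isVal_algebraMap (P : Place K F') (v : K) : IsVal P (algebraMap K F' v) v := Or.inl rfl

theorem IsVal.ord_sub_nonneg {P : Place K F'} {x : F'} {v : K} (h : IsVal P x v) :
    0 ≤ P.ord (x - algebraMap K F' v) := by
  rcases h with h | h
  · rw [h, sub_self, Place.ord_zero]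
  · exact h.le

theorem IsVal.ord_nonneg {P : Place K F'} {x : F'} {v : K} (h : IsVal P x v) :
    0 ≤ P.ord x := by
  rcases h with h | h
  · rw [h]
    rw [ord_algebraMap P v]
  · by_contra hneg
    rw [not_le] at hneg
    have hx0 : x ≠ 0 := by
      rintro rfl
      rw [Place.ord_zero] at hneg
      exact lt_irrefl _ hneg
    by_cases hv : v = 0
    · rw [hv, map_zero, sub_zero] at h
      omega
    · have h2 : P.ord x < P.ord (-algebraMap K F' v) := by
        rw [ord_neg, ord_algebraMap P v]
        exact hneg
      have := ord_add_of_lt P h2 hx0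
      rw [← sub_eq_add_neg] at this
      omega

theorem exists_isVal (P : Place K F') (hres : Function.Surjective (algebraMap K P.ResidueField))
    {x : F'} (hx : 0 ≤ P.ord x) : ∃ v : K, IsVal P x v :=
  exists_eq_or_ord_sub_pos P hres x hx

theorem IsVal.sub_ne {P : Place K F'} {x : F'} {v w : K} (h : IsVal P x v) (hvw : v ≠ w) :
    P.ord (x - algebraMap K F' w) = 0 := by
  have hc : algebraMap K F' (v - w) ≠ 0 := (map_ne_zero _).2 (sub_ne_zero.2 hvw)
  have hco : P.ord (algebraMap K F' (v - w)) = 0 := ord_algebraMap P (v - w)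
  rcases h with h | h
  · rw [h, ← map_sub, hco]
  · have heq : x - algebraMap K F' w = algebraMap K F' (v - w) + (x - algebraMap K F' v) := by
      rw [map_sub]
      ring
    have h2 : P.ord (algebraMap K F' (v - w)) < P.ord (x - algebraMap K F' v) := by
      rw [hco]
      exact h
    rw [heq, ord_add_of_lt P h2 hc, hco]

/-- the value is unique -/
theorem IsVal.unique {P : Place K F'} {x : F'} {v w : K} (h : IsVal P x v) (h' : IsVal P x w) :
    v = w := by
  by_contra hvw
  have h0 := h.sub_ne hvw
  rcases h' with h' | h'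
  · rw [h', sub_self, Place.ord_zero] at h0
    rcases h with h | h
    · rw [h] at h'
      exact hvw ((algebraMap K F').injective h')
    · rw [h', ← map_sub, ord_algebraMap P (w - v)] at h
      exact lt_irrefl _ h
  · omega

end Val

section EV

variable (S : Setup A res Red D Dk g c) [Infinite k]

/-- **(EV)** evaluation is compatible with reduction: if `Red x a` and no pole of `x` reduces to
`r P`, then `x(P) ∈ A` and `res (x(P)) = a(r P)`. (No hypothesis `a ≠ 0`.) -/
theorem ev {x : F} {a : Fk} (hxa : Red x a) {P : Place L F}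
    (hreg : ∀ P', rmap S P' = rmap S P → 0 ≤ P'.ord x) {v : L} (hv : IsVal P x v) :
    ∃ u : A, (u : L) = v ∧ IsVal (rmap S P) a (res u) := by
  have hxnn : ∀ w : L, ∀ P', rmap S P' = rmap S P → 0 ≤ P'.ord (x - algebraMap L F w) :=
    fun w P' hP' => ord_sub_algebraMap_nonneg P' (hreg P' hP') w
  rcases S.ax.mem_or v with ⟨u, hu⟩ | ⟨hv0, u, hu, hu0⟩
  · refine ⟨u, hu, ?_⟩
    have h1 : Red (x - algebraMap L F v) (a - algebraMap k Fk (res u)) := by
      have := S.ax.sub hxa (S.ax.const u)
      rwa [hu] at this
    by_cases h0 : a - algebraMap k Fk (res u) = 0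
    · exact Or.inl (sub_eq_zero.1 h0)
    · right
      rcases hv with hv | hv
      · exfalso
        rw [hv, sub_self] at h1
        exact h0 (S.ax.unique h1 S.ax.zero)
      · have := ord_le_of_fibre S h1 h0 (hxnn v) (P₁ := P) rfl
        omega
  · exfalso
    have hu0' : (u : L) ≠ 0 := by rw [hu]; exact inv_ne_zero hv0
    have h1 : Red (1 - (u : L) • x) (1 - algebraMap k Fk (res u) * a) :=
      S.ax.sub S.ax.one (S.ax.smul u hxa)
    rw [hu0, map_zero, zero_mul, sub_zero] at h1
    have hy : 1 - (u : L) • x = -((u : L) • (x - algebraMap L F v)) := by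
      rw [smul_sub, Algebra.smul_def (u : L) (algebraMap L F v), ← map_mul, hu,
        inv_mul_cancel₀ hv0, map_one]
      ring
    rw [hy] at h1
    have hord : ∀ P' : Place L F, P'.ord (-((u : L) • (x - algebraMap L F v)))
        = P'.ord (x - algebraMap L F v) := fun P' => by
      rw [ord_neg, ord_smul_of_ne_zero P' hu0']
    rcases hv with hv | hv
    · rw [hv, sub_self, smul_zero, neg_zero] at h1
      exact one_ne_zero (S.ax.unique h1 S.ax.zero)
    · have := ord_le_of_fibre S h1 one_ne_zero
        (fun P' hP' => by rw [hord]; exact hxnn v P' hP') (P₁ := P) rfl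
      rw [hord, Place.ord_one] at this
      omega

/-- (EV), existence form: the value of `x` at `P` exists, is integral, and reduces to the value
of `a` at `r P`. -/
theorem exists_ev {x : F} {a : Fk} (hxa : Red x a) {P : Place L F}
    (hreg : ∀ P', rmap S P' = rmap S P → 0 ≤ P'.ord x) :
    ∃ u : A, IsVal P x (u : L) ∧ IsVal (rmap S P) a (res u) := by
  obtain ⟨v, hv⟩ := exists_isVal P (S.hpf.res P) (hreg P rfl)
  obtain ⟨u, hu, hua⟩ := ev S hxa hreg hv
  exact ⟨u, hu ▸ hv, hua⟩

/-- under the pole condition the reduction is regular at `r P` -/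
theorem ord_red_nonneg {x : F} {a : Fk} (hxa : Red x a) {P : Place L F}
    (hreg : ∀ P', rmap S P' = rmap S P → 0 ≤ P'.ord x) : 0 ≤ (rmap S P).ord a := by
  obtain ⟨u, -, hua⟩ := exists_ev S hxa hreg
  exact hua.ord_nonneg

end EV

end Fermat.Agent.S37.EV
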