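import Mathlib
import Fermat.Agent.S37.Eval

/-!
# S37 (C78), piece MC3 (core): values of polynomials and the polynomial form of (EV)

* `IsVal` is compatible with sums and products; `PolyVal P p q` ("the coefficients of `p ∈ F[X]`
  take the values of the coefficients of `q ∈ K[X]` at `P`") is compatible with products;
* `polyEv`: (EV) coefficient by coefficient;
* `prod_eq_of_red`: the abstract polynomial identity behind the Eichler–Shimura congruence:
  if `Qf ∈ F[X]` reduces coefficientwise to `(X - b₁) (X^ℓ - b₂)`, specialises at `P` to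
  `∏ (X - v_i)^{e_i}` with `v_i ∈ A`, and `b₁(rP) = w₁`, `b₂(rP) = w₂^ℓ`, then
  `∏ (X - res v_i)^{e_i} = (X - w₁) (X - w₂)^ℓ` in `k[X]`.
-/

set_option autoImplicit false
set_option linter.unusedSectionVars false
set_option linter.unusedVariables false

open AlgebraicCurve Fermat.Agent.Lib.FF Fermat.Agent.S18.Deuring Polynomial
open scoped Classical

namespace Fermat.Agent.S37.EV

section ValAlg

variable {K F' : Type*} [Field K] [Field F'] [Algebra K F']

/-- "`z` vanishes at `P`" -/
def InM (P : Place K F') (z : F') : Prop := z = 0 ∨ 0 < P.ord z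

theorem isVal_iff_inM {P : Place K F'} {x : F'} {v : K} :
    IsVal P x v ↔ InM P (x - algebraMap K F' v) := by
  unfold InM
  rw [sub_eq_zero]

theorem InM.add {P : Place K F'} {z₁ z₂ : F'} (h₁ : InM P z₁) (h₂ : InM P z₂) :
    InM P (z₁ + z₂) := by
  by_cases h0 : z₁ + z₂ = 0
  · exact Or.inl h0
  rcases h₁ with rfl | h₁
  · rw [zero_add]
    exact h₂
  rcases h₂ with rfl | h₂
  · rw [add_zero]
    exact Or.inr h₁
  right
  have := ord_add P h0
  exact lt_of_lt_of_le (lt_min h₁ h₂) this

theorem InM.mul_right {P : Place K F'} {z y : F'} (h : InM P z) (hy : 0 ≤ P.ord y) :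
    InM P (z * y) := by
  rcases h with rfl | h
  · left
    rw [zero_mul]
  by_cases hy0 : y = 0
  · left
    rw [hy0, mul_zero]
  have hz0 : z ≠ 0 := by
    rintro rfl
    rw [Place.ord_zero] at h
    exact lt_irrefl _ h
  right
  rw [Place.ord_mul P hz0 hy0]
  omega

theorem InM.neg {P : Place K F'} {z : F'} (h : InM P z) : InM P (-z) := by
  rcases h with rfl | h
  · left
    rw [neg_zero]
  · right
    rwa [ord_neg]

theorem isVal_zero (P : Place K F') : IsVal P (0 : F') (0 : K) := by
  left
  rw [map_zero]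

theorem isVal_one (P : Place K F') : IsVal P (1 : F') (1 : K) := by
  left
  rw [map_one]

theorem IsVal.add {P : Place K F'} {x y : F'} {v w : K} (h : IsVal P x v) (h' : IsVal P y w) :
    IsVal P (x + y) (v + w) := by
  rw [isVal_iff_inM] at h h' ⊢
  have := h.add h'
  rwa [show x - algebraMap K F' v + (y - algebraMap K F' w)
    = x + y - algebraMap K F' (v + w) by rw [map_add]; ring] at this

theorem IsVal.neg {P : Place K F'} {x : F'} {v : K} (h : IsVal P x v) : IsVal P (-x) (-v) := by
  rw [isVal_iff_inM] at h ⊢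
  have := h.neg
  rwa [show -(x - algebraMap K F' v) = -x - algebraMap K F' (-v) by rw [map_neg]; ring] at this

theorem IsVal.sub {P : Place K F'} {x y : F'} {v w : K} (h : IsVal P x v) (h' : IsVal P y w) :
    IsVal P (x - y) (v - w) := by
  rw [sub_eq_add_neg, sub_eq_add_neg]
  exact h.add h'.neg

theorem IsVal.mul {P : Place K F'} {x y : F'} {v w : K} (h : IsVal P x v) (h' : IsVal P y w) :
    IsVal P (x * y) (v * w) := by
  have hy := h'.ord_nonneg
  rw [isVal_iff_inM] at h h' ⊢
  have h1 := h.mul_right hy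
  have h2 := h'.mul_right (y := algebraMap K F' v) (by rw [ord_algebraMap])
  have := h1.add h2
  rwa [show (x - algebraMap K F' v) * y + (y - algebraMap K F' w) * algebraMap K F' v
    = x * y - algebraMap K F' (v * w) by rw [map_mul]; ring] at this

theorem IsVal.pow {P : Place K F'} {x : F'} {v : K} (h : IsVal P x v) (n : ℕ) :
    IsVal P (x ^ n) (v ^ n) := by
  induction n with
  | zero => simpa using isVal_one P
  | succ n ih =>
    rw [pow_succ, pow_succ]
    exact ih.mul h

theorem IsVal.sum {P : Place K F'} {ι : Type*} (s : Finset ι) {x : ι → F'} {v : ι → K}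
    (h : ∀ i ∈ s, IsVal P (x i) (v i)) : IsVal P (∑ i ∈ s, x i) (∑ i ∈ s, v i) := by
  induction s using Finset.induction_on with
  | empty => simpa using isVal_zero P
  | insert a s ha ih =>
    rw [Finset.sum_insert ha, Finset.sum_insert ha]
    exact (h a (Finset.mem_insert_self a s)).add
      (ih (fun i hi => h i (Finset.mem_insert_of_mem hi)))

/-- the coefficients of `p` take the values of the coefficients of `q` at `P` -/
def PolyVal (P : Place K F') (p : F'[X]) (q : K[X]) : Prop :=
  ∀ i, IsVal P (p.coeff i) (q.coeff i)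

theorem PolyVal.unique {P : Place K F'} {p : F'[X]} {q q' : K[X]} (h : PolyVal P p q)
    (h' : PolyVal P p q') : q = q' := by
  ext i
  exact (h i).unique (h' i)

theorem polyVal_map (P : Place K F') (q : K[X]) : PolyVal P (q.map (algebraMap K F')) q := by
  intro i
  rw [coeff_map]
  exact isVal_algebraMap P _

theorem PolyVal.one (P : Place K F') : PolyVal P (1 : F'[X]) (1 : K[X]) := by
  have := polyVal_map P (1 : K[X])
  rwa [Polynomial.map_one] at this

theorem PolyVal.mul {P : Place K F'} {p p' : F'[X]} {q q' : K[X]} (h : PolyVal P p q)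
    (h' : PolyVal P p' q') : PolyVal P (p * p') (q * q') := by
  intro n
  rw [coeff_mul, coeff_mul]
  exact IsVal.sum _ (fun ij _ => (h ij.1).mul (h' ij.2))

theorem PolyVal.add {P : Place K F'} {p p' : F'[X]} {q q' : K[X]} (h : PolyVal P p q)
    (h' : PolyVal P p' q') : PolyVal P (p + p') (q + q') := by
  intro n
  rw [coeff_add, coeff_add]
  exact (h n).add (h' n)

theorem PolyVal.sub {P : Place K F'} {p p' : F'[X]} {q q' : K[X]} (h : PolyVal P p q)
    (h' : PolyVal P p' q') : PolyVal P (p - p') (q - q') := by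
  intro n
  rw [coeff_sub, coeff_sub]
  exact (h n).sub (h' n)

theorem PolyVal.const {P : Place K F'} {x : F'} {v : K} (h : IsVal P x v) :
    PolyVal P (Polynomial.C x) (Polynomial.C v) := by
  intro n
  rw [coeff_C, coeff_C]
  split_ifs
  · exact h
  · exact isVal_zero P

theorem PolyVal.X_pow (P : Place K F') (n : ℕ) : PolyVal P (X ^ n : F'[X]) (X ^ n : K[X]) := by
  have := polyVal_map P (X ^ n : K[X])
  rwa [Polynomial.map_pow, Polynomial.map_X] at this

theorem PolyVal.X_sub_C {P : Place K F'} {x : F'} {v : K} (h : IsVal P x v) :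
    PolyVal P (X - C x) (X - C v) := by
  have h1 := PolyVal.X_pow P 1
  rw [pow_one, pow_one] at h1
  exact h1.sub (PolyVal.const h)

theorem PolyVal.X_pow_sub_C {P : Place K F'} {x : F'} {v : K} (h : IsVal P x v) (n : ℕ) :
    PolyVal P (X ^ n - C x) (X ^ n - C v) :=
  (PolyVal.X_pow P n).sub (PolyVal.const h)

theorem PolyVal.pow {P : Place K F'} {p : F'[X]} {q : K[X]} (h : PolyVal P p q) (n : ℕ) :
    PolyVal P (p ^ n) (q ^ n) := by
  induction n with
  | zero => simpa using PolyVal.one P
  | succ n ih =>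
    rw [pow_succ, pow_succ]
    exact ih.mul h

theorem PolyVal.prod {P : Place K F'} {ι : Type*} (s : Finset ι) {p : ι → F'[X]}
    {q : ι → K[X]} (h : ∀ i ∈ s, PolyVal P (p i) (q i)) :
    PolyVal P (∏ i ∈ s, p i) (∏ i ∈ s, q i) := by
  induction s using Finset.induction_on with
  | empty => simpa using PolyVal.one P
  | insert a s ha ih =>
    rw [Finset.prod_insert ha, Finset.prod_insert ha]
    exact (h a (Finset.mem_insert_self a s)).mul
      (ih (fun i hi => h i (Finset.mem_insert_of_mem hi)))

end ValAlg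

section PolyEV

variable {L k F Fk : Type*} [Field L] [Field k] [Field F] [Field Fk] [Algebra L F] [Algebra k Fk]
variable {A : ValuationSubring L} {res : A →+* k} {Red : F → Fk → Prop}
  {D : Divisor L F} {Dk : Divisor k Fk} {g : ℕ} {c : ℤ}
variable (S : Setup A res Red D Dk g c) [Infinite k]

/-- **(EV) for polynomials**: if `p` reduces coefficientwise to `pk`, no pole of a coefficient of
`p` reduces to `r P`, and `p` specialises at `P` to (the image of) `pA ∈ A[X]`, then `pk`
specialises at `r P` to `pA mod 𝔪`. -/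
theorem polyEv {p : F[X]} {pk : Fk[X]} (hred : ∀ i, Red (p.coeff i) (pk.coeff i))
    {P : Place L F}
    (hreg : ∀ i, ∀ P', rmap S P' = rmap S P → 0 ≤ P'.ord (p.coeff i))
    (pA : A[X]) (hval : PolyVal P p (pA.map A.subtype)) :
    PolyVal (rmap S P) pk (pA.map res) := by
  intro i
  obtain ⟨u, hu, hua⟩ := ev S (hred i) (hreg i) (hval i)
  rw [coeff_map] at hu ⊢
  have : u = pA.coeff i := Subtype.ext hu
  rwa [this] at hua

/-- the same, with the integrality of the specialisation as a conclusion -/
theorem exists_polyEv {p : F[X]} {pk : Fk[X]} (hred : ∀ i, Red (p.coeff i) (pk.coeff i))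
    {P : Place L F}
    (hreg : ∀ i, ∀ P', rmap S P' = rmap S P → 0 ≤ P'.ord (p.coeff i))
    (q : L[X]) (hval : PolyVal P p q) :
    ∃ pA : A[X], pA.map A.subtype = q ∧ PolyVal (rmap S P) pk (pA.map res) := by
  have hu : ∀ i, ∃ u : A, (u : L) = q.coeff i ∧ IsVal (rmap S P) (pk.coeff i) (res u) :=
    fun i => ev S (hred i) (hreg i) (hval i)
  choose u hu hua using hu
  have hfin : ∀ i, i ∉ q.support → u i = 0 := by
    intro i hi
    apply Subtype.ext
    rw [hu i]
    simpa using hi
  set pA : A[X] := ∑ i ∈ q.support, Polynomial.monomial i (u i) with hpA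
  have hcoeff : ∀ i, pA.coeff i = u i := by
    intro i
    rw [hpA, Polynomial.finsetSum_coeff]
    simp only [Polynomial.coeff_monomial]
    rw [Finset.sum_ite_eq']
    split_ifs with h
    · rfl
    · exact (hfin i h).symm
  refine ⟨pA, ?_, ?_⟩
  · ext i
    rw [coeff_map, hcoeff]
    exact hu i
  · intro i
    rw [coeff_map, hcoeff]
    exact hua i

/-- **(MC3 core)** the abstract polynomial identity behind the Eichler–Shimura congruence. -/
theorem prod_eq_of_red (ℓ : ℕ) [Fact ℓ.Prime] [CharP k ℓ] {Qf : F[X]} {b₁ b₂ : Fk}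
    (hred : ∀ i, Red (Qf.coeff i) (((X - Polynomial.C b₁) * (X ^ ℓ - Polynomial.C b₂) : Fk[X]).coeff i))
    {P : Place L F}
    (hreg : ∀ i, ∀ P', rmap S P' = rmap S P → 0 ≤ P'.ord (Qf.coeff i))
    {ι : Type*} (s : Finset ι) (v : ι → A) (e : ι → ℕ)
    (hspec : PolyVal P Qf (∏ i ∈ s, (X - Polynomial.C ((v i : A) : L)) ^ e i))
    {w₁ w₂ : k} (h₁ : IsVal (rmap S P) b₁ w₁) (h₂ : IsVal (rmap S P) b₂ (w₂ ^ ℓ)) :
    ∏ i ∈ s, (X - Polynomial.C (res (v i))) ^ e i
      = (X - Polynomial.C w₁) * (X - Polynomial.C w₂) ^ ℓ := by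
  set pA : A[X] := ∏ i ∈ s, (X - Polynomial.C (v i)) ^ e i with hpA
  have hmapL : pA.map A.subtype = ∏ i ∈ s, (X - Polynomial.C ((v i : A) : L)) ^ e i := by
    rw [hpA, Polynomial.map_prod]
    refine Finset.prod_congr rfl (fun i _ => ?_)
    rw [Polynomial.map_pow, Polynomial.map_sub, Polynomial.map_X, Polynomial.map_C]
    rfl
  have hmapk : pA.map res = ∏ i ∈ s, (X - Polynomial.C (res (v i))) ^ e i := by
    rw [hpA, Polynomial.map_prod]
    refine Finset.prod_congr rfl (fun i _ => ?_)
    rw [Polynomial.map_pow, Polynomial.map_sub, Polynomial.map_X, Polynomial.map_C]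
  have h1 := polyEv S hred hreg pA (by rw [hmapL]; exact hspec)
  have h2 : PolyVal (rmap S P) ((X - Polynomial.C b₁) * (X ^ ℓ - Polynomial.C b₂) : Fk[X])
      ((X - Polynomial.C w₁) * (X ^ ℓ - Polynomial.C (w₂ ^ ℓ))) :=
    (PolyVal.X_sub_C h₁).mul (PolyVal.X_pow_sub_C h₂ ℓ)
  have h3 := h1.unique h2
  rw [← hmapk, h3]
  congr 1
  rw [sub_pow_char, ← Polynomial.C_pow]

end PolyEV

end Fermat.Agent.S37.EV
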