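import Fermat.Agent.S37.MainAbsLift

/-!
# S37 (C78), piece M, abstract core II: the multiset argument

`IsVal P f v`: the function `f` takes the value `v` at the place `P`.

`mapDomain_eq_of_charpoly` (**M-abs**): if for all `f ∈ L(n • D₁)` with `Red f a` the polynomial
`∏_{Q ∈ supp E} (X - res f(Q))^{E(Q)}` equals `∏_{Q ∈ supp Ek} (X - a(Q))^{Ek(Q)}`, then
`r_* E = Ek`.
-/

set_option autoImplicit false
set_option linter.unusedSectionVars false
set_option linter.style.haveILetI false
set_option linter.unusedVariables false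

open AlgebraicCurve Fermat.Agent.Lib.FF Fermat.Agent.S18.Deuring Polynomial
open scoped Classical

namespace Fermat.Agent.S37.M

section Val

variable {K F : Type*} [Field K] [Field F] [Algebra K F]

/-- `f` takes the value `v` at the place `P` -/
def IsVal (P : Place K F) (f : F) (v : K) : Prop :=
  f = algebraMap K F v ∨ 0 < P.ord (f - algebraMap K F v)

theorem isVal_iff {P : Place K F} {f : F} {v : K} :
    IsVal P f v ↔ f = algebraMap K F v ∨ 0 < P.ord (f - algebraMap K F v) := Iff.rfl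

theorem isVal_algebraMap (P : Place K F) (v : K) : IsVal P (algebraMap K F v) v := Or.inl rfl

theorem isVal_zero_of_ord_pos {P : Place K F} {f : F} (h : 0 < P.ord f) : IsVal P f 0 := by
  right
  rwa [map_zero, sub_zero]

theorem IsVal.ord_nonneg {P : Place K F} {f : F} {v : K} (h : IsVal P f v) : 0 ≤ P.ord f := by
  rcases h with h | h
  · rw [h, ord_algebraMap]
  · by_contra hneg
    rw [not_le] at hneg
    have hf0 : f ≠ 0 := by
      rintro rfl
      rw [P.ord_zero] at hneg
      exact lt_irrefl _ hneg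
    by_cases hv : v = 0
    · rw [hv, map_zero, sub_zero] at h
      omega
    have hv' : algebraMap K F v ≠ 0 := (_root_.map_ne_zero _).mpr hv
    have h1 : P.ord (f - algebraMap K F v) = P.ord f := by
      have h2 : P.ord f < P.ord (-(algebraMap K F v)) := by
        rw [ord_neg, ord_algebraMap]; exact hneg
      have := ord_add_of_lt P h2 hf0
      rwa [← sub_eq_add_neg] at this
    omega

theorem IsVal.unique {P : Place K F} {f : F} {v v' : K} (h : IsVal P f v) (h' : IsVal P f v') :
    v = v' := by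
  by_contra hne
  have hc : algebraMap K F (v' - v) ≠ 0 := (_root_.map_ne_zero _).mpr (sub_ne_zero.mpr (Ne.symm hne))
  have hord : P.ord (algebraMap K F (v' - v)) = 0 := ord_algebraMap P _
  have heq : (f - algebraMap K F v) - (f - algebraMap K F v') = algebraMap K F (v' - v) := by
    rw [map_sub]; ring
  rcases h with h | h <;> rcases h' with h' | h'
  · rw [h] at h'
    exact hne ((algebraMap K F).injective h')
  · rw [h, ← map_sub] at h'
    rw [ord_algebraMap] at h'
    exact lt_irrefl _ h'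
  · rw [h', ← map_sub] at h
    rw [ord_algebraMap] at h
    exact lt_irrefl _ h
  · have := ord_sub P (f := f - algebraMap K F v) (g := f - algebraMap K F v') (by rw [heq]; exact hc)
    rw [heq, hord] at this
    have := lt_min h h'
    omega

/-- a function regular at `P` has a value at `P` -/
theorem exists_isVal {P : Place K F}
    (hres : Function.Surjective (algebraMap K P.ResidueField)) {f : F} (h : 0 ≤ P.ord f) :
    ∃ v : K, IsVal P f v := by
  have hmem : f ∈ P.toValuationSubring := mem_of_ord_nonneg P h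
  obtain ⟨a, ha⟩ := hres (IsLocalRing.residue _ ⟨f, hmem⟩)
  refine ⟨a, ?_⟩
  have h1 : (⟨f, hmem⟩ - algebraMap K P.toValuationSubring a : P.toValuationSubring) ∈
      IsLocalRing.maximalIdeal P.toValuationSubring := by
    rw [← IsLocalRing.residue_eq_zero_iff, map_sub, sub_eq_zero, ← ha]
    exact IsScalarTower.algebraMap_apply K P.toValuationSubring P.ResidueField a
  rw [mem_maximalIdeal_iff] at h1
  rcases h1 with h1 | h1
  · left
    exact sub_eq_zero.mp h1
  · right
    exact h1

theorem IsVal.ne_zero_of_ord_eq_zero {P : Place K F} {f : F} {v : K} (h : IsVal P f v)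
    (hf0 : f ≠ 0) (hord : P.ord f = 0) : v ≠ 0 := by
  rintro rfl
  rcases h with h | h
  · rw [map_zero] at h
    exact hf0 h
  · rw [map_zero, sub_zero, hord] at h
    exact lt_irrefl _ h

end Val

theorem count_roots_prod {k ι : Type*} [Field k] (s : Finset ι) (cf : ι → k)
    (m : ι → ℕ) :
    (∏ i ∈ s, (X - C (cf i)) ^ m i).roots.count 0 = ∑ i ∈ s, if cf i = 0 then m i else 0 := by
  have hne : ∏ i ∈ s, (X - C (cf i)) ^ m i ≠ 0 :=
    Finset.prod_ne_zero_iff.mpr (fun i _ => pow_ne_zero _ (X_sub_C_ne_zero _))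
  rw [roots_prod _ _ hne, Multiset.count_bind]
  simp only [roots_pow, roots_X_sub_C, Multiset.count_nsmul, Multiset.count_singleton]
  rw [Finset.sum_eq_multiset_sum]
  congr 1
  refine Multiset.map_congr rfl fun i _ => ?_
  split_ifs with h1 h2 h2
  · simp
  · exact absurd h1.symm h2
  · exact absurd h2.symm h1
  · simp

variable {L k F Fk : Type*} [Field L] [Field k] [Field F] [Field Fk] [Algebra L F] [Algebra k Fk]
variable {A : ValuationSubring L} {res : A →+* k} {Red : F → Fk → Prop}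
  {D : Divisor L F} {Dk : Divisor k Fk} {g : ℕ} {c : ℤ}
variable (S : Setup A res Red D Dk g c) [Infinite k]

/-- the evaluation property (EV) of the reduction of places -/
def EVProp : Prop :=
  ∀ (f : F) (a : Fk), Red f a → a ≠ 0 → ∀ P₀ : Place L F,
    (∀ P, rmap S P = rmap S P₀ → 0 ≤ P.ord f) →
    ∃ u : A, IsVal P₀ f (u : L) ∧ IsVal (rmap S P₀) a (res u)

/-- **(M-abs)**: the multiset argument. -/
theorem mapDomain_eq_of_charpoly (hEV : EVProp S)
    (E : Divisor L F) (hE : 0 ≤ E) (Ek : Divisor k Fk) (hEk : 0 ≤ Ek)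
    (D₁ : Divisor L F) (hD₁ : 0 ≤ D₁) (hdeg : 0 < Divisor.degree D₁)
    (hdisjE : ∀ P Q, D₁ P ≠ 0 → E Q ≠ 0 → rmap S P ≠ rmap S Q)
    (hdisjEk : ∀ P, D₁ P ≠ 0 → Ek (rmap S P) = 0)
    (hyp : ∀ (n : ℕ) (f : F) (a : Fk), f ∈ riemannRochSpace (n • D₁) → Red f a → a ≠ 0 →
      ∀ (v : Place L F → A) (w : Place k Fk → k),
        (∀ Q, E Q ≠ 0 → IsVal Q f (v Q : L)) → (∀ Q, Ek Q ≠ 0 → IsVal Q a (w Q)) →
        ∏ Q ∈ E.support, (X - C (res (v Q))) ^ (E Q).toNat
          = ∏ Q ∈ Ek.support, (X - C (w Q)) ^ (Ek Q).toNat) :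
    Finsupp.mapDomain (rmap S) E = Ek := by
  ext Q₀
  set T : Finset (Place k Fk) := E.support.image (rmap S) ∪ Ek.support with hT
  have hEnn : ∀ P, 0 ≤ E P := fun P => by
    have := Finsupp.le_def.mp hE P
    simpa using this
  have hEknn : ∀ Q, 0 ≤ Ek Q := fun Q => by
    have := Finsupp.le_def.mp hEk Q
    simpa using this
  by_cases hQ₀T : Q₀ ∈ T
  swap
  · have h1 : Ek Q₀ = 0 := by
      by_contra h
      exact hQ₀T (Finset.mem_union_right _ (Finsupp.mem_support_iff.mpr h))
    rw [h1, mapDomain_apply_sum]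
    refine Finset.sum_eq_zero fun P hP => ?_
    rw [if_neg]
    intro h
    exact hQ₀T (Finset.mem_union_left _ (Finset.mem_image.mpr ⟨P, hP, h⟩))
  have hTD : ∀ P, D₁ P ≠ 0 → rmap S P ∉ T := by
    intro P hP hmem
    rcases Finset.mem_union.mp hmem with h | h
    · obtain ⟨Q, hQ, hQP⟩ := Finset.mem_image.mp h
      exact hdisjE P Q hP (Finsupp.mem_support_iff.mp hQ) hQP.symm
    · exact (Finsupp.mem_support_iff.mp h) (hdisjEk P hP)
  obtain ⟨n, f, a, hf, hfa, ha0, haQ₀, haT⟩ := exists_sep_lift S T Q₀ D₁ hD₁ hdeg hTD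
    (fun P hP h => hTD P hP (h ▸ hQ₀T))
  have hf0 : f ≠ 0 := S.ax.ne_zero hfa ha0
  -- regularity of `f` on the fibres over `T`
  have hreg : ∀ P, rmap S P ∈ T → 0 ≤ P.ord f := by
    intro P hP
    have h1 := (mem_rrSpace_iff_of_ne_zero hf0).mp hf P
    have h2 : D₁ P = 0 := by
      by_contra h
      exact hTD P h hP
    rw [Finsupp.smul_apply, h2, smul_zero, neg_zero] at h1
    exact h1
  have hET : ∀ Q, E Q ≠ 0 → rmap S Q ∈ T := fun Q hQ =>
    Finset.mem_union_left _ (Finset.mem_image.mpr ⟨Q, Finsupp.mem_support_iff.mpr hQ, rfl⟩)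
  -- values of `f` on `supp E`
  have hv : ∀ Q : Place L F, ∃ u : A, E Q ≠ 0 →
      IsVal Q f (u : L) ∧ IsVal (rmap S Q) a (res u) := by
    intro Q
    by_cases hQ : E Q ≠ 0
    · obtain ⟨u, hu⟩ := hEV f a hfa ha0 Q (fun P hP => hreg P (by rw [hP]; exact hET Q hQ))
      exact ⟨u, fun _ => hu⟩
    · exact ⟨0, fun h => absurd h hQ⟩
  choose v hv using hv
  -- values of `a` on `T`
  have hord : ∀ Q ∈ T, 0 ≤ Q.ord a := by
    intro Q hQ
    by_cases h : Q = Q₀
    · rw [h]; omega
    · rw [haT Q hQ h]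
  have hw : ∀ Q : Place k Fk, ∃ w : k, Q ∈ T → IsVal Q a w := by
    intro Q
    by_cases hQ : Q ∈ T
    · obtain ⟨w, hw⟩ := exists_isVal (S.hpfk.res Q) (hord Q hQ)
      exact ⟨w, fun _ => hw⟩
    · exact ⟨0, fun h => absurd h hQ⟩
  choose w hw using hw
  have hw0 : ∀ Q ∈ T, (w Q = 0 ↔ Q = Q₀) := by
    intro Q hQ
    constructor
    · intro h
      by_contra hne
      exact (hw Q hQ).ne_zero_of_ord_eq_zero ha0 (haT Q hQ hne) h
    · rintro rfl
      exact (hw Q hQ).unique (isVal_zero_of_ord_pos haQ₀)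
  have hv0 : ∀ Q, E Q ≠ 0 → (res (v Q) = 0 ↔ rmap S Q = Q₀) := by
    intro Q hQ
    have h1 : res (v Q) = w (rmap S Q) := (hv Q hQ).2.unique (hw _ (hET Q hQ))
    rw [h1]
    exact hw0 _ (hET Q hQ)
  have key := hyp n f a hf hfa ha0 v w (fun Q hQ => (hv Q hQ).1)
    (fun Q hQ => hw Q (Finset.mem_union_right _ (Finsupp.mem_support_iff.mpr hQ)))
  have hcount : (∏ Q ∈ E.support, (X - C (res (v Q))) ^ (E Q).toNat).roots.count 0
      = (∏ Q ∈ Ek.support, (X - C (w Q)) ^ (Ek Q).toNat).roots.count 0 := by rw [key]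
  rw [count_roots_prod, count_roots_prod] at hcount
  rw [mapDomain_apply_sum]
  have hL : (∑ P ∈ E.support, if rmap S P = Q₀ then E P else 0)
      = ((∑ Q ∈ E.support, if res (v Q) = 0 then (E Q).toNat else 0 : ℕ) : ℤ) := by
    push_cast
    refine Finset.sum_congr rfl fun P hP => ?_
    have := hv0 P (Finsupp.mem_support_iff.mp hP)
    by_cases h : rmap S P = Q₀
    · rw [if_pos h, if_pos (this.mpr h)]
      exact (Int.toNat_of_nonneg (hEnn P)).symm
    · rw [if_neg h, if_neg (fun h' => h (this.mp h'))]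
  have hR : Ek Q₀ = ((∑ Q ∈ Ek.support, if w Q = 0 then (Ek Q).toNat else 0 : ℕ) : ℤ) := by
    push_cast
    by_cases hQ₀ : Q₀ ∈ Ek.support
    · rw [Finset.sum_eq_single_of_mem Q₀ hQ₀]
      · rw [if_pos ((hw0 Q₀ hQ₀T).mpr rfl)]
        exact (Int.toNat_of_nonneg (hEknn Q₀)).symm
      · intro Q hQ hne
        rw [if_neg]
        intro h
        exact hne ((hw0 Q (Finset.mem_union_right _ hQ)).mp h)
    · rw [Finsupp.notMem_support_iff.mp hQ₀]
      symm
      apply Finset.sum_eq_zero
      intro Q hQ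
      rw [if_neg]
      intro h
      have := (hw0 Q (Finset.mem_union_right _ hQ)).mp h
      subst this
      exact hQ₀ hQ
  rw [hL, hR, hcount]

end Fermat.Agent.S37.M
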