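import Mathlib
import Fermat.Agent.S37.Eval
import Fermat.Agent.S37.MainAbs

/-!
# S37 (C78): lemma (EV) in the form `M.EVProp` used by the abstract core of piece M
-/

set_option autoImplicit false

open AlgebraicCurve Fermat.Agent.Lib.FF Fermat.Agent.S18.Deuring

namespace Fermat.Agent.S37.EV

variable {L k F Fk : Type*} [Field L] [Field k] [Field F] [Field Fk] [Algebra L F] [Algebra k Fk]
variable {A : ValuationSubring L} {res : A →+* k} {Red : F → Fk → Prop}
  {D : Divisor L F} {Dk : Divisor k Fk} {g : ℕ} {c : ℤ}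

/-- **(EV)** holds for every Deuring setup. -/
theorem evProp (S : Setup A res Red D Dk g c) [Infinite k] : Fermat.Agent.S37.M.EVProp S := by
  intro f a hfa _ P₀ hreg
  obtain ⟨u, h1, h2⟩ := exists_ev S hfa hreg
  exact ⟨u, h1, h2⟩

end Fermat.Agent.S37.EV
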