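import Fermat.Agent.S37.GalConc

/-!
# S37, piece G (concrete part 3): the coefficient Frobenius `Φ` on `Pic0 (F_k(M))` and `Ψ = ℓ Φ⁻¹`
-/

set_option autoImplicit false
set_option linter.unusedSectionVars false
set_option linter.style.haveILetI false

noncomputable section

namespace Fermat.Agent.S37.G

open ModularCurve AlgebraicCurve Fermat.Agent.Lib.FF Fermat.Agent.S18.Deuring Fermat.Agent.S18.GV
open Fermat.Agent.S18 Fermat.Agent

section Frob

variable (k : Type*) [Field k] (ℓ : ℕ) [Fact ℓ.Prime] [CharP k ℓ] [PerfectField k] (M : ℕ)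

/-- the Frobenius automorphism of the perfect field `k` -/
def frobAut : RingAut k := frobeniusEquiv k ℓ

theorem frobAut_apply (u : k) : frobAut k ℓ u = u ^ ℓ := by
  show frobeniusEquiv k ℓ u = u ^ ℓ
  rw [frobeniusEquiv_apply, frobenius_def]

theorem coe_frobAut : ((frobAut k ℓ : k ≃+* k) : k →+* k) = frobenius k ℓ := by
  ext u
  show frobAut k ℓ u = frobenius k ℓ u
  rw [frobAut_apply, frobenius_def]

/-- the coefficient Frobenius, as a semilinear automorphism of `F_k(M)` -/
def frobSL : SemilinearAut k (modularFunctionFieldFullC k M) := semiC k M (frobAut k ℓ)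

theorem baseAut_frobSL (u : k) : SemilinearAut.baseAut (frobSL k ℓ M) u = u ^ ℓ :=
  frobAut_apply k ℓ u

theorem coe_frobSL_smul (a : modularFunctionFieldFullC k M) :
    ((frobSL k ℓ M • a : modularFunctionFieldFullC k M) : LaurentSeries k)
      = coeffMap (frobenius k ℓ) (a : LaurentSeries k) := by
  show ((semiC k M (frobAut k ℓ) • a : modularFunctionFieldFullC k M) : LaurentSeries k) = _
  rw [coe_semiC_smul, coe_frobAut]

/-- `Φ`: the action of the coefficient Frobenius on `Pic0 (F_k(M))` -/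
def PhiPic : JZeroC k M →+ JZeroC k M :=
  DistribSMul.toAddMonoidHom (JZeroC k M) (frobSL k ℓ M)

/-- `Ψ = ℓ Φ⁻¹` -/
def PsiPic : JZeroC k M →+ JZeroC k M :=
  (ℓ : ℤ) • DistribSMul.toAddMonoidHom (JZeroC k M) (frobSL k ℓ M)⁻¹

theorem PhiPic_apply (y : JZeroC k M) : PhiPic k ℓ M y = frobSL k ℓ M • y := rfl

theorem PsiPic_apply (y : JZeroC k M) : PsiPic k ℓ M y = (ℓ : ℤ) • ((frobSL k ℓ M)⁻¹ • y) := rfl

theorem PsiPic_PhiPic (y : JZeroC k M) : PsiPic k ℓ M (PhiPic k ℓ M y) = (ℓ : ℤ) • y := by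
  rw [PsiPic_apply, PhiPic_apply, inv_smul_smul]

theorem PhiPic_PsiPic (y : JZeroC k M) : PhiPic k ℓ M (PsiPic k ℓ M y) = (ℓ : ℤ) • y := by
  rw [PsiPic_apply, PhiPic_apply, SemilinearAut.smul_zsmul, smul_inv_smul]

end Frob

section Final

set_option synthInstance.maxHeartbeats 400000
set_option maxHeartbeats 800000

variable {A : ValuationSubring (AlgebraicClosure ℚ)} {M : ℕ} [NeZero M]
variable {D : Divisor (AlgebraicClosure ℚ) (modularFunctionFieldBar M)}
  {Dk : Divisor (IsLocalRing.ResidueField A)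
    (modularFunctionFieldFullC (IsLocalRing.ResidueField A) M)} {g₀ : ℕ} {c : ℤ}
variable [Infinite (IsLocalRing.ResidueField A)]

/-- **Frobenius elements act as `Φ` after reduction** -/
theorem redPic0_frobSL (S : Setup A (IsLocalRing.residue A) (RedF A M) D Dk g₀ c)
    (hD : D = S.hpf.poleDiv (S24.jBar M))
    (hDk : Dk = S.hpfk.poleDiv (jK (IsLocalRing.ResidueField A) M))
    (ℓ : ℕ) [Fact ℓ.Prime] [CharP (IsLocalRing.ResidueField A) ℓ]
    [PerfectField (IsLocalRing.ResidueField A)]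
    (σ : AlgebraicClosure ℚ ≃ₐ[ℚ] AlgebraicClosure ℚ) (hσ : A.IsFrobeniusAt σ ℓ)
    (x : JZero M) :
    redPic0 S (σ • x) = PhiPic (IsLocalRing.ResidueField A) ℓ M (redPic0 S x) :=
  redPic0_frobenius S hD hDk (frobAut _ ℓ) (frobAut_apply _ ℓ) σ hσ x

end Final

end Fermat.Agent.S37.G
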