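import Mathlib
import Fermat.Prelude.Def_ModularCurve_X0
import Fermat.Prelude.Def_ModularCurve_LaurentCoeff

/-!
# S37 (piece K): the `ℓ`-th power of a Laurent series in characteristic `ℓ`

`x ^ ℓ = (φ x)(q^ℓ)`, i.e. `x ^ ℓ = qExpand ℓ (coeffMap (frobenius k ℓ) x)`.
-/

set_option autoImplicit false

open ModularCurve

namespace Fermat.Agent.S37.Kron

section General

variable {R S : Type*} [CommRing R] [CommRing S]

theorem ofPowerSeries_coeff_of_neg {T : Type*} [CommRing T] (g : PowerSeries T) (n : ℤ)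
    (hn : ¬ 0 ≤ n) : (HahnSeries.ofPowerSeries ℤ T g).coeff n = 0 := by
  rw [HahnSeries.ofPowerSeries_apply]
  apply HahnSeries.embDomain_of_notMem_range
  rintro ⟨m, hm⟩
  apply hn
  rw [← hm]
  simp

theorem coeffMap_ofPowerSeries (π : R →+* S) (f : PowerSeries R) :
    coeffMap π (HahnSeries.ofPowerSeries ℤ R f) =
      HahnSeries.ofPowerSeries ℤ S (PowerSeries.map π f) := by
  ext n
  rw [coeffMap_coeff]
  by_cases hn : 0 ≤ n
  · obtain ⟨m, rfl⟩ := Int.eq_ofNat_of_zero_le hn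
    rw [HahnSeries.ofPowerSeries_apply_coeff, HahnSeries.ofPowerSeries_apply_coeff,
      PowerSeries.coeff_map]
  · rw [ofPowerSeries_coeff_of_neg _ _ hn, ofPowerSeries_coeff_of_neg _ _ hn, map_zero]

theorem qExpand_ofPowerSeries (ℓ : ℕ) [NeZero ℓ] (f : PowerSeries R) :
    qExpand R ℓ (HahnSeries.ofPowerSeries ℤ R f) =
      HahnSeries.ofPowerSeries ℤ R (PowerSeries.expand ℓ (NeZero.ne ℓ) f) := by
  have h1 : ∀ (g : PowerSeries R) (n : ℤ), ¬ 0 ≤ n →
      (HahnSeries.ofPowerSeries ℤ R g).coeff n = 0 := fun g n hn =>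
    ofPowerSeries_coeff_of_neg g n hn
  have hℓ : (0 : ℤ) < ℓ := by exact_mod_cast Nat.pos_of_ne_zero (NeZero.ne ℓ)
  ext n
  by_cases hd : (ℓ : ℤ) ∣ n
  · obtain ⟨m, rfl⟩ := hd
    rw [qExpand_coeff_mul]
    by_cases hm : 0 ≤ m
    · obtain ⟨j, rfl⟩ := Int.eq_ofNat_of_zero_le hm
      have e : (ℓ : ℤ) * (j : ℤ) = ((ℓ * j : ℕ) : ℤ) := by push_cast; ring
      rw [e, HahnSeries.ofPowerSeries_apply_coeff, HahnSeries.ofPowerSeries_apply_coeff,
        PowerSeries.coeff_expand_mul]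
    · rw [h1 _ _ hm, h1]
      intro h
      apply hm
      by_contra hneg
      have hneg' : m < 0 := lt_of_not_ge hneg
      nlinarith
  · rw [qExpand_coeff_of_not_dvd ℓ _ hd]
    by_cases hn : 0 ≤ n
    · obtain ⟨j, rfl⟩ := Int.eq_ofNat_of_zero_le hn
      have hd' : ¬ ℓ ∣ j := fun h => hd (by exact_mod_cast h)
      rw [HahnSeries.ofPowerSeries_apply_coeff, PowerSeries.coeff_expand_of_not_dvd _ _ _ hd']
    · rw [h1 _ _ hn]

end General

section CharP

variable {k : Type*} [CommRing k] (ℓ : ℕ) [hℓ : Fact ℓ.Prime] [CharP k ℓ]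

theorem powerSeries_pow_char (f : PowerSeries k) :
    f ^ ℓ = PowerSeries.map (frobenius k ℓ) (PowerSeries.expand ℓ hℓ.out.ne_zero f) := by
  have := MvPowerSeries.map_frobenius_expand (σ := Unit) (R := k) ℓ hℓ.out.ne_zero (f := f)
  exact this.symm

/-- **Frobenius on Laurent series** -/
theorem laurent_pow_char (x : LaurentSeries k) :
    haveI : NeZero ℓ := ⟨hℓ.out.ne_zero⟩
    x ^ ℓ = qExpand k ℓ (coeffMap (frobenius k ℓ) x) := by
  have : NeZero ℓ := ⟨hℓ.out.ne_zero⟩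
  have hx := LaurentSeries.single_order_mul_powerSeriesPart x
  set p := x.powerSeriesPart with hp
  set m := x.order with hm
  rw [← hx, mul_pow, map_mul, map_mul]
  congr 1
  · rw [HahnSeries.single_pow, coeffMap_single, qExpand_single]
    simp only [one_pow, map_one, nsmul_eq_mul]
  · rw [← map_pow, powerSeries_pow_char ℓ p, coeffMap_ofPowerSeries, qExpand_ofPowerSeries]
    congr 1
    rw [PowerSeries.map_expand]

end CharP

end Fermat.Agent.S37.Kron
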