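import Fermat.Agent.S37.MainAbs
import Fermat.Agent.S37.KronFrob
import Fermat.Prelude.Def_AlgebraicCurve_BaseChangeGalois

/-!
# S37 (C78), piece MC2: values under Frobenius and Verschiebung

`IsVal P f v` ("`f(P) = v`") is transported by semilinear automorphisms and by ring operations.
For a semilinear automorphism `t` of `Fk / k` acting on the constants by `c ↦ c ^ ℓ` (the
coefficient Frobenius):

* `(V a)(Q) = a(t • Q)` where `V a = (t⁻¹ • a) ^ ℓ`;
* `(t • a)(Q) = a(t⁻¹ • Q) ^ ℓ`;
* coefficientwise, the value at `Q` of `(X - V a) (X ^ ℓ - t • a)` is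
  `(X - a(t • Q)) (X - a(t⁻¹ • Q)) ^ ℓ`.
-/

set_option autoImplicit false
set_option linter.unusedSectionVars false
set_option linter.style.haveILetI false

open AlgebraicCurve Fermat.Agent.Lib.FF Polynomial Fermat.Agent.S37.M

namespace Fermat.Agent.S37.MC2

section General

variable {K F : Type*} [Field K] [Field F] [Algebra K F]

/-- `x` vanishes at `P` (with the convention `ord 0 = 0` of the library) -/
def Van (P : Place K F) (x : F) : Prop := x = 0 ∨ 0 < P.ord x

theorem isVal_iff_van {P : Place K F} {f : F} {v : K} :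
    IsVal P f v ↔ Van P (f - algebraMap K F v) := by
  unfold IsVal Van
  rw [sub_eq_zero]

theorem van_zero (P : Place K F) : Van P (0 : F) := Or.inl rfl

theorem Van.add {P : Place K F} {x y : F} (hx : Van P x) (hy : Van P y) : Van P (x + y) := by
  by_cases h0 : x + y = 0
  · exact Or.inl h0
  right
  rcases hx with rfl | hx
  · rcases hy with rfl | hy
    · exact absurd (add_zero 0) h0
    · rwa [zero_add]
  rcases hy with rfl | hy
  · rwa [add_zero]
  have := ord_add P h0
  exact lt_of_lt_of_le (lt_min hx hy) this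

theorem Van.neg {P : Place K F} {x : F} (hx : Van P x) : Van P (-x) := by
  rcases hx with rfl | hx
  · left; exact neg_zero
  · right; rwa [ord_neg]

theorem Van.sub {P : Place K F} {x y : F} (hx : Van P x) (hy : Van P y) : Van P (x - y) := by
  rw [sub_eq_add_neg]
  exact hx.add hy.neg

theorem Van.mul_of_nonneg {P : Place K F} {x y : F} (hx : Van P x) (hy : 0 ≤ P.ord y) :
    Van P (x * y) := by
  rcases hx with rfl | hx
  · left; exact zero_mul y
  by_cases hy0 : y = 0
  · left; rw [hy0, mul_zero]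
  have hx0 : x ≠ 0 := by
    rintro rfl
    rw [Place.ord_zero] at hx
    exact lt_irrefl _ hx
  right
  rw [P.ord_mul hx0 hy0]
  omega

theorem isVal_add {P : Place K F} {f g : F} {v w : K} (hf : IsVal P f v) (hg : IsVal P g w) :
    IsVal P (f + g) (v + w) := by
  rw [isVal_iff_van] at hf hg ⊢
  have := hf.add hg
  rwa [show f - algebraMap K F v + (g - algebraMap K F w) = f + g - algebraMap K F (v + w) by
    rw [map_add]; ring] at this

theorem isVal_neg {P : Place K F} {f : F} {v : K} (hf : IsVal P f v) : IsVal P (-f) (-v) := by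
  rw [isVal_iff_van] at hf ⊢
  have := hf.neg
  rwa [show -(f - algebraMap K F v) = -f - algebraMap K F (-v) by rw [map_neg]; ring] at this

theorem isVal_sub {P : Place K F} {f g : F} {v w : K} (hf : IsVal P f v) (hg : IsVal P g w) :
    IsVal P (f - g) (v - w) := by
  rw [sub_eq_add_neg, sub_eq_add_neg]
  exact isVal_add hf (isVal_neg hg)

theorem isVal_mul {P : Place K F} {f g : F} {v w : K} (hf : IsVal P f v) (hg : IsVal P g w) :
    IsVal P (f * g) (v * w) := by
  have hg0 : 0 ≤ P.ord g := hg.ord_nonneg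
  rw [isVal_iff_van] at hf hg ⊢
  have h1 := hf.mul_of_nonneg hg0
  have h2 : Van P ((g - algebraMap K F w) * algebraMap K F v) :=
    hg.mul_of_nonneg (by rw [ord_algebraMap])
  have := h1.add h2
  rwa [show (f - algebraMap K F v) * g + (g - algebraMap K F w) * algebraMap K F v
    = f * g - algebraMap K F (v * w) by rw [map_mul]; ring] at this

theorem isVal_pow {P : Place K F} {f : F} {v : K} (hf : IsVal P f v) (n : ℕ) :
    IsVal P (f ^ n) (v ^ n) := by
  induction n with
  | zero =>
    rw [pow_zero, pow_zero]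
    left
    rw [map_one]
  | succ n ih =>
    rw [pow_succ, pow_succ]
    exact isVal_mul ih hf

theorem isVal_one (P : Place K F) : IsVal P (1 : F) 1 := by
  left
  rw [map_one]

theorem isVal_zero (P : Place K F) : IsVal P (0 : F) 0 := by
  left
  rw [map_zero]

theorem isVal_sum {ι : Type*} (s : Finset ι) {P : Place K F} {f : ι → F} {v : ι → K}
    (h : ∀ i ∈ s, IsVal P (f i) (v i)) : IsVal P (∑ i ∈ s, f i) (∑ i ∈ s, v i) := by
  classical
  induction s using Finset.induction_on with
  | empty => simpa using isVal_zero P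
  | insert i s hi ih =>
    rw [Finset.sum_insert hi, Finset.sum_insert hi]
    exact isVal_add (h i (Finset.mem_insert_self i s))
      (ih fun j hj => h j (Finset.mem_insert_of_mem hj))

/-- transport of values along a semilinear automorphism -/
theorem isVal_smul (g : SemilinearAut K F) {P : Place K F} {f : F} {v : K} (h : IsVal P f v) :
    IsVal (g • P) (g • f) (SemilinearAut.baseAut g v) := by
  rcases h with h | h
  · left
    rw [h, SemilinearAut.smul_algebraMap]
  · right
    have := SemilinearAut.ord_smul g P (f - algebraMap K F v)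
    rw [smul_sub, SemilinearAut.smul_algebraMap] at this
    rw [this]
    exact h

theorem isVal_smul_iff (g : SemilinearAut K F) {P : Place K F} {f : F} {v : K} :
    IsVal (g • P) (g • f) (SemilinearAut.baseAut g v) ↔ IsVal P f v := by
  refine ⟨fun h => ?_, isVal_smul g⟩
  have := isVal_smul g⁻¹ h
  rwa [inv_smul_smul, inv_smul_smul, SemilinearAut.baseAut_inv, RingEquiv.symm_apply_apply]
    at this

/-! ### coefficientwise values of polynomials -/

/-- coefficientwise values -/
def IsValP (P : Place K F) (p : Polynomial F) (r : Polynomial K) : Prop :=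
  ∀ i, IsVal P (p.coeff i) (r.coeff i)

theorem IsValP.one (P : Place K F) : IsValP P 1 1 := by
  intro i
  rw [Polynomial.coeff_one, Polynomial.coeff_one]
  split_ifs
  · exact isVal_one P
  · exact isVal_zero P

theorem IsValP.mul {P : Place K F} {p p' : Polynomial F} {r r' : Polynomial K}
    (h : IsValP P p r) (h' : IsValP P p' r') : IsValP P (p * p') (r * r') := by
  intro i
  rw [Polynomial.coeff_mul, Polynomial.coeff_mul]
  exact isVal_sum _ (fun x _ => isVal_mul (h x.1) (h' x.2))

theorem IsValP.pow {P : Place K F} {p : Polynomial F} {r : Polynomial K}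
    (h : IsValP P p r) (n : ℕ) : IsValP P (p ^ n) (r ^ n) := by
  induction n with
  | zero => rw [pow_zero, pow_zero]; exact IsValP.one P
  | succ n ih => rw [pow_succ, pow_succ]; exact ih.mul h

theorem isValP_X (P : Place K F) : IsValP P (X : Polynomial F) X := by
  intro i
  rw [Polynomial.coeff_X, Polynomial.coeff_X]
  split_ifs
  · exact isVal_one P
  · exact isVal_zero P

theorem isValP_C {P : Place K F} {f : F} {v : K} (h : IsVal P f v) :
    IsValP P (Polynomial.C f) (Polynomial.C v) := by
  intro i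
  rw [Polynomial.coeff_C, Polynomial.coeff_C]
  split_ifs
  · exact h
  · exact isVal_zero P

theorem isValP_sub {P : Place K F} {p p' : Polynomial F} {r r' : Polynomial K}
    (h : IsValP P p r) (h' : IsValP P p' r') : IsValP P (p - p') (r - r') := by
  intro i
  rw [Polynomial.coeff_sub, Polynomial.coeff_sub]
  exact isVal_sub (h i) (h' i)

theorem isValP_X_sub_C {P : Place K F} {f : F} {v : K} (h : IsVal P f v) :
    IsValP P (X - Polynomial.C f) (X - Polynomial.C v) :=
  isValP_sub (isValP_X P) (isValP_C h)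

/-- values are unique coefficientwise -/
theorem IsValP.unique {P : Place K F} {p : Polynomial F} {r r' : Polynomial K}
    (h : IsValP P p r) (h' : IsValP P p r') : r = r' := by
  ext i
  exact (h i).unique (h' i)

end General

section Frobenius

variable {k Fk : Type*} [Field k] [Field Fk] [Algebra k Fk]
variable (ℓ : ℕ) [hℓ : Fact ℓ.Prime] [CharP k ℓ]

/-- **(MC2a)** `(V a)(Q) = a(t • Q)`, where `V a = (t⁻¹ • a) ^ ℓ`. -/
theorem isVal_V (t : SemilinearAut k Fk) (ht : ∀ c : k, SemilinearAut.baseAut t c = c ^ ℓ)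
    {Q : Place k Fk} {a : Fk} {w : k} (h : IsVal (t • Q) a w) :
    IsVal Q ((t⁻¹ • a) ^ ℓ) w := by
  have h1 := isVal_pow (isVal_smul t⁻¹ h) ℓ
  rwa [inv_smul_smul, ← ht, SemilinearAut.baseAut_inv, RingEquiv.apply_symm_apply] at h1

/-- **(MC2b)** `(t • a)(Q) = a(t⁻¹ • Q) ^ ℓ`. -/
theorem isVal_frob (t : SemilinearAut k Fk) (ht : ∀ c : k, SemilinearAut.baseAut t c = c ^ ℓ)
    {Q : Place k Fk} {a : Fk} {w : k} (h : IsVal (t⁻¹ • Q) a w) :
    IsVal Q (t • a) (w ^ ℓ) := by
  have h1 := isVal_smul t h
  rwa [smul_inv_smul, ht] at h1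

/-- **(MC2)** the value at `Q` of the reduced Kronecker polynomial `(X - V a)(X ^ ℓ - t • a)` is
`(X - a(t • Q)) (X - a(t⁻¹ • Q)) ^ ℓ`. -/
theorem isValP_kron (t : SemilinearAut k Fk) (ht : ∀ c : k, SemilinearAut.baseAut t c = c ^ ℓ)
    {Q : Place k Fk} {a : Fk} {w₁ w₂ : k} (h₁ : IsVal (t • Q) a w₁)
    (h₂ : IsVal (t⁻¹ • Q) a w₂) :
    IsValP Q ((X - C ((t⁻¹ • a) ^ ℓ)) * (X ^ ℓ - C (t • a)))
      ((X - C w₁) * (X - C w₂) ^ ℓ) := by
  have e : (X - C w₂) ^ ℓ = X ^ ℓ - C (w₂ ^ ℓ) := by
    rw [sub_pow_char X (C w₂), ← C_pow]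
  rw [e]
  exact (isValP_X_sub_C (isVal_V ℓ t ht h₁)).mul
    (isValP_sub ((isValP_X Q).pow ℓ) (isValP_C (isVal_frob ℓ t ht h₂)))

open ModularCurve Fermat.Agent.S37.Kron in
/-- the reduced Kronecker polynomial of (K6) is the image under the `q`-expansion `ι` of
`(X - V a)(X ^ ℓ - t • a)`, if `ι` intertwines `t` with the coefficient Frobenius. -/
theorem kron_eq_map (t : SemilinearAut k Fk) (ι : Fk →+* LaurentSeries k)
    (hι : ∀ a : Fk, ι (t • a) = coeffMap (frobenius k ℓ) (ι a)) (a : Fk) :
    haveI : NeZero ℓ := ⟨hℓ.out.ne_zero⟩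
    (X - C (qExpand k ℓ (ι a))) * (X ^ ℓ - C (coeffMap (frobenius k ℓ) (ι a)))
      = ((X - C ((t⁻¹ • a) ^ ℓ)) * (X ^ ℓ - C (t • a))).map ι := by
  haveI : NeZero ℓ := ⟨hℓ.out.ne_zero⟩
  have h1 : qExpand k ℓ (ι a) = ι ((t⁻¹ • a) ^ ℓ) := by
    rw [map_pow, laurent_pow_char ℓ (ι (t⁻¹ • a)), ← hι, smul_inv_smul]
  rw [h1, ← hι]
  simp only [Polynomial.map_mul, Polynomial.map_sub, Polynomial.map_X, Polynomial.map_C,
    Polynomial.map_pow]

end Frobenius

end Fermat.Agent.S37.MC2
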