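import Fermat.Agent.S37.KronDesc
import Fermat.Agent.S37.FrobVal
import Fermat.Agent.S18.GVSetup
import Fermat.Agent.S37.GalFrob

/-!
# S37 (C78): Kronecker's congruence at level `M` (glue of K6 and MC2)

For `f ∈ F(M)`, `a ∈ F_k(M)` with `RedF A M f a` and a polynomial `Q ∈ F(M)[X]` whose image under
`β = (q ↦ q^ℓ)` is the Kronecker polynomial `P_f = (X - f(q^{ℓ²})) ∏_{i<ℓ} (X - f(ζ^i q))`,
the coefficients of `Q` reduce to those of `(X - (t⁻¹ a)^ℓ)(X^ℓ - t a) ∈ F_k(M)[X]`, where `t` is the
coefficient Frobenius of `F_k(M)`.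
-/

set_option autoImplicit false
set_option linter.unusedSectionVars false
set_option linter.style.haveILetI false
set_option synthInstance.maxHeartbeats 400000
set_option maxHeartbeats 1000000

noncomputable section

open ModularCurve AlgebraicCurve Polynomial Fermat.Agent.S18.GV Fermat.Agent.S37.Kron
open Fermat.Agent.S37.G

namespace Fermat.Agent.S37.MC2

local notation "Qb" => AlgebraicClosure ℚ

local instance isAlgebraicQbKG : Algebra.IsAlgebraic ℚ (AlgebraicClosure ℚ) :=
  AlgebraicClosure.isAlgebraic ℚ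

variable (A : ValuationSubring (AlgebraicClosure ℚ)) (ℓ : ℕ) [hℓ : Fact ℓ.Prime]
variable (M : ℕ) [NeZero M]

/-- **Kronecker's congruence at level `M`**: the coefficients of `Q_f` reduce to those of
`(X - (t⁻¹ a)^ℓ)(X^ℓ - t a)`. -/
theorem redF_coeff_of_kron (hA : A.LiesOverPrime ℓ) (ζ : Qbˣ) (hζ : IsPrimitiveRoot ζ ℓ)
    (t : SemilinearAut (IsLocalRing.ResidueField A)
      (modularFunctionFieldFullC (IsLocalRing.ResidueField A) M))
    (ht : haveI : CharP (IsLocalRing.ResidueField A) ℓ := charP_res A ℓ hA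
      ∀ a : modularFunctionFieldFullC (IsLocalRing.ResidueField A) M,
      ((t • a : modularFunctionFieldFullC (IsLocalRing.ResidueField A) M) :
          LaurentSeries (IsLocalRing.ResidueField A))
        = coeffMap (frobenius (IsLocalRing.ResidueField A) ℓ)
            (a : LaurentSeries (IsLocalRing.ResidueField A)))
    {f : modularFunctionFieldBar M}
    {a : modularFunctionFieldFullC (IsLocalRing.ResidueField A) M} (h : RedF A M f a)
    (Q : Polynomial (modularFunctionFieldBar M))
    (hQ : haveI : NeZero ℓ := ⟨hℓ.out.ne_zero⟩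
      (Q.map (algebraMap (modularFunctionFieldBar M) (LaurentSeries Qb))).map (qExpand Qb ℓ)
        = kronPoly ℓ ζ (f : LaurentSeries Qb)) (i : ℕ) :
    RedF A M (Q.coeff i) (((X - C ((t⁻¹ • a) ^ ℓ)) * (X ^ ℓ - C (t • a))).coeff i) := by
  haveI : NeZero ℓ := ⟨hℓ.out.ne_zero⟩
  haveI : CharP (IsLocalRing.ResidueField A) ℓ := charP_res A ℓ hA
  have h1 := redP_of_map_eq_kronPoly A ℓ hA ζ hζ h
    (Q.map (algebraMap (modularFunctionFieldBar M) (LaurentSeries Qb))) hQ i
  have h2 := kron_eq_map ℓ t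
    (algebraMap (modularFunctionFieldFullC (IsLocalRing.ResidueField A) M)
      (LaurentSeries (IsLocalRing.ResidueField A))) ht a
  have h3 : (algebraMap (modularFunctionFieldFullC (IsLocalRing.ResidueField A) M)
      (LaurentSeries (IsLocalRing.ResidueField A))) a
        = (a : LaurentSeries (IsLocalRing.ResidueField A)) := rfl
  rw [h3] at h2
  rw [h2, Polynomial.coeff_map, Polynomial.coeff_map] at h1
  exact h1

/-- **Kronecker's congruence at level `M`, final form** (input: piece W's `charpoly_alpha`;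
`t = semiC k M φ` is piece G's coefficient Frobenius): the coefficients of `Q_f` reduce to those
of `(X - (t⁻¹ a)^ℓ)(X^ℓ - t a)`. -/
theorem redF_coeff_of_kron_semiC (hA : A.LiesOverPrime ℓ) (ζ : Qbˣ) (hζ : IsPrimitiveRoot ζ ℓ)
    (φ : RingAut (IsLocalRing.ResidueField A)) (hφ : ∀ u, φ u = u ^ ℓ)
    {f : modularFunctionFieldBar M}
    {a : modularFunctionFieldFullC (IsLocalRing.ResidueField A) M} (h : RedF A M f a)
    (Q : Polynomial (modularFunctionFieldBar M))
    (hQ : haveI : NeZero ℓ := ⟨hℓ.out.ne_zero⟩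
      Q.map ((qExpand Qb ℓ).comp (modularFunctionFieldBar M).val.toRingHom)
        = kronPoly ℓ ζ (f : LaurentSeries Qb)) (i : ℕ) :
    RedF A M (Q.coeff i)
      (((X - C (((semiC (IsLocalRing.ResidueField A) M φ)⁻¹ • a) ^ ℓ)) *
        (X ^ ℓ - C (semiC (IsLocalRing.ResidueField A) M φ • a))).coeff i) := by
  haveI : NeZero ℓ := ⟨hℓ.out.ne_zero⟩
  haveI : CharP (IsLocalRing.ResidueField A) ℓ := charP_res A ℓ hA
  refine redF_coeff_of_kron A ℓ M hA ζ hζ (semiC (IsLocalRing.ResidueField A) M φ) ?_ h Q ?_ i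
  · intro x
    rw [coe_semiC_smul]
    have e : ((φ : IsLocalRing.ResidueField A ≃+* IsLocalRing.ResidueField A) :
        IsLocalRing.ResidueField A →+* IsLocalRing.ResidueField A)
          = frobenius (IsLocalRing.ResidueField A) ℓ := by
      ext u
      rw [RingHom.coe_coe, hφ u, frobenius_def]
    rw [e]
  · rw [Polynomial.map_map]
    exact hQ

/-- **Kronecker's congruence at level `M`** for piece G's `frobSL`. -/
theorem redF_coeff_of_kron_frobSL [CharP (IsLocalRing.ResidueField A) ℓ]
    [PerfectField (IsLocalRing.ResidueField A)] (hA : A.LiesOverPrime ℓ) (ζ : Qbˣ)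
    (hζ : IsPrimitiveRoot ζ ℓ) {f : modularFunctionFieldBar M}
    {a : modularFunctionFieldFullC (IsLocalRing.ResidueField A) M} (h : RedF A M f a)
    (Q : Polynomial (modularFunctionFieldBar M))
    (hQ : haveI : NeZero ℓ := ⟨hℓ.out.ne_zero⟩
      Q.map ((qExpand Qb ℓ).comp (modularFunctionFieldBar M).val.toRingHom)
        = kronPoly ℓ ζ (f : LaurentSeries Qb)) (i : ℕ) :
    RedF A M (Q.coeff i)
      (((X - C (((frobSL (IsLocalRing.ResidueField A) ℓ M)⁻¹ • a) ^ ℓ)) *
        (X ^ ℓ - C (frobSL (IsLocalRing.ResidueField A) ℓ M • a))).coeff i) :=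
  redF_coeff_of_kron_semiC A ℓ M hA ζ hζ (frobAut (IsLocalRing.ResidueField A) ℓ)
    (frobAut_apply (IsLocalRing.ResidueField A) ℓ) h Q hQ i

/-- the base automorphism of the coefficient Frobenius is the Frobenius -/
theorem baseAut_semiC (k : Type*) [Field k] (φ : RingAut k) :
    SemilinearAut.baseAut (semiC k M φ) = φ := rfl

end Fermat.Agent.S37.MC2
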