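import Fermat.Agent.S37.SpecMain
import Fermat.Prelude.Def_AlgebraicCurve_Correspondence

/-!
# S37, glue of pieces H and S: the characteristic polynomial along a correspondence

`φ ψ : F → F'` two finite embeddings of function fields over an algebraically closed field `K` of
characteristic zero, `E := ψ_* φ^* (P)` for a place `P` of `F`.  For `f ∈ F` with values `v Q` at
the places `Q` of the support of `E`, the characteristic polynomial of `ψ f` over `φ F` has
coefficients regular at `P`, with value `∏_{Q ∈ supp E} (X - v Q) ^ E(Q)` at `P`.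
-/

set_option autoImplicit false
set_option linter.style.haveILetI false
set_option linter.unusedSectionVars false

namespace Fermat.Agent.S37.Spec

open AlgebraicCurve Fermat.Agent.Lib.FF Polynomial

section Prod

/-- the product over the support of a sum of single divisors -/
theorem prod_support_sum_single {ι α M : Type*} [CommMonoid M] (s : Finset ι)
    (r : ι → α) (n : ι → ℕ) (h : α → M) :
    ∏ x ∈ (∑ i ∈ s, Finsupp.single (r i) ((n i : ℕ) : ℤ)).support,
        h x ^ ((∑ i ∈ s, Finsupp.single (r i) ((n i : ℕ) : ℤ)) x).toNat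
      = ∏ i ∈ s, h (r i) ^ n i := by
  classical
  set E' : α →₀ ℕ := ∑ i ∈ s, Finsupp.single (r i) (n i) with hE'
  have hE : (∑ i ∈ s, Finsupp.single (r i) ((n i : ℕ) : ℤ))
      = Finsupp.mapRange.addMonoidHom (Nat.castAddMonoidHom ℤ) E' := by
    rw [hE', map_sum]
    refine Finset.sum_congr rfl fun i _ => ?_
    rw [Finsupp.mapRange.addMonoidHom_apply, Finsupp.mapRange_single]
    rfl
  have hsupp : (Finsupp.mapRange.addMonoidHom (Nat.castAddMonoidHom ℤ) E').support
      = E'.support := by
    rw [Finsupp.mapRange.addMonoidHom_apply]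
    exact Finsupp.support_mapRange_of_injective (by simp) _ Nat.cast_injective
  rw [hE, hsupp]
  have h1 : ∀ x, (Finsupp.mapRange.addMonoidHom (Nat.castAddMonoidHom ℤ) E' x).toNat
      = E' x := by
    intro x
    rw [Finsupp.mapRange.addMonoidHom_apply, Finsupp.mapRange_apply]
    exact Int.toNat_natCast _
  simp only [h1]
  change E'.prod (fun x m => h x ^ m) = _
  rw [hE', ← Finsupp.prod_finsetSum_index (h := fun x m => h x ^ m) (fun a => pow_zero _)
    (fun a b c => pow_add _ _ _)]
  refine Finset.prod_congr rfl fun i _ => ?_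
  rw [Finsupp.prod_single_index (h := fun x m => h x ^ m) (pow_zero _)]

end Prod

section Corr

variable {K F F' : Type*} [Field K] [Field F] [Field F'] [Algebra K F] [Algebra K F']
  [HasPrincipalDivisors K F']

theorem inertiaDegAlong_eq_one (ψ : F →ₐ[K] F') (hψ : ψ.toRingHom.IsIntegral)
    (hdeg : ∀ v : Place K F, v.deg = 1) (hdeg' : ∀ w : Place K F', w.deg = 1)
    (w : Place K F') : w.inertiaDegAlong ψ hψ = 1 := by
  letI := algebraAlong ψ
  haveI := isScalarTower_along ψ
  haveI := isIntegral_along ψ hψ
  have h := w.deg_restrict_mul_inertiaDeg (F := F)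
  rw [hdeg, hdeg', one_mul] at h
  exact h

/-- the explicit formula for a correspondence at a place -/
theorem correspondence_single (φ ψ : F →ₐ[K] F') (hφ : φ.toRingHom.IsIntegral)
    (hψ : ψ.toRingHom.IsIntegral)
    (hdeg : ∀ v : Place K F, v.deg = 1) (hdeg' : ∀ w : Place K F', w.deg = 1)
    (P : Place K F) :
    Divisor.correspondence φ ψ hφ hψ (Finsupp.single P 1)
      = ∑ w ∈ Place.fiberAlong φ hφ P,
          Finsupp.single (w.restrictAlong ψ hψ) ((w.ramificationIndexAlong φ : ℕ) : ℤ) := by
  rw [Divisor.correspondence_apply, Divisor.pullbackAlong_single, map_sum]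
  refine Finset.sum_congr rfl fun w _ => ?_
  rw [Divisor.pushforwardAlong_single, inertiaDegAlong_eq_one ψ hψ hdeg hdeg' w]
  simp

variable [IsAlgClosed K] [CharZero K]

/-- **The characteristic polynomial along a correspondence, at a place.** -/
theorem charpoly_correspondence (φ ψ : F →ₐ[K] F') (hφ : φ.toRingHom.IsIntegral)
    (hψ : ψ.toRingHom.IsIntegral) (hfin : FiniteAlong K φ)
    (hFI : FundamentalIdentityAlong K φ hφ)
    (x : F) (hx : IsFF1 K F x) (hx' : IsFF1 K F' (φ x))
    (P : Place K F) (f : F) (v : Place K F → K)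
    (hv : ∀ Q, Divisor.correspondence φ ψ hφ hψ (Finsupp.single P 1) Q ≠ 0 →
      (f = algebraMap K F (v Q) ∨ 0 < Q.ord (f - algebraMap K F (v Q))))
    (i : ℕ) :
    letI := algebraAlong φ
    haveI : Module.Finite F F' := hfin
    ((LinearMap.mulLeft F (ψ f)).charpoly.coeff i
        = algebraMap K F
          ((∏ Q ∈ (Divisor.correspondence φ ψ hφ hψ (Finsupp.single P 1)).support,
            (X - C (v Q)) ^ (Divisor.correspondence φ ψ hφ hψ (Finsupp.single P 1) Q).toNat).coeff
              i) ∨
      0 < P.ord ((LinearMap.mulLeft F (ψ f)).charpoly.coeff i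
        - algebraMap K F
          ((∏ Q ∈ (Divisor.correspondence φ ψ hφ hψ (Finsupp.single P 1)).support,
            (X - C (v Q)) ^ (Divisor.correspondence φ ψ hφ hψ (Finsupp.single P 1) Q).toNat).coeff
              i))) := by
  classical
  have hdeg : ∀ v : Place K F, v.deg = 1 := fun v => deg_eq_one hx v
  have hdeg' : ∀ w : Place K F', w.deg = 1 := fun w => deg_eq_one hx' w
  have hE := correspondence_single φ ψ hφ hψ hdeg hdeg' P
  -- values of `ψ f` on the fibre
  have hval : ∀ w ∈ Place.fiberAlong φ hφ P,
      ψ f = algebraMap K F' (v (w.restrictAlong ψ hψ)) ∨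
        0 < w.ord (ψ f - algebraMap K F' (v (w.restrictAlong ψ hψ))) := by
    intro w hw
    have hne : Divisor.correspondence φ ψ hφ hψ (Finsupp.single P 1) (w.restrictAlong ψ hψ)
        ≠ 0 := by
      rw [hE, Finsupp.finsetSum_apply]
      have hpos : (0 : ℤ) < ∑ w' ∈ Place.fiberAlong φ hφ P,
          (Finsupp.single (w'.restrictAlong ψ hψ) ((w'.ramificationIndexAlong φ : ℕ) : ℤ))
            (w.restrictAlong ψ hψ) := by
        refine Finset.sum_pos' (fun w' _ => ?_) ⟨w, hw, ?_⟩
        · rw [Finsupp.single_apply]
          split_ifs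
          · exact Int.natCast_nonneg _
          · exact le_rfl
        · rw [Finsupp.single_eq_same]
          have : 0 < w.ramificationIndexAlong φ := by
            letI := algebraAlong φ
            haveI := isIntegral_along φ hφ
            exact w.ramificationIndex_pos (F := F)
          exact_mod_cast this
      exact hpos.ne'
    rcases hv _ hne with h | h
    · left
      rw [h]
      exact ψ.commutes _
    · right
      have h2 : ψ f - algebraMap K F' (v (w.restrictAlong ψ hψ))
          = ψ (f - algebraMap K F (v (w.restrictAlong ψ hψ))) := by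
        rw [map_sub, ψ.commutes]
      rw [h2, Place.ord_restrictAlong ψ hψ]
      have : 0 < w.ramificationIndexAlong ψ := by
        letI := algebraAlong ψ
        haveI := isIntegral_along ψ hψ
        exact w.ramificationIndex_pos (F := F)
      have h3 : (0 : ℤ) < (w.ramificationIndexAlong ψ : ℤ) := by exact_mod_cast this
      exact mul_pos h3 h
  have hprod : ∏ Q ∈ (Divisor.correspondence φ ψ hφ hψ (Finsupp.single P 1)).support,
      (X - C (v Q)) ^ (Divisor.correspondence φ ψ hφ hψ (Finsupp.single P 1) Q).toNat
      = ∏ w ∈ Place.fiberAlong φ hφ P,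
          (X - C (v (w.restrictAlong ψ hψ))) ^ w.ramificationIndexAlong φ := by
    rw [hE]
    exact prod_support_sum_single (Place.fiberAlong φ hφ P) (fun w => w.restrictAlong ψ hψ)
      (fun w => w.ramificationIndexAlong φ) (fun Q => X - C (v Q))
  rw [hprod]
  letI := algebraAlong φ
  haveI := isScalarTower_along φ
  haveI : FiniteDimensional F F' := hfin
  haveI : FundamentalIdentity K F F' := hFI
  exact charpoly_specialise x hx hx' P (ψ f) (fun w => v (w.restrictAlong ψ hψ)) hval i

end Corr

end Fermat.Agent.S37.Spec
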