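import Fermat.Agent.S37.MCPole
import Fermat.Agent.S37.KronGlue
import Fermat.Agent.S37.SpecCorr
import Fermat.Agent.S37.ALFinal
import Fermat.Agent.S37.EvalPoly
import Fermat.Agent.S37.EvalProp
import Fermat.Agent.S37.GalFrob

/-!
# S37 (C78), piece MC3: the main congruence, place form

Level `M`, `ℓ ∤ M`, `S` a Deuring setup for `F(M) → F_k(M)` whose divisors are the pole divisors
of `j` and `J`, `r = rmap S`, `t = frobSL` the coefficient Frobenius of `F_k(M)`.  For every place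
`P₀` of `F(M)`:

  `r_* (T_ℓ P₀) = t • (r P₀) + ℓ · t⁻¹ • (r P₀)`.
-/

set_option autoImplicit false
set_option linter.unusedSectionVars false
set_option linter.unusedVariables false
set_option linter.style.haveILetI false
set_option synthInstance.maxHeartbeats 400000
set_option maxHeartbeats 1000000

noncomputable section

open AlgebraicCurve ModularCurve Fermat.Agent.Lib.FF Polynomial
  Fermat.Agent.S18.Deuring Fermat.Agent.S18

namespace Fermat.Agent.S37.MC3

local notation "Qb" => AlgebraicClosure ℚ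

variable {A : ValuationSubring (AlgebraicClosure ℚ)} {ℓ : ℕ} [hℓ : Fact ℓ.Prime]
variable {M : ℕ} [NeZero M]
variable {D : Divisor Qb (modularFunctionFieldBar M)}
  {Dk : Divisor (IsLocalRing.ResidueField A)
    (modularFunctionFieldFullC (IsLocalRing.ResidueField A) M)} {g : ℕ} {c : ℤ}
variable (S : Setup A (IsLocalRing.residue A) (GV.RedF A M) D Dk g c)
  [Infinite (IsLocalRing.ResidueField A)]

/-- the target divisor `t • Q + ℓ · t⁻¹ • Q` -/
def frobDiv (ℓ : ℕ) {k Fk : Type*} [Field k] [Field Fk] [Algebra k Fk] (t : SemilinearAut k Fk)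
    (Q : Place k Fk) : Divisor k Fk :=
  Finsupp.single (t • Q) 1 + Finsupp.single (t⁻¹ • Q) (ℓ : ℤ)

theorem frobDiv_eq_sum (ℓ : ℕ) {k Fk : Type*} [Field k] [Field Fk] [Algebra k Fk]
    (t : SemilinearAut k Fk) (Q : Place k Fk) :
    frobDiv ℓ t Q = ∑ i ∈ (Finset.univ : Finset Bool),
      Finsupp.single (if i then t • Q else t⁻¹ • Q) (((if i then 1 else ℓ : ℕ) : ℕ) : ℤ) := by
  rw [frobDiv, Fintype.sum_bool]
  simp

theorem frobDiv_nonneg (ℓ : ℕ) {k Fk : Type*} [Field k] [Field Fk] [Algebra k Fk]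
    (t : SemilinearAut k Fk) (Q : Place k Fk) : 0 ≤ frobDiv ℓ t Q := by
  classical
  rw [frobDiv, Finsupp.le_def]
  intro P
  simp only [Finsupp.coe_zero, Pi.zero_apply, Finsupp.coe_add, Pi.add_apply,
    Finsupp.single_apply]
  split_ifs <;> positivity

theorem frobDiv_apply_ne_zero (ℓ : ℕ) {k Fk : Type*} [Field k] [Field Fk] [Algebra k Fk]
    (t : SemilinearAut k Fk) (Q Q' : Place k Fk) (h : frobDiv ℓ t Q Q' ≠ 0) :
    Q' = t • Q ∨ Q' = t⁻¹ • Q := by
  classical
  by_contra hcon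
  rw [not_or] at hcon
  apply h
  rw [frobDiv, Finsupp.add_apply, Finsupp.single_eq_of_ne hcon.1,
    Finsupp.single_eq_of_ne hcon.2, add_zero]

theorem frobDiv_apply_smul (hℓ0 : ℓ ≠ 0) {k Fk : Type*} [Field k] [Field Fk] [Algebra k Fk]
    (t : SemilinearAut k Fk) (Q : Place k Fk) : frobDiv ℓ t Q (t • Q) ≠ 0 := by
  classical
  rw [frobDiv, Finsupp.add_apply, Finsupp.single_eq_same, Finsupp.single_apply]
  split_ifs <;> positivity

theorem frobDiv_apply_inv_smul (hℓ0 : ℓ ≠ 0) {k Fk : Type*} [Field k] [Field Fk] [Algebra k Fk]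
    (t : SemilinearAut k Fk) (Q : Place k Fk) : frobDiv ℓ t Q (t⁻¹ • Q) ≠ 0 := by
  classical
  have hℓ' : (0 : ℤ) < ℓ := by exact_mod_cast Nat.pos_of_ne_zero hℓ0
  rw [frobDiv, Finsupp.add_apply, Finsupp.single_eq_same, Finsupp.single_apply]
  split_ifs <;> positivity

/-- the product over the support of `frobDiv` -/
theorem prod_frobDiv (ℓ : ℕ) {k Fk : Type*} [Field k] [Field Fk] [Algebra k Fk]
    (t : SemilinearAut k Fk) (Q : Place k Fk) (w : Place k Fk → k) :
    ∏ Q' ∈ (frobDiv ℓ t Q).support, (X - C (w Q')) ^ (frobDiv ℓ t Q Q').toNat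
      = (X - C (w (t • Q))) * (X - C (w (t⁻¹ • Q))) ^ ℓ := by
  classical
  rw [frobDiv_eq_sum]
  rw [Fermat.Agent.S37.Spec.prod_support_sum_single (Finset.univ : Finset Bool)
    (fun i => if i then t • Q else t⁻¹ • Q) (fun i => if i then 1 else ℓ)
    (fun Q' => X - C (w Q'))]
  rw [Fintype.prod_bool]
  simp

/-! ### the polynomial identity -/

section Core

variable [NeZero ℓ] [CharP (IsLocalRing.ResidueField A) ℓ]
  [PerfectField (IsLocalRing.ResidueField A)]

/-- `β j` is a separating element of `F(Mℓ)` -/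
theorem isFF1_beta_jBar :
    IsFF1 Qb (modularFunctionFieldBar (M * ℓ))
      (heckeBetaBar Qb M ℓ (Fermat.Agent.S24.jBar M)) := by
  refine isFF1_of_transcendental (Fermat.Agent.S24.isFF1_jBar (M * ℓ)) _ ?_
  intro halg
  have h1 : IsAlgebraic Qb (Fermat.Agent.S24.jBar M) := by
    obtain ⟨p, hp0, hp⟩ := halg
    refine ⟨p, hp0, ?_⟩
    rw [Polynomial.aeval_algHom_apply] at hp
    exact (map_eq_zero_iff _ (heckeBetaBar Qb M ℓ).toRingHom.injective).1 hp
  exact (Fermat.Agent.S24.isFF1_jBar M).transcendental h1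

/-- the coefficients of `Q_f` are regular at `P'` as soon as `α f` is regular on the fibre of
`β` over `P'` -/
theorem ord_charpoly_coeff_nonneg (P' : Place Qb (modularFunctionFieldBar M))
    (f : modularFunctionFieldBar M)
    (hreg : ∀ w : Place Qb (modularFunctionFieldBar (M * ℓ)),
      w.restrictAlong (heckeBetaBar Qb M ℓ) (H.betaInt M ℓ) = P' →
        0 ≤ w.ord (heckeAlphaBar Qb M ℓ f)) (i : ℕ) :
    letI := algebraAlong (heckeBetaBar Qb M ℓ)
    haveI : Module.Finite (modularFunctionFieldBar M) (modularFunctionFieldBar (M * ℓ)) :=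
      H.finiteAlong_beta M ℓ
    0 ≤ P'.ord ((LinearMap.mulLeft (modularFunctionFieldBar M)
      (heckeAlphaBar Qb M ℓ f)).charpoly.coeff i) := by
  classical
  letI := algebraAlong (heckeBetaBar Qb M ℓ)
  haveI := isScalarTower_along (heckeBetaBar Qb M ℓ)
  haveI : FiniteDimensional (modularFunctionFieldBar M) (modularFunctionFieldBar (M * ℓ)) :=
    H.finiteAlong_beta M ℓ
  haveI : FundamentalIdentity Qb (modularFunctionFieldBar M) (modularFunctionFieldBar (M * ℓ)) :=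
    H.fundamentalIdentity_beta M ℓ
  have hres : ∀ w : Place Qb (modularFunctionFieldBar (M * ℓ)),
      Function.Surjective (algebraMap Qb w.ResidueField) := fun w =>
    algebraMap_residueField_surjective (Fermat.Agent.S24.isFF1_jBar (M * ℓ)) w
  have hval : ∀ w : Place Qb (modularFunctionFieldBar (M * ℓ)), ∃ val : Qb,
      w ∈ P'.fiber (modularFunctionFieldBar (M * ℓ)) →
        (heckeAlphaBar Qb M ℓ f = algebraMap Qb _ val ∨
          0 < w.ord (heckeAlphaBar Qb M ℓ f - algebraMap Qb _ val)) := by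
    intro w
    by_cases hw : w ∈ P'.fiber (modularFunctionFieldBar (M * ℓ))
    · obtain ⟨val, hval⟩ := exists_eq_or_ord_sub_pos w (hres w) _
        (hreg w (Place.mem_fiberAlong.mp hw))
      exact ⟨val, fun _ => hval⟩
    · exact ⟨0, fun h => absurd h hw⟩
  choose val hval using hval
  have := Fermat.Agent.S37.Spec.charpoly_specialise (Fermat.Agent.S24.jBar M)
    (Fermat.Agent.S24.isFF1_jBar M) (isFF1_beta_jBar (M := M) (ℓ := ℓ)) P'
    (heckeAlphaBar Qb M ℓ f) val (fun w hw => hval w hw) i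
  exact Fermat.Agent.S37.EV.IsVal.ord_nonneg this

/-- **the polynomial identity (hyp of M-abs)** for `E = T_ℓ P₀`, `Ek = t • rP₀ + ℓ · t⁻¹ • rP₀`,
for a test function `f` such that `α f` is regular over the `r`-fibre of `r P₀`. -/
theorem prod_heckeDiv_eq (hA : A.LiesOverPrime ℓ) (hℓM : ¬ ℓ ∣ M)
    (P₀ : Place Qb (modularFunctionFieldBar M))
    {f : modularFunctionFieldBar M}
    {a : modularFunctionFieldFullC (IsLocalRing.ResidueField A) M} (hfa : GV.RedF A M f a)
    (hfreg : ∀ P', rmap S P' = rmap S P₀ →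
      ∀ w : Place Qb (modularFunctionFieldBar (M * ℓ)),
        w.restrictAlong (heckeBetaBar Qb M ℓ) (H.betaInt M ℓ) = P' →
          0 ≤ w.ord (heckeAlphaBar Qb M ℓ f))
    (v : Place Qb (modularFunctionFieldBar M) → A)
    (w : Place (IsLocalRing.ResidueField A)
      (modularFunctionFieldFullC (IsLocalRing.ResidueField A) M) → IsLocalRing.ResidueField A)
    (hv : ∀ Q, H.heckeDiv M ℓ (Finsupp.single P₀ 1) Q ≠ 0 →
      Fermat.Agent.S37.M.IsVal Q f (v Q : Qb))
    (hw : ∀ Q, frobDiv ℓ (G.frobSL (IsLocalRing.ResidueField A) ℓ M) (rmap S P₀) Q ≠ 0 →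
      Fermat.Agent.S37.M.IsVal Q a (w Q)) :
    ∏ Q ∈ (H.heckeDiv M ℓ (Finsupp.single P₀ 1)).support,
        (X - C (IsLocalRing.residue A (v Q))) ^ (H.heckeDiv M ℓ (Finsupp.single P₀ 1) Q).toNat
      = ∏ Q ∈ (frobDiv ℓ (G.frobSL (IsLocalRing.ResidueField A) ℓ M) (rmap S P₀)).support,
        (X - C (w Q)) ^
          (frobDiv ℓ (G.frobSL (IsLocalRing.ResidueField A) ℓ M) (rmap S P₀) Q).toNat := by
  classical
  obtain ⟨ζ₀, hζ₀⟩ := HasEnoughRootsOfUnity.exists_primitiveRoot Qb ℓ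
  have hζ : IsPrimitiveRoot (hζ₀.isUnit (NeZero.ne ℓ)).unit ℓ := by
    rw [← IsPrimitiveRoot.coe_units_iff]
    exact hζ₀
  set ζ : Qbˣ := (hζ₀.isUnit (NeZero.ne ℓ)).unit with hζdef
  set t := G.frobSL (IsLocalRing.ResidueField A) ℓ M with ht
  letI := algebraAlong (heckeBetaBar Qb M ℓ)
  haveI : Module.Finite (modularFunctionFieldBar M) (modularFunctionFieldBar (M * ℓ)) :=
    H.finiteAlong_beta M ℓ
  haveI := AL.free_along_beta M ℓ
  set Qf : Polynomial (modularFunctionFieldBar M) :=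
    (LinearMap.mulLeft (modularFunctionFieldBar M) (heckeAlphaBar Qb M ℓ f)).charpoly with hQf
  have hW := AL.charpoly_alpha hℓ.out hℓM hζ f
  have hred : ∀ i, GV.RedF A M (Qf.coeff i)
      (((X - C ((t⁻¹ • a) ^ ℓ)) * (X ^ ℓ - C (t • a))).coeff i) := fun i =>
    MC2.redF_coeff_of_kron_frobSL A ℓ M hA ζ hζ hfa Qf hW i
  have hspec : EV.PolyVal P₀ Qf (∏ Q ∈ (H.heckeDiv M ℓ (Finsupp.single P₀ 1)).support,
      (X - C ((v Q : A) : Qb)) ^ (H.heckeDiv M ℓ (Finsupp.single P₀ 1) Q).toNat) := fun i =>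
    Fermat.Agent.S37.Spec.charpoly_correspondence (heckeBetaBar Qb M ℓ) (heckeAlphaBar Qb M ℓ)
      (H.betaInt M ℓ) (H.alphaInt M ℓ) (H.finiteAlong_beta M ℓ) (H.fundamentalIdentity_beta M ℓ)
      (Fermat.Agent.S24.jBar M) (Fermat.Agent.S24.isFF1_jBar M) isFF1_beta_jBar P₀ f
      (fun Q => ((v Q : A) : Qb)) hv i
  have hreg : ∀ i, ∀ P', rmap S P' = rmap S P₀ → 0 ≤ P'.ord (Qf.coeff i) := fun i P' hP' =>
    ord_charpoly_coeff_nonneg P' f (hfreg P' hP') i
  have h₁ : EV.IsVal (rmap S P₀) ((t⁻¹ • a) ^ ℓ) (w (t • rmap S P₀)) :=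
    MC2.isVal_V ℓ t (G.baseAut_frobSL _ ℓ M)
      (hw _ (frobDiv_apply_smul hℓ.out.ne_zero t (rmap S P₀)))
  have h₂ : EV.IsVal (rmap S P₀) (t • a) (w (t⁻¹ • rmap S P₀) ^ ℓ) :=
    MC2.isVal_frob ℓ t (G.baseAut_frobSL _ ℓ M)
      (hw _ (frobDiv_apply_inv_smul hℓ.out.ne_zero t (rmap S P₀)))
  rw [prod_frobDiv]
  exact EV.prod_eq_of_red S ℓ hred hreg _ v
    (fun Q => (H.heckeDiv M ℓ (Finsupp.single P₀ 1) Q).toNat) hspec h₁ h₂

theorem heckeDiv_single_nonneg (P₀ : Place Qb (modularFunctionFieldBar M)) :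
    0 ≤ H.heckeDiv M ℓ (Finsupp.single P₀ 1) := by
  classical
  rw [H.heckeDiv_single]
  refine Finset.sum_nonneg (fun Q _ => ?_)
  rw [Finsupp.le_def]
  intro P
  simp only [Finsupp.coe_zero, Pi.zero_apply, Finsupp.single_apply]
  split_ifs
  · positivity
  · exact le_rfl

theorem ord_jK_smul (τ : RingAut (IsLocalRing.ResidueField A))
    (Q : Place (IsLocalRing.ResidueField A)
      (modularFunctionFieldFullC (IsLocalRing.ResidueField A) M)) :
    (G.semiC (IsLocalRing.ResidueField A) M τ • Q).ord (GV.jK (IsLocalRing.ResidueField A) M)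
      = Q.ord (GV.jK (IsLocalRing.ResidueField A) M) := by
  have := SemilinearAut.ord_smul (G.semiC (IsLocalRing.ResidueField A) M τ) Q
    (GV.jK (IsLocalRing.ResidueField A) M)
  rwa [G.semiC_smul_jK] at this

theorem ord_jK_of_frobDiv_ne_zero
    (Q Q' : Place (IsLocalRing.ResidueField A)
      (modularFunctionFieldFullC (IsLocalRing.ResidueField A) M))
    (h : frobDiv ℓ (G.frobSL (IsLocalRing.ResidueField A) ℓ M) Q Q' ≠ 0) :
    Q'.ord (GV.jK (IsLocalRing.ResidueField A) M)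
      = Q.ord (GV.jK (IsLocalRing.ResidueField A) M) := by
  rcases frobDiv_apply_ne_zero ℓ _ Q Q' h with rfl | rfl
  · exact ord_jK_smul _ Q
  · have h1 : (G.frobSL (IsLocalRing.ResidueField A) ℓ M)⁻¹
        = G.semiC (IsLocalRing.ResidueField A) M (G.frobAut (IsLocalRing.ResidueField A) ℓ)⁻¹ := by
      rw [G.frobSL, map_inv]
    rw [h1]
    exact ord_jK_smul _ Q

/-- **(M), place form**: `r_* (T_ℓ P₀) = t • r P₀ + ℓ · t⁻¹ • r P₀` for every place `P₀` of
`F(M)`. -/
theorem mapDomain_heckeDiv_single (hA : A.LiesOverPrime ℓ) (hℓM : ¬ ℓ ∣ M)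
    (hD : D = S.hpf.poleDiv (Fermat.Agent.S24.jBar M))
    (hDk : Dk = S.hpfk.poleDiv (GV.jK (IsLocalRing.ResidueField A) M))
    (P₀ : Place Qb (modularFunctionFieldBar M)) :
    Finsupp.mapDomain (rmap S) (H.heckeDiv M ℓ (Finsupp.single P₀ 1))
      = Finsupp.single (G.frobSL (IsLocalRing.ResidueField A) ℓ M • rmap S P₀) 1
        + Finsupp.single ((G.frobSL (IsLocalRing.ResidueField A) ℓ M)⁻¹ • rmap S P₀) (ℓ : ℤ) := by
  classical
  show _ = frobDiv ℓ (G.frobSL (IsLocalRing.ResidueField A) ℓ M) (rmap S P₀)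
  have hE := heckeDiv_single_nonneg (ℓ := ℓ) P₀
  have hEk := frobDiv_nonneg ℓ (G.frobSL (IsLocalRing.ResidueField A) ℓ M) (rmap S P₀)
  by_cases hgood : 0 ≤ (rmap S P₀).ord (GV.jK (IsLocalRing.ResidueField A) M)
  · refine Fermat.Agent.S37.M.mapDomain_eq_of_charpoly_good S (EV.evProp S) hD hDk _ hE _ hEk
      (fun Q hQ => (MC.good_of_heckeDiv S hD hDk hℓM P₀ Q 1 hQ).2 hgood)
      (fun Q hQ => by rw [ord_jK_of_frobDiv_ne_zero _ Q hQ]; exact hgood) ?_
    intro n f a hf hfa ha v w hv hw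
    exact prod_heckeDiv_eq S hA hℓM P₀ hfa
      (fun P' hP' w' hw' => MC.ord_alpha_nonneg_good S hD hDk hℓM hP' hgood hf w' hw') v w hv hw
  · rw [not_le] at hgood
    have hJ0 : GV.jK (IsLocalRing.ResidueField A) M ≠ 0 := by
      intro h0
      rw [h0, Place.ord_zero] at hgood
      exact lt_irrefl _ hgood
    refine Fermat.Agent.S37.M.mapDomain_eq_of_charpoly_bad S (EV.evProp S) hD hDk
      (GV.red_jBar A M) hJ0 _ hE _ hEk
      (fun Q hQ => by
        by_contra hcon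
        rw [not_lt] at hcon
        have := (MC.good_of_heckeDiv S hD hDk hℓM P₀ Q 1 hQ).1 hcon
        omega)
      (fun Q hQ => by rw [ord_jK_of_frobDiv_ne_zero _ Q hQ]; exact hgood) ?_
    intro n f a hf hfa ha v w hv hw
    exact prod_heckeDiv_eq S hA hℓM P₀ hfa
      (fun P' hP' w' hw' => MC.ord_alpha_nonneg_bad S hD hDk hℓM hP' hgood hf w' hw') v w hv hw

end Core

end Fermat.Agent.S37.MC3
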