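import Fermat.Agent.S37.GalFrob
import Fermat.Agent.S37.HInpMain

/-!
# S37 (C78), piece M, (MC4): from the place form of the main congruence to `Pic0`

* `mapDomain_corr`: by linearity, `r_*(T (single P 1)) = single (t • rP) 1 + single (t⁻¹ • rP) n`
  for all places `P` gives `r_*(T E) = t • r_* E + n • (t⁻¹ • r_* E)` for all divisors `E`;
* `redPic0_hecke`: `redPic0 S (T_ℓ x) = Φ (redPic0 S x) + Ψ (redPic0 S x)` on `JZero M`.
-/

set_option autoImplicit false
set_option linter.unusedSectionVars false
set_option linter.style.haveILetI false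
set_option linter.unusedVariables false

noncomputable section

open AlgebraicCurve Fermat.Agent.Lib.FF Fermat.Agent.S18.Deuring Polynomial
open scoped Classical

namespace Fermat.Agent.S37.M

section Abs

variable {L k F Fk : Type*} [Field L] [Field k] [Field F] [Field Fk] [Algebra L F] [Algebra k Fk]

/-- linearity: from places to divisors -/
theorem mapDomain_corr (r : Place L F → Place k Fk) (t : SemilinearAut k Fk)
    (T : Divisor L F →+ Divisor L F) (n : ℤ)
    (hplace : ∀ P : Place L F, Finsupp.mapDomain r (T (Finsupp.single P 1))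
      = Finsupp.single (t • r P) 1 + Finsupp.single (t⁻¹ • r P) n)
    (E : Divisor L F) :
    Finsupp.mapDomain r (T E)
      = t • Finsupp.mapDomain r E + n • (t⁻¹ • Finsupp.mapDomain r E) := by
  induction E using Finsupp.induction with
  | zero => simp
  | single_add P m E _ _ ih =>
    have h1 : (Finsupp.single P m : Divisor L F) = m • Finsupp.single P 1 := by
      rw [Finsupp.smul_single, smul_eq_mul, mul_one]
    have h2 : Finsupp.mapDomain r (T (Finsupp.single P m))
        = Finsupp.single (t • r P) m + Finsupp.single (t⁻¹ • r P) (n * m) := by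
      rw [h1, map_zsmul, Finsupp.mapDomain_smul, hplace, smul_add, Finsupp.smul_single,
        Finsupp.smul_single, smul_eq_mul, smul_eq_mul, mul_one, mul_comm m n]
    have h3 : t • Finsupp.mapDomain r (Finsupp.single P m)
          + n • (t⁻¹ • Finsupp.mapDomain r (Finsupp.single P m))
        = Finsupp.single (t • r P) m + Finsupp.single (t⁻¹ • r P) (n * m) := by
      rw [Finsupp.mapDomain_single, SemilinearAut.smul_single, SemilinearAut.smul_single,
        Finsupp.smul_single, smul_eq_mul]
    rw [map_add, Finsupp.mapDomain_add, Finsupp.mapDomain_add, ih, h2, ← h3, smul_add, smul_add,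
      smul_add]
    abel

end Abs

section Conc

set_option synthInstance.maxHeartbeats 400000
set_option maxHeartbeats 1600000

open ModularCurve Fermat.Agent.S18.GV Fermat.Agent.S37.G

local notation "Qb" => AlgebraicClosure ℚ

/-- shortcut instance (the generic search for this instance takes seconds) -/
@[reducible] def algFFCShort (A : ValuationSubring (AlgebraicClosure ℚ)) (M : ℕ) :
    Algebra (IsLocalRing.ResidueField A)
      (modularFunctionFieldFullC (IsLocalRing.ResidueField A) M) :=
  inferInstance

attribute [local instance 2000] algFFCShort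

variable {A : ValuationSubring (AlgebraicClosure ℚ)} {M : ℕ} [NeZero M]
variable {D : Divisor (AlgebraicClosure ℚ) (modularFunctionFieldBar M)}
  {Dk : Divisor (IsLocalRing.ResidueField A)
    (modularFunctionFieldFullC (IsLocalRing.ResidueField A) M)} {g₀ : ℕ} {c : ℤ}
variable [Infinite (IsLocalRing.ResidueField A)]

theorem pic0_mk_add_zsmul {K F : Type*} [Field K] [Field F] [Algebra K F]
    (a b : Divisor.degZero (K := K) (F := F)) (n : ℤ) :
    Pic0.mk a + n • Pic0.mk b = Pic0.mk (a + n • b) := rfl

/-- **(MC4)**: the main congruence on `Pic0`, from its place form. -/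
theorem redPic0_hecke (S : Setup A (IsLocalRing.residue A) (RedF A M) D Dk g₀ c)
    (ℓ : ℕ) [Fact ℓ.Prime] [NeZero ℓ] [CharP (IsLocalRing.ResidueField A) ℓ]
    [PerfectField (IsLocalRing.ResidueField A)]
    (hplace : ∀ P : Place Qb (modularFunctionFieldBar M),
      Finsupp.mapDomain (rmap S) (Fermat.Agent.S37.H.heckeDiv M ℓ (Finsupp.single P 1))
        = Finsupp.single (frobSL (IsLocalRing.ResidueField A) ℓ M • rmap S P) 1
          + Finsupp.single ((frobSL (IsLocalRing.ResidueField A) ℓ M)⁻¹ • rmap S P) (ℓ : ℤ))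
    (hℓ : ℓ.Prime) (x : JZero M) :
    redPic0 S (heckeOperatorBar M ⟨ℓ, hℓ⟩ x)
      = PhiPic (IsLocalRing.ResidueField A) ℓ M (redPic0 S x)
        + PsiPic (IsLocalRing.ResidueField A) ℓ M (redPic0 S x) := by
  obtain ⟨E, rfl⟩ := Pic0.mk_surjective x
  have h1 := Fermat.Agent.S37.H.heckeOperatorAlong_mk (N := M) (ℓ := ℓ) E
  have h0 : heckeOperatorBar M ⟨ℓ, hℓ⟩ (Pic0.mk E)
      = heckeOperatorAlong Qb M ℓ (Pic0.mk E) := rfl
  rw [h0, h1, redPic0_mk, redPic0_mk, PhiPic_apply, PsiPic_apply, SemilinearAut.pic0_smul_mk,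
    SemilinearAut.pic0_smul_mk, pic0_mk_add_zsmul]
  refine congrArg Pic0.mk (Subtype.ext ?_)
  rw [coe_redDegZero]
  show Finsupp.mapDomain (rmap S) (Fermat.Agent.S37.H.heckeDiv M ℓ (E : Divisor Qb _)) = _
  rw [mapDomain_corr (rmap S) (frobSL (IsLocalRing.ResidueField A) ℓ M)
    (Fermat.Agent.S37.H.heckeDiv M ℓ) (ℓ : ℤ) hplace]
  rfl

end Conc

end Fermat.Agent.S37.M
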