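import Fermat.Agent.S37.FinalPkg
import Fermat.Agent.S37.Gen
import Fermat.Agent.S37.MainConc
import Fermat.Agent.S37.MainPic

/-!
# S37, piece Z: the reduction package exists at every prime `ℓ ∤ N p`
-/

set_option autoImplicit false
set_option linter.unusedSectionVars false
set_option linter.unusedVariables false
set_option linter.style.haveILetI false
set_option synthInstance.maxHeartbeats 400000
set_option maxHeartbeats 1000000

noncomputable section

namespace Fermat.Agent.S37.Z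

open AlgebraicCurve ModularCurve Fermat.Agent.S18

local notation "Qb" => AlgebraicClosure ℚ

theorem exists_aux_prime (ℓ : ℕ) :
    ∃ b : ℕ, b.Prime ∧ b ≠ ℓ ∧ (b * b = 4 ∨ b * b = 9) := by
  by_cases h : ℓ = 2
  · exact ⟨3, Nat.prime_three, by omega, Or.inr rfl⟩
  · exact ⟨2, Nat.prime_two, fun h' => h h'.symm, Or.inl rfl⟩

/-- **The reduction package.** -/
theorem hasRedPkg (N p : ℕ) [NeZero N] (ℓ : ℕ) (hℓ : ℓ.Prime) (hℓNp : ¬ ℓ ∣ N * p)
    (A : ValuationSubring Qb) (hA : A.LiesOverPrime ℓ) : HasRedPkg N p ℓ hℓ A := by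
  haveI : Fact ℓ.Prime := ⟨hℓ⟩
  haveI : NeZero ℓ := ⟨hℓ.ne_zero⟩
  haveI := ResClosed.infinite_residueField A
  haveI := ResClosed.perfectField_residueField A
  haveI := GV.charP_residueField A ℓ hA
  have hℓN : ¬ ℓ ∣ N := fun h => hℓNp (Dvd.dvd.mul_right h p)
  have hℓp : ¬ ℓ ∣ p := fun h => hℓNp (Dvd.dvd.mul_left h N)
  obtain ⟨b, hb, hbℓ, hbb⟩ := exists_aux_prime ℓ
  haveI : NeZero b := ⟨hb.ne_zero⟩
  have hℓb : ¬ ℓ ∣ b := fun h => hbℓ ((Nat.prime_dvd_prime_iff_eq hℓ hb).1 h).symm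
  have hNb : ¬ ℓ ∣ N * b := fun h => (hℓ.dvd_mul.1 h).elim hℓN hℓb
  have hNbb : ¬ ℓ ∣ N * b * b := fun h => (hℓ.dvd_mul.1 h).elim hNb hℓb
  have h49 : 4 ∣ N * b * b ∨ 9 ∣ N * b * b := by
    rcases hbb with h | h
    · exact Or.inl ⟨N, by rw [mul_assoc, h, mul_comm]⟩
    · exact Or.inr ⟨N, by rw [mul_assoc, h, mul_comm]⟩
  obtain ⟨g, c, -, S⟩ := R.exists_setup A ℓ hA (N * b * b) hNbb h49
  exact hasRedPkg_of N p ℓ A hA b hb hbℓ hℓN hℓp S rfl rfl
    (L2.squareData N b ℓ hℓ hNb) (L2.squareData (N * b) b ℓ hℓ hNbb)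
    (fun y => M.redPic0_hecke S ℓ
      (fun P => MC3.mapDomain_heckeDiv_single S hA hNbb rfl rfl P) hℓ y)

end Fermat.Agent.S37.Z
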