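import Fermat.Agent.S18.GVRed
import Fermat.Prelude.Def_EllipticCurve_FrobeniusTrace

/-!
# S37, piece G (concrete part 1): the Gauss reduction relation `Red` is equivariant

For `σ` in the decomposition group of `A ⊆ L` (`L/ℚ` algebraic), with induced automorphism `σ̄` of
the residue field: `Red A x a → Red A (σ x) (σ̄ a)` (coefficientwise actions on Laurent series).
-/

set_option autoImplicit false
set_option linter.unusedSectionVars false

noncomputable section

namespace Fermat.Agent.S37.G

open ModularCurve Fermat.Agent.S18.GV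

variable {L : Type*} [Field L] [Algebra ℚ L] (A : ValuationSubring L)

/-- characterisation of the Gauss reduction relation by numerator and denominator -/
theorem red_iff_exists {x : LaurentSeries L} {a : LaurentSeries (IsLocalRing.ResidueField A)} :
    Red A x a ↔ ∃ P Q : LaurentSeries A, IsFin A P ∧ IsFin A Q ∧ red A Q ≠ 0 ∧
      x * eps A Q = eps A P ∧ a * red A Q = red A P := by
  constructor
  · rintro ⟨hx, rfl⟩
    obtain ⟨P, Q, hP, hQf, hQ, h⟩ := (mem_gaussRing_iff A).1 hx
    refine ⟨P, Q, hP, hQf, hQ, h, ?_⟩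
    rw [rho_eq A ⟨x, hx⟩ hQ h, div_mul_cancel₀ _ hQ]
  · rintro ⟨P, Q, hP, hQf, hQ, h, h'⟩
    have hx : x ∈ gaussRing A := (mem_gaussRing_iff A).2 ⟨P, Q, hP, hQf, hQ, h⟩
    refine ⟨hx, ?_⟩
    rw [rho_eq A ⟨x, hx⟩ hQ h, div_eq_iff hQ, h']

/-- the residue automorphism induced by an element of the decomposition group -/
def resAut (g : A.decompositionSubgroup ℚ) : RingAut (IsLocalRing.ResidueField A) :=
  MulSemiringAction.toRingAut (A.decompositionSubgroup ℚ) (IsLocalRing.ResidueField A) g

theorem resAut_apply (g : A.decompositionSubgroup ℚ) (x : IsLocalRing.ResidueField A) :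
    resAut A g x = g • x := rfl

theorem resAut_residue (g : A.decompositionSubgroup ℚ) (a : A) :
    resAut A g (IsLocalRing.residue A a) = IsLocalRing.residue A (g • a) := by
  rw [resAut_apply, IsLocalRing.ResidueField.residue_smul]

theorem resAut_inv (g : A.decompositionSubgroup ℚ) : resAut A g⁻¹ = (resAut A g)⁻¹ :=
  map_inv _ g

/-- the action of the decomposition group on `A((q))` -/
def actA (g : A.decompositionSubgroup ℚ) : LaurentSeries A →+* LaurentSeries A :=
  coeffMap (MulSemiringAction.toRingHom (A.decompositionSubgroup ℚ) A g)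

theorem actA_coeff (g : A.decompositionSubgroup ℚ) (P : LaurentSeries A) (n : ℤ) :
    (actA A g P).coeff n = g • P.coeff n := rfl

theorem eps_actA (g : A.decompositionSubgroup ℚ) (P : LaurentSeries A) :
    eps A (actA A g P) = coeffMap ((g : L ≃ₐ[ℚ] L) : L →+* L) (eps A P) := by
  ext n
  rfl

theorem red_actA (g : A.decompositionSubgroup ℚ) (P : LaurentSeries A) :
    red A (actA A g P) = coeffMap ((resAut A g : IsLocalRing.ResidueField A ≃+* _) :
      IsLocalRing.ResidueField A →+* IsLocalRing.ResidueField A) (red A P) := by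
  ext n
  show IsLocalRing.residue A (g • P.coeff n) = resAut A g (IsLocalRing.residue A (P.coeff n))
  rw [resAut_residue]

theorem isFin_actA (g : A.decompositionSubgroup ℚ) {P : LaurentSeries A} (hP : IsFin A P) :
    IsFin A (actA A g P) := by
  obtain ⟨K, hK, hPK⟩ := hP
  refine ⟨K.map ((g : L ≃ₐ[ℚ] L) : L →ₐ[ℚ] L), inferInstance, fun n => ?_⟩
  exact ⟨_, hPK n, rfl⟩

theorem coeffMap_injective {R S : Type*} [CommRing R] [CommRing S] (f : R →+* S)
    (hf : Function.Injective f) : Function.Injective (coeffMap f) := by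
  intro x y h
  ext n
  have := congrArg (fun z => z.coeff n) h
  exact hf this

/-- **equivariance of the Gauss reduction relation** -/
theorem Red.coeffMap_decomp (g : A.decompositionSubgroup ℚ) {x : LaurentSeries L}
    {a : LaurentSeries (IsLocalRing.ResidueField A)} (h : Red A x a) :
    Red A (coeffMap ((g : L ≃ₐ[ℚ] L) : L →+* L) x)
      (coeffMap ((resAut A g : IsLocalRing.ResidueField A ≃+* _) :
        IsLocalRing.ResidueField A →+* IsLocalRing.ResidueField A) a) := by
  rw [red_iff_exists] at h ⊢
  obtain ⟨P, Q, hP, hQf, hQ, h1, h2⟩ := h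
  refine ⟨actA A g P, actA A g Q, isFin_actA A g hP, isFin_actA A g hQf, ?_, ?_, ?_⟩
  · rw [red_actA]
    intro h0
    apply hQ
    apply coeffMap_injective ((resAut A g : IsLocalRing.ResidueField A ≃+* _) :
        IsLocalRing.ResidueField A →+* IsLocalRing.ResidueField A)
      (fun u v huv => (resAut A g).injective huv)
    rw [h0, map_zero]
  · rw [eps_actA, eps_actA, ← map_mul, h1]
  · rw [red_actA, red_actA, ← map_mul, h2]

end Fermat.Agent.S37.G
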