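import Fermat.Agent.S37.RedInj
import Fermat.Agent.S18.PoleCountFinal
import Fermat.Agent.S18.FinalGlue

/-!
# S37, piece R' (concrete part): the Deuring setup at a level `M` with `4 ∣ M` or `9 ∣ M`, `ℓ ∤ M`,
and injectivity of its reduction on torsion prime to `ℓ`

* `exists_setup`: C76's `Deuring.Setup` at the level `M` (unconditional);
* `redF_surjective`: every element of `F_k(M)` is the reduction of an element of `F(M)`;
* `redPic0_inj`: `m • z = 0`, `ℓ ∤ m`, `redPic0 S z = 0` ⇒ `z = 0`.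
-/

set_option autoImplicit false
set_option linter.unusedSectionVars false
set_option linter.unusedVariables false
set_option linter.style.haveILetI false
set_option synthInstance.maxHeartbeats 400000
set_option maxHeartbeats 1000000

noncomputable section

open AlgebraicCurve ModularCurve IntermediateField Fermat.Agent.Lib.FF Fermat.Agent.S18

namespace Fermat.Agent.S37.R

local notation "Qb" => AlgebraicClosure ℚ

variable (A : ValuationSubring (AlgebraicClosure ℚ)) (ℓ : ℕ) [hℓ : Fact ℓ.Prime]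
variable (hA : A.LiesOverPrime ℓ) (M : ℕ) [NeZero M] (hℓM : ¬ ℓ ∣ M)

theorem exists_psi_eq' {a M : ℕ} (hM : M ≠ 0) (ha : a = 4 ∨ a = 9) (haM : a ∣ M) :
    ∃ n : ℕ, dedekindPsi M = n * dedekindPsi a := by
  obtain ⟨N, rfl⟩ := haM
  have hN : N ≠ 0 := by
    rintro rfl
    simp at hM
  rcases ha with rfl | rfl
  · obtain ⟨n, hn⟩ := Final.exists_psi_eq N 2 hN Nat.prime_two
    refine ⟨n, ?_⟩
    have e : (4 : ℕ) = 2 ^ 2 := by norm_num
    rw [mul_comm, e]
    exact hn
  · obtain ⟨n, hn⟩ := Final.exists_psi_eq N 3 hN Nat.prime_three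
    refine ⟨n, ?_⟩
    have e : (9 : ℕ) = 3 ^ 2 := by norm_num
    rw [mul_comm, e]
    exact hn

include hA hℓM in
/-- **C76's Deuring setup at a level `M` with `4 ∣ M` or `9 ∣ M`, `ℓ ∤ M`** -/
theorem exists_setup (h49 : 4 ∣ M ∨ 9 ∣ M) :
    ∃ (g : ℕ) (c : ℤ), (g : ℚ) = genusFormula M ∧
      Deuring.Setup A (IsLocalRing.residue A) (GV.RedF A M)
        ((Final.placeFacts_bar M).poleDiv (Fermat.Agent.S24.jBar M))
        ((Final.placeFacts_k A ℓ hA M).poleDiv (GV.jK (IsLocalRing.ResidueField A) M)) g c := by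
  obtain ⟨g, c, hg, hRF⟩ := RF.rthm_bar M
  refine ⟨g, c, hg, Final.setup_of_ns A ℓ hA M hℓM g c hRF ?_⟩
  have hPC := Cusp.poleCount A ℓ hA
  obtain ⟨a, ha, haM⟩ : ∃ a : ℕ, (a = 4 ∨ a = 9) ∧ a ∣ M := by
    rcases h49 with h | h
    · exact ⟨4, Or.inl rfl, h⟩
    · exact ⟨9, Or.inr rfl, h⟩
  haveI : NeZero a := ⟨by rcases ha with rfl | rfl <;> norm_num⟩
  have hℓa : ¬ ℓ ∣ a := fun h => hℓM (h.trans haM)
  obtain ⟨n, hn⟩ := exists_psi_eq' (NeZero.ne M) ha haM
  have harith := GV.g3 ha haM hn g hg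
  have hc₀ := hPC a hℓa
  have hc := hPC M hℓM
  exact Final.ns_of_polecount A ℓ hA M hℓM a haM (GV.genusFormula_eq_zero ha) n hn
    hc₀.ge hc.le g harith

/-- every element of `F_k(M)` is the reduction of an element of `F(M)` -/
theorem redF_surjective (a : modularFunctionFieldFullC (IsLocalRing.ResidueField A) M) :
    ∃ x : modularFunctionFieldBar M, GV.RedF A M x a := by
  haveI : Algebra.IsAlgebraic ℚ (AlgebraicClosure ℚ) := AlgebraicClosure.isAlgebraic ℚ
  obtain ⟨x, hx, hxa⟩ := GV.exists_red_of_mem_ffC A M a.2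
  exact ⟨⟨x, hx⟩, hxa⟩

include hA in
/-- **injectivity of the Deuring reduction on torsion prime to `ℓ`** -/
theorem redPic0_inj [Infinite (IsLocalRing.ResidueField A)]
    {D : Divisor Qb (modularFunctionFieldBar M)}
    {Dk : Divisor (IsLocalRing.ResidueField A)
      (modularFunctionFieldFullC (IsLocalRing.ResidueField A) M)} {g : ℕ} {c : ℤ}
    (S : Deuring.Setup A (IsLocalRing.residue A) (GV.RedF A M) D Dk g c)
    (m : ℕ) (hm : ¬ ℓ ∣ m) (z : JZero M) (hmz : m • z = 0)
    (hz : Fermat.Agent.S37.G.redPic0 S z = 0) : z = 0 := by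
  haveI := GV.charP_residueField A ℓ hA
  have hmk : ((m : ℕ) : IsLocalRing.ResidueField A) ≠ 0 := by
    intro h0
    exact hm ((CharP.cast_eq_zero_iff (IsLocalRing.ResidueField A) ℓ m).1 h0)
  exact redPic0_eq_zero_imp S (redF_surjective A M) m hmk z hmz hz

end Fermat.Agent.S37.R
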