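import Fermat.Agent.S37.MCInt
import Fermat.Agent.S28.ModEq
import Fermat.Agent.S37.ALDeg
import Fermat.Agent.S18.GVModular
import Fermat.Agent.S18.FinalSetup

/-!
# S37 (C78), piece MC1, part 2: integrality of `j` along the Hecke correspondence

For a valuation ring `A` of `ℚ̄` and a prime `ℓ ∤ M`: at every place `R` of `F(Mℓ)`,
`α(j)` is `A`-integral iff `β(j)` is `A`-integral (`intAt_alpha_iff_beta`), because the modular
equation `Φ_ℓ(α j, β j) = 0` is monic in both variables with coefficients in `ℤ[ζ_ℓ] ⊆ A`.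
In terms of the places of `F(M)`: `intAt_restrict_alpha_iff_beta`.
-/

set_option autoImplicit false
set_option linter.unusedSectionVars false
set_option linter.unusedVariables false
set_option linter.style.haveILetI false
set_option synthInstance.maxHeartbeats 400000

noncomputable section

open AlgebraicCurve ModularCurve Fermat.Agent.Lib.FF Fermat.Agent.S37.M Polynomial

namespace Fermat.Agent.S37.MC

local notation "Qb" => AlgebraicClosure ℚ

variable (A : ValuationSubring (AlgebraicClosure ℚ)) (ℓ : ℕ) [hℓ : Fact ℓ.Prime]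

/-- algebraic integers of `ℚ̄` lie in every valuation ring -/
theorem mem_of_isIntegral_int {x : Qb} (hx : IsIntegral ℤ x) : x ∈ A := by
  have hint : IsIntegral A x := hx.tower_top
  obtain ⟨y, hy⟩ := (IsIntegrallyClosed.isIntegral_iff (R := A) (K := Qb)).mp hint
  rw [← hy]
  exact y.2

/-- a primitive `ℓ`-th root of unity in `A` -/
theorem exists_zetaA : ∃ ζ : Aˣ,
    Polynomial.eval₂ (Int.castRingHom A) (ζ : A) (Polynomial.cyclotomic ℓ ℤ) = 0 := by
  have hne : NeZero ((ℓ : ℕ) : Qb) := ⟨by exact_mod_cast hℓ.out.ne_zero⟩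
  obtain ⟨ζ₀, hζ₀⟩ := IsAlgClosed.exists_root (Polynomial.cyclotomic ℓ Qb)
    (by
      rw [Polynomial.degree_cyclotomic]
      exact_mod_cast (Nat.totient_pos.2 hℓ.out.pos).ne')
  have hprim : IsPrimitiveRoot ζ₀ ℓ := Polynomial.isRoot_cyclotomic_iff.1 hζ₀
  have hmem : ζ₀ ∈ A := mem_of_isIntegral_int A (hprim.isIntegral hℓ.out.pos)
  have hpow : (⟨ζ₀, hmem⟩ : A) ^ ℓ = 1 := Subtype.ext (by
    show ζ₀ ^ ℓ = 1
    exact hprim.pow_eq_one)
  refine ⟨(IsUnit.of_pow_eq_one hpow hℓ.out.ne_zero).unit, ?_⟩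
  show Polynomial.eval₂ (Int.castRingHom A) (⟨ζ₀, hmem⟩ : A) (Polynomial.cyclotomic ℓ ℤ) = 0
  apply Subtype.ext
  have h1 : ((Polynomial.eval₂ (Int.castRingHom A) (⟨ζ₀, hmem⟩ : A)
      (Polynomial.cyclotomic ℓ ℤ) : A) : Qb)
      = Polynomial.eval₂ (Int.castRingHom Qb) ζ₀ (Polynomial.cyclotomic ℓ ℤ) := by
    have := Polynomial.hom_eval₂ (Polynomial.cyclotomic ℓ ℤ) (Int.castRingHom A) A.subtype
      (⟨ζ₀, hmem⟩ : A)
    rw [show A.subtype.comp (Int.castRingHom A) = Int.castRingHom Qb from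
      RingHom.ext_int _ _] at this
    exact this
  rw [h1, Polynomial.eval₂_eq_eval_map, Polynomial.map_cyclotomic_int]
  exact hζ₀

/-- **the modular equation** in `ℚ̄((q))`: `j(q)` is a root of a monic polynomial of degree
`ℓ + 1` whose coefficients are polynomials in `j(q^ℓ)` with coefficients in `A`. -/
theorem exists_modEq : ∃ c : ℕ → Polynomial A,
    (jqModC Qb) ^ (ℓ + 1) + ∑ i ∈ Finset.range (ℓ + 1),
      Polynomial.aeval (qExpand Qb ℓ (jqModC Qb)) ((c i).map A.subtype) * (jqModC Qb) ^ i = 0 := by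
  haveI : NeZero ℓ := ⟨hℓ.out.ne_zero⟩
  obtain ⟨ζ, hζ⟩ := exists_zetaA A ℓ
  have hstar := Fermat.Agent.S28.ModEq.star_of_isRoot ℓ ζ hζ
  choose c hc using hstar
  refine ⟨c, ?_⟩
  set ζ' : Qbˣ := Units.map (A.subtype : A →* Qb) ζ with hζ'
  have hcoef : ∀ n, (Fermat.Agent.S28.ModEq.Psi ℓ ζ').coeff n
      = Polynomial.aeval (qExpand Qb ℓ (jqModC Qb)) ((c n).map A.subtype) := by
    intro n
    have h1 := congrArg (coeffMap A.subtype) (hc n)
    rw [Fermat.Agent.S28.ModEq.coeffMap_aeval, coeffMap_qExpand, coeffMap_jqModC] at h1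
    rw [h1, ← Polynomial.coeff_map, Fermat.Agent.S28.ModEq.map_Psi]
  have hmonic := Fermat.Agent.S28.ModEq.Psi_monic (R := Qb) ℓ ζ'
  have hdeg := Fermat.Agent.S28.ModEq.Psi_natDegree (R := Qb) ℓ ζ'
  have hroot : (Fermat.Agent.S28.ModEq.Psi ℓ ζ').eval (jqModC Qb) = 0 := by
    rw [Fermat.Agent.S28.ModEq.Psi, Polynomial.eval_prod]
    apply Finset.prod_eq_zero (Finset.mem_univ (some ⟨0, hℓ.out.pos⟩ : Option (Fin ℓ)))
    rw [Polynomial.eval_sub, Polynomial.eval_X, Polynomial.eval_C]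
    show jqModC Qb - Fermat.Agent.S28.rot (ζ' ^ ((⟨0, hℓ.out.pos⟩ : Fin ℓ) : ℕ)) (jqModC Qb) = 0
    rw [show ((⟨0, hℓ.out.pos⟩ : Fin ℓ) : ℕ) = 0 from rfl, pow_zero, Fermat.Agent.S28.rot_one,
      sub_self]
  have hsum := hmonic.as_sum
  rw [hdeg] at hsum
  rw [hsum, Polynomial.eval_add, Polynomial.eval_pow, Polynomial.eval_X,
    Polynomial.eval_finsetSum] at hroot
  rw [← hroot]
  congr 1
  refine Finset.sum_congr rfl fun i _ => ?_
  rw [Polynomial.eval_mul, Polynomial.eval_C, Polynomial.eval_pow, Polynomial.eval_X, hcoef]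

variable (M : ℕ) [NeZero M]

/-- the modular equation in `F(Mℓ)`, for `x = α j` over `y = β j` -/
theorem exists_modEq_alpha [NeZero ℓ] : ∃ c : ℕ → Polynomial A,
    (heckeAlphaBar Qb M ℓ (Fermat.Agent.S24.jBar M)) ^ (ℓ + 1) + ∑ i ∈ Finset.range (ℓ + 1),
      Polynomial.aeval (heckeBetaBar Qb M ℓ (Fermat.Agent.S24.jBar M)) ((c i).map A.subtype)
        * (heckeAlphaBar Qb M ℓ (Fermat.Agent.S24.jBar M)) ^ i = 0 := by
  obtain ⟨c, hc⟩ := exists_modEq A ℓ
  refine ⟨c, ?_⟩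
  have hinj : Function.Injective (modularFunctionFieldBar (M * ℓ)).val :=
    (modularFunctionFieldBar (M * ℓ)).val.toRingHom.injective
  apply hinj
  have hx : ((heckeAlphaBar Qb M ℓ (Fermat.Agent.S24.jBar M) :
      modularFunctionFieldBar (M * ℓ)) : LaurentSeries Qb) = jqModC Qb := by
    rw [coe_heckeAlphaBar, Fermat.Agent.S18.GV.coe_jBar]
  have hy : ((heckeBetaBar Qb M ℓ (Fermat.Agent.S24.jBar M) :
      modularFunctionFieldBar (M * ℓ)) : LaurentSeries Qb) = qExpand Qb ℓ (jqModC Qb) := by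
    rw [coe_heckeBetaBar, Fermat.Agent.S18.GV.coe_jBar]
  have hae : ∀ Q : Polynomial Qb,
      ((Polynomial.aeval (heckeBetaBar Qb M ℓ (Fermat.Agent.S24.jBar M)) Q :
        modularFunctionFieldBar (M * ℓ)) : LaurentSeries Qb)
      = Polynomial.aeval (qExpand Qb ℓ (jqModC Qb)) Q := by
    intro Q
    rw [← hy]
    exact (Polynomial.aeval_algHom_apply (modularFunctionFieldBar (M * ℓ)).val _ Q).symm
  rw [map_zero, map_add, map_pow, map_sum, ← hc]
  congr 1
  · exact congrArg (· ^ (ℓ + 1)) hx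
  · refine Finset.sum_congr rfl fun i _ => ?_
    rw [map_mul, map_pow]
    exact congrArg₂ (· * ·) (hae _) (congrArg (· ^ i) hx)

/-- the modular equation in `F(Mℓ)`, for `y = β j` over `x = α j` -/
theorem exists_modEq_beta [NeZero ℓ] (hℓM : ¬ ℓ ∣ M) : ∃ c : ℕ → Polynomial A,
    (heckeBetaBar Qb M ℓ (Fermat.Agent.S24.jBar M)) ^ (ℓ + 1) + ∑ i ∈ Finset.range (ℓ + 1),
      Polynomial.aeval (heckeAlphaBar Qb M ℓ (Fermat.Agent.S24.jBar M)) ((c i).map A.subtype)
        * (heckeBetaBar Qb M ℓ (Fermat.Agent.S24.jBar M)) ^ i = 0 := by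
  obtain ⟨c, hc⟩ := exists_modEq_alpha A ℓ M
  obtain ⟨w, hwα, hwβ, -⟩ := Fermat.Agent.S37.AL.exists_atkinLehner (N := M) (ℓ := ℓ) hℓ.out hℓM
  refine ⟨c, ?_⟩
  have := congrArg w hc
  rw [map_zero, map_add, map_pow, hwα, map_sum] at this
  rw [← this]
  congr 1
  refine Finset.sum_congr rfl fun i _ => ?_
  rw [map_mul, map_pow, hwα, ← Polynomial.aeval_algHom_apply, hwβ]

variable {A ℓ M}

/-- at a place of `F(Mℓ)`: if `β j` is `A`-integral, so is `α j` -/
theorem intAt_alpha_of_beta [NeZero ℓ] (R : Place Qb (modularFunctionFieldBar (M * ℓ)))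
    (h : IntAt A R (heckeBetaBar Qb M ℓ (Fermat.Agent.S24.jBar M))) :
    IntAt A R (heckeAlphaBar Qb M ℓ (Fermat.Agent.S24.jBar M)) := by
  obtain ⟨c, hc⟩ := exists_modEq_alpha A ℓ M
  exact intAt_of_monic ((Fermat.Agent.S18.Final.placeFacts_bar (M * ℓ)).res R) _ (ℓ + 1)
    (fun i => Polynomial.aeval (heckeBetaBar Qb M ℓ (Fermat.Agent.S24.jBar M))
      ((c i).map A.subtype)) (fun i => h.aeval (c i)) hc

/-- at a place of `F(Mℓ)`: if `α j` is `A`-integral, so is `β j` -/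
theorem intAt_beta_of_alpha [NeZero ℓ] (hℓM : ¬ ℓ ∣ M)
    (R : Place Qb (modularFunctionFieldBar (M * ℓ)))
    (h : IntAt A R (heckeAlphaBar Qb M ℓ (Fermat.Agent.S24.jBar M))) :
    IntAt A R (heckeBetaBar Qb M ℓ (Fermat.Agent.S24.jBar M)) := by
  obtain ⟨c, hc⟩ := exists_modEq_beta A ℓ M hℓM
  exact intAt_of_monic ((Fermat.Agent.S18.Final.placeFacts_bar (M * ℓ)).res R) _ (ℓ + 1)
    (fun i => Polynomial.aeval (heckeAlphaBar Qb M ℓ (Fermat.Agent.S24.jBar M))
      ((c i).map A.subtype)) (fun i => h.aeval (c i)) hc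

/-- **MC1 (core).** At every place `R` of `F(Mℓ)`: `α j` is `A`-integral iff `β j` is. -/
theorem intAt_alpha_iff_beta [NeZero ℓ] (hℓM : ¬ ℓ ∣ M)
    (R : Place Qb (modularFunctionFieldBar (M * ℓ))) :
    IntAt A R (heckeAlphaBar Qb M ℓ (Fermat.Agent.S24.jBar M)) ↔
      IntAt A R (heckeBetaBar Qb M ℓ (Fermat.Agent.S24.jBar M)) :=
  ⟨intAt_beta_of_alpha hℓM R, intAt_alpha_of_beta R⟩

/-- **MC1 (core), in terms of the places of `F(M)`.** For a place `R` of `F(Mℓ)`, `j` is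
`A`-integral at `R|α` iff it is `A`-integral at `R|β`. -/
theorem intAt_restrict_alpha_iff_beta [NeZero ℓ] (hℓM : ¬ ℓ ∣ M)
    (hα : (heckeAlphaBar Qb M ℓ).toRingHom.IsIntegral)
    (hβ : (heckeBetaBar Qb M ℓ).toRingHom.IsIntegral)
    (R : Place Qb (modularFunctionFieldBar (M * ℓ))) :
    IntAt A (R.restrictAlong (heckeAlphaBar Qb M ℓ) hα) (Fermat.Agent.S24.jBar M) ↔
      IntAt A (R.restrictAlong (heckeBetaBar Qb M ℓ) hβ) (Fermat.Agent.S24.jBar M) := by
  rw [intAt_restrictAlong, intAt_restrictAlong]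
  exact intAt_alpha_iff_beta hℓM R

end Fermat.Agent.S37.MC
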