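import Fermat.Agent.S37.GalAbs
import Fermat.Agent.S37.GalRed
import Fermat.Agent.S18.GVSetup
import Fermat.Agent.S18.GVDeg
import Fermat.Agent.S18.IGk
import Fermat.Agent.S24.Top
import Fermat.Agent.Lib.FunctionField.DWMain
import Fermat.Prelude.Def_ModularCurve_ArithmeticGalois

/-!
# S37, piece G (concrete part 2): Galois equivariance of the Deuring reduction of `X₀(M)`

* `semiC k M : RingAut k →* SemilinearAut k F_k(M)`: coefficientwise action on `F_k(M)`;
* `compat_decomp`: for `g` in the decomposition group of `A`, the pair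
  `(arithmeticGalois g, semiC (resAut g))` is compatible with any `Setup` at level `M` whose
  divisors are the pole divisors of `j`;
* `redPic0_inertia`, `redPic0_frobenius`.
-/

set_option autoImplicit false
set_option linter.unusedSectionVars false
set_option linter.style.haveILetI false

noncomputable section

namespace Fermat.Agent.S37.G

open ModularCurve AlgebraicCurve Fermat.Agent.Lib.FF Fermat.Agent.S18.Deuring Fermat.Agent.S18.GV
open Fermat.Agent.S18 Fermat.Agent

/-! ### coefficientwise semilinear automorphisms of `F_k(M)` -/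

section SemiC

variable (k : Type*) [Field k] (M : ℕ)

/-- the coefficientwise action of an automorphism of `k` on `F_k(M)` -/
def coeffAutC (τ : RingAut k) :
    modularFunctionFieldFullC k M ≃+* modularFunctionFieldFullC k M where
  toFun x := ⟨coeffMap (τ : k →+* k) (x : LaurentSeries k), IGk.coeffMap_mem_ffC _ M x.2⟩
  invFun x := ⟨coeffMap (τ.symm : k →+* k) (x : LaurentSeries k), IGk.coeffMap_mem_ffC _ M x.2⟩
  left_inv x := Subtype.ext <| by
    show coeffMap (τ.symm : k →+* k) (coeffMap (τ : k →+* k) (x : LaurentSeries k))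
      = (x : LaurentSeries k)
    rw [coeffMap_coeffMap,
      coeffMap_congr (g := RingHom.id k) (RingHom.ext fun a => τ.symm_apply_apply a)
        (x : LaurentSeries k),
      coeffMap_id]
  right_inv x := Subtype.ext <| by
    show coeffMap (τ : k →+* k) (coeffMap (τ.symm : k →+* k) (x : LaurentSeries k))
      = (x : LaurentSeries k)
    rw [coeffMap_coeffMap,
      coeffMap_congr (g := RingHom.id k) (RingHom.ext fun a => τ.apply_symm_apply a)
        (x : LaurentSeries k),
      coeffMap_id]
  map_mul' x y :=
    Subtype.ext (map_mul (coeffMap (τ : k →+* k)) (x : LaurentSeries k) (y : LaurentSeries k))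
  map_add' x y :=
    Subtype.ext (map_add (coeffMap (τ : k →+* k)) (x : LaurentSeries k) (y : LaurentSeries k))

@[simp]
theorem coe_coeffAutC_apply (τ : RingAut k) (x : modularFunctionFieldFullC k M) :
    (coeffAutC k M τ x : LaurentSeries k) = coeffMap (τ : k →+* k) (x : LaurentSeries k) :=
  rfl

theorem coeffAutC_algebraMap (τ : RingAut k) (a : k) :
    coeffAutC k M τ (algebraMap k (modularFunctionFieldFullC k M) a)
      = algebraMap k (modularFunctionFieldFullC k M) (τ a) := by
  apply Subtype.ext
  show coeffMap (τ : k →+* k) (algebraMap k (LaurentSeries k) a) = algebraMap k (LaurentSeries k) (τ a)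
  rw [algebraMap_laurentSeries_eq_single, coeffMap_single, algebraMap_laurentSeries_eq_single]
  rfl

/-- the coefficientwise action, as a homomorphism to the semilinear automorphisms -/
def semiC : RingAut k →* SemilinearAut k (modularFunctionFieldFullC k M) where
  toFun τ := ⟨(coeffAutC k M τ, τ), fun a => coeffAutC_algebraMap k M τ a⟩
  map_one' := by
    refine Subtype.ext (Prod.ext (RingEquiv.ext fun x => Subtype.ext ?_) rfl)
    show coeffMap ((1 : RingAut k) : k →+* k) (x : LaurentSeries k) = (x : LaurentSeries k)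
    rw [show ((1 : RingAut k) : k →+* k) = RingHom.id k from RingHom.ext fun _ => rfl,
      coeffMap_id]
  map_mul' σ τ := by
    refine Subtype.ext (Prod.ext (RingEquiv.ext fun x => Subtype.ext ?_) rfl)
    show coeffMap ((σ * τ : RingAut k) : k →+* k) (x : LaurentSeries k)
      = coeffMap (σ : k →+* k) (coeffMap (τ : k →+* k) (x : LaurentSeries k))
    rw [coeffMap_coeffMap]
    exact coeffMap_congr (RingHom.ext fun _ => rfl) _

theorem coe_semiC_smul (τ : RingAut k) (x : modularFunctionFieldFullC k M) :
    ((semiC k M τ • x : modularFunctionFieldFullC k M) : LaurentSeries k)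
      = coeffMap (τ : k →+* k) (x : LaurentSeries k) :=
  rfl

theorem semiC_smul_jK [NeZero M] (τ : RingAut k) : semiC k M τ • jK k M = jK k M := by
  apply Subtype.ext
  rw [coe_semiC_smul]
  exact coeffMap_jqModC _

end SemiC

/-! ### pole divisors -/

section PoleDiv

variable {K F : Type*} [Field K] [Field F] [Algebra K F]

theorem smul_poleDiv (hpf : PlaceFacts K F) (g : SemilinearAut K F) (x : F) :
    g • hpf.poleDiv x = hpf.poleDiv (g • x) := by
  ext v
  rw [SemilinearAut.divisor_smul_apply, hpf.poleDiv_apply, hpf.poleDiv_apply]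
  have := SemilinearAut.ord_smul g (g⁻¹ • v) x
  rw [smul_inv_smul] at this
  rw [this]

end PoleDiv

/-! ### the compatible pair attached to an element of the decomposition group -/

section Decomp

set_option synthInstance.maxHeartbeats 400000
set_option maxHeartbeats 800000

variable (A : ValuationSubring (AlgebraicClosure ℚ)) (M : ℕ) [NeZero M]

theorem arithmeticGalois_smul_jBar (σ : AlgebraicClosure ℚ ≃ₐ[ℚ] AlgebraicClosure ℚ) :
    arithmeticGalois (modularFunctionFieldFull M) σ • S24.jBar M = S24.jBar M := by
  apply Subtype.ext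
  rw [coe_arithmeticGalois_smul]
  exact coeffMap_coeffEmb _ _

/-- `RedF` is equivariant under the decomposition group -/
theorem redF_smul (g : A.decompositionSubgroup ℚ) {x : modularFunctionFieldBar M}
    {a : modularFunctionFieldFullC (IsLocalRing.ResidueField A) M} (h : RedF A M x a) :
    RedF A M (arithmeticGalois (modularFunctionFieldFull M) (g : AlgebraicClosure ℚ ≃ₐ[ℚ] AlgebraicClosure ℚ) • x)
      (semiC (IsLocalRing.ResidueField A) M (resAut A g) • a) :=
  Red.coeffMap_decomp A g h

variable {A M}
variable {D : Divisor (AlgebraicClosure ℚ) (modularFunctionFieldBar M)}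
  {Dk : Divisor (IsLocalRing.ResidueField A)
    (modularFunctionFieldFullC (IsLocalRing.ResidueField A) M)} {g₀ : ℕ} {c : ℤ}

/-- **the compatible pair of a decomposition group element** -/
theorem compat_decomp (S : Setup A (IsLocalRing.residue A) (RedF A M) D Dk g₀ c)
    (hD : D = S.hpf.poleDiv (S24.jBar M))
    (hDk : Dk = S.hpfk.poleDiv (jK (IsLocalRing.ResidueField A) M))
    (g : A.decompositionSubgroup ℚ) :
    Compat S (arithmeticGalois (modularFunctionFieldFull M) (g : AlgebraicClosure ℚ ≃ₐ[ℚ] AlgebraicClosure ℚ))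
      (semiC (IsLocalRing.ResidueField A) M (resAut A g)) where
  red := fun x a h => redF_smul A M g h
  red_inv := fun x a h => by
    have := redF_smul A M g⁻¹ h
    rw [resAut_inv, map_inv] at this
    rw [← map_inv]
    exact this
  fixD := by
    rw [hD, smul_poleDiv, arithmeticGalois_smul_jBar]
  fixDk := by
    rw [hDk, smul_poleDiv, semiC_smul_jK]

variable [Infinite (IsLocalRing.ResidueField A)]

/-- equivariance for the decomposition group -/
theorem redPic0_decomp (S : Setup A (IsLocalRing.residue A) (RedF A M) D Dk g₀ c)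
    (hD : D = S.hpf.poleDiv (S24.jBar M))
    (hDk : Dk = S.hpfk.poleDiv (jK (IsLocalRing.ResidueField A) M))
    (g : A.decompositionSubgroup ℚ) (x : JZero M) :
    redPic0 S ((g : AlgebraicClosure ℚ ≃ₐ[ℚ] AlgebraicClosure ℚ) • x)
      = semiC (IsLocalRing.ResidueField A) M (resAut A g) • redPic0 S x :=
  (compat_decomp S hD hDk g).redPic0_smul x

/-- **inertia acts trivially after reduction** -/
theorem redPic0_inertia (S : Setup A (IsLocalRing.residue A) (RedF A M) D Dk g₀ c)
    (hD : D = S.hpf.poleDiv (S24.jBar M))
    (hDk : Dk = S.hpfk.poleDiv (jK (IsLocalRing.ResidueField A) M))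
    (τ : AlgebraicClosure ℚ ≃ₐ[ℚ] AlgebraicClosure ℚ) (hτ : τ ∈ A.inertiaSubgroupIn ℚ)
    (x : JZero M) : redPic0 S (τ • x) = redPic0 S x := by
  obtain ⟨g, hg, rfl⟩ := hτ
  have h1 : resAut A g = 1 := hg
  have := redPic0_decomp S hD hDk g x
  rw [h1, map_one, one_smul] at this
  exact this

/-- **Frobenius elements act as the coefficient Frobenius after reduction** -/
theorem redPic0_frobenius (S : Setup A (IsLocalRing.residue A) (RedF A M) D Dk g₀ c)
    (hD : D = S.hpf.poleDiv (S24.jBar M))
    (hDk : Dk = S.hpfk.poleDiv (jK (IsLocalRing.ResidueField A) M))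
    {ℓ : ℕ} (φ : RingAut (IsLocalRing.ResidueField A)) (hφ : ∀ u, φ u = u ^ ℓ)
    (σ : AlgebraicClosure ℚ ≃ₐ[ℚ] AlgebraicClosure ℚ) (hσ : A.IsFrobeniusAt σ ℓ)
    (x : JZero M) :
    redPic0 S (σ • x) = semiC (IsLocalRing.ResidueField A) M φ • redPic0 S x := by
  obtain ⟨hmem, hfrob⟩ := hσ
  have h1 : resAut A ⟨σ, hmem⟩ = φ := by
    ext u
    rw [resAut_apply, hfrob u, hφ u]
  have := redPic0_decomp S hD hDk ⟨σ, hmem⟩ x
  rw [h1] at this
  exact this

end Decomp

end Fermat.Agent.S37.G
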