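import Fermat.Agent.S37.PullInj
import Fermat.Agent.Lib.FunctionField.PlaceBasic
import Fermat.Prelude.Def_ModularCurve_ArithmeticGalois
import Fermat.Prelude.Thm_ModularCurve_coeffMap_qExpand

/-!
# S37, piece Z2: the pull-back along `V_b` commutes with the Galois action

Abstract part: if `φ : F → F'` intertwines two semilinear automorphisms `g`, `g'`, the pull-back of
divisors (and of divisor classes) along `φ` intertwines their actions.
Concrete part: `V_b = heckeBetaBar ℚ̄ N b` (`q ↦ q^b`) commutes with the coefficientwise action of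
`Gal(ℚ̄/ℚ)`, so `V_b^* : J₀(N) → J₀(N b)` is Galois equivariant.
-/

set_option autoImplicit false
set_option linter.unusedSectionVars false
set_option linter.style.haveILetI false

noncomputable section

open AlgebraicCurve ModularCurve Fermat.Agent.Lib.FF

namespace Fermat.Agent.S37.Z2

section Abstract

variable {K F F' : Type*} [Field K] [Field F] [Field F'] [Algebra K F] [Algebra K F']
variable (φ : F →ₐ[K] F') (hφ : φ.toRingHom.IsIntegral)
variable {g : SemilinearAut K F} {g' : SemilinearAut K F'}

theorem mem_restrictAlong_iff (w : Place K F') (x : F) :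
    x ∈ (w.restrictAlong φ hφ).toValuationSubring ↔ φ x ∈ w.toValuationSubring :=
  Iff.rfl

theorem mem_smul_place_iff {F : Type*} [Field F] [Algebra K F] (g : SemilinearAut K F)
    (v : Place K F) (x : F) :
    x ∈ (g • v).toValuationSubring ↔ g⁻¹ • x ∈ v.toValuationSubring := by
  rw [SemilinearAut.smul_toValuationSubring]
  exact ValuationSubring.mem_pointwise_smul_iff_inv_smul_mem

/-- restriction commutes with the action -/
theorem restrictAlong_smul (h : SemilinearAut.IntertwinesAlong (φ : F →+* F') g g')
    (w : Place K F') :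
    (g' • w).restrictAlong φ hφ = g • (w.restrictAlong φ hφ) := by
  apply Place.ext
  ext x
  rw [mem_restrictAlong_iff, mem_smul_place_iff, mem_smul_place_iff, mem_restrictAlong_iff]
  have := h.inv x
  rw [show ((φ : F →+* F') x) = φ x from rfl] at this
  rw [this]
  rfl

include hφ in
/-- the ramification index is invariant under the action -/
theorem ramificationIndexAlong_smul (h : SemilinearAut.IntertwinesAlong (φ : F →+* F') g g')
    (w : Place K F') :
    (g' • w).ramificationIndexAlong φ = w.ramificationIndexAlong φ := by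
  obtain ⟨t, ht⟩ := exists_ord_eq_one (w.restrictAlong φ hφ)
  have h1 := Place.ord_restrictAlong φ hφ w t
  have h2 := Place.ord_restrictAlong φ hφ (g' • w) (g • t)
  rw [restrictAlong_smul φ hφ h w, SemilinearAut.ord_smul, ht, mul_one] at h2
  rw [ht, mul_one] at h1
  have h3 : (g' • w).ord (φ (g • t)) = w.ord (φ t) := by
    have := h t
    rw [show ((φ : F →+* F') (g • t)) = φ (g • t) from rfl] at this
    rw [← this]
    exact SemilinearAut.ord_smul g' w _
  rw [h3, h1] at h2
  exact_mod_cast h2.symm

variable [HasPrincipalDivisors K F']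

/-- the pull-back of divisors commutes with the action -/
theorem pullbackAlong_smul (h : SemilinearAut.IntertwinesAlong (φ : F →+* F') g g')
    (D : Divisor K F) :
    Divisor.pullbackAlong φ hφ (g • D) = g' • Divisor.pullbackAlong φ hφ D := by
  ext w
  rw [Divisor.pullbackAlong_apply, SemilinearAut.divisor_smul_apply,
    SemilinearAut.divisor_smul_apply, Divisor.pullbackAlong_apply,
    restrictAlong_smul φ hφ h.inv w, ramificationIndexAlong_smul φ hφ h.inv w]

variable (hFI : FundamentalIdentityAlong K φ hφ)

/-- the pull-back on `Pic0` commutes with the action -/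
theorem pullPic0_smul (h : SemilinearAut.IntertwinesAlong (φ : F →+* F') g g')
    (x : Pic0 K F) :
    VI.pullPic0 φ hφ hFI (g • x) = g' • VI.pullPic0 φ hφ hFI x := by
  obtain ⟨D, rfl⟩ := Pic0.mk_surjective x
  rw [SemilinearAut.pic0_smul_mk, VI.pullPic0_mk, VI.pullPic0_mk, SemilinearAut.pic0_smul_mk]
  refine congrArg Pic0.mk (Subtype.ext ?_)
  rw [VI.coe_pullDegZero, SemilinearAut.coe_degZeroSMulHom, SemilinearAut.coe_degZeroSMulHom,
    VI.coe_pullDegZero]
  exact pullbackAlong_smul φ hφ h _

end Abstract

section Modular

local notation "Lb" => AlgebraicClosure ℚ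

variable (N b : ℕ) [NeZero N] [NeZero b]

/-- `V_b` commutes with the coefficientwise Galois action -/
theorem intertwines_beta (σ : Lb ≃ₐ[ℚ] Lb) :
    SemilinearAut.IntertwinesAlong
      ((heckeBetaBar Lb N b : modularFunctionFieldBar N →ₐ[Lb] modularFunctionFieldBar (N * b)) :
        modularFunctionFieldBar N →+* modularFunctionFieldBar (N * b))
      (arithmeticGalois (modularFunctionFieldFull N) σ)
      (arithmeticGalois (modularFunctionFieldFull (N * b)) σ) := by
  intro x
  apply Subtype.ext
  rw [coe_arithmeticGalois_smul]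
  show coeffMap (σ : Lb →+* Lb) (qExpand Lb b (x : LaurentSeries Lb))
    = qExpand Lb b (coeffMap (σ : Lb →+* Lb) (x : LaurentSeries Lb))
  exact ModularCurve.coeffMap_qExpand _ b _

/-- **Z2**: `V_b^* : J₀(N) → J₀(N b)` is Galois equivariant -/
theorem pullPic0_galois (hV : (heckeBetaBar Lb N b).toRingHom.IsIntegral)
    [HasPrincipalDivisors Lb (modularFunctionFieldBar (N * b))]
    (hFI : FundamentalIdentityAlong Lb (heckeBetaBar Lb N b) hV)
    (σ : Lb ≃ₐ[ℚ] Lb) (x : JZero N) :
    VI.pullPic0 (heckeBetaBar Lb N b) hV hFI (σ • x)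
      = σ • VI.pullPic0 (heckeBetaBar Lb N b) hV hFI x :=
  pullPic0_smul (heckeBetaBar Lb N b) hV hFI (intertwines_beta N b σ) x

end Modular

end Fermat.Agent.S37.Z2
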