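import Fermat.Agent.S37.Quotient
import Fermat.Agent.S37.BaseHecke
import Fermat.Agent.S37.PullGal
import Fermat.Agent.S37.GalFrob
import Fermat.Agent.S37.RedInjM
import Fermat.Agent.S37.ALLevel

/-!
# S37, piece Z: assembly of the reduction package

`red := redPic0 S_M ∘ V_b^* ∘ V_b^*` with `M = N b b`, `b ∈ {2, 3}`, `b ≠ ℓ`.
Inputs still taken as hypotheses here: the generation statement of the two base change squares
(inside `L.SquareData`) and the main congruence at level `M`.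
-/

set_option autoImplicit false
set_option linter.unusedSectionVars false
set_option linter.unusedVariables false
set_option linter.style.haveILetI false
set_option synthInstance.maxHeartbeats 400000
set_option maxHeartbeats 1000000

noncomputable section

namespace Fermat.Agent.S37.Z

open AlgebraicCurve ModularCurve Fermat.Agent.S18

local notation "Qb" => AlgebraicClosure ℚ

/-- The main congruence at level `M` for a Deuring setup `S`. -/
def MainCong (A : ValuationSubring Qb) (ℓ : ℕ) [hℓ : Fact ℓ.Prime] (M : ℕ) [NeZero M]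
    [Infinite (IsLocalRing.ResidueField A)] [CharP (IsLocalRing.ResidueField A) ℓ]
    [PerfectField (IsLocalRing.ResidueField A)]
    {D : Divisor Qb (modularFunctionFieldBar M)}
    {Dk : Divisor (IsLocalRing.ResidueField A)
      (modularFunctionFieldFullC (IsLocalRing.ResidueField A) M)} {g : ℕ} {c : ℤ}
    (S : Deuring.Setup A (IsLocalRing.residue A) (GV.RedF A M) D Dk g c) : Prop :=
  ∀ y : JZero M, G.redPic0 S (heckeOperatorBar M ⟨ℓ, hℓ.out⟩ y)
    = G.PhiPic (IsLocalRing.ResidueField A) ℓ M (G.redPic0 S y)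
      + G.PsiPic (IsLocalRing.ResidueField A) ℓ M (G.redPic0 S y)

section Pkg

variable (N p : ℕ) [NeZero N] (ℓ : ℕ) [hℓF : Fact ℓ.Prime] [NeZero ℓ] (A : ValuationSubring Qb)
  (hA : A.LiesOverPrime ℓ) (b : ℕ) [NeZero b] (hb : b.Prime) (hbℓ : b ≠ ℓ)
  (hℓN : ¬ ℓ ∣ N) (hℓp : ¬ ℓ ∣ p)
  [Infinite (IsLocalRing.ResidueField A)] [CharP (IsLocalRing.ResidueField A) ℓ]
  [PerfectField (IsLocalRing.ResidueField A)]

include hA hb hbℓ hℓN hℓp in
/-- The reduction package from a setup at level `N b b`, two base change squares and the main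
congruence. -/
theorem hasRedPkg_of
    {D : Divisor Qb (modularFunctionFieldBar (N * b * b))}
    {Dk : Divisor (IsLocalRing.ResidueField A)
      (modularFunctionFieldFullC (IsLocalRing.ResidueField A) (N * b * b))} {g : ℕ} {c : ℤ}
    (S : Deuring.Setup A (IsLocalRing.residue A) (GV.RedF A (N * b * b)) D Dk g c)
    (hD : D = S.hpf.poleDiv (Fermat.Agent.S24.jBar (N * b * b)))
    (hDk : Dk = S.hpfk.poleDiv (GV.jK (IsLocalRing.ResidueField A) (N * b * b)))
    (S₁ : L.SquareData N b ℓ) (S₂ : L.SquareData (N * b) b ℓ)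
    (hMC : MainCong A ℓ (N * b * b) S) :
    HasRedPkg N p ℓ hℓF.out A := by
  have hℓ : ℓ.Prime := hℓF.out
  let V₁ := VI.pullPic0 (heckeBetaBar Qb N b) (H.betaInt N b) (H.fundamentalIdentity_beta N b)
  let V₂ := VI.pullPic0 (heckeBetaBar Qb (N * b) b) (H.betaInt (N * b) b)
    (H.fundamentalIdentity_beta (N * b) b)
  let red : JZero N →+ JZeroC (IsLocalRing.ResidueField A) (N * b * b) :=
    (G.redPic0 S).comp (V₂.comp V₁)
  have hred : ∀ x, red x = G.redPic0 S (V₂ (V₁ x)) := fun _ => rfl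
  refine ⟨JZeroC (IsLocalRing.ResidueField A) (N * b * b), inferInstance, red,
    G.PhiPic (IsLocalRing.ResidueField A) ℓ (N * b * b),
    G.PsiPic (IsLocalRing.ResidueField A) ℓ (N * b * b), ?_, ?_, ?_, ?_, ?_⟩
  · exact fun y => G.PsiPic_PhiPic _ ℓ _ y
  · intro τ hτ x
    rw [hred, hred]
    show G.redPic0 S (V₂ (V₁ (τ • x))) = _
    rw [show V₁ (τ • x) = τ • V₁ x from Z2.pullPic0_galois N b _ _ τ x,
      show V₂ (τ • V₁ x) = τ • V₂ (V₁ x) from Z2.pullPic0_galois (N * b) b _ _ τ (V₁ x)]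
    exact G.redPic0_inertia S hD hDk τ hτ _
  · intro σ hσ x
    rw [hred, hred]
    rw [show V₁ (σ • x) = σ • V₁ x from Z2.pullPic0_galois N b _ _ σ x,
      show V₂ (σ • V₁ x) = σ • V₂ (V₁ x) from Z2.pullPic0_galois (N * b) b _ _ σ (V₁ x)]
    exact G.redPic0_frobSL S hD hDk ℓ σ hσ _
  · intro x
    rw [hred, hred]
    rw [show V₁ (heckeOperatorBar N ⟨ℓ, hℓ⟩ x) = heckeOperatorBar (N * b) ⟨ℓ, hℓ⟩ (V₁ x) from
        L.pull_hecke S₁ hℓ x,
      show V₂ (heckeOperatorBar (N * b) ⟨ℓ, hℓ⟩ (V₁ x))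
        = heckeOperatorBar (N * b * b) ⟨ℓ, hℓ⟩ (V₂ (V₁ x)) from L.pull_hecke S₂ hℓ (V₁ x)]
    exact hMC _
  · rintro x ⟨n, hn⟩ hx
    rw [hred] at hx
    have hℓpn : ¬ ℓ ∣ p ^ n := fun h => hℓp (hℓ.dvd_of_dvd_pow h)
    have hpn0 : p ^ n ≠ 0 := fun h => hℓpn (h ▸ dvd_zero ℓ)
    have h1 : p ^ n • V₁ x = 0 := by rw [← map_nsmul, hn, map_zero]
    have h2 : p ^ n • V₂ (V₁ x) = 0 := by rw [← map_nsmul, h1, map_zero]
    have h3 : V₂ (V₁ x) = 0 := R.redPic0_inj A ℓ hA (N * b * b) S (p ^ n) hℓpn _ h2 hx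
    have h4 : V₁ x = 0 :=
      VI.pullPic0_eq_zero_imp (N * b) b hb _ _ (V₁ x) (p ^ n) hpn0 h1 h3
    exact VI.pullPic0_eq_zero_imp N b hb _ _ x (p ^ n) hpn0 hn h4

end Pkg

end Fermat.Agent.S37.Z
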