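import Fermat.Agent.S18.DeuringBar
import Fermat.Prelude.Def_AlgebraicCurve_BaseChangeGalois

/-!
# S37, piece G (abstract part): equivariance of the Deuring reduction

In the abstract framework of `Fermat.Agent.S18.Deuring.Setup`: if `s` is a semilinear automorphism
of `F/L` and `t` one of `Fk/k`, compatible with the reduction relation `Red` and fixing the
divisors `D`, `Dk`, then the reduction of places `rmap S` intertwines `s` and `t`.
We also define the induced reduction `redPic0 S : Pic0 L F →+ Pic0 k Fk`.
-/

set_option autoImplicit false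
set_option linter.unusedSectionVars false
set_option linter.style.haveILetI false

open AlgebraicCurve Fermat.Agent.Lib.FF Fermat.Agent.S18.Deuring

namespace Fermat.Agent.S37.G

section Semilinear

variable {K F : Type*} [Field K] [Field F] [Algebra K F]

theorem smul_eq_zero_iff' (g : SemilinearAut K F) (x : F) : g • x = 0 ↔ x = 0 := by
  rw [SemilinearAut.smul_def]
  exact map_eq_zero_iff _ (SemilinearAut.toRingAut g).injective

theorem smul_mem_rrSpace (g : SemilinearAut K F) {E : Divisor K F} {x : F}
    (hx : x ∈ riemannRochSpace E) : g • x ∈ riemannRochSpace (g • E) := by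
  rw [mem_riemannRochSpace_iff] at hx ⊢
  intro v
  rcases hx (g⁻¹ • v) with h0 | h1
  · left; rw [h0]; exact smul_zero g
  · right
    rw [SemilinearAut.divisor_smul_apply]
    have := SemilinearAut.ord_smul g (g⁻¹ • v) x
    rw [smul_inv_smul] at this
    rw [this]
    exact h1

theorem smul_mem_rrSpace_iff (g : SemilinearAut K F) (E : Divisor K F) (x : F) :
    g • x ∈ riemannRochSpace (g • E) ↔ x ∈ riemannRochSpace E := by
  refine ⟨fun h => ?_, smul_mem_rrSpace g⟩
  have := smul_mem_rrSpace g⁻¹ h
  rwa [inv_smul_smul, inv_smul_smul] at this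

theorem smul_divOf (hpf : PlaceFacts K F) (g : SemilinearAut K F) (x : F) :
    g • hpf.divOf x = hpf.divOf (g • x) := by
  ext v
  rw [SemilinearAut.divisor_smul_apply, hpf.divOf_apply, hpf.divOf_apply]
  have := SemilinearAut.ord_smul g (g⁻¹ • v) x
  rw [smul_inv_smul] at this
  exact this.symm

end Semilinear

variable {L k F Fk : Type*} [Field L] [Field k] [Field F] [Field Fk] [Algebra L F] [Algebra k Fk]
variable {A : ValuationSubring L} {res : A →+* k} {Red : F → Fk → Prop}
  {D : Divisor L F} {Dk : Divisor k Fk} {g : ℕ} {c : ℤ}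

/-- A pair of semilinear automorphisms compatible with the reduction data. -/
structure Compat (S : Setup A res Red D Dk g c) (s : SemilinearAut L F)
    (t : SemilinearAut k Fk) : Prop where
  red : ∀ x a, Red x a → Red (s • x) (t • a)
  red_inv : ∀ x a, Red x a → Red (s⁻¹ • x) (t⁻¹ • a)
  fixD : s • D = D
  fixDk : t • Dk = Dk

variable {S : Setup A res Red D Dk g c} {s : SemilinearAut L F} {t : SemilinearAut k Fk}

theorem Compat.symm (h : Compat S s t) : Compat S s⁻¹ t⁻¹ where
  red := h.red_inv
  red_inv := by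
    intro x a hxa
    rw [inv_inv, inv_inv]
    exact h.red x a hxa
  fixD := by
    conv_lhs => rw [← h.fixD]
    rw [inv_smul_smul]
  fixDk := by
    conv_lhs => rw [← h.fixDk]
    rw [inv_smul_smul]

theorem Compat.redSpace_le (h : Compat S s t) (E : Divisor L F) (E' : Divisor k Fk)
    (hE : redSpace S.ax (riemannRochSpace E) ≤ riemannRochSpace E') :
    redSpace S.ax (riemannRochSpace (s • E)) ≤ riemannRochSpace (t • E') := by
  rintro a ⟨x, hx, hxa⟩
  have hx' : s⁻¹ • x ∈ riemannRochSpace E := by
    have := smul_mem_rrSpace s⁻¹ hx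
    rwa [inv_smul_smul] at this
  have ha' : t⁻¹ • a ∈ riemannRochSpace E' := hE ⟨s⁻¹ • x, hx', h.red_inv x a hxa⟩
  have := smul_mem_rrSpace t ha'
  rwa [smul_inv_smul] at this

theorem Compat.redSpace_eq (h : Compat S s t) (E : Divisor L F) (E' : Divisor k Fk)
    (hE : redSpace S.ax (riemannRochSpace E) = riemannRochSpace E') :
    redSpace S.ax (riemannRochSpace (s • E)) = riemannRochSpace (t • E') := by
  refine le_antisymm (h.redSpace_le E E' hE.le) ?_
  intro a ha
  have ha' : t⁻¹ • a ∈ riemannRochSpace E' := by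
    have := smul_mem_rrSpace t⁻¹ ha
    rwa [inv_smul_smul] at this
  rw [← hE] at ha'
  obtain ⟨x, hx, hxa⟩ := ha'
  refine ⟨s • x, smul_mem_rrSpace s hx, ?_⟩
  have := h.red x _ hxa
  rwa [smul_inv_smul] at this

theorem Compat.bar (h : Compat S s t) {𝔞 : Divisor L F} {𝔟 : Divisor k Fk} (hb : Bar S 𝔞 𝔟) :
    Bar S (s • 𝔞) (t • 𝔟) := by
  obtain ⟨N, hN⟩ := hb
  refine ⟨N, fun n hn => ?_⟩
  have := h.redSpace_eq _ _ (hN n hn)
  rwa [smul_sub, smul_sub, smul_comm s n D, smul_comm t n Dk, h.fixD, h.fixDk] at this

variable [Infinite k]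

/-- **Equivariance of the Deuring reduction of places.** -/
theorem Compat.rmap_smul (h : Compat S s t) (P : Place L F) :
    rmap S (s • P) = t • rmap S P := by
  have h1 := h.bar (rmap_spec S P)
  rw [smul_add, smul_add, smul_zero, smul_zero, SemilinearAut.smul_single,
    SemilinearAut.smul_single] at h1
  exact ((bar_zero S).step_eq S h1).symm

theorem Compat.mapDomain_smul (h : Compat S s t) (E : Divisor L F) :
    Finsupp.mapDomain (rmap S) (s • E) = t • Finsupp.mapDomain (rmap S) E := by
  rw [SemilinearAut.divisor_smul_def, SemilinearAut.divisor_smul_def,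
    ← Finsupp.mapDomain_comp, ← Finsupp.mapDomain_comp]
  congr 1
  funext P
  exact h.rmap_smul P

/-! ### The induced reduction on `Pic0` -/

omit [Infinite k] in
theorem degree_mapDomain' (hpf : PlaceFacts L F) (hpfk : PlaceFacts k Fk)
    (r : Place L F → Place k Fk) (E : Divisor L F) :
    Divisor.degree (Finsupp.mapDomain r E) = Divisor.degree E := by
  induction E using Finsupp.induction with
  | zero => simp
  | single_add P n E _ _ ih =>
    rw [Finsupp.mapDomain_add, map_add, map_add, ih, Finsupp.mapDomain_single,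
      Divisor.degree_single, Divisor.degree_single, deg_eq_one_of_res _ (hpf.res P),
      deg_eq_one_of_res _ (hpfk.res _)]

variable (S)

theorem mapDomain_mem_principal {E : Divisor L F}
    (hE : E ∈ Divisor.principal (K := L) (F := F)) :
    Finsupp.mapDomain (rmap S) E ∈ Divisor.principal (K := k) (F := Fk) := by
  obtain ⟨f, hf, hE⟩ := hE
  obtain ⟨c, hc, a, ha, hRed⟩ := S.ax.scale f hf
  have hE' : E = S.hpf.divOf (c • f) := by
    ext v
    rw [hE v, S.hpf.divOf_apply, Algebra.smul_def,
      v.ord_mul ((map_ne_zero (algebraMap L F)).2 hc) hf, Fermat.Agent.Lib.FF.ord_algebraMap, zero_add]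
  rw [hE', mapDomain_divOf S hRed ha]
  exact ⟨a, ha, fun v => S.hpfk.divOf_apply a v⟩

/-- reduction of degree zero divisors -/
noncomputable def redDegZero :
    Divisor.degZero (K := L) (F := F) →+ Divisor.degZero (K := k) (F := Fk) :=
  ((Finsupp.mapDomain.addMonoidHom (rmap S)).domRestrict _).codRestrict _ fun E => by
    rw [Divisor.mem_degZero]
    show Divisor.degree (Finsupp.mapDomain (rmap S) (E : Divisor L F)) = 0
    rw [degree_mapDomain' S.hpf S.hpfk]
    exact E.2

@[simp]
theorem coe_redDegZero (E : Divisor.degZero (K := L) (F := F)) :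
    (redDegZero S E : Divisor k Fk) = Finsupp.mapDomain (rmap S) (E : Divisor L F) := rfl

/-- **The Deuring reduction on `Pic0`.** -/
noncomputable def redPic0 : Pic0 L F →+ Pic0 k Fk :=
  QuotientAddGroup.map _ _ (redDegZero S) (by
    rintro ⟨E, hE0⟩ hE
    simp only [AddSubgroup.mem_addSubgroupOf] at hE ⊢
    exact mapDomain_mem_principal S hE)

theorem redPic0_mk (E : Divisor.degZero (K := L) (F := F)) :
    redPic0 S (Pic0.mk E) = Pic0.mk (redDegZero S E) := rfl

variable {S}

/-- **Equivariance of the Deuring reduction on `Pic0`.** -/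
theorem Compat.redPic0_smul (h : Compat S s t) (x : Pic0 L F) :
    redPic0 S (s • x) = t • redPic0 S x := by
  obtain ⟨E, rfl⟩ := Pic0.mk_surjective x
  rw [SemilinearAut.pic0_smul_mk, redPic0_mk, redPic0_mk, SemilinearAut.pic0_smul_mk]
  congr 1
  apply Subtype.ext
  rw [coe_redDegZero, SemilinearAut.coe_degZeroSMulHom, SemilinearAut.coe_degZeroSMulHom,
    coe_redDegZero]
  exact h.mapDomain_smul _

end Fermat.Agent.S37.G
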