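import Mathlib

/-!
# S37, piece L0: norms and base change

For a commutative square of fields `F → F₁ → E`, `F → F₂ → E` with `[E : F₂] = [F₁ : F]` and `E` spanned
over `F₂` by the image of `F₁`, the norm commutes with base change:
`N_{E/F₂}(h) = N_{F₁/F}(h)` for `h ∈ F₁`.
-/

set_option autoImplicit false

noncomputable section

namespace Fermat.Agent.S37.L

variable {F F₁ F₂ E : Type*} [Field F] [Field F₁] [Field F₂] [Field E]
  [Algebra F F₁] [Algebra F F₂] [Algebra F₁ E] [Algebra F₂ E] [Algebra F E]
  [IsScalarTower F F₁ E] [IsScalarTower F F₂ E]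

/-- The image of an `F`-basis of `F₁` spans `E` over `F₂` as soon as the image of `F₁` does. -/
theorem span_range_basis_eq_top {ι : Type*} [Fintype ι] (b : Module.Basis ι F F₁)
    (hspan : Submodule.span F₂ (Set.range (algebraMap F₁ E)) = ⊤) :
    Submodule.span F₂ (Set.range fun i => algebraMap F₁ E (b i)) = ⊤ := by
  rw [eq_top_iff, ← hspan, Submodule.span_le]
  rintro _ ⟨y, rfl⟩
  have hy : y = ∑ i, b.repr y i • b i := (b.sum_repr y).symm
  rw [hy, map_sum]
  apply Submodule.sum_mem
  intro i _
  have : algebraMap F₁ E (b.repr y i • b i)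
      = (algebraMap F F₂ (b.repr y i)) • algebraMap F₁ E (b i) := by
    rw [Algebra.smul_def, map_mul, ← IsScalarTower.algebraMap_apply F F₁ E,
      IsScalarTower.algebraMap_apply F F₂ E, Algebra.smul_def]
  rw [this]
  exact Submodule.smul_mem _ _ (Submodule.subset_span ⟨i, rfl⟩)

/-- **Norms commute with base change.** -/
theorem norm_algebraMap_of_span [Module.Finite F F₁] [Module.Finite F₂ E]
    (hrank : Module.finrank F₂ E = Module.finrank F F₁)
    (hspan : Submodule.span F₂ (Set.range (algebraMap F₁ E)) = ⊤) (h : F₁) :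
    Algebra.norm F₂ (algebraMap F₁ E h) = algebraMap F F₂ (Algebra.norm F h) := by
  classical
  set n := Module.finrank F F₁ with hn
  let b : Module.Basis (Fin n) F F₁ := Module.finBasis F F₁
  have hsp := span_range_basis_eq_top (F₂ := F₂) (E := E) b hspan
  have hcard : Fintype.card (Fin n) = Module.finrank F₂ E := by
    rw [Fintype.card_fin, hrank]
  let c : Module.Basis (Fin n) F₂ E :=
    basisOfTopLeSpanOfCardEqFinrank (fun i => algebraMap F₁ E (b i)) (le_of_eq hsp.symm) hcard
  have hc : ∀ i, c i = algebraMap F₁ E (b i) := fun i => by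
    simp [c]
  rw [Algebra.norm_eq_matrix_det c, Algebra.norm_eq_matrix_det b, RingHom.map_det]
  congr 1
  ext i j
  rw [Algebra.leftMulMatrix_eq_repr_mul, RingHom.mapMatrix_apply, Matrix.map_apply,
    Algebra.leftMulMatrix_eq_repr_mul]
  -- `algebraMap h * c j = ∑ i, algebraMap (M i j) • c i`
  have hmul : algebraMap F₁ E h * c j
      = ∑ i, (algebraMap F F₂ (b.repr (h * b j) i)) • c i := by
    rw [hc, ← map_mul]
    conv_lhs => rw [← b.sum_repr (h * b j)]
    rw [map_sum]
    apply Finset.sum_congr rfl
    intro i _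
    rw [hc, Algebra.smul_def, map_mul, ← IsScalarTower.algebraMap_apply F F₁ E,
      IsScalarTower.algebraMap_apply F F₂ E, Algebra.smul_def]
  rw [hmul, c.repr_sum_self]

end Fermat.Agent.S37.L
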