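import Fermat.Agent.S37.HInpNorm
import Fermat.Agent.Lib.FunctionField.Separate

/-!
# S37, piece H, part 4: the inputs of a correspondence for function fields of one variable

`K` algebraically closed of characteristic zero, `F`, `F'` function fields of one variable over
`K` (`IsFF1`), `φ : F →ₐ[K] F'` any `K`-algebra homomorphism. Then `φ` is finite, integral, and
the prelude's `FundamentalIdentityAlong`, `NormFormulaAlong` hold; `HasPrincipalDivisors K F`.
-/

set_option autoImplicit false
set_option linter.unusedSectionVars false
set_option linter.style.haveILetI false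

open AlgebraicCurve IsDedekindDomain Fermat.Agent.Lib.FF IntermediateField

noncomputable section

namespace Fermat.Agent.S37.H

variable {K F F' : Type*} [Field K] [Field F] [Field F'] [Algebra K F] [Algebra K F']
  [IsAlgClosed K] [CharZero K]

/-- principal divisors exist in a function field of one variable -/
theorem hasPrincipalDivisors {x : F} (hx : IsFF1 K F x) : HasPrincipalDivisors K F where
  exists_divisor f hf := by
    classical
    have hfin := finite_ord_ne_zero hx f hf
    refine ⟨Finsupp.ofSupportFinite (fun v => v.ord f) hfin, fun v => rfl, ?_⟩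
    exact degree_eq_zero_of_ord hx f hf _ (fun v => rfl)

omit [IsAlgClosed K] [CharZero K] in
/-- a homomorphism of function fields of one variable is finite -/
theorem finiteAlong {x : F} (hx : Transcendental K x) {x' : F'} (hx' : IsFF1 K F' x')
    (φ : F →ₐ[K] F') : FiniteAlong K φ := by
  classical
  letI := algebraAlong φ
  have htr : Transcendental K (φ x) := by
    intro h
    exact hx ((isAlgebraic_algHom_iff φ φ.injective).mp h)
  haveI := (isFF1_of_transcendental hx' (φ x) htr).finite
  let b := Module.finBasis K⟮φ x⟯ F'
  have hle : K⟮φ x⟯ ≤ φ.fieldRange := by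
    rw [adjoin_simple_le_iff]
    exact ⟨x, rfl⟩
  show Module.Finite F F'
  refine ⟨⟨Finset.univ.image b, ?_⟩⟩
  rw [eq_top_iff]
  intro y _
  rw [← b.sum_repr y]
  refine Submodule.sum_mem _ fun i _ => ?_
  obtain ⟨d, hd⟩ := hle (b.repr y i).2
  have h1 : (b.repr y i) • b i = d • b i := by
    rw [Algebra.smul_def d, IntermediateField.smul_def, smul_eq_mul]
    congr 1
    exact hd.symm
  rw [h1]
  refine Submodule.smul_mem _ _ (Submodule.subset_span ?_)
  rw [Finset.coe_image]
  exact ⟨i, by simp, rfl⟩

omit [IsAlgClosed K] [CharZero K] in
theorem isIntegral_of_finiteAlong {φ : F →ₐ[K] F'} (hfin : FiniteAlong K φ) :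
    φ.toRingHom.IsIntegral := by
  letI := algebraAlong φ
  haveI : Module.Finite F F' := hfin
  intro y
  exact Algebra.IsIntegral.isIntegral (R := F) y

/-- the norm formula along a homomorphism of function fields -/
theorem normFormulaAlong {x : F} (hx : IsFF1 K F x) {x' : F'} (hx' : IsFF1 K F' x')
    (φ : F →ₐ[K] F') (hfin : FiniteAlong K φ) : NormFormulaAlong K φ hfin := by
  letI := algebraAlong φ
  haveI := isScalarTower_along φ
  haveI : Module.Finite F F' := hfin
  haveI : CharZero F := charZero_of_injective_algebraMap (algebraMap K F).injective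
  haveI := hasPrincipalDivisors hx'
  exact pushforwardNormFormula (fun v => algebraMap_residueField_surjective hx v)
    (fun w => algebraMap_residueField_surjective hx' w)

/-- the fundamental identity along a homomorphism of function fields -/
theorem fundamentalIdentityAlong {x : F} (hx : IsFF1 K F x) {x' : F'} (hx' : IsFF1 K F' x')
    (φ : F →ₐ[K] F') (hφ : φ.toRingHom.IsIntegral) [HasPrincipalDivisors K F'] :
    FundamentalIdentityAlong K φ hφ := by
  letI := algebraAlong φ
  haveI := isScalarTower_along φ
  haveI : Module.Finite F F' := finiteAlong hx.transcendental hx' φ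
  haveI : CharZero F := charZero_of_injective_algebraMap (algebraMap K F).injective
  exact fundamentalIdentity (fun v => algebraMap_residueField_surjective hx v)
    (fun w => algebraMap_residueField_surjective hx' w)

/-- the inertia degrees along a homomorphism of function fields are one -/
theorem inertiaDegAlong_eq_one {x : F} (hx : IsFF1 K F x) {x' : F'} (hx' : IsFF1 K F' x')
    (φ : F →ₐ[K] F') (hφ : φ.toRingHom.IsIntegral) (w : Place K F') :
    w.inertiaDegAlong φ hφ = 1 := by
  letI := algebraAlong φ
  haveI := isScalarTower_along φ
  haveI := isIntegral_along φ hφ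
  have h := w.deg_restrict_mul_inertiaDeg (F := F)
  rw [deg_eq_one hx, deg_eq_one hx', one_mul] at h
  exact h

/-- the ramification indices in a fibre add up to the degree -/
theorem sum_ramificationIndexAlong {x : F} (hx : IsFF1 K F x) {x' : F'} (hx' : IsFF1 K F' x')
    (φ : F →ₐ[K] F') (hφ : φ.toRingHom.IsIntegral) [HasPrincipalDivisors K F']
    (v : Place K F) :
    ∑ w ∈ Place.fiberAlong φ hφ v, (w.ramificationIndexAlong φ : ℤ) = (finrankAlong K φ : ℤ) := by
  letI := algebraAlong φ
  haveI := isScalarTower_along φ
  haveI : Module.Finite F F' := finiteAlong hx.transcendental hx' φ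
  haveI : CharZero F := charZero_of_injective_algebraMap (algebraMap K F).injective
  exact sum_ramificationIndex v (fun w => algebraMap_residueField_surjective hx' w)

/-- **Weak approximation in a fibre**: a place of `F'` can be separated from the other places
over the same place of `F`. -/
theorem exists_approx [Algebra F F'] [IsScalarTower K F F'] [Algebra.IsIntegral F F']
    [HasPrincipalDivisors K F'] {x : F} (hx : IsFF1 K F x) {x' : F'} (hx' : IsFF1 K F' x')
    (Q : Place K F') :
    ∃ h : F', h ≠ 0 ∧ 0 < Q.ord h ∧
      ∀ Q' : Place K F', Q'.restrict F = Q.restrict F → Q' ≠ Q → Q'.ord h = 0 := by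
  classical
  obtain ⟨y, hy, hvy⟩ := exists_isFF1_ord_nonneg hx (Q.restrict F)
  have htr : Transcendental K (algebraMap F F' y) := by
    intro h
    apply hy.transcendental
    have h2 := (isAlgebraic_algHom_iff (IsScalarTower.toAlgHom K F F')
      (algebraMap F F').injective).mp h
    exact h2
  have hy' : IsFF1 K F' (algebraMap F F' y) := isFF1_of_transcendental hx' _ htr
  have hnn : ∀ w : Place K F', w.restrict F = Q.restrict F → 0 ≤ w.ord (algebraMap F F' y) := by
    intro w hw
    rw [w.ord_restrict (F := F), hw]
    exact mul_nonneg (Int.natCast_nonneg _) hvy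
  obtain ⟨b, -, hb1, hb2⟩ := exists_integral_separating_of_nonneg hy' Q (hnn Q rfl)
    (((Q.restrict F).fiber F').erase Q) (Finset.notMem_erase _ _) (fun w hw =>
      hnn w (Place.mem_fiber.mp (Finset.mem_of_mem_erase hw)))
  refine ⟨b, ?_, hb1, fun Q' hQ' hne => hb2 Q' ?_⟩
  · rintro rfl
    rw [Q.ord_zero] at hb1
    exact lt_irrefl _ hb1
  · exact Finset.mem_erase.mpr ⟨hne, Place.mem_fiber.mpr hQ'⟩

end Fermat.Agent.S37.H
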