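import Fermat.Agent.S37.BaseChange
import Fermat.Agent.S37.BaseNorm
import Fermat.Agent.S37.HInpAlong

/-!
# S37, piece L: base change in the language of `pullbackAlong` / `pushforwardAlong`
-/

set_option autoImplicit false
set_option linter.unusedSectionVars false
set_option linter.style.haveILetI false

noncomputable section

namespace Fermat.Agent.S37.L

open AlgebraicCurve Fermat.Agent.Lib.FF

section Comp

variable {K F F' F'' : Type*} [Field K] [Field F] [Field F'] [Field F'']
  [Algebra K F] [Algebra K F'] [Algebra K F'']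
  [HasPrincipalDivisors K F'] [HasPrincipalDivisors K F'']

/-- Pull-back of divisors is functorial. -/
theorem pullbackAlong_comp (φ : F →ₐ[K] F') (ψ : F' →ₐ[K] F'')
    (hφ : φ.toRingHom.IsIntegral) (hψ : ψ.toRingHom.IsIntegral)
    (hψφ : (ψ.comp φ).toRingHom.IsIntegral) (D : Divisor K F) :
    Divisor.pullbackAlong ψ hψ (Divisor.pullbackAlong φ hφ D)
      = Divisor.pullbackAlong (ψ.comp φ) hψφ D := by
  letI a1 := algebraAlong φ
  letI a2 := algebraAlong ψ
  letI a3 := algebraAlong (ψ.comp φ)
  haveI := isScalarTower_along φ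
  haveI := isScalarTower_along ψ
  haveI := isScalarTower_along (ψ.comp φ)
  haveI := isIntegral_along φ hφ
  haveI := isIntegral_along ψ hψ
  haveI := isIntegral_along (ψ.comp φ) hψφ
  haveI : IsScalarTower F F' F'' := IsScalarTower.of_algebraMap_eq fun x => rfl
  exact pullback_pullback (K := K) (F := F) (F₁ := F') (E := F'') D

theorem pullbackAlong_congr {φ φ' : F →ₐ[K] F'} (h : φ = φ')
    (hφ : φ.toRingHom.IsIntegral) (hφ' : φ'.toRingHom.IsIntegral) (D : Divisor K F) :
    Divisor.pullbackAlong φ hφ D = Divisor.pullbackAlong φ' hφ' D := by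
  subst h
  rfl

end Comp

section Square

variable {K F F₁ F₂ E : Type*} [Field K] [Field F] [Field F₁] [Field F₂] [Field E]
  [Algebra K F] [Algebra K F₁] [Algebra K F₂] [Algebra K E]
  [IsAlgClosed K] [CharZero K]
  [HasPrincipalDivisors K F₁] [HasPrincipalDivisors K F₂] [HasPrincipalDivisors K E]

/-- **Base change** for a commutative square `α' ∘ V = V' ∘ α` of function fields with
`[E : F₂] = [F₁ : F]` and `E = F₂ · V'(F₁)`:  `V^* ∘ α_* = α'_* ∘ V'^*`. -/
theorem pullbackAlong_pushforwardAlong
    (α : F →ₐ[K] F₁) (V : F →ₐ[K] F₂) (α' : F₂ →ₐ[K] E) (V' : F₁ →ₐ[K] E)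
    (hcomm : α'.comp V = V'.comp α)
    (hα : α.toRingHom.IsIntegral) (hV : V.toRingHom.IsIntegral)
    (hα' : α'.toRingHom.IsIntegral) (hV' : V'.toRingHom.IsIntegral)
    {x : F} (hx : IsFF1 K F x) {x₁ : F₁} (hx₁ : IsFF1 K F₁ x₁)
    {x₂ : F₂} (hx₂ : IsFF1 K F₂ x₂) {xE : E} (hxE : IsFF1 K E xE)
    (hrank : finrankAlong K α' = finrankAlong K α)
    (hspan : letI := algebraAlong α'; Submodule.span F₂ (Set.range V') = ⊤)
    (D : Divisor K F₁) :
    Divisor.pullbackAlong V hV (Divisor.pushforwardAlong α hα D)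
      = Divisor.pushforwardAlong α' hα' (Divisor.pullbackAlong V' hV' D) := by
  letI a1 := algebraAlong α
  letI a2 := algebraAlong V
  letI a3 := algebraAlong α'
  letI a4 := algebraAlong V'
  letI a5 := algebraAlong (α'.comp V)
  haveI := isScalarTower_along α
  haveI := isScalarTower_along V
  haveI := isScalarTower_along α'
  haveI := isScalarTower_along V'
  haveI := isScalarTower_along (α'.comp V)
  haveI := isIntegral_along α hα
  haveI := isIntegral_along V hV
  haveI := isIntegral_along α' hα'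
  haveI := isIntegral_along V' hV'
  haveI : IsScalarTower F F₂ E := IsScalarTower.of_algebraMap_eq fun x => rfl
  haveI : IsScalarTower F F₁ E := IsScalarTower.of_algebraMap_eq fun x => by
    show (α'.comp V) x = V' (α x)
    rw [hcomm]
    rfl
  haveI : Algebra.IsIntegral F E := Algebra.IsIntegral.trans (R := F) (A := F₂) (B := E)
  have hfinα : FiniteAlong K α := H.finiteAlong hx.transcendental hx₁ α
  have hfinα' : FiniteAlong K α' := H.finiteAlong hx₂.transcendental hxE α'
  haveI : Module.Finite F F₁ := hfinα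
  haveI : Module.Finite F₂ E := hfinα'
  have hN₁ : Divisor.PushforwardNormFormula K F F₁ := H.normFormulaAlong hx hx₁ α hfinα
  have hN₂ : Divisor.PushforwardNormFormula K F₂ E := H.normFormulaAlong hx₂ hxE α' hfinα'
  have hnorm : ∀ h : F₁, Algebra.norm F₂ (algebraMap F₁ E h)
      = algebraMap F F₂ (Algebra.norm F h) :=
    fun h => norm_algebraMap_of_span (F := F) (F₁ := F₁) (F₂ := F₂) (E := E) hrank hspan h
  have happrox : ∀ Q : Place K F₁, ∃ h : F₁, h ≠ 0 ∧ 0 < Q.ord h ∧
      ∀ Q' : Place K F₁, Q'.restrict F = Q.restrict F → Q' ≠ Q → Q'.ord h = 0 :=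
    fun Q => H.exists_approx hx hx₁ Q
  have key := pushPull_eq_pullPush (K := K) (F := F) (F₁ := F₁) (F₂ := F₂) (E := E)
    hN₁ hN₂ hnorm happrox
  exact DFunLike.congr_fun key D

end Square

end Fermat.Agent.S37.L
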