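import Mathlib
import Fermat.Prelude.Def_AlgebraicCurve_Correspondence

/-!
# S37, piece L (abstract part): base change for push-forward and pull-back of divisors

For a commutative square of finite extensions of function fields

```
F  ──▶ F₁
│      │
▼      ▼
F₂ ──▶ E
```
such that norms are compatible (`N_{E/F₂}(h) = N_{F₁/F}(h)` for `h ∈ F₁`; this holds when
`E = F₁ ⊗_F F₂`), the norm formulas hold for `F₁/F` and `E/F₂`, and places in a fibre of `F₁/F`
can be separated by functions, we have

`(F₂/F)^* ∘ (F₁/F)_* = (E/F₂)_* ∘ (E/F₁)^*` on `Div(F₁)`.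

No completions are used: both sides are additive, agree on principal divisors, and are "local over
`F`".
-/

set_option autoImplicit false
set_option linter.unusedSectionVars false

noncomputable section

namespace Fermat.Agent.S37.L

open AlgebraicCurve

section Tower

variable {K F F₁ E : Type*} [Field K] [Field F] [Field F₁] [Field E]
  [Algebra K F] [Algebra K F₁] [Algebra K E]
  [Algebra F F₁] [Algebra F₁ E] [Algebra F E]
  [IsScalarTower K F F₁] [IsScalarTower K F₁ E] [IsScalarTower K F E] [IsScalarTower F F₁ E]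
  [Algebra.IsIntegral F F₁] [Algebra.IsIntegral F₁ E] [Algebra.IsIntegral F E]

/-- Restriction of places is transitive. -/
theorem restrict_restrict (w : Place K E) : (w.restrict F₁).restrict F = w.restrict F := by
  apply Place.ext
  ext x
  simp only [Place.restrict_toValuationSubring, ValuationSubring.mem_comap]
  rw [← IsScalarTower.algebraMap_apply F F₁ E]

/-- Ramification indices are multiplicative in towers. -/
theorem ramificationIndex_tower (w : Place K E) :
    (w.ramificationIndex F : ℤ) =
      (w.ramificationIndex F₁ : ℤ) * ((w.restrict F₁).ramificationIndex F : ℤ) := by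
  obtain ⟨t, ht⟩ : ∃ t : F, (w.restrict F).ord t = 1 := by
    obtain ⟨π, hπ⟩ := IsDiscreteValuationRing.exists_irreducible (w.restrict F).toValuationSubring
    exact ⟨(π : F), (w.restrict F).ord_coe_irreducible hπ⟩
  have h1 : w.ord (algebraMap F E t) = w.ramificationIndex F := by
    rw [w.ord_restrict (F := F) t, ht, mul_one]
  have h2 : w.ord (algebraMap F E t)
      = (w.ramificationIndex F₁ : ℤ) * ((w.restrict F₁).ramificationIndex F : ℤ) := by
    rw [IsScalarTower.algebraMap_apply F F₁ E, w.ord_restrict (F := F₁),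
      (w.restrict F₁).ord_restrict (F := F), restrict_restrict, ht, mul_one]
  rw [← h1, h2]

/-- Pull-back of divisors is functorial in towers. -/
theorem pullback_pullback [HasPrincipalDivisors K F₁] [HasPrincipalDivisors K E]
    (D : Divisor K F) :
    Divisor.pullback E (Divisor.pullback F₁ D) = Divisor.pullback (F := F) E D := by
  ext w
  rw [Divisor.pullback_apply, Divisor.pullback_apply, Divisor.pullback_apply, restrict_restrict,
    ramificationIndex_tower (F := F) (F₁ := F₁) w]
  ring

end Tower

section Square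

variable {K F F₁ F₂ E : Type*} [Field K] [Field F] [Field F₁] [Field F₂] [Field E]
  [Algebra K F] [Algebra K F₁] [Algebra K F₂] [Algebra K E]
  [Algebra F F₁] [Algebra F F₂] [Algebra F₁ E] [Algebra F₂ E] [Algebra F E]
  [IsScalarTower K F F₁] [IsScalarTower K F F₂] [IsScalarTower K F₁ E] [IsScalarTower K F₂ E]
  [IsScalarTower K F E] [IsScalarTower F F₁ E] [IsScalarTower F F₂ E]
  [Algebra.IsIntegral F F₁] [Algebra.IsIntegral F F₂] [Algebra.IsIntegral F₁ E]
  [Algebra.IsIntegral F₂ E] [Algebra.IsIntegral F E]
  [HasPrincipalDivisors K F₁] [HasPrincipalDivisors K F₂] [HasPrincipalDivisors K E]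

variable (F F₂ E) in
/-- `(F₂/F)^* ∘ (F₁/F)_*`. -/
def pushPull : Divisor K F₁ →+ Divisor K F₂ :=
  (Divisor.pullback F₂).comp (Divisor.pushforward F)

variable (F F₂ E) in
/-- `(E/F₂)_* ∘ (E/F₁)^*`. -/
def pullPush : Divisor K F₁ →+ Divisor K F₂ :=
  (Divisor.pushforward F₂).comp (Divisor.pullback E)

theorem pushforward_apply_eq_zero {D : Divisor K F₁} {v : Place K F}
    (h : ∀ w : Place K F₁, w.restrict F = v → D w = 0) : Divisor.pushforward F D v = 0 := by
  classical
  rw [Divisor.pushforward_apply]
  apply Finset.sum_eq_zero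
  intro w _
  split_ifs with hw
  · rw [h w hw, zero_mul]
  · rfl

theorem pushPull_apply_eq_zero {D : Divisor K F₁} {P₂ : Place K F₂}
    (h : ∀ w : Place K F₁, w.restrict F = P₂.restrict F → D w = 0) :
    pushPull F F₂ D P₂ = 0 := by
  show Divisor.pullback F₂ (Divisor.pushforward F D) P₂ = 0
  rw [Divisor.pullback_apply, pushforward_apply_eq_zero h, mul_zero]

theorem pullPush_apply_eq_zero {D : Divisor K F₁} {P₂ : Place K F₂}
    (h : ∀ w : Place K F₁, w.restrict F = P₂.restrict F → D w = 0) :
    pullPush F₂ E D P₂ = 0 := by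
  show Divisor.pushforward F₂ (Divisor.pullback E D) P₂ = 0
  apply pushforward_apply_eq_zero
  intro w' hw'
  rw [Divisor.pullback_apply]
  have : (w'.restrict F₁).restrict F = P₂.restrict F := by
    rw [restrict_restrict, ← hw', restrict_restrict]
  rw [h _ this, mul_zero]

/-- Both sides agree on principal divisors. -/
theorem pushPull_eq_pullPush_of_principal [Module.Finite F F₁] [Module.Finite F₂ E]
    (hN₁ : Divisor.PushforwardNormFormula K F F₁) (hN₂ : Divisor.PushforwardNormFormula K F₂ E)
    (hnorm : ∀ h : F₁, Algebra.norm F₂ (algebraMap F₁ E h) = algebraMap F F₂ (Algebra.norm F h))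
    {h : F₁} (hh : h ≠ 0) {D : Divisor K F₁} (hD : ∀ w, D w = w.ord h) :
    pushPull F F₂ D = pullPush F₂ E D := by
  ext P₂
  have hA : pushPull F F₂ D P₂ = P₂.ord (algebraMap F F₂ (Algebra.norm F h)) := by
    show Divisor.pullback F₂ (Divisor.pushforward F D) P₂ = _
    rw [Divisor.pullback_apply, hN₁ h hh D hD, ← Place.ord_restrict]
  have hB : pullPush F₂ E D P₂ = P₂.ord (algebraMap F F₂ (Algebra.norm F h)) := by
    show Divisor.pushforward F₂ (Divisor.pullback E D) P₂ = _
    have hh' : algebraMap F₁ E h ≠ 0 := by simpa using hh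
    rw [hN₂ (algebraMap F₁ E h) hh' (Divisor.pullback E D)
      (fun w => Divisor.pullback_apply_eq_ord hD w), hnorm]
  rw [hA, hB]

/-- **Base change.** -/
theorem pushPull_eq_pullPush [Module.Finite F F₁] [Module.Finite F₂ E]
    (hN₁ : Divisor.PushforwardNormFormula K F F₁) (hN₂ : Divisor.PushforwardNormFormula K F₂ E)
    (hnorm : ∀ h : F₁, Algebra.norm F₂ (algebraMap F₁ E h) = algebraMap F F₂ (Algebra.norm F h))
    (happrox : ∀ Q : Place K F₁, ∃ h : F₁, h ≠ 0 ∧ 0 < Q.ord h ∧
      ∀ Q' : Place K F₁, Q'.restrict F = Q.restrict F → Q' ≠ Q → Q'.ord h = 0) :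
    pushPull (K := K) (F₁ := F₁) F F₂ = pullPush (K := K) (F₁ := F₁) F₂ E := by
  classical
  -- it suffices to treat `single Q 1`
  have key : ∀ Q : Place K F₁,
      pushPull F F₂ (Finsupp.single Q (1 : ℤ)) = pullPush F₂ E (Finsupp.single Q (1 : ℤ)) := by
    intro Q
    obtain ⟨h, hh0, hQ, hoth⟩ := happrox Q
    obtain ⟨Dh, hDh, -⟩ := HasPrincipalDivisors.exists_divisor (K := K) h hh0
    set m : ℤ := Q.ord h with hm
    set R : Divisor K F₁ := Dh - Finsupp.single Q m with hR
    have hDhR : Dh = Finsupp.single Q m + R := by rw [hR]; abel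
    have hRfib : ∀ w : Place K F₁, w.restrict F = Q.restrict F → R w = 0 := by
      intro w hw
      rw [hR, Finsupp.sub_apply, hDh]
      by_cases hwQ : w = Q
      · subst hwQ
        rw [Finsupp.single_eq_same, hm, sub_self]
      · rw [hoth w hw hwQ, Finsupp.single_eq_of_ne hwQ, sub_zero]
    have hprin := pushPull_eq_pullPush_of_principal (F := F) (F₂ := F₂) (E := E) hN₁ hN₂ hnorm
      hh0 hDh
    -- `m • (A(Q) - B(Q)) = B(R) - A(R)` and both sides are supported on disjoint sets
    have hsingle : (Finsupp.single Q m : Divisor K F₁) = m • Finsupp.single Q (1 : ℤ) := by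
      rw [Finsupp.smul_single, smul_eq_mul, mul_one]
    ext P₂
    by_cases hP₂ : P₂.restrict F = Q.restrict F
    · -- over the fibre: `R` does not contribute
      have hAR : pushPull F F₂ R P₂ = 0 :=
        pushPull_apply_eq_zero (fun w hw => hRfib w (hw.trans hP₂))
      have hBR : pullPush F₂ E R P₂ = 0 :=
        pullPush_apply_eq_zero (F := F) (fun w hw => hRfib w (hw.trans hP₂))
      have h1 := congrArg (fun D : Divisor K F₂ => D P₂) hprin
      simp only [hDhR, map_add, Finsupp.add_apply, hAR, hBR, add_zero, hsingle, map_zsmul,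
        Finsupp.smul_apply, smul_eq_mul] at h1
      exact mul_left_cancel₀ (ne_of_gt hQ) h1
    · -- away from the fibre both vanish
      have hA0 : pushPull F F₂ (Finsupp.single Q (1 : ℤ)) P₂ = 0 := by
        apply pushPull_apply_eq_zero
        intro w hw
        apply Finsupp.single_eq_of_ne
        rintro rfl
        exact hP₂ hw.symm
      have hB0 : pullPush F₂ E (Finsupp.single Q (1 : ℤ)) P₂ = 0 := by
        apply pullPush_apply_eq_zero (F := F)
        intro w hw
        apply Finsupp.single_eq_of_ne
        rintro rfl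
        exact hP₂ hw.symm
      rw [hA0, hB0]
  apply AddMonoidHom.ext
  intro D
  induction D using Finsupp.induction with
  | zero => simp
  | single_add Q n D _ _ ih =>
    have hs : (Finsupp.single Q n : Divisor K F₁) = n • Finsupp.single Q (1 : ℤ) := by
      rw [Finsupp.smul_single, smul_eq_mul, mul_one]
    rw [map_add, map_add, ih, hs, map_zsmul, map_zsmul, key Q]

end Square

end Fermat.Agent.S37.L
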