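import Fermat.Agent.S37.HInpLocal

/-!
# S37, piece H, part 2: the fibre of a place and the primes of the integral closure

The places of `F'` over `v` are the places attached to the primes of `S`, the integral closure of
`𝒪_v` in `F'`; the order of `s ∈ S` at such a place is the multiplicity of the prime in `(s)`.
Consequence, the **integral norm formula**:
`ord_v (N_{F'/F} s) = ∑_{w | v} ord_w s` for `0 ≠ s ∈ S`.
-/

set_option autoImplicit false
set_option linter.unusedSectionVars false
set_option linter.style.haveILetI false

open AlgebraicCurve IsDedekindDomain Fermat.Agent.Lib.FF UniqueFactorizationMonoid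

noncomputable section

namespace Fermat.Agent.S37.H

attribute [local instance 10] algVF

variable {K F : Type*} [Field K] [Field F] [Algebra K F]
variable {F' : Type*} [Field F'] [Algebra K F']
  [Algebra F F'] [IsScalarTower K F F'] [FiniteDimensional F F'] [Algebra.IsSeparable F F']

variable (v : Place K F)

/-- the order at the place of a prime of `S` is the multiplicity of the prime -/
theorem primeOrd_eq_count (P : HeightOneSpectrum (Sv v F')) {s : Sv v F'} (hs : s ≠ 0) :
    primeOrd P (algebraMap (Sv v F') F' s) =
      (Multiset.count P.asIdeal (normalizedFactors (Ideal.span {s})) : ℤ) := by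
  classical
  have hI : Ideal.span {s} ≠ ⊥ := by
    rwa [Ne, Ideal.span_singleton_eq_bot]
  unfold primeOrd
  rw [P.valuation_of_algebraMap, P.intValuation_eq_exp_neg_multiplicity hs, WithZero.log_exp,
    neg_neg]
  have h1 := emultiplicity_eq_count_normalizedFactors P.irreducible hI
  rw [normalize_eq] at h1
  rw [multiplicity_eq_of_emultiplicity_eq_some h1]

/-- the place of a prime of `S` lies over `v` -/
theorem restrict_placeOfPrime (P : HeightOneSpectrum (Sv v F')) :
    (placeOfPrime (K := K) (F := F') P).restrict F = v := by
  symm
  apply place_ext_of_ord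
  intro f hf0 hf
  have hmem : f ∈ v.toValuationSubring := mem_of_ord_nonneg v hf
  apply ord_nonneg_of_mem
  rw [Place.mem_restrict_iff]
  apply mem_of_ord_nonneg
  rw [placeOfPrime_ord]
  have : algebraMap F F' f =
      algebraMap (Sv v F') F' (algebraMap v.toValuationSubring (Sv v F') ⟨f, hmem⟩) := rfl
  rw [this]
  exact primeOrd_algebraMap_nonneg (F := F') P _

/-- a place over `v` contains `S` -/
theorem mem_of_restrict_eq {w : Place K F'} (hw : w.restrict F = v) (s : Sv v F') :
    algebraMap (Sv v F') F' s ∈ w.toValuationSubring := by
  have hR : ∀ r : v.toValuationSubring, algebraMap v.toValuationSubring F' r ∈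
      w.toValuationSubring := by
    intro r
    have : (r : F) ∈ (w.restrict F).toValuationSubring := by
      rw [hw]
      exact r.2
    exact (Place.mem_restrict_iff w).mp this
  letI : Algebra v.toValuationSubring w.toValuationSubring :=
    ((algebraMap v.toValuationSubring F').codRestrict w.toValuationSubring.toSubring hR).toAlgebra
  haveI : IsScalarTower v.toValuationSubring w.toValuationSubring F' :=
    IsScalarTower.of_algebraMap_eq fun r => rfl
  have hx : IsIntegral w.toValuationSubring (algebraMap (Sv v F') F' s) :=
    (s.2 : IsIntegral v.toValuationSubring (s : F')).tower_top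
  obtain ⟨y, hy⟩ := IsIntegrallyClosed.isIntegral_iff.mp hx
  rw [← hy]
  exact y.2

/-- every place over `v` comes from a prime of `S` -/
theorem exists_prime_of_restrict_eq {w : Place K F'} (hw : w.restrict F = v) :
    ∃ P : HeightOneSpectrum (Sv v F'), placeOfPrime (K := K) (F := F') P = w :=
  exists_prime_of_place w (mem_of_restrict_eq v hw)

variable [CharZero K] [HasPrincipalDivisors K F']

/-- **Integral norm formula.** -/
theorem ord_norm_eq_sum
    (hres' : ∀ w : Place K F', Function.Surjective (algebraMap K w.ResidueField))
    {s : Sv v F'} (hs : s ≠ 0) :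
    v.ord (Algebra.norm F (s : F')) = ∑ w ∈ v.fiber F', w.ord (s : F') := by
  classical
  have hI : Ideal.span {s} ≠ ⊥ := by
    rwa [Ne, Ideal.span_singleton_eq_bot]
  rw [ord_norm_eq_card v hres' hs, ← Multiset.toFinset_sum_count_eq]
  push_cast
  have hprime : ∀ P ∈ (normalizedFactors (Ideal.span {s})).toFinset, P.IsPrime ∧ P ≠ ⊥ := by
    intro P hP
    rw [Multiset.mem_toFinset] at hP
    have hP' := (Ideal.mem_normalizedFactors_iff hI).mp hP
    refine ⟨hP'.1, ?_⟩
    rintro rfl
    exact hI (le_bot_iff.mp hP'.2)
  refine Finset.sum_bij_ne_zero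
    (fun P hP _ => placeOfPrime (K := K) (F := F') (⟨P, (hprime P hP).1, (hprime P hP).2⟩ :
      HeightOneSpectrum (Sv v F'))) ?_ ?_ ?_ ?_
  · intro P hP _
    rw [Place.mem_fiber]
    exact restrict_placeOfPrime v _
  · intro P₁ h₁ _ P₂ h₂ _ h
    have := placeOfPrime_injective h
    exact congrArg HeightOneSpectrum.asIdeal this
  · intro w hw hws
    rw [Place.mem_fiber] at hw
    obtain ⟨P, hP⟩ := exists_prime_of_restrict_eq v hw
    have hord : w.ord (s : F') = primeOrd P (algebraMap (Sv v F') F' s) := by
      rw [← hP, placeOfPrime_ord]
      rfl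
    have hcount := primeOrd_eq_count v P hs
    have hmem : P.asIdeal ∈ (normalizedFactors (Ideal.span {s})).toFinset := by
      rw [Multiset.mem_toFinset, ← Multiset.count_pos]
      have : (0 : ℤ) < Multiset.count P.asIdeal (normalizedFactors (Ideal.span {s})) := by
        rw [← hcount, ← hord]
        have h0 : 0 ≤ w.ord (s : F') := ord_nonneg_of_mem w (mem_of_restrict_eq v hw s)
        omega
      exact_mod_cast this
    refine ⟨P.asIdeal, hmem, ?_, ?_⟩
    · have : (0 : ℤ) ≠ Multiset.count P.asIdeal (normalizedFactors (Ideal.span {s})) := by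
        rw [← hcount, ← hord]
        exact fun h => hws h.symm
      exact_mod_cast this.symm
    · exact hP
  · intro P hP _
    rw [placeOfPrime_ord]
    exact (primeOrd_eq_count v ⟨P, (hprime P hP).1, (hprime P hP).2⟩ hs).symm

end Fermat.Agent.S37.H
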