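import Mathlib
import Fermat.Prelude.Def_AlgebraicCurve_Correspondence
import Fermat.Agent.Lib.FunctionField.PlaceFactsMain

/-!
# S37, piece H, part 1: the integral closure of the valuation ring of a place

For a finite separable extension `F'/F` of fields over `K` and a place `v` of `F/K` with residue
field `K` (`K` algebraically closed), let `S` be the integral closure of `𝒪_v` in `F'`.
Then for every nonzero `s ∈ S`:

`ord_v (N_{F'/F} s) = number of prime factors of the ideal (s) of S, with multiplicity`.

This is Mathlib's relative ideal norm, all the inertia degrees being `1`.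
-/

set_option autoImplicit false
set_option linter.unusedSectionVars false
set_option linter.style.haveILetI false

open AlgebraicCurve IsDedekindDomain Fermat.Agent.Lib.FF UniqueFactorizationMonoid

noncomputable section

namespace Fermat.Agent.S37.H

variable {K F : Type*} [Field K] [Field F] [Algebra K F]

/-- the algebra structure `𝒪_v → F'` -/
@[reducible] def algVF (v : Place K F) (F' : Type*) [Field F'] [Algebra F F'] :
    Algebra v.toValuationSubring F' :=
  ((algebraMap F F').comp (algebraMap v.toValuationSubring F)).toAlgebra

attribute [local instance 10] algVF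

variable {F' : Type*} [Field F'] [Algebra K F']
  [Algebra F F'] [IsScalarTower K F F'] [FiniteDimensional F F'] [Algebra.IsSeparable F F']

variable (v : Place K F)

instance towerVF : IsScalarTower v.toValuationSubring F F' :=
  IsScalarTower.of_algebraMap_eq fun _ => rfl

instance towerKVF : IsScalarTower K v.toValuationSubring F' :=
  IsScalarTower.of_algebraMap_eq fun a => by
    show algebraMap K F' a = algebraMap F F' (algebraMap K F a)
    rw [← IsScalarTower.algebraMap_apply]

/-- the integral closure of `𝒪_v` in `F'` -/
abbrev Sv (v : Place K F) (F' : Type*) [Field F'] [Algebra F F'] :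
    Subalgebra v.toValuationSubring F' := integralClosure v.toValuationSubring F'

instance isDedekindDomain_Sv : IsDedekindDomain (Sv v F') :=
  integralClosure.isDedekindDomain v.toValuationSubring F F'

instance isFractionRing_Sv : IsFractionRing (Sv v F') F' :=
  integralClosure.isFractionRing_of_finite_extension F F'

instance finite_Sv : Module.Finite v.toValuationSubring (Sv v F') :=
  IsIntegralClosure.finite v.toValuationSubring F F' _

/-- the maximal ideal of `𝒪_v` -/
abbrev mv : Ideal v.toValuationSubring := IsLocalRing.maximalIdeal v.toValuationSubring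

theorem mv_ne_bot : mv v ≠ ⊥ := v.heightOneSpectrum.ne_bot

theorem mv_ne_top : mv v ≠ ⊤ := (IsLocalRing.maximalIdeal.isMaximal _).ne_top

/-- every maximal ideal of `S` lies over the maximal ideal of `𝒪_v` -/
theorem liesOver_mv (P : Ideal (Sv v F')) [hP : P.IsMaximal] : P.LiesOver (mv v) := by
  constructor
  have h : (P.under v.toValuationSubring).IsMaximal :=
    Ideal.isMaximal_comap_of_isIntegral_of_isMaximal P
  exact (IsLocalRing.eq_maximalIdeal h).symm

/-- the residue field of a prime of `S` is `K` -/
theorem exists_sub_mem (hres' : ∀ w : Place K F', Function.Surjective (algebraMap K w.ResidueField))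
    (P : HeightOneSpectrum (Sv v F')) (s : Sv v F') :
    ∃ c : K, s - algebraMap K (Sv v F') c ∈ P.asIdeal := by
  set w : Place K F' := placeOfPrime (K := K) P with hw
  have hs : (s : F') ∈ w.toValuationSubring := by
    apply mem_of_ord_nonneg
    rw [hw, placeOfPrime_ord]
    exact primeOrd_algebraMap_nonneg (F := F') P s
  obtain ⟨c, hc⟩ := hres' w (IsLocalRing.residue _ ⟨(s : F'), hs⟩)
  refine ⟨c, ?_⟩
  have h1 : (⟨(s : F'), hs⟩ : w.toValuationSubring) - algebraMap K w.toValuationSubring c ∈
      IsLocalRing.maximalIdeal w.toValuationSubring := by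
    rw [← Ideal.Quotient.eq_zero_iff_mem, map_sub, sub_eq_zero]
    exact hc.symm
  rw [mem_maximalIdeal_iff] at h1
  rw [mem_asIdeal_iff_primeOrd (F := F')]
  have hcoe : (((⟨(s : F'), hs⟩ : w.toValuationSubring) - algebraMap K w.toValuationSubring c :
      w.toValuationSubring) : F') = algebraMap (Sv v F') F' (s - algebraMap K (Sv v F') c) := by
    rw [map_sub, ← IsScalarTower.algebraMap_apply K (Sv v F') F']
    rfl
  rw [hcoe, hw, placeOfPrime_ord] at h1
  rcases h1 with h1 | h1
  · left
    exact (map_eq_zero_iff _ (IsFractionRing.injective (Sv v F') F')).mp h1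
  · right
    exact h1

/-- the inertia degree of a prime of `S` is one -/
theorem inertiaDeg_eq_one
    (hres' : ∀ w : Place K F', Function.Surjective (algebraMap K w.ResidueField))
    (P : HeightOneSpectrum (Sv v F')) : P.asIdeal.inertiaDeg v.toValuationSubring = 1 := by
  haveI := P.isMaximal
  haveI := liesOver_mv v P.asIdeal
  rw [Ideal.inertiaDeg_eq_of_isMaximal (mv v) P.asIdeal]
  letI := Ideal.Quotient.field (mv v)
  letI := Ideal.Quotient.field P.asIdeal
  have hsurj : Function.Surjective
      (algebraMap (v.toValuationSubring ⧸ mv v) (Sv v F' ⧸ P.asIdeal)) := by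
    intro x
    obtain ⟨b, rfl⟩ := Ideal.Quotient.mk_surjective x
    obtain ⟨c, hc⟩ := exists_sub_mem v hres' P b
    refine ⟨Ideal.Quotient.mk (mv v) (algebraMap K v.toValuationSubring c), ?_⟩
    rw [Ideal.Quotient.algebraMap_mk_of_liesOver, ← IsScalarTower.algebraMap_apply]
    exact (Ideal.Quotient.eq.mpr hc).symm
  have hbij : Function.Bijective
      (algebraMap (v.toValuationSubring ⧸ mv v) (Sv v F' ⧸ P.asIdeal)) :=
    ⟨(algebraMap (v.toValuationSubring ⧸ mv v) (Sv v F' ⧸ P.asIdeal)).injective, hsurj⟩
  rw [← Module.finrank_self (v.toValuationSubring ⧸ mv v)]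
  exact ((AlgEquiv.ofBijective (Algebra.ofId (v.toValuationSubring ⧸ mv v)
    (Sv v F' ⧸ P.asIdeal)) hbij).toLinearEquiv.finrank_eq).symm

variable [CharZero K]

theorem charZero_fractionRing : CharZero (FractionRing v.toValuationSubring) := by
  haveI : CharZero F := charZero_of_injective_algebraMap (algebraMap K F).injective
  haveI : CharZero v.toValuationSubring :=
    charZero_of_injective_algebraMap (R := K) (algebraMap K v.toValuationSubring).injective
  exact charZero_of_injective_algebraMap
    (IsFractionRing.injective v.toValuationSubring (FractionRing v.toValuationSubring))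

/-- the relative norm of a prime of `S` is the maximal ideal of `𝒪_v` -/
theorem relNorm_prime
    (hres' : ∀ w : Place K F', Function.Surjective (algebraMap K w.ResidueField))
    (P : HeightOneSpectrum (Sv v F')) :
    Ideal.relNorm v.toValuationSubring P.asIdeal = mv v := by
  haveI := P.isMaximal
  haveI := liesOver_mv v P.asIdeal
  haveI := charZero_fractionRing v
  rw [Ideal.relNorm_eq_pow_of_isMaximal P.asIdeal (mv v), inertiaDeg_eq_one v hres' P, pow_one]

/-- the relative norm of a nonzero ideal is the power of the maximal ideal given by the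
number of prime factors -/
theorem relNorm_eq_pow_card
    (hres' : ∀ w : Place K F', Function.Surjective (algebraMap K w.ResidueField))
    {I : Ideal (Sv v F')} (hI : I ≠ ⊥) :
    Ideal.relNorm v.toValuationSubring I = mv v ^ (normalizedFactors I).card := by
  conv_lhs => rw [← Ideal.prod_normalizedFactors_eq_self hI]
  rw [map_multiset_prod]
  have h : ∀ J ∈ (normalizedFactors I).map (Ideal.relNorm v.toValuationSubring), J = mv v := by
    intro J hJ
    rw [Multiset.mem_map] at hJ
    obtain ⟨P, hP, rfl⟩ := hJ
    have hP' := (Ideal.mem_normalizedFactors_iff hI).mp hP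
    have hP0 : P ≠ ⊥ := by
      rintro rfl
      exact hI (le_bot_iff.mp hP'.2)
    exact relNorm_prime v hres' ⟨P, hP'.1, hP0⟩
  rw [Multiset.eq_replicate_card.mpr h, Multiset.prod_replicate, Multiset.card_map]

omit [CharZero K] in
/-- membership in a power of the maximal ideal in terms of the order -/
theorem mem_mv_pow_iff (r : v.toValuationSubring) (n : ℕ) :
    r ∈ mv v ^ n ↔ (r : F) = 0 ∨ (n : ℤ) ≤ v.ord (r : F) := by
  have h := v.heightOneSpectrum.intValuation_le_pow_iff_mem r n
  rw [Place.heightOneSpectrum_asIdeal] at h
  rw [← h, ← v.adicValuation_coe, Place.adicValuation_le_exp_iff, neg_neg]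

omit [CharZero K] in
/-- the order of a generator of a power of the maximal ideal -/
theorem ord_of_span_eq {r : v.toValuationSubring} {k : ℕ} (h : Ideal.span {r} = mv v ^ k) :
    v.ord (r : F) = k := by
  have hr0 : (r : F) ≠ 0 := by
    intro h0
    have : r = 0 := Subtype.ext h0
    rw [this, Ideal.span_singleton_eq_bot.mpr rfl] at h
    exact pow_ne_zero k (mv_ne_bot v) h.symm
  have h1 : r ∈ mv v ^ k := by
    rw [← h]
    exact Ideal.mem_span_singleton_self r
  have h2 := ((mem_mv_pow_iff v r k).mp h1).resolve_left hr0
  have hnn : 0 ≤ v.ord (r : F) := le_trans (Int.natCast_nonneg k) h2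
  obtain ⟨n, hn⟩ : ∃ n : ℕ, v.ord (r : F) = n := ⟨(v.ord (r : F)).toNat, by omega⟩
  have h3 : r ∈ mv v ^ n := (mem_mv_pow_iff v r n).mpr (Or.inr hn.ge)
  have h4 : mv v ^ k ≤ mv v ^ n := by
    rw [← h, Ideal.span_singleton_le_iff_mem]
    exact h3
  have h5 : n ≤ k := (Ideal.pow_right_strictAnti (mv v) (mv_ne_bot v) (mv_ne_top v)).le_iff_ge.mp h4
  rw [hn] at h2 ⊢
  have : (k : ℤ) ≤ n := h2
  have : k ≤ n := by exact_mod_cast this
  exact_mod_cast le_antisymm h5 this

/-- **Integral norm formula, ideal form**: the order at `v` of the norm of a nonzero element of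
`S` is the number of prime factors of the ideal it generates. -/
theorem ord_norm_eq_card
    (hres' : ∀ w : Place K F', Function.Surjective (algebraMap K w.ResidueField))
    {s : Sv v F'} (hs : s ≠ 0) :
    v.ord (Algebra.norm F (s : F')) = (normalizedFactors (Ideal.span {s})).card := by
  have hI : Ideal.span {s} ≠ ⊥ := by
    rwa [Ne, Ideal.span_singleton_eq_bot]
  have h1 := relNorm_eq_pow_card v hres' hI
  rw [Ideal.relNorm_singleton] at h1
  have h2 := ord_of_span_eq v h1
  have h3 : algebraMap v.toValuationSubring F (Algebra.intNorm v.toValuationSubring (Sv v F') s) =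
      Algebra.norm F (algebraMap (Sv v F') F' s) :=
    Algebra.algebraMap_intNorm (K := F) (L := F') s
  rw [← h2]
  congr 1
  exact h3.symm

end Fermat.Agent.S37.H
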