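import Fermat.Agent.S37.HInpFiber

/-!
# S37, piece H, part 3: the norm formula and the fundamental identity

For a finite extension `F'/F` of function fields of one variable over an algebraically closed
field `K` of characteristic zero (all residue fields equal to `K`):
* `ord_norm`: `ord_v (N_{F'/F} f) = ∑_{w | v} ord_w f` for `f ≠ 0`;
* `sum_ramificationIndex`: `∑_{w | v} e(w | v) = [F' : F]`;
* the prelude's `Divisor.PushforwardNormFormula` and `FundamentalIdentity`.
-/

set_option autoImplicit false
set_option linter.unusedSectionVars false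
set_option linter.style.haveILetI false

open AlgebraicCurve IsDedekindDomain Fermat.Agent.Lib.FF UniqueFactorizationMonoid

noncomputable section

namespace Fermat.Agent.S37.H

attribute [local instance 10] algVF

variable {K F : Type*} [Field K] [Field F] [Algebra K F]
variable {F' : Type*} [Field F'] [Algebra K F']
  [Algebra F F'] [IsScalarTower K F F'] [FiniteDimensional F F'] [Algebra.IsSeparable F F']
  [CharZero K] [HasPrincipalDivisors K F']

variable (v : Place K F)

/-- **Norm formula** at a place. -/
theorem ord_norm
    (hres' : ∀ w : Place K F', Function.Surjective (algebraMap K w.ResidueField))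
    {f : F'} (hf : f ≠ 0) :
    v.ord (Algebra.norm F f) = ∑ w ∈ v.fiber F', w.ord f := by
  have halg : IsAlgebraic v.toValuationSubring f :=
    (IsFractionRing.isAlgebraic_iff v.toValuationSubring F F').mpr
      (Algebra.IsAlgebraic.isAlgebraic f)
  obtain ⟨r, hr0, hint⟩ := halg.exists_integral_multiple
  have hrF : (r : F) ≠ 0 := fun h => hr0 (Subtype.ext h)
  have hrF' : algebraMap F F' (r : F) ≠ 0 := by simpa using hrF
  -- the two integral elements
  set s₁ : Sv v F' := ⟨r • f, hint⟩ with hs₁
  set s₂ : Sv v F' := algebraMap v.toValuationSubring (Sv v F') r with hs₂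
  have e₁ : (s₁ : F') = algebraMap F F' (r : F) * f := by
    rw [hs₁]
    show r • f = _
    rw [Algebra.smul_def]
    rfl
  have e₂ : (s₂ : F') = algebraMap F F' (r : F) := rfl
  have h₁0 : s₁ ≠ 0 := by
    intro h
    have : (s₁ : F') = 0 := by rw [h]; rfl
    rw [e₁] at this
    exact (mul_ne_zero hrF' hf) this
  have h₂0 : s₂ ≠ 0 := by
    intro h
    have : (s₂ : F') = 0 := by rw [h]; rfl
    rw [e₂] at this
    exact hrF' this
  have n₁ := ord_norm_eq_sum v hres' h₁0
  have n₂ := ord_norm_eq_sum v hres' h₂0
  rw [e₁] at n₁
  rw [e₂] at n₂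
  rw [map_mul, v.ord_mul (Algebra.norm_ne_zero_iff.mpr hrF') (Algebra.norm_ne_zero_iff.mpr hf),
    n₂] at n₁
  have h3 : ∑ w ∈ v.fiber F', w.ord (algebraMap F F' (r : F) * f) =
      ∑ w ∈ v.fiber F', w.ord (algebraMap F F' (r : F)) + ∑ w ∈ v.fiber F', w.ord f := by
    rw [← Finset.sum_add_distrib]
    exact Finset.sum_congr rfl fun w _ => w.ord_mul hrF' hf
  rw [h3] at n₁
  linarith

/-- **Fundamental identity**: the ramification indices over `v` add up to the degree. -/
theorem sum_ramificationIndex
    (hres' : ∀ w : Place K F', Function.Surjective (algebraMap K w.ResidueField)) :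
    ∑ w ∈ v.fiber F', (w.ramificationIndex F : ℤ) = (Module.finrank F F' : ℤ) := by
  obtain ⟨π, hπ⟩ := IsDiscreteValuationRing.exists_irreducible v.toValuationSubring
  have h1 : v.ord (π : F) = 1 := v.ord_coe_irreducible hπ
  have hπ0 : (π : F) ≠ 0 := by
    intro h
    rw [h, v.ord_zero] at h1
    exact zero_ne_one h1
  have hπ' : algebraMap F F' (π : F) ≠ 0 := by simpa using hπ0
  have h2 := ord_norm v hres' hπ'
  rw [Algebra.norm_algebraMap, ← zpow_natCast, v.ord_zpow, h1, mul_one] at h2
  rw [h2]
  refine Finset.sum_congr rfl fun w hw => ?_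
  rw [w.ord_restrict (F := F), Place.mem_fiber.mp hw, h1, mul_one]

/-- the prelude's inertia degree is one -/
theorem inertiaDeg_eq_one'
    (hres : ∀ v : Place K F, Function.Surjective (algebraMap K v.ResidueField))
    (hres' : ∀ w : Place K F', Function.Surjective (algebraMap K w.ResidueField))
    (w : Place K F') : w.inertiaDeg F = 1 := by
  have h := w.deg_restrict_mul_inertiaDeg (F := F)
  rw [deg_eq_one_of_res _ (hres _), deg_eq_one_of_res _ (hres' _), one_mul] at h
  exact h

/-- the prelude's norm formula for the push-forward of divisors -/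
theorem pushforwardNormFormula
    (hres : ∀ v : Place K F, Function.Surjective (algebraMap K v.ResidueField))
    (hres' : ∀ w : Place K F', Function.Surjective (algebraMap K w.ResidueField)) :
    Divisor.PushforwardNormFormula K F F' := by
  classical
  intro f hf D hD v
  rw [ord_norm v hres' hf, Divisor.pushforward_apply]
  have hsub : (D.support.filter fun w => w.restrict F = v) ⊆ v.fiber F' := by
    intro w hw
    rw [Finset.mem_filter] at hw
    exact Place.mem_fiber.mpr hw.2
  rw [← Finset.sum_filter, Finset.sum_subset hsub]
  · refine Finset.sum_congr rfl fun w _ => ?_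
    rw [hD w, inertiaDeg_eq_one' hres hres' w]
    simp
  · intro w hw hw'
    rw [Finset.mem_filter, not_and] at hw'
    have : w ∉ D.support := fun h => hw' h (Place.mem_fiber.mp hw)
    rw [Finsupp.notMem_support_iff] at this
    rw [this, zero_mul]

/-- the prelude's fundamental identity -/
theorem fundamentalIdentity
    (hres : ∀ v : Place K F, Function.Surjective (algebraMap K v.ResidueField))
    (hres' : ∀ w : Place K F', Function.Surjective (algebraMap K w.ResidueField)) :
    FundamentalIdentity K F F' where
  sum_ramificationIndex_mul_deg v := by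
    rw [deg_eq_one_of_res _ (hres v), ← sum_ramificationIndex v hres']
    simp only [Nat.cast_one, mul_one]
    refine Finset.sum_congr rfl fun w _ => ?_
    rw [deg_eq_one_of_res _ (hres' w)]
    simp

end Fermat.Agent.S37.H
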