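import Fermat.Agent.S37.KronPoly

/-!
# S37 (piece K): descent of the reduction along `q ↦ q^ℓ`

**(K5)** `Red A (x(q^ℓ)) b → ∃ d, d(q^ℓ) = b ∧ Red A x d`.

**(K6)** If `Q(q^ℓ) = P_f` coefficientwise and `Red A f a`, then `Q` reduces coefficientwise to
`(X - a(q^ℓ)) (X^ℓ - φ a)`, `φ` the Frobenius on coefficients.
-/

set_option autoImplicit false

noncomputable section

open ModularCurve Fermat.Agent.S18 Fermat.Agent.S18.GV Polynomial

namespace Fermat.Agent.S37.Kron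

theorem prod_range_shift {M : Type*} [CommMonoid M] (g : ℕ → M) {n : ℕ} (hn : n ≠ 0)
    (h : g n = g 0) : ∏ i ∈ Finset.range n, g (i + 1) = ∏ i ∈ Finset.range n, g i := by
  obtain ⟨m, rfl⟩ := Nat.exists_eq_succ_of_ne_zero hn
  rw [Finset.prod_range_succ (fun i => g (i + 1)), Finset.prod_range_succ' g, h]

variable {L : Type*} [Field L] [Algebra ℚ L] (A : ValuationSubring L)

theorem isFin_prod {ι : Type*} (s : Finset ι) {P : ι → LaurentSeries A}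
    (h : ∀ i ∈ s, IsFin A (P i)) : IsFin A (∏ i ∈ s, P i) := by
  classical
  induction s using Finset.induction_on with
  | empty => simpa using isFin_one A
  | insert i s hi ih =>
    rw [Finset.prod_insert hi]
    exact (h i (Finset.mem_insert_self i s)).mul A
      (ih fun j hj => h j (Finset.mem_insert_of_mem hj))

theorem isFin_of_qExpand (ℓ : ℕ) [NeZero ℓ] {P : LaurentSeries A}
    (h : IsFin A (qExpand A ℓ P)) : IsFin A P := by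
  obtain ⟨K, hK, hc⟩ := h
  refine ⟨K, hK, fun n => ?_⟩
  have := hc ((ℓ : ℤ) * n)
  rwa [qExpand_coeff_mul] at this

theorem eps_qExpand (ℓ : ℕ) [NeZero ℓ] (P : LaurentSeries A) :
    eps A (qExpand A ℓ P) = qExpand L ℓ (eps A P) := by
  show coeffMap A.subtype (qExpand A ℓ P) = qExpand L ℓ (coeffMap A.subtype P)
  rw [ModularCurve.coeffMap_qExpand]

theorem red_qExpand_eq (ℓ : ℕ) [NeZero ℓ] (P : LaurentSeries A) :
    red A (qExpand A ℓ P) = qExpand _ ℓ (red A P) := by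
  show coeffMap (IsLocalRing.residue A) (qExpand A ℓ P) = qExpand _ ℓ (coeffMap _ P)
  rw [ModularCurve.coeffMap_qExpand]

variable [Algebra.IsAlgebraic ℚ L]

/-- the cofactor `∏_{0<i<ℓ} Q(u^i q)` of `Q` in its norm -/
def coNorm {R : Type*} [CommRing R] (ℓ : ℕ) (u : Rˣ) (Q : LaurentSeries R) : LaurentSeries R :=
  ∏ i ∈ Finset.range (ℓ - 1), tw (u ^ (i + 1)) Q

theorem coNorm_mul {R : Type*} [CommRing R] (ℓ : ℕ) (hℓ0 : ℓ ≠ 0) (u : Rˣ)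
    (Q : LaurentSeries R) :
    coNorm ℓ u Q * Q = ∏ i ∈ Finset.range ℓ, tw (u ^ i) Q := by
  obtain ⟨m, rfl⟩ := Nat.exists_eq_succ_of_ne_zero hℓ0
  rw [Finset.prod_range_succ' (fun i => tw (u ^ i) Q)]
  simp [coNorm, tw_one]

theorem tw_coNorm_mul {R : Type*} [CommRing R] (ℓ : ℕ) (hℓ0 : ℓ ≠ 0) (u : Rˣ) (hu : u ^ ℓ = 1)
    (Q : LaurentSeries R) :
    tw u (coNorm ℓ u Q * Q) = coNorm ℓ u Q * Q := by
  rw [coNorm_mul ℓ hℓ0, map_prod]
  have e : ∀ i, tw u (tw (u ^ i) Q) = tw (u ^ (i + 1)) Q := by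
    intro i
    rw [tw_tw, pow_succ']
  simp only [e]
  apply prod_range_shift (fun i => tw (u ^ i) Q) hℓ0
  simp only [hu, pow_zero]

theorem isFin_coNorm (ℓ : ℕ) (u : Aˣ) {Q : LaurentSeries A} (hQ : IsFin A Q) :
    IsFin A (coNorm ℓ u Q) :=
  isFin_prod A _ (fun i _ => isFin_tw A hQ (u ^ (i + 1)))

theorem red_coNorm_mul (ℓ : ℕ) [hℓ : Fact ℓ.Prime] (hA : A.LiesOverPrime ℓ) (u : Aˣ)
    (hu : u ^ ℓ = 1) (Q : LaurentSeries A) :
    red A (coNorm ℓ u Q * Q) = (red A Q) ^ ℓ := by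
  rw [coNorm_mul ℓ hℓ.out.ne_zero, map_prod]
  have e : ∀ i ∈ Finset.range ℓ, red A (tw (u ^ i) Q) = red A Q := by
    intro i _
    apply red_tw_eq A ℓ hA
    rw [← pow_mul, mul_comm, pow_mul, hu, one_pow]
  rw [Finset.prod_congr rfl e, Finset.prod_const, Finset.card_range]

theorem isPrimitiveRoot_unitOfRoot {n : ℕ} (hn : n ≠ 0) (ζ : Lˣ) (hζ : IsPrimitiveRoot ζ n) :
    IsPrimitiveRoot (unitOfRoot A hn ζ hζ.pow_eq_one) n := by
  have hinj : Function.Injective (Units.map ((A.subtype : A →+* L) : A →* L)) :=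
    Units.map_injective (fun x y hxy => Subtype.ext hxy)
  refine IsPrimitiveRoot.of_map_of_injective
    (f := Units.map ((A.subtype : A →+* L) : A →* L)) ?_ hinj
  rw [map_subtype_unitOfRoot]
  exact hζ

/-- membership part of (K5) -/
theorem gauss_of_qExpand (ℓ : ℕ) [hℓ : Fact ℓ.Prime] (hA : A.LiesOverPrime ℓ) (ζ : Lˣ)
    (hζ : IsPrimitiveRoot ζ ℓ) {c : LaurentSeries L} {P Q : LaurentSeries A}
    (hP : IsFin A P) (hQ : IsFin A Q) (hQ0 : red A Q ≠ 0)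
    (hPQ : (haveI : NeZero ℓ := ⟨hℓ.out.ne_zero⟩; qExpand L ℓ c) * eps A Q = eps A P) :
    haveI : NeZero ℓ := ⟨hℓ.out.ne_zero⟩
    ∃ P' Q' : LaurentSeries A, IsFin A P' ∧ IsFin A Q' ∧ red A Q' ≠ 0 ∧
      c * eps A Q' = eps A P' ∧
      qExpand _ ℓ (red A P') / qExpand _ ℓ (red A Q') = red A P / red A Q := by
  haveI : NeZero ℓ := ⟨hℓ.out.ne_zero⟩
  have hℓ0 : ℓ ≠ 0 := hℓ.out.ne_zero
  have hζℓ : ζ ^ ℓ = 1 := hζ.pow_eq_one
  have hupow : unitOfRoot A hℓ0 ζ hζℓ ^ ℓ = 1 := unitOfRoot_pow A hℓ0 ζ hζℓ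
  have huprim := isPrimitiveRoot_unitOfRoot A hℓ0 ζ hζ
  have hRfin := isFin_coNorm A ℓ (unitOfRoot A hℓ0 ζ hζℓ) hQ
  have htwQs := tw_coNorm_mul ℓ hℓ0 (unitOfRoot A hℓ0 ζ hζℓ) hupow Q
  have hredQs := red_coNorm_mul A ℓ hA (unitOfRoot A hℓ0 ζ hζℓ) hupow Q
  generalize coNorm ℓ (unitOfRoot A hℓ0 ζ hζℓ) Q = R at hRfin htwQs hredQs
  have hPQs : qExpand L ℓ c * eps A (R * Q) = eps A (R * P) := by
    rw [map_mul, map_mul, ← hPQ]
    ring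
  have htwPs : tw (unitOfRoot A hℓ0 ζ hζℓ) (R * P) = R * P := by
    apply eps_injective A
    rw [eps_tw, ← hPQs, map_mul, tw_qExpand ℓ hζℓ, ← eps_tw A hℓ0 ζ hζℓ, htwQs]
  obtain ⟨Q', hQ'⟩ := exists_qExpand_eq_of_tw_eq ℓ huprim (R * Q) htwQs
  obtain ⟨P', hP'⟩ := exists_qExpand_eq_of_tw_eq ℓ huprim (R * P) htwPs
  have hQ'fin : IsFin A Q' := isFin_of_qExpand A ℓ (by rw [hQ']; exact hRfin.mul A hQ)
  have hP'fin : IsFin A P' := isFin_of_qExpand A ℓ (by rw [hP']; exact hRfin.mul A hP)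
  have hQs0 : red A (R * Q) ≠ 0 := by
    rw [hredQs]
    exact pow_ne_zero _ hQ0
  have hRQ0 : red A R ≠ 0 := by
    intro h0
    apply hQs0
    rw [map_mul, h0, zero_mul]
  have hQ'0 : red A Q' ≠ 0 := by
    intro h0
    apply hQs0
    rw [← hQ', red_qExpand_eq, h0, map_zero]
  have hcPQ : c * eps A Q' = eps A P' := by
    apply qExpand_injective (R := L) ℓ
    rw [map_mul, ← eps_qExpand, ← eps_qExpand, hQ', hP']
    exact hPQs
  refine ⟨P', Q', hP'fin, hQ'fin, hQ'0, hcPQ, ?_⟩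
  rw [← red_qExpand_eq, ← red_qExpand_eq, hQ', hP', map_mul, map_mul,
    mul_div_mul_left _ _ hRQ0]

/-- **(K5)** descent of `Red` along `q ↦ q^ℓ` -/
theorem red_of_red_qExpand (ℓ : ℕ) [hℓ : Fact ℓ.Prime] (hA : A.LiesOverPrime ℓ) (ζ : Lˣ)
    (hζ : IsPrimitiveRoot ζ ℓ)
    {c : LaurentSeries L} {b : LaurentSeries (IsLocalRing.ResidueField A)}
    (h : Red A ((haveI : NeZero ℓ := ⟨hℓ.out.ne_zero⟩; qExpand L ℓ c)) b) :
    haveI : NeZero ℓ := ⟨hℓ.out.ne_zero⟩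
    ∃ d : LaurentSeries (IsLocalRing.ResidueField A), qExpand _ ℓ d = b ∧ Red A c d := by
  haveI : NeZero ℓ := ⟨hℓ.out.ne_zero⟩
  obtain ⟨hx, hb⟩ := h
  obtain ⟨P, Q, hP, hQ, hQ0, hPQ⟩ := (mem_gaussRing_iff A).1 hx
  obtain ⟨P', Q', hP', hQ', hQ'0, hcPQ, hdiv⟩ := gauss_of_qExpand A ℓ hA ζ hζ hP hQ hQ0 hPQ
  have hcmem : c ∈ gaussRing A := (mem_gaussRing_iff A).2 ⟨P', Q', hP', hQ', hQ'0, hcPQ⟩
  have h1 : rho A ⟨c, hcmem⟩ = red A P' / red A Q' := rho_eq A ⟨c, hcmem⟩ hQ'0 hcPQ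
  have h2 : rho A ⟨qExpand L ℓ c, hx⟩ = red A P / red A Q := rho_eq A ⟨_, hx⟩ hQ0 hPQ
  refine ⟨rho A ⟨c, hcmem⟩, ?_, hcmem, rfl⟩
  rw [h1, map_div₀, hdiv, ← h2, hb]

variable (ℓ : ℕ) [hℓ : Fact ℓ.Prime]

/-- **(K6)** Kronecker's congruence, descended: if `Q(q^ℓ) = P_f` then `Q` reduces to
`(X - a(q^ℓ)) (X^ℓ - φ a)`. -/
theorem redP_of_map_eq_kronPoly (hA : A.LiesOverPrime ℓ) (ζ : Lˣ) (hζ : IsPrimitiveRoot ζ ℓ)
    {f : LaurentSeries L} {a : LaurentSeries (IsLocalRing.ResidueField A)} (h : Red A f a)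
    (Q : Polynomial (LaurentSeries L)) :
    haveI : NeZero ℓ := ⟨hℓ.out.ne_zero⟩
    haveI : CharP (IsLocalRing.ResidueField A) ℓ := charP_res A ℓ hA
    Q.map (qExpand L ℓ) = kronPoly ℓ ζ f →
    RedP A Q ((X - C (qExpand _ ℓ a)) *
        (X ^ ℓ - C (coeffMap (frobenius (IsLocalRing.ResidueField A) ℓ) a))) := by
  haveI : NeZero ℓ := ⟨hℓ.out.ne_zero⟩
  haveI : CharP (IsLocalRing.ResidueField A) ℓ := charP_res A ℓ hA
  intro hQ i
  have h1 := redP_kronPoly A ℓ hA ζ hζ.pow_eq_one h i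
  rw [← hQ, reduced_eq_map A ℓ hA a, Polynomial.coeff_map, Polynomial.coeff_map] at h1
  obtain ⟨d, hd, hred⟩ := red_of_red_qExpand A ℓ hA ζ hζ h1
  have := qExpand_injective (R := IsLocalRing.ResidueField A) ℓ hd
  rw [← this]
  exact hred

end Fermat.Agent.S37.Kron
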