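import Fermat.Agent.S37.KronRed

/-!
# S37 (piece K): Kronecker's congruence for `P_f`

**(K3)** If `Red A f a` then the coefficients of
`P_f = (X - f(q^{ℓ²})) ∏_{i<ℓ} (X - f(ζ^i q))` reduce to those of
`(X - a(q^{ℓ²})) (X^ℓ - a^ℓ)`, and `a^ℓ = (φ a)(q^ℓ)`.
-/

set_option autoImplicit false

noncomputable section

open ModularCurve Fermat.Agent.S18 Fermat.Agent.S18.GV Polynomial

namespace Fermat.Agent.S37.Kron

variable {L : Type*} [Field L] [Algebra ℚ L] (A : ValuationSubring L)

/-- coefficientwise reduction of polynomials -/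
def RedP (p : Polynomial (LaurentSeries L))
    (r : Polynomial (LaurentSeries (IsLocalRing.ResidueField A))) : Prop :=
  ∀ i, Red A (p.coeff i) (r.coeff i)

theorem red_finset_sum {ι : Type*} (s : Finset ι) {x : ι → LaurentSeries L}
    {a : ι → LaurentSeries (IsLocalRing.ResidueField A)} (h : ∀ i ∈ s, Red A (x i) (a i)) :
    Red A (∑ i ∈ s, x i) (∑ i ∈ s, a i) := by
  classical
  induction s using Finset.induction_on with
  | empty => simpa using red_zero A
  | insert i s hi ih =>
    rw [Finset.sum_insert hi, Finset.sum_insert hi]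
    exact (h i (Finset.mem_insert_self i s)).add A
      (ih fun j hj => h j (Finset.mem_insert_of_mem hj))

theorem RedP.one : RedP A 1 1 := by
  intro i
  rw [Polynomial.coeff_one, Polynomial.coeff_one]
  split_ifs
  · exact red_one A
  · exact red_zero A

theorem RedP.mul {p p' : Polynomial (LaurentSeries L)}
    {r r' : Polynomial (LaurentSeries (IsLocalRing.ResidueField A))} (h : RedP A p r)
    (h' : RedP A p' r') : RedP A (p * p') (r * r') := by
  intro i
  rw [Polynomial.coeff_mul, Polynomial.coeff_mul]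
  exact red_finset_sum A _ (fun x _ => (h x.1).mul A (h' x.2))

theorem RedP.X_sub_C {x : LaurentSeries L} {a : LaurentSeries (IsLocalRing.ResidueField A)}
    (h : Red A x a) : RedP A (X - C x) (X - C a) := by
  intro i
  rw [Polynomial.coeff_sub, Polynomial.coeff_sub, Polynomial.coeff_X, Polynomial.coeff_X,
    Polynomial.coeff_C, Polynomial.coeff_C]
  refine Red.sub A ?_ ?_
  · split_ifs
    · exact red_one A
    · exact red_zero A
  · split_ifs
    · exact h
    · exact red_zero A

theorem RedP.prod {ι : Type*} (s : Finset ι) {p : ι → Polynomial (LaurentSeries L)}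
    {r : ι → Polynomial (LaurentSeries (IsLocalRing.ResidueField A))}
    (h : ∀ i ∈ s, RedP A (p i) (r i)) : RedP A (∏ i ∈ s, p i) (∏ i ∈ s, r i) := by
  classical
  induction s using Finset.induction_on with
  | empty => simpa using RedP.one A
  | insert i s hi ih =>
    rw [Finset.prod_insert hi, Finset.prod_insert hi]
    exact (h i (Finset.mem_insert_self i s)).mul A
      (ih fun j hj => h j (Finset.mem_insert_of_mem hj))

variable [Algebra.IsAlgebraic ℚ L] (ℓ : ℕ) [hℓ : Fact ℓ.Prime]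

/-- reduction of `∏_{i<ℓ} (X - f(ζ^i q))` -/
theorem redP_twProd (hA : A.LiesOverPrime ℓ) (ζ : Lˣ) (hζ : ζ ^ ℓ = 1) {f : LaurentSeries L}
    {a : LaurentSeries (IsLocalRing.ResidueField A)} (h : Red A f a) :
    RedP A (twProd ℓ ζ f) (X ^ ℓ - C (a ^ ℓ)) := by
  haveI := charP_res A ℓ hA
  haveI : CharP (LaurentSeries (IsLocalRing.ResidueField A)) ℓ :=
    charP_of_injective_ringHom (f := (HahnSeries.C : IsLocalRing.ResidueField A →+* _))
      HahnSeries.C_injective ℓ
  have e : (X ^ ℓ - C (a ^ ℓ) : Polynomial (LaurentSeries (IsLocalRing.ResidueField A))) =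
      ∏ _i ∈ Finset.range ℓ, (X - C a) := by
    rw [Finset.prod_const, Finset.card_range, sub_pow_char, ← C_pow]
  rw [e, twProd]
  refine RedP.prod A _ (fun i _ => RedP.X_sub_C A ?_)
  refine red_tw A ℓ hA (ζ ^ i) ?_ h
  rw [← pow_mul, mul_comm, pow_mul, hζ, one_pow]

/-- **(K3)** Kronecker's congruence for `P_f` -/
theorem redP_kronPoly (hA : A.LiesOverPrime ℓ) (ζ : Lˣ) (hζ : ζ ^ ℓ = 1) {f : LaurentSeries L}
    {a : LaurentSeries (IsLocalRing.ResidueField A)} (h : Red A f a) :
    haveI : NeZero ℓ := ⟨hℓ.out.ne_zero⟩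
    RedP A (kronPoly ℓ ζ f)
      ((X - C (qExpand _ ℓ (qExpand _ ℓ a))) * (X ^ ℓ - C (a ^ ℓ))) := by
  haveI : NeZero ℓ := ⟨hℓ.out.ne_zero⟩
  rw [kronPoly]
  refine RedP.mul A (RedP.X_sub_C A ?_) (redP_twProd A ℓ hA ζ hζ h)
  exact Desc.red_qExpand A ℓ (Desc.red_qExpand A ℓ h)

/-- the reduced polynomial is `β̃` applied to `(X - a(q^ℓ)) (X^ℓ - φ a)` -/
theorem reduced_eq_map (hA : A.LiesOverPrime ℓ)
    (a : LaurentSeries (IsLocalRing.ResidueField A)) :
    haveI : NeZero ℓ := ⟨hℓ.out.ne_zero⟩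
    haveI : CharP (IsLocalRing.ResidueField A) ℓ := charP_res A ℓ hA
    ((X - C (qExpand _ ℓ (qExpand _ ℓ a))) * (X ^ ℓ - C (a ^ ℓ)) :
        Polynomial (LaurentSeries (IsLocalRing.ResidueField A))) =
      ((X - C (qExpand _ ℓ a)) *
        (X ^ ℓ - C (coeffMap (frobenius (IsLocalRing.ResidueField A) ℓ) a))).map
          (qExpand (IsLocalRing.ResidueField A) ℓ) := by
  haveI : NeZero ℓ := ⟨hℓ.out.ne_zero⟩
  haveI := charP_res A ℓ hA
  rw [laurent_pow_char ℓ a]
  simp only [Polynomial.map_mul, Polynomial.map_sub, Polynomial.map_X, Polynomial.map_C,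
    Polynomial.map_pow]

end Fermat.Agent.S37.Kron
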