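import Fermat.Agent.S37.Defs
import Fermat.Agent.S37.KronFrob
import Fermat.Agent.S18.Descend

/-!
# S37 (piece K): the reduction relation `Red` and the rotation by roots of unity

* `unitOfRoot`: a root of unity of `L` is a unit of the valuation ring `A`;
* `residue_root_eq_one`: an `ℓ`-th root of unity has residue `1` in characteristic `ℓ`;
* **(K1)** `red_tw`: `Red A f a → Red A (tw ζ f) a` for `ζ ^ ℓ = 1`.
-/

set_option autoImplicit false

noncomputable section

open ModularCurve Fermat.Agent.S18 Fermat.Agent.S18.GV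

namespace Fermat.Agent.S37.Kron

variable {L : Type*} [Field L] [Algebra ℚ L] (A : ValuationSubring L)

/-- the residue field has characteristic `ℓ` -/
theorem charP_res (ℓ : ℕ) [hℓ : Fact ℓ.Prime] (hA : A.LiesOverPrime ℓ) :
    CharP (IsLocalRing.ResidueField A) ℓ := by
  rw [CharP.charP_iff_prime_eq_zero hℓ.out]
  have h1 : ((ℓ : A) : L) ∈ A.nonunits := by
    have : ((ℓ : A) : L) = (ℓ : L) := by simp
    rw [this]
    exact hA
  have h2 : (ℓ : A) ∈ IsLocalRing.maximalIdeal A := by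
    obtain ⟨ha, hmem⟩ := A.mem_nonunits_iff_exists_mem_maximalIdeal.mp h1
    exact hmem
  have h3 := (IsLocalRing.residue_eq_zero_iff (ℓ : A)).2 h2
  rw [map_natCast] at h3
  exact h3

/-- a root of unity has valuation one -/
theorem valuation_root {n : ℕ} (hn : n ≠ 0) {ζ : L} (hζ : ζ ^ n = 1) : A.valuation ζ = 1 := by
  have h := congrArg A.valuation hζ
  rw [map_pow, map_one] at h
  rcases lt_trichotomy (A.valuation ζ) 1 with h1 | h1 | h1
  · exact absurd h (ne_of_lt (pow_lt_one₀ zero_le h1 hn))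
  · exact h1
  · exact absurd h (ne_of_gt (one_lt_pow₀ h1 hn))

/-- a root of unity of `L`, as a unit of `A` -/
def unitOfRoot {n : ℕ} (hn : n ≠ 0) (ζ : Lˣ) (hζ : ζ ^ n = 1) : Aˣ where
  val := ⟨(ζ : L), (A.valuation_le_one_iff _).1 (by
    rw [valuation_root A hn (ζ := (ζ : L)) (by rw [← Units.val_pow_eq_pow_val, hζ, Units.val_one])])⟩
  inv := ⟨((ζ⁻¹ : Lˣ) : L), (A.valuation_le_one_iff _).1 (by
    rw [valuation_root A hn (ζ := ((ζ⁻¹ : Lˣ) : L))
      (by rw [← Units.val_pow_eq_pow_val, inv_pow, hζ, inv_one, Units.val_one])])⟩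
  val_inv := by
    apply Subtype.ext
    simp
  inv_val := by
    apply Subtype.ext
    simp

@[simp] theorem coe_unitOfRoot {n : ℕ} (hn : n ≠ 0) (ζ : Lˣ) (hζ : ζ ^ n = 1) :
    (((unitOfRoot A hn ζ hζ : Aˣ) : A) : L) = (ζ : L) := rfl

theorem map_subtype_unitOfRoot {n : ℕ} (hn : n ≠ 0) (ζ : Lˣ) (hζ : ζ ^ n = 1) :
    Units.map ((A.subtype : A →+* L) : A →* L) (unitOfRoot A hn ζ hζ) = ζ := by
  apply Units.ext
  rfl

theorem unitOfRoot_pow {n : ℕ} (hn : n ≠ 0) (ζ : Lˣ) (hζ : ζ ^ n = 1) :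
    (unitOfRoot A hn ζ hζ) ^ n = 1 := by
  apply Units.ext
  apply Subtype.ext
  rw [Units.val_pow_eq_pow_val, SubmonoidClass.coe_pow, coe_unitOfRoot, ← Units.val_pow_eq_pow_val,
    hζ]
  rfl

/-- an `ℓ`-th root of unity has residue `1` -/
theorem residue_unit_eq_one (ℓ : ℕ) [hℓ : Fact ℓ.Prime] (hA : A.LiesOverPrime ℓ) (u : Aˣ)
    (hu : u ^ ℓ = 1) :
    Units.map ((IsLocalRing.residue A : A →+* IsLocalRing.ResidueField A) :
      A →* IsLocalRing.ResidueField A) u = 1 := by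
  have := charP_res A ℓ hA
  apply Units.ext
  rw [Units.coe_map, Units.val_one]
  have h1 : (IsLocalRing.residue A (u : A)) ^ ℓ = 1 := by
    have := congrArg (fun v : Aˣ => IsLocalRing.residue A (v : A)) hu
    simpa using this
  have h2 : (IsLocalRing.residue A (u : A) - 1) ^ ℓ = 0 := by
    rw [sub_pow_char, h1, one_pow, sub_self]
  have h3 := pow_eq_zero_iff (hℓ.out.ne_zero) |>.1 h2
  exact sub_eq_zero.1 h3

/-- the coefficients of the rotation of a series of finite type are of finite type -/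
theorem isFin_tw [Algebra.IsAlgebraic ℚ L] {P : LaurentSeries A} (hP : IsFin A P) (u : Aˣ) :
    IsFin A (tw u P) := by
  obtain ⟨K, hK, h⟩ := hP
  have hu : IsIntegral ℚ (((u : A) : L)) :=
    (Algebra.IsAlgebraic.isAlgebraic (((u : A) : L))).isIntegral
  have : FiniteDimensional ℚ (IntermediateField.adjoin ℚ {(((u : A) : L))}) :=
    IntermediateField.adjoin.finiteDimensional hu
  refine ⟨K ⊔ IntermediateField.adjoin ℚ {(((u : A) : L))},
    IntermediateField.finiteDimensional_sup K _, fun n => ?_⟩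
  rw [coeff_tw]
  have h1 : (((P.coeff n * ((u ^ n : Aˣ) : A) : A)) : L)
      = ((P.coeff n : A) : L) * (((u : A) : L)) ^ n := by
    rw [MulMemClass.coe_mul]
    congr 1
    have := map_zpow (Units.map ((A.subtype : A →+* L) : A →* L)) u n
    have h2 := congrArg Units.val this
    rw [Units.coe_map, Units.val_zpow_eq_zpow_val, Units.coe_map] at h2
    exact h2
  rw [h1]
  refine mul_mem ?_ (zpow_mem ?_ n)
  · exact (le_sup_left : K ≤ K ⊔ _) (h n)
  · exact (le_sup_right : _ ≤ K ⊔ _) (IntermediateField.mem_adjoin_simple_self ℚ _)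

variable [Algebra.IsAlgebraic ℚ L] (ℓ : ℕ) [hℓ : Fact ℓ.Prime]

/-- `eps` commutes with the rotation by a root of unity -/
theorem eps_tw {n : ℕ} (hn : n ≠ 0) (ζ : Lˣ) (hζ : ζ ^ n = 1) (P : LaurentSeries A) :
    eps A (tw (unitOfRoot A hn ζ hζ) P) = tw ζ (eps A P) := by
  rw [eps, coeffMap_tw, map_subtype_unitOfRoot]

/-- `red` kills the rotation by an `ℓ`-th root of unity -/
theorem red_tw_eq (hA : A.LiesOverPrime ℓ) (u : Aˣ) (hu : u ^ ℓ = 1) (P : LaurentSeries A) :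
    red A (tw u P) = red A P := by
  rw [red, coeffMap_tw, residue_unit_eq_one A ℓ hA u hu, tw_one]

/-- **(K1)** the rotation by an `ℓ`-th root of unity does not change the residue -/
theorem red_tw (hA : A.LiesOverPrime ℓ) (ζ : Lˣ) (hζ : ζ ^ ℓ = 1) {f : LaurentSeries L}
    {a : LaurentSeries (IsLocalRing.ResidueField A)} (h : Red A f a) : Red A (tw ζ f) a := by
  obtain ⟨hx, rfl⟩ := h
  obtain ⟨P, Q, hP, hQ, hQ0, hPQ⟩ := hx
  set u := unitOfRoot A hℓ.out.ne_zero ζ hζ with hu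
  have hupow : u ^ ℓ = 1 := unitOfRoot_pow A hℓ.out.ne_zero ζ hζ
  have hQ0' : red A (tw u Q) ≠ 0 := by rw [red_tw_eq A ℓ hA u hupow]; exact hQ0
  have hPQ' : tw ζ f * eps A (tw u Q) = eps A (tw u P) := by
    rw [eps_tw, eps_tw, ← map_mul, hPQ]
  have hmem : tw ζ f ∈ gaussRing A :=
    ⟨tw u P, tw u Q, isFin_tw A hP u, isFin_tw A hQ u, hQ0', hPQ'⟩
  refine ⟨hmem, ?_⟩
  rw [rho_eq A ⟨tw ζ f, hmem⟩ hQ0' hPQ', rho_eq A ⟨f, ⟨P, Q, hP, hQ, hQ0, hPQ⟩⟩ hQ0 hPQ,
    red_tw_eq A ℓ hA u hupow, red_tw_eq A ℓ hA u hupow]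

end Fermat.Agent.S37.Kron
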