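import Fermat.Agent.S37.MainAbs
import Fermat.Prelude.Def_AlgebraicCurve_Correspondence

/-!
# S37 (C78), piece MC1, part 1: integrality at a place

`IntAt A P f`: the function `f` is regular at the place `P` and its value lies in the valuation
ring `A` of the constant field.  The functions with this property form a valuation ring of `F`
(the composite of `P` and `A`); we only need that it is closed under the ring operations and
integrally closed: `intAt_of_monic`.
-/

set_option autoImplicit false
set_option linter.unusedSectionVars false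
set_option linter.unusedVariables false

open AlgebraicCurve Fermat.Agent.Lib.FF Fermat.Agent.S37.M Polynomial

namespace Fermat.Agent.S37.MC

variable {K F : Type*} [Field K] [Field F] [Algebra K F]

/-- `a` lies in the maximal ideal of the place `P` -/
def Pos (P : Place K F) (a : F) : Prop := a = 0 ∨ 0 < P.ord a

theorem isVal_iff_pos {P : Place K F} {f : F} {v : K} :
    IsVal P f v ↔ Pos P (f - algebraMap K F v) := by
  unfold IsVal Pos
  rw [sub_eq_zero]

theorem pos_zero (P : Place K F) : Pos P 0 := Or.inl rfl

theorem Pos.ord_nonneg {P : Place K F} {a : F} (h : Pos P a) : 0 ≤ P.ord a := by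
  rcases h with rfl | h
  · rw [P.ord_zero]
  · exact h.le

theorem Pos.add {P : Place K F} {a b : F} (ha : Pos P a) (hb : Pos P b) : Pos P (a + b) := by
  by_cases hab : a + b = 0
  · exact Or.inl hab
  rcases ha with rfl | ha
  · rw [zero_add] at hab ⊢
    exact hb
  rcases hb with rfl | hb
  · rw [add_zero]
    exact Or.inr ha
  right
  have := ord_add P hab
  exact lt_of_lt_of_le (lt_min ha hb) this

theorem Pos.neg {P : Place K F} {a : F} (ha : Pos P a) : Pos P (-a) := by
  rcases ha with rfl | ha
  · rw [neg_zero]; exact pos_zero P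
  · right; rwa [ord_neg]

theorem Pos.mul {P : Place K F} {a c : F} (ha : Pos P a) (hc : 0 ≤ P.ord c) : Pos P (a * c) := by
  rcases ha with rfl | ha
  · rw [zero_mul]; exact pos_zero P
  by_cases hc0 : c = 0
  · rw [hc0, mul_zero]; exact pos_zero P
  have ha0 : a ≠ 0 := by
    rintro rfl
    rw [P.ord_zero] at ha
    exact lt_irrefl _ ha
  right
  rw [P.ord_mul ha0 hc0]
  omega

theorem isVal_add {P : Place K F} {f g : F} {u v : K} (hf : IsVal P f u) (hg : IsVal P g v) :
    IsVal P (f + g) (u + v) := by
  rw [isVal_iff_pos] at hf hg ⊢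
  have := hf.add hg
  rwa [show f - algebraMap K F u + (g - algebraMap K F v) = f + g - algebraMap K F (u + v) by
    rw [map_add]; ring] at this

theorem isVal_neg {P : Place K F} {f : F} {u : K} (hf : IsVal P f u) : IsVal P (-f) (-u) := by
  rw [isVal_iff_pos] at hf ⊢
  have := hf.neg
  rwa [show -(f - algebraMap K F u) = -f - algebraMap K F (-u) by rw [map_neg]; ring] at this

theorem isVal_mul {P : Place K F} {f g : F} {u v : K} (hf : IsVal P f u) (hg : IsVal P g v) :
    IsVal P (f * g) (u * v) := by
  have hg0 : 0 ≤ P.ord g := hg.ord_nonneg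
  rw [isVal_iff_pos] at hf hg ⊢
  have h1 := hf.mul hg0
  have h2 := hg.mul (c := algebraMap K F u) (by rw [ord_algebraMap])
  have := h1.add h2
  rwa [show (f - algebraMap K F u) * g + (g - algebraMap K F v) * algebraMap K F u
      = f * g - algebraMap K F (u * v) by rw [map_mul]; ring] at this

theorem isVal_one (P : Place K F) : IsVal P (1 : F) (1 : K) := by
  left; rw [map_one]

theorem isVal_zero (P : Place K F) : IsVal P (0 : F) (0 : K) := by
  left; rw [map_zero]

theorem isVal_pow {P : Place K F} {f : F} {u : K} (hf : IsVal P f u) (n : ℕ) :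
    IsVal P (f ^ n) (u ^ n) := by
  induction n with
  | zero => rw [pow_zero, pow_zero]; exact isVal_one P
  | succ n ih => rw [pow_succ, pow_succ]; exact isVal_mul ih hf

theorem isVal_sum {P : Place K F} {ι : Type*} (s : Finset ι) (f : ι → F) (u : ι → K)
    (h : ∀ i ∈ s, IsVal P (f i) (u i)) : IsVal P (∑ i ∈ s, f i) (∑ i ∈ s, u i) := by
  classical
  induction s using Finset.induction_on with
  | empty => rw [Finset.sum_empty, Finset.sum_empty]; exact isVal_zero P
  | insert a s ha ih =>
    rw [Finset.sum_insert ha, Finset.sum_insert ha]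
    exact isVal_add (h a (Finset.mem_insert_self a s))
      (ih fun i hi => h i (Finset.mem_insert_of_mem hi))

/-- `f` is regular at `P` with value in `A` -/
def IntAt (A : ValuationSubring K) (P : Place K F) (f : F) : Prop :=
  ∃ u : A, IsVal P f (u : K)

variable {A : ValuationSubring K} {P : Place K F}

theorem IntAt.ord_nonneg {f : F} (h : IntAt A P f) : 0 ≤ P.ord f := by
  obtain ⟨u, hu⟩ := h
  exact hu.ord_nonneg

theorem intAt_algebraMap (A : ValuationSubring K) (P : Place K F) (u : A) :
    IntAt A P (algebraMap K F (u : K)) := ⟨u, isVal_algebraMap P _⟩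

theorem intAt_zero (A : ValuationSubring K) (P : Place K F) : IntAt A P (0 : F) :=
  ⟨0, by simpa using isVal_zero P⟩

theorem intAt_one (A : ValuationSubring K) (P : Place K F) : IntAt A P (1 : F) :=
  ⟨1, by simpa using isVal_one P⟩

theorem IntAt.add {f g : F} (hf : IntAt A P f) (hg : IntAt A P g) : IntAt A P (f + g) := by
  obtain ⟨u, hu⟩ := hf
  obtain ⟨v, hv⟩ := hg
  exact ⟨u + v, by simpa using isVal_add hu hv⟩

theorem IntAt.neg {f : F} (hf : IntAt A P f) : IntAt A P (-f) := by
  obtain ⟨u, hu⟩ := hf
  exact ⟨-u, by simpa using isVal_neg hu⟩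

theorem IntAt.mul {f g : F} (hf : IntAt A P f) (hg : IntAt A P g) : IntAt A P (f * g) := by
  obtain ⟨u, hu⟩ := hf
  obtain ⟨v, hv⟩ := hg
  exact ⟨u * v, by simpa using isVal_mul hu hv⟩

theorem IntAt.pow {f : F} (hf : IntAt A P f) (n : ℕ) : IntAt A P (f ^ n) := by
  obtain ⟨u, hu⟩ := hf
  exact ⟨u ^ n, by simpa using isVal_pow hu n⟩

theorem intAt_sum {ι : Type*} (s : Finset ι) (f : ι → F) (h : ∀ i ∈ s, IntAt A P (f i)) :
    IntAt A P (∑ i ∈ s, f i) := by
  classical
  induction s using Finset.induction_on with
  | empty => rw [Finset.sum_empty]; exact intAt_zero A P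
  | insert a s ha ih =>
    rw [Finset.sum_insert ha]
    exact (h a (Finset.mem_insert_self a s)).add
      (ih fun i hi => h i (Finset.mem_insert_of_mem hi))

/-- polynomials with coefficients in `A` preserve integrality at `P` -/
theorem IntAt.aeval {y : F} (hy : IntAt A P y) (Q : Polynomial A) :
    IntAt A P (Polynomial.aeval y (Q.map A.subtype)) := by
  rw [Polynomial.aeval_def, Polynomial.eval₂_eq_sum_range]
  apply intAt_sum
  intro i _
  rw [Polynomial.coeff_map]
  exact (intAt_algebraMap A P (Q.coeff i)).mul (hy.pow i)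

/-- **Integrality.** A root of a monic polynomial whose coefficients are regular at `P` with
values in `A` is regular at `P` with value in `A`. -/
theorem intAt_of_monic (hres : Function.Surjective (algebraMap K P.ResidueField))
    (x : F) (n : ℕ) (c : ℕ → F) (hc : ∀ i, IntAt A P (c i))
    (hx : x ^ n + ∑ i ∈ Finset.range n, c i * x ^ i = 0) : IntAt A P x := by
  classical
  -- (a) `x` is regular at `P`
  have hreg : 0 ≤ P.ord x := by
    rw [← mem_iff_ord_nonneg]
    let O := P.toValuationSubring
    have hcO : ∀ i, c i ∈ O := fun i => (mem_iff_ord_nonneg P).mpr (hc i).ord_nonneg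
    set r : Polynomial O := ∑ i ∈ Finset.range n, Polynomial.C ⟨c i, hcO i⟩ * Polynomial.X ^ i
      with hr
    have hdeg : r.degree < (n : WithBot ℕ) := by
      rw [hr]
      refine lt_of_le_of_lt (Polynomial.degree_sum_le _ _) ?_
      refine (Finset.sup_lt_iff (WithBot.bot_lt_coe n)).2 fun i hi => ?_
      refine lt_of_le_of_lt (Polynomial.degree_C_mul_X_pow_le i _) ?_
      exact WithBot.coe_lt_coe.mpr (Finset.mem_range.mp hi)
    have hmonic : (Polynomial.X ^ n + r).Monic := Polynomial.monic_X_pow_add hdeg
    have hint : IsIntegral O x := by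
      refine ⟨Polynomial.X ^ n + r, hmonic, ?_⟩
      rw [Polynomial.eval₂_add, Polynomial.eval₂_pow, Polynomial.eval₂_X, hr,
        Polynomial.eval₂_finsetSum]
      rw [← hx]
      congr 1
      refine Finset.sum_congr rfl fun i _ => ?_
      rw [Polynomial.eval₂_mul, Polynomial.eval₂_C, Polynomial.eval₂_pow, Polynomial.eval₂_X]
      rfl
    obtain ⟨y, hy⟩ := (IsIntegrallyClosed.isIntegral_iff (R := O) (K := F)).mp hint
    rw [← hy]
    exact y.2
  -- (b) its value is integral over `A`
  obtain ⟨u, hu⟩ := exists_isVal hres hreg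
  choose a ha using hc
  have hval : IsVal P (x ^ n + ∑ i ∈ Finset.range n, c i * x ^ i)
      (u ^ n + ∑ i ∈ Finset.range n, (a i : K) * u ^ i) :=
    isVal_add (isVal_pow hu n)
      (isVal_sum _ _ _ fun i _ => isVal_mul (ha i) (isVal_pow hu i))
  rw [hx] at hval
  have h0 : u ^ n + ∑ i ∈ Finset.range n, (a i : K) * u ^ i = 0 :=
    hval.unique (isVal_zero P)
  set r : Polynomial A := ∑ i ∈ Finset.range n, Polynomial.C (a i) * Polynomial.X ^ i with hr
  have hdeg : r.degree < (n : WithBot ℕ) := by
    rw [hr]
    refine lt_of_le_of_lt (Polynomial.degree_sum_le _ _) ?_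
    refine (Finset.sup_lt_iff (WithBot.bot_lt_coe n)).2 fun i hi => ?_
    refine lt_of_le_of_lt (Polynomial.degree_C_mul_X_pow_le i _) ?_
    exact WithBot.coe_lt_coe.mpr (Finset.mem_range.mp hi)
  have hint : IsIntegral A u := by
    refine ⟨Polynomial.X ^ n + r, Polynomial.monic_X_pow_add hdeg, ?_⟩
    rw [Polynomial.eval₂_add, Polynomial.eval₂_pow, Polynomial.eval₂_X, hr,
      Polynomial.eval₂_finsetSum]
    rw [← h0]
    congr 1
    refine Finset.sum_congr rfl fun i _ => ?_
    rw [Polynomial.eval₂_mul, Polynomial.eval₂_C, Polynomial.eval₂_pow, Polynomial.eval₂_X]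
    rfl
  obtain ⟨y, hy⟩ := (IsIntegrallyClosed.isIntegral_iff (R := A) (K := K)).mp hint
  exact ⟨y, by rw [show ((y : A) : K) = u from hy]; exact hu⟩

/-- integrality at a place is compatible with restriction of places along an embedding of
function fields -/
theorem intAt_restrictAlong {F' : Type*} [Field F'] [Algebra K F'] (φ : F →ₐ[K] F')
    (hφ : φ.toRingHom.IsIntegral) (A : ValuationSubring K) (R : Place K F') (f : F) :
    IntAt A (R.restrictAlong φ hφ) f ↔ IntAt A R (φ f) := by
  have key : ∀ u : K, IsVal (R.restrictAlong φ hφ) f u ↔ IsVal R (φ f) u := by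
    intro u
    unfold IsVal
    have h1 : φ f - algebraMap K F' u = φ (f - algebraMap K F u) := by
      rw [map_sub, AlgHom.commutes]
    have h2 : φ f = algebraMap K F' u ↔ f = algebraMap K F u := by
      rw [← AlgHom.commutes φ u]
      exact φ.toRingHom.injective.eq_iff
    rw [h2, h1, Place.ord_restrictAlong φ hφ]
    have he : 0 < (Place.ramificationIndexAlong φ R : ℤ) := by
      have : 0 < Place.ramificationIndexAlong φ R := by
        letI := algebraAlong φ
        haveI := isScalarTower_along φ
        haveI := isIntegral_along φ hφ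
        exact R.ramificationIndex_pos (F := F)
      exact_mod_cast this
    constructor
    · rintro (h | h)
      · exact Or.inl h
      · exact Or.inr (mul_pos he h)
    · rintro (h | h)
      · exact Or.inl h
      · refine Or.inr ?_
        by_contra hneg
        rw [not_lt] at hneg
        have := mul_nonpos_of_nonneg_of_nonpos he.le hneg
        omega
  constructor
  · rintro ⟨u, hu⟩
    exact ⟨u, (key u).mp hu⟩
  · rintro ⟨u, hu⟩
    exact ⟨u, (key u).mpr hu⟩

end Fermat.Agent.S37.MC
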