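import Fermat.Agent.S37.MainRedJ

/-!
# S37 (C78), piece M: the two cases of (M-abs)

For a `Deuring.Setup` `S` whose divisors are the pole divisors of `x` and `y`, `Red x y`:

* `good_iff`: `rP` is not a pole of `y` iff `x` has an integral value at `P`;
* `mapDomain_eq_of_charpoly_good`: (M-abs) with `D₁ = (x)_∞`, for divisors `E`, `Ek` supported
  away from the poles of `y` (after reduction);
* `mapDomain_eq_of_charpoly_bad`: (M-abs) with `D₁ = (x)_0`, for divisors `E`, `Ek` supported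
  on the poles of `y` (after reduction).
-/

set_option autoImplicit false
set_option linter.unusedSectionVars false
set_option linter.style.haveILetI false
set_option linter.unusedVariables false

open AlgebraicCurve Fermat.Agent.Lib.FF Fermat.Agent.S18.Deuring Polynomial
open scoped Classical

namespace Fermat.Agent.S37.M

variable {L k F Fk : Type*} [Field L] [Field k] [Field F] [Field Fk] [Algebra L F] [Algebra k Fk]
variable {A : ValuationSubring L} {res : A →+* k} {Red : F → Fk → Prop}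
  {D : Divisor L F} {Dk : Divisor k Fk} {g : ℕ} {c : ℤ}
variable (S : Setup A res Red D Dk g c) [Infinite k]
variable {x : F} {y : Fk}

theorem poleDiv_inv_apply (hpf : PlaceFacts L F) (x : F) (P : Place L F) :
    hpf.poleDiv x⁻¹ P = max (P.ord x) 0 := by
  rw [hpf.poleDiv_apply, Place.ord_inv, neg_neg]

theorem poleDiv_inv_nonneg (hpf : PlaceFacts L F) (x : F) : 0 ≤ hpf.poleDiv x⁻¹ := by
  rw [Finsupp.le_def]
  intro P
  rw [poleDiv_inv_apply]
  exact le_max_right _ _

theorem poleDiv_sub_poleDiv_inv (hpf : PlaceFacts L F) (x : F) :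
    hpf.poleDiv x⁻¹ - hpf.poleDiv x = hpf.divOf x := by
  ext P
  rw [Finsupp.sub_apply, poleDiv_inv_apply, hpf.poleDiv_apply, hpf.divOf_apply]
  rcases le_total (P.ord x) 0 with h | h
  · rw [max_eq_right h, max_eq_left (by omega)]; omega
  · rw [max_eq_left h, max_eq_right (by omega)]; omega

theorem degree_poleDiv_inv (hpf : PlaceFacts L F) (x : F) :
    Divisor.degree (hpf.poleDiv x⁻¹) = Divisor.degree (hpf.poleDiv x) := by
  have h1 := hpf.degree_divOf x
  rw [← poleDiv_sub_poleDiv_inv, map_sub] at h1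
  omega

/-- `rP` is not a pole of `y` iff `x` takes an integral value at `P` -/
theorem good_iff (hD : D = S.hpf.poleDiv x) (hDk : Dk = S.hpfk.poleDiv y)
    (hxy : Red x y) (hx : ∀ c' : L, x ≠ algebraMap L F c') (hy : ∀ b : k, y ≠ algebraMap k Fk b)
    (P : Place L F) :
    0 ≤ (rmap S P).ord y ↔ ∃ u : A, IsVal P x (u : L) := by
  constructor
  · intro h
    have h1 : 0 ≤ P.ord x := by
      by_contra hneg
      rw [not_le] at hneg
      have := pole_of_pole S hD hDk hneg
      omega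
    obtain ⟨c', hc'⟩ := exists_isVal (S.hpf.res P) h1
    have h2 : 0 < P.ord (x - algebraMap L F c') := hc'.resolve_left (hx c')
    exact ⟨⟨c', mem_of_isVal_of_ord_nonneg S hD hDk hxy h2 h⟩, hc'⟩
  · rintro ⟨u, hu⟩
    exact (isVal_of_isVal S hD hDk hxy u (hy _) (hu.resolve_left (hx _))).1

/-- **(M-abs), good case**: `E` and `Ek` are supported away from the poles of `y`
(after reduction); test functions with poles at the poles of `x`. -/
theorem mapDomain_eq_of_charpoly_good (hEV : EVProp S)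
    (hD : D = S.hpf.poleDiv x) (hDk : Dk = S.hpfk.poleDiv y)
    (E : Divisor L F) (hE : 0 ≤ E) (Ek : Divisor k Fk) (hEk : 0 ≤ Ek)
    (hgoodE : ∀ Q, E Q ≠ 0 → 0 ≤ (rmap S Q).ord y)
    (hgoodEk : ∀ Q, Ek Q ≠ 0 → 0 ≤ Q.ord y)
    (hyp : ∀ (n : ℕ) (f : F) (a : Fk), f ∈ riemannRochSpace (n • S.hpf.poleDiv x) → Red f a →
      a ≠ 0 → ∀ (v : Place L F → A) (w : Place k Fk → k),
        (∀ Q, E Q ≠ 0 → IsVal Q f (v Q : L)) → (∀ Q, Ek Q ≠ 0 → IsVal Q a (w Q)) →
        ∏ Q ∈ E.support, (X - C (res (v Q))) ^ (E Q).toNat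
          = ∏ Q ∈ Ek.support, (X - C (w Q)) ^ (Ek Q).toNat) :
    Finsupp.mapDomain (rmap S) E = Ek := by
  have hpole : ∀ P, S.hpf.poleDiv x P ≠ 0 → (rmap S P).ord y < 0 := by
    intro P hP
    apply pole_of_pole S hD hDk
    by_contra h
    rw [not_lt] at h
    exact hP (S.hpf.poleDiv_of_nonneg h)
  refine mapDomain_eq_of_charpoly S hEV E hE Ek hEk (S.hpf.poleDiv x) (hD ▸ S.D_nonneg)
    (hD ▸ S.deg_pos) ?_ ?_ hyp
  · intro P Q hP hQ heq
    have h1 := hpole P hP
    have h2 := hgoodE Q hQ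
    rw [heq] at h1
    omega
  · intro P hP
    by_contra hne
    have h1 := hpole P hP
    have h2 := hgoodEk _ hne
    omega

/-- **(M-abs), bad case**: `E` and `Ek` are supported on the poles of `y` (after reduction);
test functions with poles at the zeros of `x`. -/
theorem mapDomain_eq_of_charpoly_bad (hEV : EVProp S)
    (hD : D = S.hpf.poleDiv x) (hDk : Dk = S.hpfk.poleDiv y)
    (hxy : Red x y) (hy : y ≠ 0)
    (E : Divisor L F) (hE : 0 ≤ E) (Ek : Divisor k Fk) (hEk : 0 ≤ Ek)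
    (hbadE : ∀ Q, E Q ≠ 0 → (rmap S Q).ord y < 0)
    (hbadEk : ∀ Q, Ek Q ≠ 0 → Q.ord y < 0)
    (hyp : ∀ (n : ℕ) (f : F) (a : Fk), f ∈ riemannRochSpace (n • S.hpf.poleDiv x⁻¹) → Red f a →
      a ≠ 0 → ∀ (v : Place L F → A) (w : Place k Fk → k),
        (∀ Q, E Q ≠ 0 → IsVal Q f (v Q : L)) → (∀ Q, Ek Q ≠ 0 → IsVal Q a (w Q)) →
        ∏ Q ∈ E.support, (X - C (res (v Q))) ^ (E Q).toNat
          = ∏ Q ∈ Ek.support, (X - C (w Q)) ^ (Ek Q).toNat) :
    Finsupp.mapDomain (rmap S) E = Ek := by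
  have hx0 : x ≠ 0 := S.ax.ne_zero hxy hy
  have hzero : ∀ P, S.hpf.poleDiv x⁻¹ P ≠ 0 → 0 < (rmap S P).ord y := by
    intro P hP
    apply zero_of_zero S hD hDk hxy hy
    by_contra h
    rw [not_lt] at h
    apply hP
    rw [poleDiv_inv_apply, max_eq_right h]
  have hdeg : 0 < Divisor.degree (S.hpf.poleDiv x⁻¹) := by
    rw [degree_poleDiv_inv S.hpf x, ← hD]
    exact S.deg_pos
  refine mapDomain_eq_of_charpoly S hEV E hE Ek hEk (S.hpf.poleDiv x⁻¹)
    (poleDiv_inv_nonneg S.hpf x) hdeg ?_ ?_ hyp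
  · intro P Q hP hQ heq
    have h1 := hzero P hP
    have h2 := hbadE Q hQ
    rw [heq] at h1
    omega
  · intro P hP
    by_contra hne
    have h1 := hzero P hP
    have h2 := hbadEk _ hne
    omega

end Fermat.Agent.S37.M
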