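import Fermat.Agent.S37.MCModEq
import Fermat.Agent.S37.MainCases
import Fermat.Agent.S37.HInpMain
import Fermat.Agent.S18.GVDegEq

/-!
# S37 (C78), piece MC1, part 3: the pole condition along the Hecke correspondence

Level `M`, `ℓ ∤ M`, `S` a Deuring setup for `F(M) → F_k(M)` whose divisors are the pole divisors
of `j` and `J`, `r = rmap S`.  A place `P` of `F(M)` is *good* if `rP` is not a pole of `J`.

* `good_iff_intAt`: `P` is good iff `j` is `A`-integral at `P`;
* `good_alpha_iff_beta`: for a place `R` of `F(Mℓ)`, `R|α` is good iff `R|β` is good;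
* `good_of_heckeDiv`: the places in the support of `T_ℓ P₀` are good iff `P₀` is;
* `ord_alpha_nonneg_good` / `ord_alpha_nonneg_bad`: if `P₀` is good (bad) and `f` has poles only
  at the poles (zeros) of `j`, then `α f` is regular at every place of `F(Mℓ)` lying (via `β`)
  over a place in the `r`-fibre of `rP₀`.
-/

set_option autoImplicit false
set_option linter.unusedSectionVars false
set_option linter.unusedVariables false
set_option linter.style.haveILetI false
set_option synthInstance.maxHeartbeats 400000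

noncomputable section

open AlgebraicCurve ModularCurve Fermat.Agent.Lib.FF Fermat.Agent.S37.M Polynomial
  Fermat.Agent.S18.Deuring Fermat.Agent.S18

namespace Fermat.Agent.S37.MC

local notation "Qb" => AlgebraicClosure ℚ

variable {A : ValuationSubring (AlgebraicClosure ℚ)} {ℓ : ℕ} [hℓ : Fact ℓ.Prime]
variable {M : ℕ} [NeZero M]
variable {D : Divisor Qb (modularFunctionFieldBar M)}
  {Dk : Divisor (IsLocalRing.ResidueField A)
    (modularFunctionFieldFullC (IsLocalRing.ResidueField A) M)} {g : ℕ} {c : ℤ}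
variable (S : Setup A (IsLocalRing.residue A) (GV.RedF A M) D Dk g c)
  [Infinite (IsLocalRing.ResidueField A)]

theorem ne_algebraMap_of_transcendental {K F : Type*} [Field K] [Field F] [Algebra K F] {x : F}
    (hx : Transcendental K x) (c' : K) : x ≠ algebraMap K F c' := by
  rintro rfl
  exact hx (isAlgebraic_algebraMap c')

/-- `P` is good iff `j` is `A`-integral at `P` -/
theorem good_iff_intAt (hD : D = S.hpf.poleDiv (Fermat.Agent.S24.jBar M))
    (hDk : Dk = S.hpfk.poleDiv (GV.jK (IsLocalRing.ResidueField A) M))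
    (P : Place Qb (modularFunctionFieldBar M)) :
    0 ≤ (rmap S P).ord (GV.jK (IsLocalRing.ResidueField A) M) ↔
      IntAt A P (Fermat.Agent.S24.jBar M) :=
  good_iff S hD hDk (GV.red_jBar A M)
    (ne_algebraMap_of_transcendental (Fermat.Agent.S24.isFF1_jBar M).transcendental)
    (ne_algebraMap_of_transcendental (GV.transcendental_jK' M _)) P

/-- for a place `R` of `F(Mℓ)`: `R|α` is good iff `R|β` is good -/
theorem good_alpha_iff_beta [NeZero ℓ] (hD : D = S.hpf.poleDiv (Fermat.Agent.S24.jBar M))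
    (hDk : Dk = S.hpfk.poleDiv (GV.jK (IsLocalRing.ResidueField A) M)) (hℓM : ¬ ℓ ∣ M)
    (R : Place Qb (modularFunctionFieldBar (M * ℓ))) :
    0 ≤ (rmap S (R.restrictAlong (heckeAlphaBar Qb M ℓ) (H.alphaInt M ℓ))).ord
        (GV.jK (IsLocalRing.ResidueField A) M) ↔
      0 ≤ (rmap S (R.restrictAlong (heckeBetaBar Qb M ℓ) (H.betaInt M ℓ))).ord
        (GV.jK (IsLocalRing.ResidueField A) M) := by
  rw [good_iff_intAt S hD hDk, good_iff_intAt S hD hDk]
  exact intAt_restrict_alpha_iff_beta hℓM _ _ R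

/-- the support of `T_ℓ P₀` -/
theorem exists_of_heckeDiv_ne_zero [NeZero ℓ] (P₀ Q : Place Qb (modularFunctionFieldBar M))
    (n : ℤ) (hQ : H.heckeDiv M ℓ (Finsupp.single P₀ n) Q ≠ 0) :
    ∃ R : Place Qb (modularFunctionFieldBar (M * ℓ)),
      R.restrictAlong (heckeBetaBar Qb M ℓ) (H.betaInt M ℓ) = P₀ ∧
      R.restrictAlong (heckeAlphaBar Qb M ℓ) (H.alphaInt M ℓ) = Q := by
  classical
  rw [H.heckeDiv_single, Finsupp.finsetSum_apply] at hQ
  obtain ⟨R, hR, hne⟩ := Finset.exists_ne_zero_of_sum_ne_zero hQ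
  refine ⟨R, Place.mem_fiberAlong.mp hR, ?_⟩
  by_contra hRQ
  exact hne (Finsupp.single_eq_of_ne (fun h => hRQ h.symm))

/-- the places in the support of `T_ℓ P₀` are good iff `P₀` is -/
theorem good_of_heckeDiv [NeZero ℓ] (hD : D = S.hpf.poleDiv (Fermat.Agent.S24.jBar M))
    (hDk : Dk = S.hpfk.poleDiv (GV.jK (IsLocalRing.ResidueField A) M)) (hℓM : ¬ ℓ ∣ M)
    (P₀ Q : Place Qb (modularFunctionFieldBar M)) (n : ℤ)
    (hQ : H.heckeDiv M ℓ (Finsupp.single P₀ n) Q ≠ 0) :
    0 ≤ (rmap S Q).ord (GV.jK (IsLocalRing.ResidueField A) M) ↔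
      0 ≤ (rmap S P₀).ord (GV.jK (IsLocalRing.ResidueField A) M) := by
  obtain ⟨R, hR₁, hR₂⟩ := exists_of_heckeDiv_ne_zero P₀ Q n hQ
  rw [← hR₁, ← hR₂]
  exact good_alpha_iff_beta S hD hDk hℓM R

/-- **pole condition, good case**: if `rP₀` is not a pole of `J` and the poles of `f` are
poles of `j`, then `α f` is regular at every place of `F(Mℓ)` over the `r`-fibre of `rP₀`. -/
theorem ord_alpha_nonneg_good [NeZero ℓ] (hD : D = S.hpf.poleDiv (Fermat.Agent.S24.jBar M))
    (hDk : Dk = S.hpfk.poleDiv (GV.jK (IsLocalRing.ResidueField A) M)) (hℓM : ¬ ℓ ∣ M)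
    {P₀ P' : Place Qb (modularFunctionFieldBar M)} (hP' : rmap S P' = rmap S P₀)
    (hgood : 0 ≤ (rmap S P₀).ord (GV.jK (IsLocalRing.ResidueField A) M))
    {n : ℕ} {f : modularFunctionFieldBar M}
    (hf : f ∈ riemannRochSpace (n • S.hpf.poleDiv (Fermat.Agent.S24.jBar M)))
    (w : Place Qb (modularFunctionFieldBar (M * ℓ)))
    (hw : w.restrictAlong (heckeBetaBar Qb M ℓ) (H.betaInt M ℓ) = P') :
    0 ≤ w.ord (heckeAlphaBar Qb M ℓ f) := by
  rw [Place.ord_restrictAlong _ (H.alphaInt M ℓ)]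
  apply mul_nonneg (Int.natCast_nonneg _)
  set Q := w.restrictAlong (heckeAlphaBar Qb M ℓ) (H.alphaInt M ℓ) with hQdef
  have hQgood : 0 ≤ (rmap S Q).ord (GV.jK (IsLocalRing.ResidueField A) M) := by
    rw [hQdef, good_alpha_iff_beta S hD hDk hℓM w, hw, hP']
    exact hgood
  have hQj : 0 ≤ Q.ord (Fermat.Agent.S24.jBar M) :=
    ((good_iff_intAt S hD hDk Q).mp hQgood).ord_nonneg
  rcases (mem_rrSpace_iff.mp hf) Q with h0 | h1
  · rw [h0, Place.ord_zero]
  · rw [Finsupp.smul_apply, S.hpf.poleDiv_of_nonneg hQj, smul_zero, neg_zero] at h1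
    exact h1

/-- **pole condition, bad case**: if `rP₀` is a pole of `J` and the poles of `f` are
zeros of `j`, then `α f` is regular at every place of `F(Mℓ)` over the `r`-fibre of `rP₀`. -/
theorem ord_alpha_nonneg_bad [NeZero ℓ] (hD : D = S.hpf.poleDiv (Fermat.Agent.S24.jBar M))
    (hDk : Dk = S.hpfk.poleDiv (GV.jK (IsLocalRing.ResidueField A) M)) (hℓM : ¬ ℓ ∣ M)
    {P₀ P' : Place Qb (modularFunctionFieldBar M)} (hP' : rmap S P' = rmap S P₀)
    (hbad : (rmap S P₀).ord (GV.jK (IsLocalRing.ResidueField A) M) < 0)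
    {n : ℕ} {f : modularFunctionFieldBar M}
    (hf : f ∈ riemannRochSpace (n • S.hpf.poleDiv (Fermat.Agent.S24.jBar M)⁻¹))
    (w : Place Qb (modularFunctionFieldBar (M * ℓ)))
    (hw : w.restrictAlong (heckeBetaBar Qb M ℓ) (H.betaInt M ℓ) = P') :
    0 ≤ w.ord (heckeAlphaBar Qb M ℓ f) := by
  rw [Place.ord_restrictAlong _ (H.alphaInt M ℓ)]
  apply mul_nonneg (Int.natCast_nonneg _)
  set Q := w.restrictAlong (heckeAlphaBar Qb M ℓ) (H.alphaInt M ℓ) with hQdef
  have hQbad : ¬ 0 ≤ (rmap S Q).ord (GV.jK (IsLocalRing.ResidueField A) M) := by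
    rw [hQdef, good_alpha_iff_beta S hD hDk hℓM w, hw, hP']
    exact not_le.mpr hbad
  have hQj : Q.ord (Fermat.Agent.S24.jBar M) ≤ 0 := by
    by_contra hpos
    rw [not_le] at hpos
    apply hQbad
    rw [good_iff_intAt S hD hDk Q]
    exact ⟨0, by simpa using isVal_zero_of_ord_pos hpos⟩
  rcases (mem_rrSpace_iff.mp hf) Q with h0 | h1
  · rw [h0, Place.ord_zero]
  · rw [Finsupp.smul_apply, poleDiv_inv_apply, max_eq_right hQj, smul_zero, neg_zero] at h1
    exact h1

end Fermat.Agent.S37.MC
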