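import Fermat.Agent.S37.GalAbs
import Fermat.Agent.S18.DeuringNS

/-!
# S37 (C78), piece M, abstract core I: lifting and separation

For a `Deuring.Setup` `S` with reduction of places `r = rmap S`:

* `redSpace_le_mapDomain`: the reduction of `L(E)` lies in `L_k(r_* E)` for EVERY divisor `E`;
* `redSpace_eq_mapDomain` (**LIFT**): equality as soon as `deg E` is large;
* `exists_sep` (**SEP** in `F_k`): a section vanishing at `Q₀`, of order `0` at the other places
  of a finite set;
* `exists_sep_lift` (**SEP**): the same with a lift `f ∈ L(n • D₁)`.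
-/

set_option autoImplicit false
set_option linter.unusedSectionVars false
set_option linter.style.haveILetI false
set_option linter.unusedVariables false

open AlgebraicCurve Fermat.Agent.Lib.FF Fermat.Agent.S18.Deuring
open scoped Classical

namespace Fermat.Agent.S37.M

section SepK

variable {K F : Type*} [Field K] [Field F] [Algebra K F]

/-- **(SEP)** in a function field with Riemann's theorem: a nonzero section of `E'` vanishing at
`Q₀` and of exact order `0` at the other places of a finite set `T` on which `E'` vanishes. -/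
theorem exists_sep (hpf : PlaceFacts K F) [Infinite K] {g : ℕ} {c : ℤ} (hR : RThm K F g c)
    (T : Finset (Place K F)) (Q₀ : Place K F) (E' : Divisor K F)
    (hT : ∀ Q ∈ T, E' Q = 0) (hQ₀ : E' Q₀ = 0) (hdeg : c + 2 ≤ Divisor.degree E') :
    ∃ a ∈ riemannRochSpace E', a ≠ 0 ∧ 0 < Q₀.ord a ∧ ∀ Q ∈ T, Q ≠ Q₀ → Q.ord a = 0 := by
  set E₀ : Divisor K F := E' - Finsupp.single Q₀ 1 with hE₀
  have hdeg₀ : c + 1 ≤ Divisor.degree E₀ := by
    rw [hE₀, map_sub, hpf.degree_single]; omega
  set V : Submodule K F := riemannRochSpace E₀ with hV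
  -- the family of proper subspaces of `V`
  let p : Option {Q : Place K F // Q ∈ T} → Submodule K V := fun o =>
    match o with
    | none => ⊥
    | some Q => Submodule.comap V.subtype (riemannRochSpace (E₀ - Finsupp.single Q.1 1))
  have hp : ∀ o, p o ≠ ⊤ := by
    intro o
    rcases o with _ | Q
    · show (⊥ : Submodule K V) ≠ ⊤
      intro h
      obtain ⟨φ, h1, h2⟩ := exists_notMem_sub_single hpf hR Q₀ hdeg₀
      have hφ0 : φ ≠ 0 := (ord_eq_of_notMem_sub_single h1 h2).1
      have hmem : (⟨φ, h1⟩ : V) ∈ (⊥ : Submodule K V) := by rw [h]; exact Submodule.mem_top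
      rw [Submodule.mem_bot] at hmem
      exact hφ0 (congrArg Subtype.val hmem)
    · show Submodule.comap V.subtype (riemannRochSpace (E₀ - Finsupp.single Q.1 1)) ≠ ⊤
      intro h
      obtain ⟨φ, h1, h2⟩ := exists_notMem_sub_single hpf hR Q.1 hdeg₀
      have hmem : (⟨φ, h1⟩ : V) ∈
          Submodule.comap V.subtype (riemannRochSpace (E₀ - Finsupp.single Q.1 1)) := by
        rw [h]; exact Submodule.mem_top
      exact h2 hmem
  obtain ⟨x, hx⟩ := Submodule.exists_forall_notMem_of_forall_ne_top p hp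
  have hx0 : (x : F) ≠ 0 := by
    intro h
    apply hx none
    show x ∈ (⊥ : Submodule K V)
    rw [Submodule.mem_bot]
    exact Subtype.ext h
  have hxE₀ : (x : F) ∈ riemannRochSpace E₀ := x.2
  refine ⟨x, rrSpace_mono (sub_single_le E' Q₀) hxE₀, hx0, ?_, ?_⟩
  · have := (mem_rrSpace_iff_of_ne_zero hx0).mp hxE₀ Q₀
    rw [hE₀, Finsupp.sub_apply, Finsupp.single_eq_same, hQ₀] at this
    omega
  · intro Q hQ hne
    have h2 : (x : F) ∉ riemannRochSpace (E₀ - Finsupp.single Q 1) := fun h =>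
      hx (some ⟨Q, hQ⟩) h
    have := (ord_eq_of_notMem_sub_single hxE₀ h2).2
    rw [this, hE₀, Finsupp.sub_apply, Finsupp.single_eq_of_ne (fun h => hne h), hT Q hQ]
    simp

end SepK

variable {L k F Fk : Type*} [Field L] [Field k] [Field F] [Field Fk] [Algebra L F] [Algebra k Fk]
variable {A : ValuationSubring L} {res : A →+* k} {Red : F → Fk → Prop}
  {D : Divisor L F} {Dk : Divisor k Fk} {g : ℕ} {c : ℤ}
variable (S : Setup A res Red D Dk g c) [Infinite k]

/-- the reduction of `L(E)` lies in `L_k(r_* E)`, for every divisor `E` -/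
theorem redSpace_le_mapDomain (E : Divisor L F) :
    redSpace S.ax (riemannRochSpace E) ≤ riemannRochSpace (Finsupp.mapDomain (rmap S) E) := by
  intro a ha
  obtain ⟨f, hf, hfa⟩ := mem_redSpace.mp ha
  by_cases ha0 : a = 0
  · rw [ha0]; exact Submodule.zero_mem _
  have hf0 : f ≠ 0 := S.ax.ne_zero hfa ha0
  rw [mem_rrSpace_iff_of_ne_zero ha0]
  intro Q
  have h1 : 0 ≤ S.hpf.divOf f + E := by
    rw [Finsupp.le_def]
    intro P
    have := (mem_rrSpace_iff_of_ne_zero hf0).mp hf P
    rw [Finsupp.add_apply, S.hpf.divOf_apply]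
    simp only [Finsupp.coe_zero, Pi.zero_apply]
    omega
  have h2 := mapDomain_nonneg (rmap S) h1
  rw [Finsupp.mapDomain_add, mapDomain_divOf S hfa ha0] at h2
  have h3 := Finsupp.le_def.mp h2 Q
  rw [Finsupp.add_apply, S.hpfk.divOf_apply] at h3
  simp only [Finsupp.coe_zero, Pi.zero_apply] at h3
  omega

/-- **(LIFT)**: the reduction of `L(E)` is `L_k(r_* E)` as soon as `deg E` is large -/
theorem redSpace_eq_mapDomain {ck : ℤ} (hRk : RThm k Fk g ck) (E : Divisor L F)
    (h1 : c ≤ Divisor.degree E) (h2 : ck ≤ Divisor.degree E) :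
    redSpace S.ax (riemannRochSpace E) = riemannRochSpace (Finsupp.mapDomain (rmap S) E) :=
  S.redSpace_eq hRk (redSpace_le_mapDomain S E)
    (Fermat.Agent.S37.G.degree_mapDomain' S.hpf S.hpfk (rmap S) E).symm h1 h2

/-- **(LIFT)**, existence form with a uniform bound -/
theorem exists_lift_bound : ∃ b : ℤ, ∀ E : Divisor L F, b ≤ Divisor.degree E →
    ∀ a ∈ riemannRochSpace (Finsupp.mapDomain (rmap S) E), ∃ f ∈ riemannRochSpace E, Red f a := by
  obtain ⟨ck, hRk⟩ := S.rthm_k
  refine ⟨max c ck, fun E hE a ha => ?_⟩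
  rw [← redSpace_eq_mapDomain S hRk E (le_trans (le_max_left _ _) hE)
    (le_trans (le_max_right _ _) hE)] at ha
  exact mem_redSpace.mp ha

/-- **(SEP)**: for a finite set `T` of places of `F_k`, `Q₀` a place of `F_k`, and an effective
divisor `D₁` of positive degree none of whose points reduces into `T ∪ {Q₀}`: there are
`f ∈ L(n • D₁)` and `a` with `Red f a`, `a ≠ 0`, `a(Q₀) = 0` and `a(Q) ≠ 0, ∞` for the other
`Q ∈ T`. -/
theorem exists_sep_lift (T : Finset (Place k Fk)) (Q₀ : Place k Fk) (D₁ : Divisor L F)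
    (hD₁ : 0 ≤ D₁) (hdeg : 0 < Divisor.degree D₁)
    (hT : ∀ P, D₁ P ≠ 0 → rmap S P ∉ T) (hQ₀ : ∀ P, D₁ P ≠ 0 → rmap S P ≠ Q₀) :
    ∃ (n : ℕ) (f : F) (a : Fk), f ∈ riemannRochSpace (n • D₁) ∧ Red f a ∧ a ≠ 0 ∧
      0 < Q₀.ord a ∧ ∀ Q ∈ T, Q ≠ Q₀ → Q.ord a = 0 := by
  obtain ⟨ck, hRk⟩ := S.rthm_k
  obtain ⟨b, hb⟩ := exists_lift_bound S
  obtain ⟨N, hN⟩ := exists_threshold hdeg (max b (ck + 2))
  have hN' := hN N le_rfl
  have hdegN : Divisor.degree (N • D₁) = N * Divisor.degree D₁ := by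
    rw [map_nsmul, nsmul_eq_mul]
  have hzero : ∀ Q, (∀ P, D₁ P ≠ 0 → rmap S P ≠ Q) →
      Finsupp.mapDomain (rmap S) (N • D₁) Q = 0 := by
    intro Q hQ
    rw [mapDomain_apply_sum]
    refine Finset.sum_eq_zero fun P _ => ?_
    split_ifs with hP
    · by_contra hne
      apply hQ P _ hP
      intro h0
      apply hne
      rw [Finsupp.smul_apply, h0, smul_zero]
    · rfl
  obtain ⟨a, haE, ha0, haQ₀, haT⟩ := exists_sep S.hpfk hRk T Q₀
    (Finsupp.mapDomain (rmap S) (N • D₁))
    (fun Q hQ => hzero Q fun P hP h => hT P hP (h ▸ hQ)) (hzero Q₀ hQ₀)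
    (by
      rw [Fermat.Agent.S37.G.degree_mapDomain' S.hpf S.hpfk, hdegN]
      exact le_trans (le_max_right _ _) hN')
  obtain ⟨f, hf, hfa⟩ := hb (N • D₁) (by rw [hdegN]; exact le_trans (le_max_left _ _) hN') a haE
  exact ⟨N, f, a, hf, hfa, ha0, haQ₀, haT⟩

end Fermat.Agent.S37.M
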