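import Fermat.Agent.S37.MainAbs
import Fermat.Agent.S18.DeuringLoc
import Fermat.Agent.Lib.FunctionField.DWMain

/-!
# S37 (C78), piece M, (MC0): reduction of the values of the coordinate

For a `Deuring.Setup` `S` whose divisors are the pole divisors of `x` and `y`, `Red x y`
(at level `M`: `x = j`, `y = J`), and `r = rmap S`:

* `pole_of_pole`: a pole of `x` reduces to a pole of `y`;
* `isVal_of_isVal`: if `x(P) = c ∈ A` then `rP` is not a pole of `y` and `y(rP) = res c`;
* `pole_of_isVal_notMem`: if `x(P) = c ∉ A` then `rP` is a pole of `y`;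
* `pole_iff`: `rP` is a pole of `y` iff `P` is a pole of `x` or `x(P) ∉ A`.
-/

set_option autoImplicit false
set_option linter.unusedSectionVars false
set_option linter.style.haveILetI false
set_option linter.unusedVariables false

open AlgebraicCurve Fermat.Agent.Lib.FF Fermat.Agent.S18.Deuring Polynomial
open scoped Classical

namespace Fermat.Agent.S37.M

variable {L k F Fk : Type*} [Field L] [Field k] [Field F] [Field Fk] [Algebra L F] [Algebra k Fk]
variable {A : ValuationSubring L} {res : A →+* k} {Red : F → Fk → Prop}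
  {D : Divisor L F} {Dk : Divisor k Fk} {g : ℕ} {c : ℤ}
variable (S : Setup A res Red D Dk g c) [Infinite k]

/-- the key inequality: if the poles of `z` are bounded by `D`, `Red z b`, `b ≠ 0` and `z`
vanishes at `P`, then `1 ≤ ord_{rP} b + Dk(rP)`. -/
theorem one_le_ord_add {z : F} {b : Fk} (hz : ∀ P', -D P' ≤ P'.ord z) (hzb : Red z b)
    (hb : b ≠ 0) {P : Place L F} (hP : 0 < P.ord z) :
    1 ≤ (rmap S P).ord b + Dk (rmap S P) := by
  have hDnn : ∀ P', 0 ≤ D P' := fun P' => by
    have := Finsupp.le_def.mp S.D_nonneg P'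
    simpa using this
  have hnn : ∀ P', rmap S P' = rmap S P → 0 ≤ (S.hpf.divOf z + D) P' := by
    intro P' _
    rw [Finsupp.add_apply, S.hpf.divOf_apply]
    have := hz P'
    omega
  have h1 := le_mapDomain_apply (rmap S) hnn (P₁ := P) rfl
  rw [Finsupp.mapDomain_add, mapDomain_divOf S hzb hb, mapDomain_D S, Finsupp.add_apply,
    Finsupp.add_apply, S.hpf.divOf_apply, S.hpfk.divOf_apply] at h1
  have := hDnn P
  omega

variable {x : F} {y : Fk}

/-- the poles of `x - c` are bounded by the pole divisor of `x` -/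
theorem neg_poleDiv_le_ord_sub (hpf : PlaceFacts L F) (x : F) (c' : L) (P' : Place L F) :
    -(hpf.poleDiv x) P' ≤ P'.ord (x - algebraMap L F c') := by
  by_cases h : P'.ord x < 0
  · rw [hpf.poleDiv_of_neg h, ord_sub_algebraMap_of_neg P' h]
    omega
  · rw [not_lt] at h
    rw [hpf.poleDiv_of_nonneg h]
    have := ord_sub_algebraMap_nonneg P' h c'
    omega

/-- a pole of `x` reduces to a pole of `y` -/
theorem pole_of_pole (hD : D = S.hpf.poleDiv x) (hDk : Dk = S.hpfk.poleDiv y)
    {P : Place L F} (h : P.ord x < 0) : (rmap S P).ord y < 0 := by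
  have hD' : ∀ P', D P' = S.hpf.poleDiv x P' := fun P' => DFunLike.congr_fun hD P'
  have hDk' : ∀ Q, Dk Q = S.hpfk.poleDiv y Q := fun Q => DFunLike.congr_fun hDk Q
  by_contra hnn
  rw [not_lt] at hnn
  have h1 : Dk (rmap S P) = 0 := by rw [hDk', S.hpfk.poleDiv_of_nonneg hnn]
  have h2 := D_eq_zero_of_fibre S h1 (P := P) rfl
  rw [hD', S.hpf.poleDiv_of_neg h] at h2
  omega

/-- if `x(P) = c ∈ A` then `rP` is not a pole of `y` and `y(rP) = res c` -/
theorem isVal_of_isVal (hD : D = S.hpf.poleDiv x) (hDk : Dk = S.hpfk.poleDiv y)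
    (hxy : Red x y) (u : A) (hy : y ≠ algebraMap k Fk (res u)) {P : Place L F}
    (h : 0 < P.ord (x - algebraMap L F (u : L))) :
    0 ≤ (rmap S P).ord y ∧ 0 < (rmap S P).ord (y - algebraMap k Fk (res u)) := by
  have hD' : ∀ P', D P' = S.hpf.poleDiv x P' := fun P' => DFunLike.congr_fun hD P'
  have hDk' : ∀ Q, Dk Q = S.hpfk.poleDiv y Q := fun Q => DFunLike.congr_fun hDk Q
  have hb : y - algebraMap k Fk (res u) ≠ 0 := sub_ne_zero.mpr hy
  have hzb : Red (x - algebraMap L F (u : L)) (y - algebraMap k Fk (res u)) :=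
    S.ax.sub hxy (S.ax.const u)
  have key := one_le_ord_add S (fun P' => by
    rw [hD']; exact neg_poleDiv_le_ord_sub S.hpf x _ P') hzb hb h
  have hnn : 0 ≤ (rmap S P).ord y := by
    by_contra hneg
    rw [not_le] at hneg
    rw [hDk', S.hpfk.poleDiv_of_neg hneg, ord_sub_algebraMap_of_neg _ hneg] at key
    omega
  refine ⟨hnn, ?_⟩
  rw [hDk', S.hpfk.poleDiv_of_nonneg hnn] at key
  omega

/-- a zero of `x` reduces to a zero of `y` -/
theorem zero_of_zero (hD : D = S.hpf.poleDiv x) (hDk : Dk = S.hpfk.poleDiv y)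
    (hxy : Red x y) (hy : y ≠ 0) {P : Place L F} (h : 0 < P.ord x) :
    0 < (rmap S P).ord y := by
  have := (isVal_of_isVal S hD hDk hxy 0 (by rwa [map_zero, map_zero]) (P := P)
    (by rwa [ZeroMemClass.coe_zero, map_zero, sub_zero])).2
  rwa [map_zero, map_zero, sub_zero] at this

/-- if `x(P) = c ∉ A` then `rP` is a pole of `y` -/
theorem pole_of_isVal_notMem (hD : D = S.hpf.poleDiv x) (hDk : Dk = S.hpfk.poleDiv y)
    (hxy : Red x y) {c' : L} (hc : c' ∉ A) {P : Place L F}
    (h : 0 < P.ord (x - algebraMap L F c')) : (rmap S P).ord y < 0 := by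
  have hD' : ∀ P', D P' = S.hpf.poleDiv x P' := fun P' => DFunLike.congr_fun hD P'
  have hDk' : ∀ Q, Dk Q = S.hpfk.poleDiv y Q := fun Q => DFunLike.congr_fun hDk Q
  rcases S.ax.mem_or c' with ⟨u, hu⟩ | ⟨hc0, u, hu, hu0⟩
  · exact absurd (hu ▸ u.2) hc
  have hu0' : (u : L) ≠ 0 := by rw [hu]; exact inv_ne_zero hc0
  have hzb : Red ((u : L) • x - 1) (algebraMap k Fk (res u) * y - 1) :=
    S.ax.sub (S.ax.smul u hxy) S.ax.one
  rw [hu0, map_zero, zero_mul, zero_sub] at hzb
  have hz : (u : L) • x - 1 = (u : L) • (x - algebraMap L F c') := by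
    rw [smul_sub, Algebra.smul_def (u : L) (algebraMap L F c'), ← map_mul, hu,
      inv_mul_cancel₀ hc0, map_one]
  rw [hz] at hzb
  have key := one_le_ord_add S (z := (u : L) • (x - algebraMap L F c')) (fun P' => by
    rw [ord_smul_of_ne_zero P' hu0', hD']; exact neg_poleDiv_le_ord_sub S.hpf x _ P') hzb
    (neg_ne_zero.mpr one_ne_zero) (P := P) (by rwa [ord_smul_of_ne_zero P hu0'])
  rw [ord_neg, Place.ord_one, zero_add] at key
  by_contra hnn
  rw [not_lt] at hnn
  rw [hDk', S.hpfk.poleDiv_of_nonneg hnn] at key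
  omega

/-- the values of `x` at the places reducing to a non-pole of `y` are integral -/
theorem mem_of_isVal_of_ord_nonneg (hD : D = S.hpf.poleDiv x) (hDk : Dk = S.hpfk.poleDiv y)
    (hxy : Red x y) {c' : L} {P : Place L F}
    (h : 0 < P.ord (x - algebraMap L F c')) (hP : 0 ≤ (rmap S P).ord y) : c' ∈ A := by
  by_contra hc
  have := pole_of_isVal_notMem S hD hDk hxy hc h
  omega

end Fermat.Agent.S37.M
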