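import Mathlib

/-!
# S37, piece S (part 2): characteristic polynomial of a block lower triangular matrix

A square matrix indexed by `Σ i, Fin (n i)` which vanishes outside the diagonal blocks and above
the diagonal inside each block has characteristic polynomial `∏ i, (X - C (d i)) ^ n i`, `d i` the
constant diagonal value on the block `i`.
-/

set_option autoImplicit false

namespace Fermat.Agent.S37.Spec

open Polynomial

theorem charpoly_of_block_lower {K : Type*} [CommRing K] {ι : Type*} [Fintype ι] [DecidableEq ι]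
    {n : ι → ℕ} (A : Matrix (Σ i, Fin (n i)) (Σ i, Fin (n i)) K) (d : ι → K)
    (h0 : ∀ i j : Σ i, Fin (n i), (i.1 ≠ j.1 ∨ (i.2 : ℕ) < (j.2 : ℕ)) → A i j = 0)
    (h1 : ∀ i : Σ i, Fin (n i), A i i = d i.1) :
    A.charpoly = ∏ i, (X - C (d i)) ^ n i := by
  classical
  let e : ι ≃ Fin (Fintype.card ι) := Fintype.equivFin ι
  let f : (Σ i, Fin (n i)) → Fin (Fintype.card ι) ×ₗ ℕ := fun i => toLex (e i.1, (i.2 : ℕ))
  have hf : Function.Injective f := by
    rintro ⟨i, a⟩ ⟨j, b⟩ h
    have h' : (e i, (a : ℕ)) = (e j, (b : ℕ)) := toLex.injective h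
    have h2 : i = j := e.injective (Prod.ext_iff.mp h').1
    subst h2
    have h3 : (a : ℕ) = (b : ℕ) := (Prod.ext_iff.mp h').2
    rw [Fin.ext h3]
  let lo : LinearOrder (Σ i, Fin (n i)) := LinearOrder.lift' f hf
  have hlt : ∀ i j : Σ i, Fin (n i), f i < f j → (i.1 ≠ j.1 ∨ (i.2 : ℕ) < (j.2 : ℕ)) := by
    intro i j h
    rw [Prod.Lex.toLex_lt_toLex] at h
    rcases h with h | h
    · left
      intro h2
      simp only at h
      rw [h2] at h
      exact lt_irrefl _ h
    · exact Or.inr h.2
  have key : (A.transpose).charpoly = ∏ i, (X - C (A.transpose i i)) := by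
    refine @Matrix.charpoly_of_isUpperTriangular _ _ _ _ _ lo A.transpose ?_
    intro i j hij
    have hij' : f j < f i := hij
    rw [Matrix.transpose_apply]
    exact h0 j i (hlt j i hij')
  rw [← Matrix.charpoly_transpose, key]
  simp only [Matrix.transpose_apply, h1]
  rw [Fintype.prod_sigma]
  refine Finset.prod_congr rfl fun i _ => ?_
  change ∏ _y : Fin (n i), (X - C (d i)) = (X - C (d i)) ^ n i
  rw [Finset.prod_const, Finset.card_univ, Fintype.card_fin]

end Fermat.Agent.S37.Spec
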