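import Fermat.Agent.S37.SpecOrtho
import Fermat.Agent.S37.SpecTri
import Fermat.Agent.Lib.FunctionField.LocalDual
import Fermat.Agent.Lib.FunctionField.Expansion

/-!
# S37, piece S: specialisation of a characteristic polynomial at a place

`F'/F` a finite extension of function fields over an algebraically closed field `K` of
characteristic zero, `g ∈ F'` regular at all places `w` over a place `v` of `F`, with values
`g(w) ∈ K`.  Then the characteristic polynomial of the multiplication by `g` on `F'/F` has
coefficients regular at `v` and its value at `v` is `∏_{w ∣ v} (X - g(w)) ^ e_w`.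
-/

set_option autoImplicit false
set_option linter.style.haveILetI false
set_option linter.unusedSectionVars false

namespace Fermat.Agent.S37.Spec

open AlgebraicCurve Fermat.Agent.Lib.FF Polynomial

section Ultra

variable {K F : Type*} [Field K] [Field F] [Algebra K F] {w : Place K F}

theorem OrdGE.add {k : ℤ} {x y : F} (hx : OrdGE w k x) (hy : OrdGE w k y) :
    OrdGE w k (x + y) := by
  by_cases hxy : x + y = 0
  · exact Or.inl hxy
  rcases hx with rfl | hx
  · rw [zero_add] at hxy ⊢
    exact hy
  rcases hy with rfl | hy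
  · rw [add_zero]
    exact Or.inr hx
  exact Or.inr (le_trans (le_min hx hy) (ord_add w hxy))

theorem OrdGE.algebraMap (c : K) : OrdGE w 0 (algebraMap K F c) :=
  Or.inr (ord_algebraMap w c).ge

theorem OrdGE.neg {k : ℤ} {x : F} (hx : OrdGE w k x) : OrdGE w k (-x) := by
  rcases hx with rfl | hx
  · exact Or.inl neg_zero
  · exact Or.inr (by rwa [ord_neg])

theorem OrdGE.sub {k : ℤ} {x y : F} (hx : OrdGE w k x) (hy : OrdGE w k y) :
    OrdGE w k (x - y) := by
  rw [sub_eq_add_neg]
  exact hx.add hy.neg

/-- the value form: `g = c` or `0 < ord (g - c)` -/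
theorem ordGE_one_of_val {g : F} {c : K}
    (h : g = algebraMap K F c ∨ 0 < w.ord (g - algebraMap K F c)) :
    OrdGE w 1 (g - algebraMap K F c) := by
  rcases h with h | h
  · exact Or.inl (by rw [h, sub_self])
  · exact Or.inr h

theorem ordGE_zero_of_val {g : F} {c : K}
    (h : g = algebraMap K F c ∨ 0 < w.ord (g - algebraMap K F c)) :
    OrdGE w 0 g := by
  have h1 := ((ordGE_one_of_val h).mono (by norm_num : (0 : ℤ) ≤ 1)).add (OrdGE.algebraMap (w := w) c)
  rwa [sub_add_cancel] at h1

theorem OrdGE.mem {x : F} (hx : OrdGE w 0 x) : x ∈ w.toValuationSubring := by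
  rcases hx with rfl | hx
  · exact w.toValuationSubring.zero_mem
  · exact mem_of_ord_nonneg w hx

end Ultra

section Exist

variable {K F F' : Type*} [Field K] [Field F] [Field F'] [Algebra K F] [Algebra K F']
  [Algebra F F'] [IsScalarTower K F F'] [Algebra.IsIntegral F F'] [IsAlgClosed K] [CharZero K]

/-- existence of orthogonal families -/
theorem exists_isOrtho {y : F'} (hy : IsFF1 K F' y) (S : Finset (Place K F'))
    (hS : ∀ w ∈ S, 0 ≤ w.ord y) : ∃ b : Idx F S → F', IsOrtho S b := by
  classical
  have h : ∀ i : Idx F S, ∃ b : F', b ≠ 0 ∧ (i.1 : Place K F').ord b = ((i.2 : ℕ) : ℤ) ∧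
      ∀ w ∈ S, w ≠ (i.1 : Place K F') → ((w.ramificationIndex F : ℕ) : ℤ) ≤ w.ord b := by
    intro i
    obtain ⟨b, hb0, -, hb1, hb2⟩ := exists_integral_prescribed hy (i.1 : Place K F')
      (hS _ i.1.2) (i.2 : ℕ) S hS (fun w => w.ramificationIndex F)
    exact ⟨b, hb0, hb1, hb2⟩
  choose b hb0 hb1 hb2 using h
  exact ⟨b, ⟨hb0, hb1, fun i w hw hne => hb2 i w hw hne⟩⟩

end Exist

section Main

variable {K F F' : Type*} [Field K] [Field F] [Field F'] [Algebra K F] [Algebra K F']
  [Algebra F F'] [IsScalarTower K F F'] [FiniteDimensional F F'] [HasPrincipalDivisors K F']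
  [FundamentalIdentity K F F'] [IsAlgClosed K] [CharZero K]

/-- **Specialisation of the characteristic polynomial at a place.** -/
theorem charpoly_specialise (x : F) (hx : IsFF1 K F x) (hx' : IsFF1 K F' (algebraMap F F' x))
    (v : Place K F) (g : F') (val : Place K F' → K)
    (hval : ∀ w ∈ v.fiber F',
      g = algebraMap K F' (val w) ∨ 0 < w.ord (g - algebraMap K F' (val w)))
    (i : ℕ) :
    (LinearMap.mulLeft F g).charpoly.coeff i
        = algebraMap K F
          ((∏ w ∈ v.fiber F', (X - C (val w)) ^ w.ramificationIndex F).coeff i) ∨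
      0 < v.ord ((LinearMap.mulLeft F g).charpoly.coeff i
        - algebraMap K F
          ((∏ w ∈ v.fiber F', (X - C (val w)) ^ w.ramificationIndex F).coeff i)) := by
  classical
  set S : Finset (Place K F') := v.fiber F' with hSdef
  have hS : ∀ w ∈ S, w.restrict F = v := fun w hw => Place.mem_fiber.mp hw
  -- a separating element regular on `S`
  obtain ⟨y, hy, hyS⟩ : ∃ y : F', IsFF1 K F' y ∧ ∀ w ∈ S, 0 ≤ w.ord y := by
    by_cases h : 0 ≤ v.ord x
    · refine ⟨algebraMap F F' x, hx', fun w hw => ?_⟩
      rw [w.ord_restrict x, hS w hw]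
      positivity
    · refine ⟨(algebraMap F F' x)⁻¹, hx'.inv, fun w hw => ?_⟩
      rw [w.ord_inv, w.ord_restrict x, hS w hw]
      have he : (0 : ℤ) ≤ (w.ramificationIndex F : ℤ) := Int.natCast_nonneg _
      have : v.ord x ≤ 0 := by omega
      nlinarith
  obtain ⟨b, hb⟩ := exists_isOrtho (F := F) hy S hyS
  have hli := linearIndependent hS hb
  have hcard : Fintype.card (Idx F S) = Module.finrank F F' := by
    have h := FundamentalIdentity.sum_ramificationIndex_mul_deg (K := K) (F := F) (F' := F') v
    rw [deg_eq_one hx v] at h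
    have h2 : ∑ w ∈ v.fiber F', ((w.ramificationIndex F : ℕ) : ℤ) * ((w.deg : ℕ) : ℤ)
        = ∑ w ∈ S, ((w.ramificationIndex F : ℕ) : ℤ) :=
      Finset.sum_congr rfl fun w _ => by rw [deg_eq_one hx' w]; simp
    rw [h2] at h
    rw [Fintype.card_sigma]
    simp only [Fintype.card_fin]
    rw [Finset.sum_coe_sort S (fun w => w.ramificationIndex F)]
    have h3 : ((∑ w ∈ S, w.ramificationIndex F : ℕ) : ℤ) = (Module.finrank F F' : ℤ) := by
      rw [Nat.cast_sum, h]
      simp
    exact_mod_cast h3
  haveI : Nonempty (Idx F S) := by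
    rw [← Fintype.card_pos_iff, hcard]
    exact Module.finrank_pos
  let B : Module.Basis (Idx F S) F F' := basisOfLinearIndependentOfCardEqFinrank hli hcard
  have hB : ∀ j, B j = b j := fun j => by
    simp only [B, coe_basisOfLinearIndependentOfCardEqFinrank]
  let M : Matrix (Idx F S) (Idx F S) F := LinearMap.toMatrix B B (LinearMap.mulLeft F g)
  have hM : ∀ j, ∑ i, M i j • b i = g * b j := by
    intro j
    have h := B.sum_repr (g * B j)
    simp only [hB] at h
    rw [← h]
    refine Finset.sum_congr rfl fun i _ => ?_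
    simp only [M, LinearMap.toMatrix_apply, LinearMap.mulLeft_apply, hB]
  -- regularity of `g` and `b`
  have hg0 : ∀ w ∈ S, OrdGE w 0 g := fun w hw => ordGE_zero_of_val (hval w hw)
  have hb0 : ∀ j : Idx F S, ∀ w ∈ S, OrdGE w 0 (b j) := by
    intro j w hw
    by_cases hwj : w = (j.1 : Place K F')
    · right
      rw [hwj, hb.ord_self j]
      positivity
    · right
      exact le_trans (by positivity) (hb.ord_other j w hw hwj)
  -- integrality of the entries
  have hint : ∀ i j, OrdGE v 0 (M i j) := by
    intro i j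
    refine coord_integral hS hb (fun i => M i j) (fun w hw => ?_) i
    rw [hM j]
    simpa using (hg0 w hw).mul (hb0 j w hw)
  -- triangularity
  have htri : ∀ i j : Idx F S, (i.1 ≠ j.1 ∨ (i.2 : ℕ) ≤ (j.2 : ℕ)) →
      OrdGT v 0 (M i j - if i = j then algebraMap K F (val (j.1 : Place K F')) else 0) := by
    intro i j hij
    have hsum : ∑ i, (M i j - if i = j then algebraMap K F (val (j.1 : Place K F')) else 0) • b i
        = (g - algebraMap K F' (val (j.1 : Place K F'))) * b j := by
      simp only [sub_smul, Finset.sum_sub_distrib, hM j, ite_smul, zero_smul,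
        Finset.sum_ite_eq', Finset.mem_univ, if_true, sub_mul]
      rw [algebraMap_smul, Algebra.smul_def]
    refine coord_triangular hS hb
      (fun i => M i j - if i = j then algebraMap K F (val (j.1 : Place K F')) else 0)
      j ?_ ?_ i hij
    · rw [hsum]
      have h1 := ordGE_one_of_val (hval _ j.1.2)
      have h2 : OrdGE (j.1 : Place K F') ((j.2 : ℕ) : ℤ) (b j) := Or.inr (hb.ord_self j).ge
      have := h1.mul h2
      rwa [add_comm] at this
    · intro w hw hne
      rw [hsum]
      have h1 : OrdGE w 0 (g - algebraMap K F' (val (j.1 : Place K F'))) :=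
        (hg0 w hw).sub (OrdGE.algebraMap _)
      have h2 : OrdGE w (w.ramificationIndex F : ℤ) (b j) := Or.inr (hb.ord_other j w hw hne)
      have := h1.mul h2
      rwa [zero_add] at this
  -- the matrix over the valuation ring
  let O := v.toValuationSubring
  let M₀ : Matrix (Idx F S) (Idx F S) O := fun i j => ⟨M i j, (hint i j).mem⟩
  have hM₀ : M₀.map (algebraMap O F) = M := by
    ext i j
    rfl
  have hres := algebraMap_residueField_surjective hx v
  let ρ : O →ₐ[K] K := Expansion.resK O hres
  have hρ : ∀ a : O, ((a : F) = 0 ∨ 0 < v.ord (a : F)) → ρ a = 0 := fun a ha =>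
    (Expansion.resK_eq_zero_iff O hres a).mpr ((mem_maximalIdeal_iff v a).mpr ha)
  have hρM : ∀ i j : Idx F S, (i.1 ≠ j.1 ∨ (i.2 : ℕ) ≤ (j.2 : ℕ)) →
      ρ (M₀ i j) = if i = j then val (j.1 : Place K F') else 0 := by
    intro i j hij
    have h := htri i j hij
    have h2 : ρ (M₀ i j - if i = j then algebraMap K O (val (j.1 : Place K F')) else 0) = 0 := by
      apply hρ
      have hcoe : ((M₀ i j - if i = j then algebraMap K O (val (j.1 : Place K F')) else 0 : O) : F)
          = M i j - if i = j then algebraMap K F (val (j.1 : Place K F')) else 0 := by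
        split_ifs <;> rfl
      rw [hcoe]
      exact h
    rw [map_sub, sub_eq_zero] at h2
    rw [h2]
    split_ifs
    · exact ρ.commutes _
    · exact map_zero ρ
  have hchar : (M₀.map ρ).charpoly = ∏ w : S, (X - C (val (w : Place K F'))) ^
      (w : Place K F').ramificationIndex F := by
    refine charpoly_of_block_lower (n := fun w : S => (w : Place K F').ramificationIndex F)
      (M₀.map ρ) (fun w => val (w : Place K F')) ?_ ?_
    · intro i j hij
      rw [Matrix.map_apply, hρM i j (hij.imp id le_of_lt)]
      rw [if_neg]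
      rintro rfl
      rcases hij with h | h
      · exact h rfl
      · exact lt_irrefl _ h
    · intro i
      rw [Matrix.map_apply, hρM i i (Or.inr le_rfl), if_pos rfl]
  have hprod : ∏ w ∈ v.fiber F', (X - C (val w)) ^ w.ramificationIndex F
      = (M₀.charpoly).map (ρ : O →+* K) := by
    rw [← Matrix.charpoly_map, ← hSdef]
    change _ = (M₀.map ρ).charpoly
    rw [hchar, Finset.prod_coe_sort S (fun w => (X - C (val w)) ^ w.ramificationIndex F)]
  have hcp : (LinearMap.mulLeft F g).charpoly = (M₀.charpoly).map (algebraMap O F) := by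
    rw [← Matrix.charpoly_map, hM₀]
    exact (LinearMap.charpoly_toMatrix _ B).symm
  rw [hprod, hcp, coeff_map, coeff_map]
  have h := Expansion.sub_resK_mem O hres (M₀.charpoly.coeff i)
  rw [mem_maximalIdeal_iff] at h
  rcases h with h | h
  · left
    have h' : ((M₀.charpoly.coeff i : O) : F) - algebraMap K F (ρ (M₀.charpoly.coeff i)) = 0 := h
    exact sub_eq_zero.mp h'
  · right
    exact h

end Main

end Fermat.Agent.S37.Spec
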