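import Mathlib
import Fermat.Prelude.Def_AlgebraicCurve_DivisorPushPull
import Fermat.Agent.Lib.FunctionField.PlaceBasic

/-!
# S37, piece S (part 1): orthogonal families over a place

`F'/F` a finite extension of function fields over `K`, `v` a place of `F` and `S` a finite set of
places of `F'` over `v`.  A family `b_{w,j}` (`w ∈ S`, `j < e_w`) with `ord_w b_{w,j} = j` and
`ord_{w'} b_{w,j} ≥ e_{w'}` for `w' ≠ w` is *orthogonal*: for `x = ∑ c_{w,j} b_{w,j}` the orders of
`x` at the places of `S` are read off from the orders of the coefficients.  Consequences: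
linear independence, integrality of the coordinates of integral elements, triangularity.
-/

set_option autoImplicit false

namespace Fermat.Agent.S37.Spec

open AlgebraicCurve Fermat.Agent.Lib.FF

section Ultra

variable {K F : Type*} [Field K] [Field F] [Algebra K F] (w : Place K F)

/-- `x = 0` or `k < ord_w x` -/
def OrdGT (k : ℤ) (x : F) : Prop := x = 0 ∨ k < w.ord x

/-- `x = 0` or `k ≤ ord_w x` -/
def OrdGE (k : ℤ) (x : F) : Prop := x = 0 ∨ k ≤ w.ord x

variable {w}

theorem OrdGT.add {k : ℤ} {x y : F} (hx : OrdGT w k x) (hy : OrdGT w k y) :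
    OrdGT w k (x + y) := by
  by_cases hxy : x + y = 0
  · exact Or.inl hxy
  rcases hx with rfl | hx
  · rw [zero_add] at hxy ⊢
    exact hy
  rcases hy with rfl | hy
  · rw [add_zero]
    exact Or.inr hx
  refine Or.inr (lt_of_lt_of_le (lt_min hx hy) (ord_add w hxy))

theorem OrdGT.zero {k : ℤ} : OrdGT w k (0 : F) := Or.inl rfl

theorem OrdGT.sum {k : ℤ} {ι : Type*} (s : Finset ι) (f : ι → F)
    (h : ∀ i ∈ s, OrdGT w k (f i)) : OrdGT w k (∑ i ∈ s, f i) := by
  classical
  induction s using Finset.induction_on with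
  | empty => simpa using OrdGT.zero
  | insert a s ha ih =>
    rw [Finset.sum_insert ha]
    exact (h a (Finset.mem_insert_self a s)).add
      (ih fun i hi => h i (Finset.mem_insert_of_mem hi))

theorem ord_add_of_ordGT {a y : F} (ha : a ≠ 0) (hy : OrdGT w (w.ord a) y) :
    a + y ≠ 0 ∧ w.ord (a + y) = w.ord a := by
  rcases hy with rfl | hy
  · rw [add_zero]
    exact ⟨ha, rfl⟩
  · have h := ord_add_of_lt w hy ha
    refine ⟨?_, h⟩
    intro h0
    have : a = -y := eq_neg_of_add_eq_zero_left h0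
    rw [this, ord_neg] at hy
    exact lt_irrefl _ hy

theorem OrdGE.mul {k l : ℤ} {x y : F} (hx : OrdGE w k x) (hy : OrdGE w l y) :
    OrdGE w (k + l) (x * y) := by
  rcases hx with rfl | hx
  · exact Or.inl (zero_mul _)
  rcases hy with rfl | hy
  · exact Or.inl (mul_zero _)
  by_cases hx0 : x = 0
  · exact Or.inl (by rw [hx0, zero_mul])
  by_cases hy0 : y = 0
  · exact Or.inl (by rw [hy0, mul_zero])
  right
  rw [w.ord_mul hx0 hy0]
  omega

theorem OrdGE.mono {k l : ℤ} {x : F} (hx : OrdGE w k x) (h : l ≤ k) : OrdGE w l x := by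
  rcases hx with rfl | hx
  · exact Or.inl rfl
  · exact Or.inr (h.trans hx)

theorem OrdGE.of_ne_zero {k : ℤ} {x : F} (hx : OrdGE w k x) (h0 : x ≠ 0) : k ≤ w.ord x :=
  hx.resolve_left h0

end Ultra

section Ortho

variable {K F F' : Type*} [Field K] [Field F] [Field F'] [Algebra K F] [Algebra K F']
  [Algebra F F'] [IsScalarTower K F F'] [Algebra.IsIntegral F F']

/-- the index type of an orthogonal family: pairs `(w, j)`, `w ∈ S`, `j < e_w` -/
abbrev Idx (F : Type*) [Field F] [Algebra F F'] (S : Finset (Place K F')) : Type _ :=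
  Σ w : S, Fin ((w : Place K F').ramificationIndex F)

/-- orthogonal families -/
structure IsOrtho (S : Finset (Place K F')) (b : Idx F S → F') : Prop where
  ne_zero : ∀ i, b i ≠ 0
  ord_self : ∀ i : Idx F S, (i.1 : Place K F').ord (b i) = (i.2 : ℕ)
  ord_other : ∀ (i : Idx F S) (w : Place K F'), w ∈ S → w ≠ (i.1 : Place K F') →
    ((w.ramificationIndex F : ℕ) : ℤ) ≤ w.ord (b i)

variable {v : Place K F} {S : Finset (Place K F')} (hS : ∀ w ∈ S, w.restrict F = v)
  {b : Idx F S → F'} (hb : IsOrtho S b)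

include hS hb in
theorem ord_smul_self (c : F) (hc : c ≠ 0) (i : Idx F S) :
    c • b i ≠ 0 ∧ (i.1 : Place K F').ord (c • b i)
      = ((i.1 : Place K F').ramificationIndex F : ℤ) * v.ord c + ((i.2 : ℕ) : ℤ) := by
  have hc' : algebraMap F F' c ≠ 0 := by simpa using hc
  rw [Algebra.smul_def]
  refine ⟨mul_ne_zero hc' (hb.ne_zero i), ?_⟩
  rw [(i.1 : Place K F').ord_mul hc' (hb.ne_zero i), hb.ord_self i,
    (i.1 : Place K F').ord_restrict c, hS _ i.1.2]

include hS hb in
theorem ord_smul_other (c : F) (hc : c ≠ 0) (i : Idx F S) (w : Place K F') (hw : w ∈ S)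
    (hne : w ≠ (i.1 : Place K F')) :
    (w.ramificationIndex F : ℤ) * v.ord c + (w.ramificationIndex F : ℤ) ≤ w.ord (c • b i) := by
  have hc' : algebraMap F F' c ≠ 0 := by simpa using hc
  rw [Algebra.smul_def, w.ord_mul hc' (hb.ne_zero i), w.ord_restrict c, hS _ hw]
  have := hb.ord_other i w hw hne
  omega

include hS hb in
/-- **Key lemma**: the order of a linear combination at a block where the minimal order of the
coefficients is attained. -/
theorem ord_sum_eq (c : Idx F S → F) (i₀ : Idx F S) (hi₀ : c i₀ ≠ 0)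
    (h1 : ∀ i, c i ≠ 0 → v.ord (c i₀) ≤ v.ord (c i))
    (h2 : ∀ j : Fin ((i₀.1 : Place K F').ramificationIndex F), c ⟨i₀.1, j⟩ ≠ 0 →
      v.ord (c ⟨i₀.1, j⟩) = v.ord (c i₀) → (i₀.2 : ℕ) ≤ (j : ℕ)) :
    (∑ i, c i • b i) ≠ 0 ∧ (i₀.1 : Place K F').ord (∑ i, c i • b i)
      = ((i₀.1 : Place K F').ramificationIndex F : ℤ) * v.ord (c i₀) + ((i₀.2 : ℕ) : ℤ) := by
  classical
  obtain ⟨h0, hord⟩ := ord_smul_self hS hb (c i₀) hi₀ i₀
  rw [← Finset.add_sum_erase Finset.univ _ (Finset.mem_univ i₀)]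
  have hrest : OrdGT (i₀.1 : Place K F') ((i₀.1 : Place K F').ord (c i₀ • b i₀))
      (∑ i ∈ Finset.univ.erase i₀, c i • b i) := by
    apply OrdGT.sum
    intro i hi
    have hne : i ≠ i₀ := Finset.ne_of_mem_erase hi
    by_cases hci : c i = 0
    · left
      rw [hci, zero_smul]
    right
    rw [hord]
    have hm := h1 i hci
    have he : (0 : ℤ) < ((i₀.1 : Place K F').ramificationIndex F : ℤ) := by
      exact_mod_cast (i₀.1 : Place K F').ramificationIndex_pos (F := F)
    have hj₀ : ((i₀.2 : ℕ) : ℤ) < ((i₀.1 : Place K F').ramificationIndex F : ℤ) := by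
      exact_mod_cast i₀.2.2
    by_cases hw : i.1 = i₀.1
    · -- same block
      obtain ⟨w, j⟩ := i
      obtain ⟨w₀, j₀⟩ := i₀
      simp only at hw
      subst hw
      have hjne : j ≠ j₀ := fun h => hne (by rw [h])
      rw [(ord_smul_self hS hb (c ⟨w, j⟩) hci ⟨w, j⟩).2]
      rcases hm.lt_or_eq with hlt | heq
      · have : ((w : Place K F').ramificationIndex F : ℤ) * (v.ord (c ⟨w, j₀⟩) + 1)
            ≤ ((w : Place K F').ramificationIndex F : ℤ) * v.ord (c ⟨w, j⟩) :=
          mul_le_mul_of_nonneg_left (by omega) he.le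
        simp only at hj₀ ⊢
        have hj : (0 : ℤ) ≤ ((j : ℕ) : ℤ) := Int.natCast_nonneg _
        nlinarith
      · have hle := h2 j hci heq.symm
        have hlt : (j₀ : ℕ) < (j : ℕ) := by
          rcases hle.lt_or_eq with h | h
          · exact h
          · exact absurd (Fin.ext h.symm) hjne
        simp only at hlt ⊢
        rw [← heq]
        have : ((j₀ : ℕ) : ℤ) < ((j : ℕ) : ℤ) := by exact_mod_cast hlt
        omega
    · -- another block
      have hne' : (i₀.1 : Place K F') ≠ (i.1 : Place K F') := fun h => hw (Subtype.ext h.symm)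
      have h3 := ord_smul_other hS hb (c i) hci i (i₀.1 : Place K F') i₀.1.2 hne'
      have : ((i₀.1 : Place K F').ramificationIndex F : ℤ) * v.ord (c i₀)
          ≤ ((i₀.1 : Place K F').ramificationIndex F : ℤ) * v.ord (c i) :=
        mul_le_mul_of_nonneg_left hm he.le
      omega
  obtain ⟨h4, h5⟩ := ord_add_of_ordGT h0 hrest
  exact ⟨h4, h5.trans hord⟩

omit [IsScalarTower K F F'] [Algebra.IsIntegral F F'] in
/-- existence of a minimal index -/
theorem exists_min_idx {v : Place K F} {S : Finset (Place K F')} (c : Idx F S → F)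
    (hc : ∃ i, c i ≠ 0) :
    ∃ i₀ : Idx F S, c i₀ ≠ 0 ∧ (∀ i, c i ≠ 0 → v.ord (c i₀) ≤ v.ord (c i)) ∧
      ∀ j : Fin ((i₀.1 : Place K F').ramificationIndex F), c ⟨i₀.1, j⟩ ≠ 0 →
        v.ord (c ⟨i₀.1, j⟩) = v.ord (c i₀) → (i₀.2 : ℕ) ≤ (j : ℕ) := by
  classical
  obtain ⟨i₁, hi₁⟩ := hc
  let T : Finset (Idx F S) := Finset.univ.filter fun i => c i ≠ 0
  have hT : T.Nonempty := ⟨i₁, by simp [T, hi₁]⟩
  obtain ⟨i₀, hi₀T, hmin⟩ := Finset.exists_min_image T
    (fun i : Idx F S => toLex (v.ord (c i), (i.2 : ℕ))) hT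
  have hi₀ : c i₀ ≠ 0 := (Finset.mem_filter.mp hi₀T).2
  refine ⟨i₀, hi₀, ?_, ?_⟩
  · intro i hi
    have := hmin i (by simp [T, hi])
    rw [Prod.Lex.toLex_le_toLex] at this
    rcases this with h | h
    · exact h.le
    · exact h.1.le
  · intro j hj hjm
    have := hmin ⟨i₀.1, j⟩ (by simp [T, hj])
    rw [Prod.Lex.toLex_le_toLex] at this
    rcases this with h | h
    · simp only at h
      omega
    · exact h.2

include hS hb in
/-- an orthogonal family is linearly independent -/
theorem linearIndependent : LinearIndependent F b := by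
  classical
  rw [Fintype.linearIndependent_iff]
  intro c hc
  by_contra hcon
  rw [not_forall] at hcon
  obtain ⟨i₀, hi₀, h1, h2⟩ := exists_min_idx (v := v) c hcon
  exact (ord_sum_eq hS hb c i₀ hi₀ h1 h2).1 hc

include hS hb in
/-- coordinates of an element which is integral at all places of `S` are integral -/
theorem coord_integral (c : Idx F S → F)
    (hx : ∀ w ∈ S, OrdGE w 0 (∑ i, c i • b i)) (i : Idx F S) : OrdGE v 0 (c i) := by
  classical
  by_contra hcon
  have hci : c i ≠ 0 := fun h => hcon (Or.inl h)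
  have hneg : v.ord (c i) < 0 := by
    by_contra h
    exact hcon (Or.inr (not_lt.mp h))
  obtain ⟨i₀, hi₀, h1, h2⟩ := exists_min_idx (v := v) c ⟨i, hci⟩
  obtain ⟨h3, h4⟩ := ord_sum_eq hS hb c i₀ hi₀ h1 h2
  have h5 := (hx _ i₀.1.2).of_ne_zero h3
  rw [h4] at h5
  have hm : v.ord (c i₀) ≤ -1 := by
    have := h1 i hci
    omega
  have he : (0 : ℤ) < ((i₀.1 : Place K F').ramificationIndex F : ℤ) := by
    exact_mod_cast (i₀.1 : Place K F').ramificationIndex_pos (F := F)
  have hj₀ : ((i₀.2 : ℕ) : ℤ) < ((i₀.1 : Place K F').ramificationIndex F : ℤ) := by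
    exact_mod_cast i₀.2.2
  nlinarith

include hS hb in
/-- triangularity: if `x` vanishes to order `≥ e_w` at all `w ≠ w₁` of `S` and to order `> j₁` at
`w₁`, its coordinates are in the maximal ideal except those at `(w₁, j)` with `j > j₁`. -/
theorem coord_triangular (c : Idx F S → F) (i₁ : Idx F S)
    (hx1 : OrdGE (i₁.1 : Place K F') ((i₁.2 : ℕ) + 1) (∑ i, c i • b i))
    (hx : ∀ w ∈ S, w ≠ (i₁.1 : Place K F') →
      OrdGE w (w.ramificationIndex F : ℤ) (∑ i, c i • b i))
    (i : Idx F S) (hi : i.1 ≠ i₁.1 ∨ (i.2 : ℕ) ≤ (i₁.2 : ℕ)) : OrdGT v 0 (c i) := by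
  classical
  have hint : ∀ i, OrdGE v 0 (c i) := by
    apply coord_integral hS hb c
    intro w hw
    by_cases hww : w = (i₁.1 : Place K F')
    · subst hww
      exact hx1.mono (by positivity)
    · exact (hx w hw hww).mono (by positivity)
  by_contra hcon
  have hci : c i ≠ 0 := fun h => hcon (Or.inl h)
  have hord : v.ord (c i) = 0 := by
    have h1 := (hint i).of_ne_zero hci
    have h2 : ¬ 0 < v.ord (c i) := fun h => hcon (Or.inr h)
    omega
  -- minimise within the block of `i`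
  let T : Finset (Fin ((i.1 : Place K F').ramificationIndex F)) :=
    Finset.univ.filter fun j => c ⟨i.1, j⟩ ≠ 0 ∧ v.ord (c ⟨i.1, j⟩) = 0
  have hT : T.Nonempty := ⟨i.2, by simp [T, hci, hord]⟩
  obtain ⟨j₀, hj₀T, hmin⟩ := Finset.exists_min_image T (fun j => (j : ℕ)) hT
  have hj₀ := (Finset.mem_filter.mp hj₀T).2
  obtain ⟨h3, h4⟩ := ord_sum_eq hS hb c ⟨i.1, j₀⟩ hj₀.1
    (fun i' hi' => by
      rw [hj₀.2]
      exact (hint i').of_ne_zero hi')
    (fun j hj hjm => by
      rw [hj₀.2] at hjm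
      exact hmin j (by simp [T, hj, hjm]))
  rw [hj₀.2, mul_zero, zero_add] at h4
  replace h4 : (i.1 : Place K F').ord (∑ i, c i • b i) = ((j₀ : ℕ) : ℤ) := h4
  have hj₀i : (j₀ : ℕ) ≤ (i.2 : ℕ) := hmin i.2 (by simp [T, hci, hord])
  rcases hi with hi | hi
  · have hne : (i.1 : Place K F') ≠ (i₁.1 : Place K F') := fun h => hi (Subtype.ext h)
    have h5 := (hx _ i.1.2 hne).of_ne_zero h3
    rw [h4] at h5
    have : (j₀ : ℕ) < (i.1 : Place K F').ramificationIndex F := j₀.2
    omega
  · by_cases hw : i.1 = i₁.1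
    · obtain ⟨w, j⟩ := i
      obtain ⟨w₁, j₁⟩ := i₁
      simp only at hw
      subst hw
      have h5 := hx1.of_ne_zero h3
      simp only at h5 hi hj₀i h4
      rw [h4] at h5
      omega
    · have hne : (i.1 : Place K F') ≠ (i₁.1 : Place K F') := fun h => hw (Subtype.ext h)
      have h5 := (hx _ i.1.2 hne).of_ne_zero h3
      rw [h4] at h5
      have : (j₀ : ℕ) < (i.1 : Place K F').ramificationIndex F := j₀.2
      omega

end Ortho

end Fermat.Agent.S37.Spec
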